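import Mathlib

/-!
# S16, piece 84-P11(d), part 1: the bound of item 75 over an arbitrary field

Same linear algebra as `Fermat/Agent/FF/ParabolicAbstract.lean`, but over a field `K` of any
characteristic: the hypothesis is that the homomorphisms kill every element of `Γ` that is
conjugate to a power of one of the three generators.
-/

set_option autoImplicit false

namespace Fermat.Agent.S16.Lift

open MulAction

variable {K : Type*} [Field K] {G X : Type*} [Group G] [MulAction G X]

/-- the operator `L_g` on functions `X → K`: `(L_g f) x = f (g⁻¹ • x)` -/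
noncomputable def L (g : G) : (X → K) →ₗ[K] (X → K) :=
  LinearMap.funLeft K K (fun x => g⁻¹ • x)

@[simp] theorem L_apply (g : G) (f : X → K) (x : X) : L g f x = f (g⁻¹ • x) := rfl

theorem L_mul (g h : G) : L (K := K) (X := X) (g * h) = L g ∘ₗ L h := by
  ext f x
  simp [L_apply, mul_inv_rev, mul_smul]

theorem L_one : L (K := K) (X := X) (1 : G) = LinearMap.id := by
  ext f x
  simp [L_apply]

/-- the fixed space of `L_g` -/
noncomputable def fixL (g : G) : Submodule K (X → K) := LinearMap.ker (LinearMap.id - L (K := K) (X := X) g)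

theorem mem_fixL {g : G} {f : X → K} : f ∈ fixL g ↔ ∀ x, f (g • x) = f x := by
  simp only [fixL, LinearMap.mem_ker, LinearMap.sub_apply, LinearMap.id_apply, sub_eq_zero]
  constructor
  · intro h x
    have := congrFun h (g • x)
    simp only [L_apply, inv_smul_smul] at this
    exact this
  · intro h
    funext x
    have := h (g⁻¹ • x)
    simp only [smul_inv_smul] at this
    simp [L_apply, this]

theorem fixL_zpow {g : G} {f : X → K} (hf : f ∈ fixL g) (k : ℤ) (x : X) :
    f (g ^ k • x) = f x := by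
  have h1 := mem_fixL.mp hf
  have h2 : ∀ x, f (g⁻¹ • x) = f x := fun x => by
    have := h1 (g⁻¹ • x)
    rw [smul_inv_smul] at this
    exact this.symm
  induction k using Int.induction_on generalizing x with
  | zero => simp
  | succ n ih =>
    rw [zpow_add_one, mul_smul, ih, h1]
  | pred n ih =>
    rw [zpow_sub_one, mul_smul, ih, h2]

theorem mem_fixL_zpowers {g : G} {f : X → K} (hf : f ∈ fixL g) (h : Subgroup.zpowers g) (x : X) :
    f (h • x) = f x := by
  obtain ⟨h, k, rfl⟩ := h
  exact fixL_zpow hf k x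

/-- The fixed space of `L_g` is the space of functions on the orbit space of `⟨g⟩`. -/
noncomputable def fixLEquiv (g : G) :
    fixL (K := K) (X := X) g ≃ₗ[K] (orbitRel.Quotient (Subgroup.zpowers g) X → K) where
  toFun f := fun q => Quotient.liftOn' q (f : X → K) (by
    intro a b hab
    rw [orbitRel_apply] at hab
    obtain ⟨h, rfl⟩ := hab
    exact mem_fixL_zpowers f.2 h b)
  invFun φ := ⟨fun x => φ (Quotient.mk'' x), by
    rw [mem_fixL]
    intro x
    congr 1
    apply Quotient.sound'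
    rw [orbitRel_apply]
    exact ⟨⟨g, Subgroup.mem_zpowers g⟩, rfl⟩⟩
  map_add' f₁ f₂ := by
    funext q
    induction q using Quotient.inductionOn' with
    | h x => rfl
  map_smul' c f := by
    funext q
    induction q using Quotient.inductionOn' with
    | h x => rfl
  left_inv f := by
    ext x
    rfl
  right_inv φ := by
    funext q
    induction q using Quotient.inductionOn' with
    | h x => rfl

theorem finrank_fixL [Finite X] (g : G) :
    Module.finrank K (fixL (K := K) (X := X) g) = Nat.card (orbitRel.Quotient (Subgroup.zpowers g) X) := by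
  classical
  have _inst : Fintype (orbitRel.Quotient (Subgroup.zpowers g) X) := Fintype.ofFinite _
  rw [(fixLEquiv g).finrank_eq, Module.finrank_fintype_fun_eq_card, Nat.card_eq_fintype_card]


section Main

variable [Fintype X] [DecidableEq X]

set_option linter.unusedSectionVars false

theorem L_single (g : G) (y : X) : L g (Pi.single y (1 : K)) = Pi.single (g • y) 1 := by
  funext x
  simp only [L_apply, Pi.single_apply]
  by_cases h : x = g • y
  · subst h; simp
  · rw [if_neg h, if_neg]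
    intro h'
    apply h
    rw [← h', smul_inv_smul]

/-- differences of basis vectors along the action of `g` lie in the range of `1 - L_g` -/
theorem single_sub_single_mem_range (g : G) (x : X) :
    (Pi.single x (1 : K) - Pi.single (g • x) 1 : X → K) ∈
      LinearMap.range (LinearMap.id - L (K := K) (X := X) g) :=
  ⟨Pi.single x 1, by simp [L_single]⟩

theorem finrank_range_one_sub_L (g : G) :
    Module.finrank K (LinearMap.range (LinearMap.id - L (K := K) (X := X) g))
      + Nat.card (orbitRel.Quotient (Subgroup.zpowers g) X) = Fintype.card X := by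
  have h := LinearMap.finrank_range_add_finrank_ker (LinearMap.id - L (K := K) (X := X) g)
  rw [Module.finrank_fintype_fun_eq_card] at h
  rw [← finrank_fixL (K := K) g]
  exact h

variable (s t : G)

/-- functions fixed by `s` and `t` are fixed by the group they generate -/
theorem fixed_of_closure {f : X → K} (hs : f ∈ fixL s) (ht : f ∈ fixL t)
    (g : G) (hg : g ∈ Subgroup.closure ({s, t} : Set G)) (x : X) : f (g • x) = f x := by
  induction hg using Subgroup.closure_induction generalizing x with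
  | mem y hy =>
    rcases hy with rfl | rfl
    · exact mem_fixL.mp hs x
    · exact mem_fixL.mp ht x
  | one => simp
  | mul a b _ _ iha ihb => rw [mul_smul, iha, ihb]
  | inv a _ iha =>
    have := iha (a⁻¹ • x)
    rw [smul_inv_smul] at this
    exact this.symm

theorem single_sub_mem_of_closure (Z : Submodule K (X → K))
    (hs : ∀ x, (Pi.single x (1 : K) - Pi.single (s • x) 1 : X → K) ∈ Z)
    (ht : ∀ x, (Pi.single x (1 : K) - Pi.single (t • x) 1 : X → K) ∈ Z)
    (g : G) (hg : g ∈ Subgroup.closure ({s, t} : Set G)) (x : X) :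
    (Pi.single x (1 : K) - Pi.single (g • x) 1 : X → K) ∈ Z := by
  induction hg using Subgroup.closure_induction generalizing x with
  | mem y hy =>
    rcases hy with rfl | rfl
    · exact hs x
    · exact ht x
  | one => simp
  | mul a b _ _ iha ihb =>
    have h1 := ihb x
    have h2 := iha (b • x)
    have := Z.add_mem h1 h2
    rw [mul_smul]
    convert this using 1
    abel
  | inv a _ iha =>
    have := Z.neg_mem (iha (a⁻¹ • x))
    rw [smul_inv_smul] at this
    convert this using 1
    abel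


/-- the sum functional -/
noncomputable def sumL : (X → K) →ₗ[K] K where
  toFun f := ∑ x, f x
  map_add' f g := by simp [Finset.sum_add_distrib]
  map_smul' c f := by simp [Finset.mul_sum]

theorem finrank_ker_sumL [Nonempty X] :
    Module.finrank K (LinearMap.ker (sumL (K := K) (X := X))) + 1 = Fintype.card X := by
  have h := LinearMap.finrank_range_add_finrank_ker (sumL (K := K) (X := X))
  rw [Module.finrank_fintype_fun_eq_card] at h
  have hsurj : LinearMap.range (sumL (K := K) (X := X)) = ⊤ := by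
    rw [LinearMap.range_eq_top]
    intro c
    obtain ⟨x₀⟩ := ‹Nonempty X›
    refine ⟨Pi.single x₀ c, ?_⟩
    simp [sumL]
  rw [hsurj, finrank_top, Module.finrank_self] at h
  omega

/-- the sum-zero hyperplane is spanned by differences of basis vectors -/
theorem ker_sumL_le (Z : Submodule K (X → K))
    (hZ : ∀ x y : X, (Pi.single x (1 : K) - Pi.single y 1 : X → K) ∈ Z) [Nonempty X] :
    LinearMap.ker (sumL (K := K) (X := X)) ≤ Z := by
  intro f hf
  obtain ⟨x₀⟩ := ‹Nonempty X›
  have hf0 : ∑ x, f x = 0 := hf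
  have : f = ∑ x, f x • (Pi.single x (1 : K) - Pi.single x₀ 1 : X → K) := by
    funext y
    simp only [Finset.sum_apply, Pi.smul_apply, Pi.sub_apply, Pi.single_apply, smul_eq_mul,
      mul_sub, mul_ite, mul_one, mul_zero, Finset.sum_sub_distrib]
    rw [Finset.sum_ite_eq Finset.univ y f, if_pos (Finset.mem_univ _)]
    by_cases hy : y = x₀
    · simp [hy, hf0]
    · simp [hy]
  rw [this]
  exact Z.sum_mem fun x _ => Z.smul_mem _ (hZ x x₀)

theorem L_injective (g : G) : Function.Injective (L (K := K) (X := X) g) := by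
  intro f₁ f₂ h
  funext x
  have := congrFun h (g • x)
  simpa [L_apply] using this


end Main

section Cocycle

variable {K : Type*} [Field K] {G X : Type*} [Group G] [MulAction G X]

/-- 1-cocycles of `G` with values in the permutation module `X → K` -/
def IsCoc (z : G → (X → K)) : Prop := ∀ g h, z (g * h) = z g + L g (z h)

theorem IsCoc.one {z : G → (X → K)} (hz : IsCoc z) : z 1 = 0 := by
  have := hz 1 1
  rw [mul_one, L_one, LinearMap.id_apply] at this
  exact left_eq_add.mp this

theorem IsCoc.inv {z : G → (X → K)} (hz : IsCoc z) (g : G) : z g⁻¹ = - L g⁻¹ (z g) := by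
  have := hz g⁻¹ g
  rw [inv_mul_cancel, hz.one] at this
  exact eq_neg_of_add_eq_zero_left this.symm

theorem IsCoc.sub {z w : G → (X → K)} (hz : IsCoc z) (hw : IsCoc w) :
    IsCoc (fun g => z g - w g) := by
  intro g h
  simp only [hz g h, hw g h, map_sub]
  abel

theorem IsCoc.eq_zero_of_closure {z : G → (X → K)} (hz : IsCoc z) (a b : G)
    (ha : z a = 0) (hb : z b = 0) (g : G) (hg : g ∈ Subgroup.closure ({a, b} : Set G)) :
    z g = 0 := by
  induction hg using Subgroup.closure_induction with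
  | mem y hy =>
    rcases hy with rfl | rfl
    · exact ha
    · exact hb
  | one => exact hz.one
  | mul x y _ _ hx hy => rw [hz x y, hx, hy, map_zero, add_zero]
  | inv x _ hx => rw [hz.inv, hx, map_zero, neg_zero]

theorem coboundary_isCoc (m : X → K) : IsCoc (fun g : G => L g m - m) := by
  intro g h
  simp only [L_mul, LinearMap.comp_apply, map_sub]
  abel

theorem one_sub_L_comm (g : G) (k : ℕ) (w : X → K) :
    L (g ^ k) (w - L g w) = (L (g ^ k) w) - L g (L (g ^ k) w) := by
  rw [map_sub]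
  congr 1
  rw [← LinearMap.comp_apply, ← LinearMap.comp_apply, ← L_mul, ← L_mul, ← pow_succ, ← pow_succ']

theorem sub_L_pow_mem (g : G) (k : ℕ) (w : X → K) :
    w - L (g ^ k) w ∈ LinearMap.range (LinearMap.id - L (K := K) (X := X) g) := by
  induction k with
  | zero => simp [L_one]
  | succ k ih =>
    have h1 : w - L (g ^ (k + 1)) w = (w - L (g ^ k) w) + L (g ^ k) (w - L g w) := by
      rw [pow_succ, L_mul, LinearMap.comp_apply, map_sub]
      abel
    rw [h1, one_sub_L_comm]
    exact Submodule.add_mem _ ih ⟨L (g ^ k) w, rfl⟩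

theorem IsCoc.nsmul_sub_pow_mem {z : G → (X → K)} (hz : IsCoc z) (g : G) (k : ℕ) :
    (k : K) • z g - z (g ^ k) ∈ LinearMap.range (LinearMap.id - L (K := K) (X := X) g) := by
  induction k with
  | zero => simp [hz.one]
  | succ k ih =>
    have h1 : ((k + 1 : ℕ) : K) • z g - z (g ^ (k + 1))
        = ((k : K) • z g - z (g ^ k)) + (z g - L (g ^ k) (z g)) := by
      rw [pow_succ, hz (g ^ k) g]
      push_cast
      rw [add_smul, one_smul]
      abel
    rw [h1]
    exact Submodule.add_mem _ ih (sub_L_pow_mem g k (z g))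


theorem IsCoc.pow_eq_sum {z : G → (X → K)} (hz : IsCoc z) (g : G) (n : ℕ) :
    z (g ^ n) = ∑ i ∈ Finset.range n, L (g ^ i) (z g) := by
  induction n with
  | zero => simp [hz.one]
  | succ n ih => rw [pow_succ, hz (g ^ n) g, ih, Finset.sum_range_succ]

section OrbitSums

variable [Fintype X] [DecidableEq X]

theorem single_sub_single_pow_mem (g : G) (x : X) (n : ℕ) :
    (Pi.single x (1 : K) - Pi.single (g⁻¹ ^ n • x) 1 : X → K) ∈
      LinearMap.range (LinearMap.id - L (K := K) (X := X) g) := by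
  induction n with
  | zero => simp
  | succ n ih =>
    have h1 := single_sub_single_mem_range (K := K) g (g⁻¹ ^ (n + 1) • x)
    have h2 : g • (g⁻¹ ^ (n + 1) • x) = g⁻¹ ^ n • x := by
      rw [pow_succ', mul_smul, smul_inv_smul]
    rw [h2] at h1
    have := Submodule.sub_mem _ ih h1
    convert this using 1
    abel

/-- a function whose sums along the orbits of `g` vanish lies in the range of `1 - L_g`
(any characteristic) -/
theorem mem_range_of_orbit_sums (g : G) (F : X → K)
    (hF : ∀ x : X, ∑ i ∈ Finset.range (Function.minimalPeriod (g⁻¹ • ·) x), F (g⁻¹ ^ i • x) = 0) :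
    F ∈ LinearMap.range (LinearMap.id - L (K := K) (X := X) g) := by
  classical
  set R := LinearMap.range (LinearMap.id - L (K := K) (X := X) g) with hR
  let s : X → X := fun x =>
    Quotient.out (Quotient.mk (MulAction.orbitRel (Subgroup.zpowers g) X) x)
  have hmk : ∀ x y : X, (∃ n : ℕ, g⁻¹ ^ n • y = x) → s x = s y := by
    rintro x y ⟨n, rfl⟩
    show Quotient.out _ = Quotient.out _
    congr 1
    apply Quotient.sound
    show MulAction.orbitRel (Subgroup.zpowers g) X _ _
    rw [MulAction.orbitRel_apply]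
    refine ⟨⟨g⁻¹ ^ n, Subgroup.pow_mem _ (Subgroup.inv_mem _ (Subgroup.mem_zpowers g)) n⟩, rfl⟩
  have hs : ∀ x, ∃ n, n < Function.minimalPeriod (g⁻¹ • ·) (s x) ∧ g⁻¹ ^ n • s x = x := by
    intro x
    have h1 : MulAction.orbitRel (Subgroup.zpowers g) X (s x) x :=
      Quotient.exact (Quotient.out_eq (Quotient.mk (MulAction.orbitRel (Subgroup.zpowers g) X) x))
    rw [MulAction.orbitRel_apply] at h1
    obtain ⟨⟨h, m, rfl⟩, hm⟩ := h1
    have hm' : g ^ m • x = s x := hm
    have hx : x = g⁻¹ ^ m • s x := by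
      rw [← hm', inv_zpow', ← mul_smul, ← zpow_add]
      simp
    have hpos : 0 < Function.minimalPeriod (g⁻¹ • ·) (s x) :=
      Function.minimalPeriod_pos_of_mem_periodicPts
        (Function.Injective.mem_periodicPts (MulAction.injective g⁻¹) (s x))
    have hmod := MulAction.zpow_smul_mod_minimalPeriod g⁻¹ (s x) m
    have hnn : 0 ≤ m % (Function.minimalPeriod (g⁻¹ • ·) (s x) : ℤ) :=
      Int.emod_nonneg _ (by exact_mod_cast hpos.ne')
    have hlt : m % (Function.minimalPeriod (g⁻¹ • ·) (s x) : ℤ)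
        < (Function.minimalPeriod (g⁻¹ • ·) (s x) : ℤ) :=
      Int.emod_lt_of_pos _ (by exact_mod_cast hpos)
    refine ⟨(m % (Function.minimalPeriod (g⁻¹ • ·) (s x) : ℤ)).toNat, ?_, ?_⟩
    · have := Int.toNat_of_nonneg hnn
      omega
    · rw [← zpow_natCast, Int.toNat_of_nonneg hnn, hmod, ← hx]
  have hss : ∀ x, s (s x) = s x := fun x => by
    obtain ⟨n, -, hn⟩ := hs x
    exact (hmk x (s x) ⟨n, hn⟩).symm
  -- decomposition
  have hdec : F = ∑ x, F x • (Pi.single x (1 : K) : X → K) := by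
    funext y
    simp only [Finset.sum_apply, Pi.smul_apply, Pi.single_apply, smul_eq_mul, mul_ite, mul_one,
      mul_zero]
    rw [Finset.sum_ite_eq Finset.univ y F, if_pos (Finset.mem_univ _)]
  have hF' : (∑ x, F x • (Pi.single (s x) (1 : K) : X → K)) = 0 := by
    funext y
    simp only [Finset.sum_apply, Pi.smul_apply, Pi.single_apply, smul_eq_mul, mul_ite, mul_one,
      mul_zero, Pi.zero_apply]
    rw [← Finset.sum_filter]
    by_cases hy : s y = y
    · have hset : (Finset.univ.filter fun x => y = s x)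
          = (Finset.range (Function.minimalPeriod (g⁻¹ • ·) y)).image (fun i => g⁻¹ ^ i • y) := by
        ext x
        simp only [Finset.mem_filter, Finset.mem_univ, true_and, Finset.mem_image,
          Finset.mem_range]
        constructor
        · intro hx
          obtain ⟨n, hn, hn'⟩ := hs x
          rw [← hx] at hn hn'
          exact ⟨n, hn, hn'⟩
        · rintro ⟨n, -, rfl⟩
          rw [hmk _ y ⟨n, rfl⟩, hy]
      rw [hset, Finset.sum_image]
      · exact hF y
      · intro i hi j hj hij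
        have := Function.iterate_injOn_Iio_minimalPeriod (f := (g⁻¹ • ·)) (x := y)
          (by simpa using hi) (by simpa using hj)
        apply this
        simp only [smul_iterate]
        exact hij
    · have hset : (Finset.univ.filter fun x => y = s x) = ∅ := by
        ext x
        simp only [Finset.mem_filter, Finset.mem_univ, true_and, Finset.notMem_empty, iff_false]
        intro hx
        apply hy
        rw [hx, hss]
      rw [hset, Finset.sum_empty]
  have hdiff0 : F - ∑ x, F x • (Pi.single (s x) (1 : K) : X → K)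
      = ∑ x, F x • ((Pi.single x (1 : K) : X → K) - Pi.single (s x) (1 : K)) := by
    simp only [smul_sub, Finset.sum_sub_distrib]
    rw [← hdec]
  have hdiff : F - ∑ x, F x • (Pi.single (s x) (1 : K) : X → K) ∈ R := by
    rw [hdiff0]
    refine Submodule.sum_mem _ fun x _ => ?_
    refine Submodule.smul_mem _ _ ?_
    obtain ⟨n, -, hn⟩ := hs x
    have := single_sub_single_pow_mem (K := K) g (s x) n
    rw [hn] at this
    have := Submodule.neg_mem _ this
    convert this using 1
    abel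
  rw [hF', sub_zero] at hdiff
  exact hdiff

theorem IsCoc.mem_range_of_fixed {z : G → (X → K)} (hz : IsCoc z) (g : G)
    (h0 : ∀ (n : ℕ) (x : X), g ^ n • x = x → z (g ^ n) x = 0) :
    z g ∈ LinearMap.range (LinearMap.id - L (K := K) (X := X) g) := by
  apply mem_range_of_orbit_sums
  intro x
  have hper : (g⁻¹ • ·)^[Function.minimalPeriod (g⁻¹ • ·) x] x = x :=
    Function.isPeriodicPt_minimalPeriod _ _
  rw [smul_iterate] at hper
  beta_reduce at hper
  have hfix : g ^ (Function.minimalPeriod (g⁻¹ • ·) x) • x = x := by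
    have h1 : g ^ (Function.minimalPeriod (g⁻¹ • ·) x)
        • (g⁻¹ ^ (Function.minimalPeriod (g⁻¹ • ·) x) • x) = x := by
      rw [← mul_smul, inv_pow, mul_inv_cancel, one_smul]
    rwa [hper] at h1
  have := h0 _ x hfix
  rw [hz.pow_eq_sum] at this
  simpa [Finset.sum_apply, L_apply, inv_pow] using this

end OrbitSums

end Cocycle

section Shapiro

variable {K : Type*} [Field K] {G : Type*} [Group G] (Γ : Subgroup G)

/-- extension by zero of a homomorphism on `Γ` -/
noncomputable def ext0 (φ : Additive Γ →+ K) (g : G) : K :=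
  open Classical in if h : g ∈ Γ then φ (Additive.ofMul ⟨g, h⟩) else 0

theorem ext0_mem (φ : Additive Γ →+ K) {g : G} (h : g ∈ Γ) :
    ext0 Γ φ g = φ (Additive.ofMul ⟨g, h⟩) := by
  unfold ext0; rw [dif_pos h]

theorem ext0_mul (φ : Additive Γ →+ K) {g h : G} (hg : g ∈ Γ) (hh : h ∈ Γ) :
    ext0 Γ φ (g * h) = ext0 Γ φ g + ext0 Γ φ h := by
  rw [ext0_mem Γ φ hg, ext0_mem Γ φ hh, ext0_mem Γ φ (Γ.mul_mem hg hh), ← map_add]
  rfl

theorem ext0_add (φ ψ : Additive Γ →+ K) (g : G) :
    ext0 Γ (φ + ψ) g = ext0 Γ φ g + ext0 Γ ψ g := by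
  unfold ext0; split_ifs <;> simp

theorem ext0_smul (c : K) (φ : Additive Γ →+ K) (g : G) :
    ext0 Γ (c • φ) g = c * ext0 Γ φ g := by
  unfold ext0; split_ifs <;> simp

theorem out_mem (g : G) (x : G ⧸ Γ) :
    (Quotient.out x)⁻¹ * g * Quotient.out (g⁻¹ • x) ∈ Γ := by
  rw [mul_assoc, ← QuotientGroup.eq, QuotientGroup.out_eq']
  have : ((g * Quotient.out (g⁻¹ • x) : G) : G ⧸ Γ)
      = g • ((Quotient.out (g⁻¹ • x) : G) : G ⧸ Γ) := rfl
  rw [this, QuotientGroup.out_eq', smul_inv_smul]

/-- the cocycle attached to `φ` (Shapiro) -/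
noncomputable def coc (φ : Additive Γ →+ K) (g : G) : (G ⧸ Γ) → K :=
  fun x => ext0 Γ φ ((Quotient.out x)⁻¹ * g * Quotient.out (g⁻¹ • x))

theorem coc_isCoc (φ : Additive Γ →+ K) : IsCoc (coc Γ φ) := by
  intro g h
  funext x
  simp only [coc, Pi.add_apply, L_apply]
  rw [← ext0_mul Γ φ (out_mem Γ g x) (out_mem Γ h (g⁻¹ • x))]
  congr 1
  rw [mul_inv_rev, mul_smul]
  group

theorem coc_add (φ ψ : Additive Γ →+ K) (g : G) : coc Γ (φ + ψ) g = coc Γ φ g + coc Γ ψ g := by
  funext x; simp [coc, ext0_add]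

theorem coc_smul (c : K) (φ : Additive Γ →+ K) (g : G) : coc Γ (c • φ) g = c • coc Γ φ g := by
  funext x; simp [coc, ext0_smul]

/-- evaluation of the cocycle at the base point recovers `φ` -/
theorem coc_base (φ : Additive Γ →+ K) (γ : Γ) :
    coc Γ φ (γ : G) ((1 : G) : G ⧸ Γ) = φ (Additive.ofMul γ) := by
  have hfix : (γ : G)⁻¹ • (((1 : G) : G ⧸ Γ)) = ((1 : G) : G ⧸ Γ) := by
    show (((γ : G)⁻¹ * 1 : G) : G ⧸ Γ) = ((1 : G) : G ⧸ Γ)
    rw [eq_comm, QuotientGroup.eq]
    simp
  have ho : Quotient.out (((1 : G) : G ⧸ Γ)) ∈ Γ := by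
    have := QuotientGroup.out_eq' (((1 : G) : G ⧸ Γ))
    rw [eq_comm, QuotientGroup.eq] at this
    simpa using this
  simp only [coc, hfix]
  set o : G := Quotient.out (((1 : G) : G ⧸ Γ)) with ho'
  rw [ext0_mul Γ φ (Γ.mul_mem (Γ.inv_mem ho) γ.2) ho, ext0_mul Γ φ (Γ.inv_mem ho) γ.2]
  have h1 : ext0 Γ φ o⁻¹ + ext0 Γ φ o = 0 := by
    rw [← ext0_mul Γ φ (Γ.inv_mem ho) ho, inv_mul_cancel, ext0_mem Γ φ Γ.one_mem]
    exact map_zero φ
  rw [ext0_mem Γ φ γ.2]
  linear_combination h1

/-- the cocycle vanishes at elements acting trivially all of whose conjugates are killed -/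
theorem coc_eq_zero (φ : Additive Γ →+ K) (e : G) (he : ∀ x : G ⧸ Γ, e • x = x)
    (hφ : ∀ g : G, ext0 Γ φ (g⁻¹ * e * g) = 0) : coc Γ φ e = 0 := by
  funext x
  have : e⁻¹ • x = x := by
    have := he (e⁻¹ • x)
    rw [smul_inv_smul] at this
    exact this.symm
  simp only [coc, this, Pi.zero_apply]
  exact hφ _

end Shapiro

section MainThm

variable {K : Type*} [Field K] {G : Type*} [Group G] (Γ : Subgroup G)

/-- `φ ↦ coc φ g` as a linear map -/
noncomputable def cocL (g : G) : (Additive Γ →+ K) →ₗ[K] ((G ⧸ Γ) → K) where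
  toFun φ := coc Γ φ g
  map_add' φ ψ := coc_add Γ φ ψ g
  map_smul' c φ := coc_smul Γ c φ g

@[simp] theorem cocL_apply (g : G) (φ : Additive Γ →+ K) : cocL Γ g φ = coc Γ φ g := rfl

/-- the dimension bound for the space of pairs -/
theorem finrank_pairs_le [Fintype (G ⧸ Γ)] [DecidableEq (G ⧸ Γ)]
    (a b : G) (hgen : Subgroup.closure ({a, b} : Set G) = ⊤)
    (V : Submodule K (((G ⧸ Γ) → K) × ((G ⧸ Γ) → K)))
    (hV : ∀ p ∈ V, p.1 ∈ LinearMap.range (LinearMap.id - L (K := K) (X := G ⧸ Γ) a) ∧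
      p.2 ∈ LinearMap.range (LinearMap.id - L (K := K) (X := G ⧸ Γ) b) ∧
      p.2 - p.1 ∈ (LinearMap.range (LinearMap.id - L (K := K) (X := G ⧸ Γ) (a⁻¹ * b))).map (L a)) :
    Module.finrank K V + Nat.card (orbitRel.Quotient (Subgroup.zpowers a) (G ⧸ Γ))
        + Nat.card (orbitRel.Quotient (Subgroup.zpowers b) (G ⧸ Γ))
        + Nat.card (orbitRel.Quotient (Subgroup.zpowers (a⁻¹ * b)) (G ⧸ Γ))
        ≤ 2 * Fintype.card (G ⧸ Γ) + 1 := by
  set A := LinearMap.range (LinearMap.id - L (K := K) (X := G ⧸ Γ) a) with hA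
  set B := LinearMap.range (LinearMap.id - L (K := K) (X := G ⧸ Γ) b) with hB
  set C := LinearMap.range (LinearMap.id - L (K := K) (X := G ⧸ Γ) (a⁻¹ * b)) with hC
  have hrA := finrank_range_one_sub_L (K := K) (X := G ⧸ Γ) a
  have hrB := finrank_range_one_sub_L (K := K) (X := G ⧸ Γ) b
  have hrC := finrank_range_one_sub_L (K := K) (X := G ⧸ Γ) (a⁻¹ * b)
  have hCa : Module.finrank K (C.map (L (K := K) (X := G ⧸ Γ) a)) = Module.finrank K C :=
    LinearEquiv.finrank_eq (Submodule.equivMapOfInjective (L a) (L_injective a) _).symm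
  -- the sum `A ⊔ B` contains the hyperplane
  have h2 : Fintype.card (G ⧸ Γ) ≤ Module.finrank K ↥(A ⊔ B) + 1 := by
    have hker : LinearMap.ker (sumL (K := K) (X := G ⧸ Γ)) ≤ A ⊔ B := by
      apply ker_sumL_le
      intro x y
      obtain ⟨g, rfl⟩ := MulAction.exists_smul_eq G x y
      exact single_sub_mem_of_closure a b (A ⊔ B)
        (fun x => (le_sup_left : A ≤ A ⊔ B) (single_sub_single_mem_range a x))
        (fun x => (le_sup_right : B ≤ A ⊔ B) (single_sub_single_mem_range b x)) g
        (by rw [hgen]; trivial) x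
    have := Submodule.finrank_mono hker
    have h' := finrank_ker_sumL (K := K) (X := G ⧸ Γ)
    omega
  have h3 : Module.finrank K ↥(A ⊔ B) + Module.finrank K ↥(A ⊓ B)
      = Module.finrank K A + Module.finrank K B :=
    Submodule.finrank_sup_add_finrank_inf_eq A B
  -- the map `V → C.map (L a)`, `p ↦ p.2 - p.1`
  let σ : V →ₗ[K] ((G ⧸ Γ) → K) :=
    LinearMap.domRestrict (LinearMap.snd K ((G ⧸ Γ) → K) ((G ⧸ Γ) → K)
      - LinearMap.fst K ((G ⧸ Γ) → K) ((G ⧸ Γ) → K)) V
  have hσ : ∀ (p : ((G ⧸ Γ) → K) × ((G ⧸ Γ) → K)) (hp : p ∈ V), σ ⟨p, hp⟩ = p.2 - p.1 :=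
    fun p hp => rfl
  have h4 : Module.finrank K (LinearMap.range σ) + Module.finrank K (LinearMap.ker σ)
      = Module.finrank K V := LinearMap.finrank_range_add_finrank_ker σ
  have h4r : Module.finrank K (LinearMap.range σ) ≤ Module.finrank K (C.map (L (K := K) (X := G ⧸ Γ) a)) := by
    apply Submodule.finrank_mono
    rintro _ ⟨⟨p, hp⟩, rfl⟩
    rw [hσ]
    exact (hV p hp).2.2
  have h4k : Module.finrank K (LinearMap.ker σ) ≤ Module.finrank K ↥(A ⊓ B) := by
    have hmem : ∀ w : LinearMap.ker σ,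
        (LinearMap.fst K _ _ ∘ₗ V.subtype ∘ₗ (LinearMap.ker σ).subtype) w ∈ A ⊓ B := by
      rintro ⟨⟨p, hp⟩, hw⟩
      have h21 : p.2 - p.1 = 0 := by rw [← hσ p hp]; exact hw
      have h21' : p.2 = p.1 := sub_eq_zero.mp h21
      refine ⟨(hV p hp).1, ?_⟩
      show p.1 ∈ B
      rw [← h21']
      exact (hV p hp).2.1
    refine LinearMap.finrank_le_finrank_of_injective
      (f := LinearMap.codRestrict (A ⊓ B)
        (LinearMap.fst K _ _ ∘ₗ V.subtype ∘ₗ (LinearMap.ker σ).subtype) hmem) ?_
    rintro ⟨⟨p, hp⟩, hw⟩ ⟨⟨q, hq⟩, hw'⟩ hpq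
    have h1 : p.1 = q.1 := congrArg Subtype.val hpq
    have hp21 : p.2 = p.1 := sub_eq_zero.mp (by rw [← hσ p hp]; exact hw)
    have hq21 : q.2 = q.1 := sub_eq_zero.mp (by rw [← hσ q hq]; exact hw')
    have : p = q := Prod.ext h1 (by rw [hp21, hq21, h1])
    subst this
    rfl
  have key : ∀ (oa ob ot dA dB dC dCa dsup dinf drange dker dV card : ℕ),
      dA + oa = card → dB + ob = card → dC + ot = card → dCa = dC → card ≤ dsup + 1 →
      dsup + dinf = dA + dB → drange + dker = dV → drange ≤ dCa → dker ≤ dinf →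
      dV + oa + ob + ot ≤ 2 * card + 1 := by
    intros; omega
  exact key _ _ _ _ _ _ _ _ _ _ _ _ _ hrA hrB hrC hCa h2 h3 h4 h4r h4k

theorem finrank_add_orbits_le [Finite (G ⧸ Γ)]
    (a b : G) (hgen : Subgroup.closure ({a, b} : Set G) = ⊤)
    (H : Submodule K (Additive Γ →+ K))
    (hH : ∀ φ ∈ H, ∀ e : G, (e = a ∨ e = b ∨ e = a⁻¹ * b) → ∀ (j : ℕ) (g : G),
      ext0 Γ φ (g⁻¹ * e ^ j * g) = 0) :
    Module.Finite K H ∧
      Module.finrank K H + Nat.card (orbitRel.Quotient (Subgroup.zpowers a) (G ⧸ Γ))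
        + Nat.card (orbitRel.Quotient (Subgroup.zpowers b) (G ⧸ Γ))
        + Nat.card (orbitRel.Quotient (Subgroup.zpowers (a⁻¹ * b)) (G ⧸ Γ))
        ≤ Nat.card (G ⧸ Γ) + 2 := by
  classical
  have : Fintype (G ⧸ Γ) := Fintype.ofFinite _
  -- the combined map
  let Ψ : (H × ((G ⧸ Γ) → K)) →ₗ[K] (((G ⧸ Γ) → K) × ((G ⧸ Γ) → K)) :=
    LinearMap.prod
      ((cocL Γ a ∘ₗ H.subtype) ∘ₗ LinearMap.fst K _ _
        + (L (K := K) (X := G ⧸ Γ) a - LinearMap.id) ∘ₗ LinearMap.snd K _ _)
      ((cocL Γ b ∘ₗ H.subtype) ∘ₗ LinearMap.fst K _ _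
        + (L (K := K) (X := G ⧸ Γ) b - LinearMap.id) ∘ₗ LinearMap.snd K _ _)
  have hΨ : ∀ (φ : H) (m : (G ⧸ Γ) → K),
      Ψ (φ, m) = (coc Γ φ.1 a + (L a m - m), coc Γ φ.1 b + (L b m - m)) := fun φ m => rfl
  -- the cocycle attached to a pair
  have hcoc : ∀ (φ : H) (m : (G ⧸ Γ) → K),
      IsCoc (fun g : G => coc Γ φ.1 g + (L g m - m)) := by
    intro φ m g h
    have h1 := coc_isCoc Γ φ.1 g h
    have h2 := coboundary_isCoc (G := G) m g h
    simp only at h2
    simp only [h1, h2, map_add]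
    abel
  have hzero : ∀ (φ : H) (m : (G ⧸ Γ) → K) (e : G),
      (e = a ∨ e = b ∨ e = a⁻¹ * b) → ∀ (j : ℕ) (x : G ⧸ Γ), e ^ j • x = x →
      (coc Γ φ.1 (e ^ j) + (L (e ^ j) m - m)) x = 0 := by
    intro φ m e he j x hx
    have hx' : (e ^ j)⁻¹ • x = x := by
      conv_lhs => rw [← hx]
      rw [inv_smul_smul]
    simp only [Pi.add_apply, Pi.sub_apply, L_apply, hx', sub_self, add_zero, coc]
    exact hH φ.1 φ.2 e he j _
  -- kernel of Ψ
  have hker : ∀ p : H × ((G ⧸ Γ) → K), Ψ p = 0 →
      p.1 = 0 ∧ ∀ x, p.2 x = p.2 ((1 : G) : G ⧸ Γ) := by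
    rintro ⟨φ, m⟩ hp
    rw [hΨ] at hp
    have hpa : coc Γ φ.1 a + (L a m - m) = 0 := congrArg Prod.fst hp
    have hpb : coc Γ φ.1 b + (L b m - m) = 0 := congrArg Prod.snd hp
    have hall : ∀ g : G, coc Γ φ.1 g + (L g m - m) = 0 := fun g =>
      (hcoc φ m).eq_zero_of_closure a b hpa hpb g (by rw [hgen]; trivial)
    have hφ : φ = 0 := by
      apply Subtype.ext
      apply AddMonoidHom.ext
      intro γ
      have h1 := congrFun (hall ((Additive.toMul γ : Γ) : G)) ((1 : G) : G ⧸ Γ)
      simp only [Pi.add_apply, Pi.sub_apply, Pi.zero_apply, L_apply] at h1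
      rw [coc_base] at h1
      have hfix : ((Additive.toMul γ : Γ) : G)⁻¹ • (((1 : G) : G ⧸ Γ)) = ((1 : G) : G ⧸ Γ) := by
        show ((((Additive.toMul γ : Γ) : G)⁻¹ * 1 : G) : G ⧸ Γ) = ((1 : G) : G ⧸ Γ)
        rw [eq_comm, QuotientGroup.eq]
        simp
      rw [hfix, sub_self, add_zero] at h1
      simpa using h1
    refine ⟨hφ, ?_⟩
    intro x
    obtain ⟨g, rfl⟩ := MulAction.exists_smul_eq G (((1 : G) : G ⧸ Γ)) x
    have h1 := congrFun (hall g⁻¹) ((1 : G) : G ⧸ Γ)
    simp only [hφ, Pi.add_apply, Pi.sub_apply, Pi.zero_apply, L_apply, inv_inv] at h1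
    have h0 : coc Γ ((0 : H) : Additive Γ →+ K) g⁻¹ = 0 := by
      funext y; simp [coc, ext0]
    rw [h0] at h1
    simp only [Pi.zero_apply, zero_add] at h1
    exact sub_eq_zero.mp h1
  -- H is finite-dimensional
  have hfin : Module.Finite K H := by
    have hinj : Function.Injective (Ψ ∘ₗ LinearMap.inl K H ((G ⧸ Γ) → K)) := by
      intro φ₁ φ₂ h
      have h0 : Ψ (φ₁ - φ₂, 0) = 0 := by
        have h1 : Ψ (φ₁, 0) = Ψ (φ₂, 0) := h
        have h2 : ((φ₁ - φ₂, 0) : H × ((G ⧸ Γ) → K)) = (φ₁, 0) - (φ₂, 0) := by simp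
        rw [h2, map_sub Ψ (φ₁, 0) (φ₂, 0), h1, sub_self]
      exact sub_eq_zero.mp (hker (φ₁ - φ₂, 0) h0).1
    exact Module.Finite.of_injective _ hinj
  refine ⟨hfin, ?_⟩
  have : Module.Free K H := Module.Free.of_divisionRing K H
  -- range of Ψ
  set V := LinearMap.range Ψ with hVdef
  have hV : ∀ p ∈ V, p.1 ∈ LinearMap.range (LinearMap.id - L (K := K) (X := G ⧸ Γ) a) ∧
      p.2 ∈ LinearMap.range (LinearMap.id - L (K := K) (X := G ⧸ Γ) b) ∧
      p.2 - p.1 ∈ (LinearMap.range (LinearMap.id - L (K := K) (X := G ⧸ Γ) (a⁻¹ * b))).map (L a) := by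
    rintro _ ⟨⟨φ, m⟩, rfl⟩
    rw [hΨ]
    have hz := hcoc φ m
    have hza := hz.mem_range_of_fixed a (fun j x hx => hzero φ m a (Or.inl rfl) j x hx)
    have hzb := hz.mem_range_of_fixed b (fun j x hx => hzero φ m b (Or.inr (Or.inl rfl)) j x hx)
    have hzt := hz.mem_range_of_fixed (a⁻¹ * b)
      (fun j x hx => hzero φ m (a⁻¹ * b) (Or.inr (Or.inr rfl)) j x hx)
    refine ⟨hza, hzb, ?_⟩
    have hb' : b = a * (a⁻¹ * b) := by group
    have h1 := hz a (a⁻¹ * b)
    rw [← hb'] at h1
    simp only at h1 hzt ⊢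
    rw [h1, add_sub_cancel_left]
    exact Submodule.mem_map_of_mem hzt
  have hbound := finrank_pairs_le Γ a b hgen V hV
  -- kernel has dimension ≤ 1
  have hk1 : Module.finrank K (LinearMap.ker Ψ) ≤ 1 := by
    have hmem : ∀ w : LinearMap.ker Ψ,
        (LinearMap.snd K H ((G ⧸ Γ) → K) ∘ₗ (LinearMap.ker Ψ).subtype) w
          ∈ Submodule.span K {(fun _ => (1 : K) : (G ⧸ Γ) → K)} := by
      rintro ⟨p, hp⟩
      rw [Submodule.mem_span_singleton]
      refine ⟨p.2 ((1 : G) : G ⧸ Γ), ?_⟩
      funext x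
      simp [(hker p hp).2 x]
    have h1 : Module.finrank K (LinearMap.ker Ψ)
        ≤ Module.finrank K ↥(Submodule.span K {(fun _ => (1 : K) : (G ⧸ Γ) → K)}) := by
      refine LinearMap.finrank_le_finrank_of_injective
        (f := LinearMap.codRestrict _
          (LinearMap.snd K H ((G ⧸ Γ) → K) ∘ₗ (LinearMap.ker Ψ).subtype) hmem) ?_
      rintro ⟨p, hp⟩ ⟨q, hq⟩ hpq
      have h2 : p.2 = q.2 := congrArg Subtype.val hpq
      have hp1 := (hker p hp).1
      have hq1 := (hker q hq).1
      apply Subtype.ext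
      exact Prod.ext (by rw [hp1, hq1]) h2
    refine h1.trans ?_
    have := finrank_span_le_card (R := K) ({(fun _ => (1 : K) : (G ⧸ Γ) → K)} : Set ((G ⧸ Γ) → K))
    simpa using this
  have hrn : Module.finrank K V + Module.finrank K (LinearMap.ker Ψ)
      = Module.finrank K H + Fintype.card (G ⧸ Γ) := by
    have := LinearMap.finrank_range_add_finrank_ker (K := K) (V := H × ((G ⧸ Γ) → K)) Ψ
    rw [Module.finrank_prod, Module.finrank_fintype_fun_eq_card] at this
    exact this
  have hcard : Nat.card (G ⧸ Γ) = Fintype.card (G ⧸ Γ) := Nat.card_eq_fintype_card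
  have key : ∀ (oa ob ot dV dker dH card ncard : ℕ),
      dV + oa + ob + ot ≤ 2 * card + 1 → dker ≤ 1 → dV + dker = dH + card → ncard = card →
      dH + oa + ob + ot ≤ ncard + 2 := by
    intros; omega
  exact key _ _ _ _ _ _ _ _ hbound hk1 hrn hcard

end MainThm

end Fermat.Agent.S16.Lift
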