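import Mathlib

/-!
# S16, piece 84-P11(d), part 2: lifting homomorphisms to `ZMod n` (pure algebra)

A finitely generated abelian group `Q` whose character space over `ℂ` has dimension `≥ g` and
whose character spaces over all `ZMod ℓ` have dimension `≤ g` is free: every homomorphism
`Q →+ ZMod n` lifts to `ℤ`.
-/

set_option autoImplicit false

open scoped DirectSum

namespace Fermat.Agent.S16.Lift

section Alg

variable {Q : Type*} [AddCommGroup Q]

/-- evaluation at finitely many points, as a linear map on characters -/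
noncomputable def evalL (K : Type*) [Field K] {ι : Type*} (b : ι → Q) :
    (Q →+ K) →ₗ[K] (ι → K) where
  toFun ψ := fun j => ψ (b j)
  map_add' _ _ := rfl
  map_smul' _ _ := rfl

theorem exists_lift_of_finrank [AddGroup.FG Q] (g : ℕ)
    (h0 : g ≤ Module.finrank ℂ (Q →+ ℂ))
    (hl : ∀ (ℓ : ℕ) [Fact ℓ.Prime], Module.Finite (ZMod ℓ) (Q →+ ZMod ℓ) ∧
      Module.finrank (ZMod ℓ) (Q →+ ZMod ℓ) ≤ g)
    (n : ℕ) (ψ : Q →+ ZMod n) :
    ∃ ψ' : Q →+ ℤ, ∀ q, ((ψ' q : ℤ) : ZMod n) = ψ q := by
  classical
  obtain ⟨r, ι, _, p, hp, e, ⟨E⟩⟩ := AddCommGroup.equiv_free_prod_directSum_zmod Q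
  -- the basis vectors
  set b : Fin r → Q := fun j => E.symm (Finsupp.single j 1, 0) with hb
  -- a character is determined by its values on `ℤ^r` and on the torsion part
  have hext : ∀ {A : Type} [AddCommGroup A] (χ₁ χ₂ : Q →+ A),
      (∀ j, χ₁ (b j) = χ₂ (b j)) →
      (∀ i (y : ZMod (p i ^ e i)), χ₁ (E.symm (0, DirectSum.of _ i y))
        = χ₂ (E.symm (0, DirectSum.of _ i y))) → χ₁ = χ₂ := by
    intro A _ χ₁ χ₂ h1 h2
    have key : χ₁.comp E.symm.toAddMonoidHom = χ₂.comp E.symm.toAddMonoidHom := by
      rw [← AddMonoidHom.coprod_unique (χ₁.comp E.symm.toAddMonoidHom),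
        ← AddMonoidHom.coprod_unique (χ₂.comp E.symm.toAddMonoidHom)]
      congr 1
      · apply Finsupp.addHom_ext
        intro j m
        have hm : (Finsupp.single j m : Fin r →₀ ℤ) = m • Finsupp.single j 1 := by
          rw [Finsupp.smul_single, smul_eq_mul, mul_one]
        simp only [AddMonoidHom.coe_comp, Function.comp_apply, AddMonoidHom.inl_apply,
          AddEquiv.coe_toAddMonoidHom]
        have h3 : ((Finsupp.single j m : Fin r →₀ ℤ), (0 : ⨁ i : ι, ZMod (p i ^ e i)))
            = m • ((Finsupp.single j 1 : Fin r →₀ ℤ), (0 : ⨁ i : ι, ZMod (p i ^ e i))) := by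
          rw [Prod.smul_mk, smul_zero, ← hm]
        rw [h3, map_zsmul, map_zsmul, map_zsmul]
        exact congrArg _ (h1 j)
      · apply DirectSum.addHom_ext
        intro i y
        simp only [AddMonoidHom.coe_comp, Function.comp_apply, AddMonoidHom.inr_apply,
          AddEquiv.coe_toAddMonoidHom]
        exact h2 i y
    ext q
    have := DFunLike.congr_fun key (E q)
    simpa using this
  -- step (i): `g ≤ r`
  have hgr : g ≤ r := by
    have hinj : Function.Injective (evalL (Q := Q) ℂ b) := by
      intro χ₁ χ₂ h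
      apply hext
      · intro j
        exact congrFun h j
      · intro i y
        have hz : ∀ χ : Q →+ ℂ, χ (E.symm (0, DirectSum.of _ i y)) = 0 := by
          intro χ
          have h1 : (p i ^ e i) • (E.symm ((0 : Fin r →₀ ℤ), DirectSum.of (fun i => ZMod (p i ^ e i)) i y)) = 0 := by
            rw [← map_nsmul, Prod.smul_mk, smul_zero, ← map_nsmul]
            have : (p i ^ e i) • y = 0 := by
              rw [nsmul_eq_mul, ZMod.natCast_self, zero_mul]
            rw [this, map_zero]
            exact map_zero E.symm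
          have h2 := congrArg χ h1
          rw [map_nsmul, map_zero, nsmul_eq_mul] at h2
          rcases mul_eq_zero.mp h2 with h3 | h3
          · exfalso
            have : (p i ^ e i : ℕ) ≠ 0 := pow_ne_zero _ (hp i).ne_zero
            exact this (by exact_mod_cast h3)
          · exact h3
        rw [hz χ₁, hz χ₂]
    have := LinearMap.finrank_le_finrank_of_injective hinj
    rw [Module.finrank_fintype_fun_eq_card, Fintype.card_fin] at this
    exact h0.trans this
  -- step (ii): the torsion part is trivial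
  have he : ∀ i, e i = 0 := by
    intro i₀
    by_contra hne
    have : Fact (p i₀).Prime := ⟨hp i₀⟩
    obtain ⟨hfin, hle⟩ := hl (p i₀)
    set t₀ : Option (Fin r) → Q := fun o =>
      match o with
      | none => E.symm (0, DirectSum.of (fun i => ZMod (p i ^ e i)) i₀ 1)
      | some j => b j with ht₀
    have hsurj : Function.Surjective (evalL (Q := Q) (ZMod (p i₀)) t₀) := by
      intro c
      -- the reduction map
      let red : ZMod (p i₀ ^ e i₀) →+ ZMod (p i₀) :=
        (ZMod.castHom (dvd_pow_self (p i₀) hne) (ZMod (p i₀))).toAddMonoidHom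
      let χF : (Fin r →₀ ℤ) →+ ZMod (p i₀) :=
        Finsupp.liftAddHom (fun j => zmultiplesHom (ZMod (p i₀)) (c (some j)))
      let χT : (⨁ i : ι, ZMod (p i ^ e i)) →+ ZMod (p i₀) :=
        ((AddMonoidHom.mulLeft (c none)).comp red).comp (DFinsupp.evalAddMonoidHom i₀)
      refine ⟨(χF.coprod χT).comp E.toAddMonoidHom, ?_⟩
      funext o
      cases o with
      | none =>
        show (χF.coprod χT) (E (E.symm (0, DirectSum.of (fun i => ZMod (p i ^ e i)) i₀ 1))) = c none
        rw [AddEquiv.apply_symm_apply, AddMonoidHom.coprod_apply]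
        have h1 : (DFinsupp.evalAddMonoidHom i₀)
            ((DirectSum.of (fun i => ZMod (p i ^ e i)) i₀) 1) = 1 := DirectSum.of_eq_same i₀ 1
        rw [map_zero, zero_add]
        show c none * (ZMod.castHom (dvd_pow_self (p i₀) hne) (ZMod (p i₀)))
          ((DFinsupp.evalAddMonoidHom i₀) ((DirectSum.of (fun i => ZMod (p i ^ e i)) i₀) 1)) = c none
        rw [h1, map_one, mul_one]
      | some j =>
        show (χF.coprod χT) (E (E.symm (Finsupp.single j 1, 0))) = c (some j)
        rw [AddEquiv.apply_symm_apply, AddMonoidHom.coprod_apply]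
        simp [χF]
    have h1 := LinearMap.finrank_le_finrank_of_surjective hsurj
    rw [Module.finrank_fintype_fun_eq_card, Fintype.card_option, Fintype.card_fin] at h1
    omega
  -- step (iii): the lift
  have hT : ∀ t : ⨁ i : ι, ZMod (p i ^ e i), t = 0 := by
    intro t
    apply DFinsupp.ext
    intro i
    have : Subsingleton (ZMod (p i ^ e i)) := by
      rw [he i, pow_zero]
      infer_instance
    exact Subsingleton.elim _ _
  let c : Fin r → ℤ := fun j => ZMod.cast (ψ (b j))
  let ψF : (Fin r →₀ ℤ) →+ ℤ := Finsupp.liftAddHom (fun j => zmultiplesHom ℤ (c j))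
  refine ⟨(ψF.comp (AddMonoidHom.fst _ _)).comp E.toAddMonoidHom, ?_⟩
  have hcomp : (Int.castAddHom (ZMod n)).comp ((ψF.comp (AddMonoidHom.fst _ _)).comp E.toAddMonoidHom)
      = ψ := by
    apply hext
    · intro j
      show (((ψF (E (E.symm (Finsupp.single j 1, 0))).1 : ℤ)) : ZMod n) = ψ (b j)
      rw [AddEquiv.apply_symm_apply]
      simp [ψF, c]
    · intro i y
      rw [hT (DirectSum.of (fun i => ZMod (p i ^ e i)) i y)]
      have : E.symm ((0 : Fin r →₀ ℤ), (0 : ⨁ i : ι, ZMod (p i ^ e i))) = 0 := map_zero E.symm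
      rw [show (((0 : Fin r →₀ ℤ), (0 : ⨁ i : ι, ZMod (p i ^ e i))) : (Fin r →₀ ℤ) × _) = 0 from rfl,
        map_zero, map_zero, map_zero]
  intro q
  exact DFunLike.congr_fun hcomp q

end Alg

section Kill

/-- homomorphisms from a group to the additive group of `K` that kill a given set -/
def killHoms {Γ : Type*} [Group Γ] (bad : Set Γ) (K : Type*) [Semiring K] :
    Submodule K (Additive Γ →+ K) where
  carrier := {φ | ∀ γ ∈ bad, φ (Additive.ofMul γ) = 0}
  zero_mem' := fun _ _ => rfl
  add_mem' := by
    intro φ ψ hφ hψ γ hγ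
    show φ (Additive.ofMul γ) + ψ (Additive.ofMul γ) = 0
    rw [hφ γ hγ, hψ γ hγ, add_zero]
  smul_mem' := by
    intro c φ hφ γ hγ
    show c • φ (Additive.ofMul γ) = 0
    rw [hφ γ hγ, smul_zero]

theorem mem_killHoms {Γ : Type*} [Group Γ] {bad : Set Γ} {K : Type*} [Semiring K]
    {φ : Additive Γ →+ K} : φ ∈ killHoms bad K ↔ ∀ γ ∈ bad, φ (Additive.ofMul γ) = 0 := Iff.rfl

end Kill

end Fermat.Agent.S16.Lift
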