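import Mathlib
import Fermat.Agent.FF.S20Final
import Fermat.Agent.FF.ParabolicBound
import Fermat.Agent.S16.LiftAbstract
import Fermat.Agent.S16.LiftAlg

/-!
# S16, piece 84-P11(d): lifting homomorphisms `Γ₀(N) → ZMod n` to parabolic homomorphisms to `ℤ`

A homomorphism `Γ₀(N) → ZMod n` that kills every element of trace `t` with `t ^ 2 ≤ 4`
(elliptic elements, parabolic elements, `± 1`) is the reduction of a parabolic homomorphism
`Γ₀(N) → ℤ`.
-/

set_option autoImplicit false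

open CongruenceSubgroup MulAction
open scoped MatrixGroups

namespace Fermat.Agent.S16

/-! ### traces of powers -/

theorem sq_eq_trace_smul_sub_one (A : SL(2, ℤ)) :
    (A : Matrix (Fin 2) (Fin 2) ℤ) * (A : Matrix (Fin 2) (Fin 2) ℤ)
      = (A : Matrix (Fin 2) (Fin 2) ℤ).trace • (A : Matrix (Fin 2) (Fin 2) ℤ) - 1 := by
  have hdet : (A : Matrix (Fin 2) (Fin 2) ℤ).det = 1 := A.det_coe
  rw [Matrix.det_fin_two] at hdet
  ext i j
  fin_cases i <;> fin_cases j
  · simp only [Fin.zero_eta, Fin.isValue, Matrix.mul_apply, Fin.sum_univ_two, Matrix.sub_apply,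
      Matrix.smul_apply, Matrix.trace_fin_two, smul_eq_mul, Matrix.one_apply_eq]
    linear_combination -hdet
  · simp only [Fin.zero_eta, Fin.mk_one, Fin.isValue, Matrix.mul_apply, Fin.sum_univ_two,
      Matrix.sub_apply, Matrix.smul_apply, Matrix.trace_fin_two, smul_eq_mul, ne_eq,
      zero_ne_one, not_false_eq_true, Matrix.one_apply_ne, sub_zero]
    ring
  · simp only [Fin.zero_eta, Fin.mk_one, Fin.isValue, Matrix.mul_apply, Fin.sum_univ_two,
      Matrix.sub_apply, Matrix.smul_apply, Matrix.trace_fin_two, smul_eq_mul, ne_eq,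
      one_ne_zero, not_false_eq_true, Matrix.one_apply_ne, sub_zero]
    ring
  · simp only [Fin.mk_one, Fin.isValue, Matrix.mul_apply, Fin.sum_univ_two, Matrix.sub_apply,
      Matrix.smul_apply, Matrix.trace_fin_two, smul_eq_mul, Matrix.one_apply_eq]
    linear_combination -hdet

theorem trace_pow_add_two (A : SL(2, ℤ)) (j : ℕ) :
    ((A ^ (j + 2) : SL(2, ℤ)) : Matrix (Fin 2) (Fin 2) ℤ).trace
      = (A : Matrix (Fin 2) (Fin 2) ℤ).trace
          * ((A ^ (j + 1) : SL(2, ℤ)) : Matrix (Fin 2) (Fin 2) ℤ).trace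
        - ((A ^ j : SL(2, ℤ)) : Matrix (Fin 2) (Fin 2) ℤ).trace := by
  have h1 : ((A ^ (j + 2) : SL(2, ℤ)) : Matrix (Fin 2) (Fin 2) ℤ)
      = ((A ^ j : SL(2, ℤ)) : Matrix (Fin 2) (Fin 2) ℤ)
        * ((A : Matrix (Fin 2) (Fin 2) ℤ) * (A : Matrix (Fin 2) (Fin 2) ℤ)) := by
    rw [pow_add, pow_two, Matrix.SpecialLinearGroup.coe_mul, Matrix.SpecialLinearGroup.coe_mul]
  have h2 : ((A ^ (j + 1) : SL(2, ℤ)) : Matrix (Fin 2) (Fin 2) ℤ)
      = ((A ^ j : SL(2, ℤ)) : Matrix (Fin 2) (Fin 2) ℤ) * (A : Matrix (Fin 2) (Fin 2) ℤ) := by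
    rw [pow_succ, Matrix.SpecialLinearGroup.coe_mul]
  rw [h1, h2, sq_eq_trace_smul_sub_one, Matrix.mul_sub, Matrix.mul_smul, Matrix.mul_one,
    Matrix.trace_sub, Matrix.trace_smul, smul_eq_mul]

theorem trace_pow_zero (A : SL(2, ℤ)) :
    ((A ^ 0 : SL(2, ℤ)) : Matrix (Fin 2) (Fin 2) ℤ).trace = 2 := by
  simp

theorem trace_pow_sq_le_of_trace_eq_zero (A : SL(2, ℤ))
    (hA : (A : Matrix (Fin 2) (Fin 2) ℤ).trace = 0) (j : ℕ) :
    ((A ^ j : SL(2, ℤ)) : Matrix (Fin 2) (Fin 2) ℤ).trace ^ 2 ≤ 4 := by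
  have key : ∀ j : ℕ, ((A ^ j : SL(2, ℤ)) : Matrix (Fin 2) (Fin 2) ℤ).trace ^ 2
      + ((A ^ (j + 1) : SL(2, ℤ)) : Matrix (Fin 2) (Fin 2) ℤ).trace ^ 2 = 4 := by
    intro j
    induction j with
    | zero => rw [trace_pow_zero, zero_add, pow_one, hA]; norm_num
    | succ j ih =>
      rw [trace_pow_add_two, hA]
      linear_combination ih
  have := key j
  nlinarith [sq_nonneg (((A ^ (j + 1) : SL(2, ℤ)) : Matrix (Fin 2) (Fin 2) ℤ).trace)]

theorem trace_pow_sq_le_of_trace_eq_one (A : SL(2, ℤ))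
    (hA : (A : Matrix (Fin 2) (Fin 2) ℤ).trace = 1) (j : ℕ) :
    ((A ^ j : SL(2, ℤ)) : Matrix (Fin 2) (Fin 2) ℤ).trace ^ 2 ≤ 4 := by
  have key : ∀ j : ℕ, ((A ^ j : SL(2, ℤ)) : Matrix (Fin 2) (Fin 2) ℤ).trace ^ 2
      - ((A ^ j : SL(2, ℤ)) : Matrix (Fin 2) (Fin 2) ℤ).trace
          * ((A ^ (j + 1) : SL(2, ℤ)) : Matrix (Fin 2) (Fin 2) ℤ).trace
      + ((A ^ (j + 1) : SL(2, ℤ)) : Matrix (Fin 2) (Fin 2) ℤ).trace ^ 2 = 3 := by
    intro j
    induction j with
    | zero => rw [trace_pow_zero, zero_add, pow_one, hA]; norm_num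
    | succ j ih =>
      rw [trace_pow_add_two, hA]
      linear_combination ih
  have := key j
  set s := ((A ^ j : SL(2, ℤ)) : Matrix (Fin 2) (Fin 2) ℤ).trace
  set s' := ((A ^ (j + 1) : SL(2, ℤ)) : Matrix (Fin 2) (Fin 2) ℤ).trace
  nlinarith [sq_nonneg (s - 2 * s'), sq_nonneg (2 * s' - s), sq_nonneg s']

theorem trace_S : ((ModularGroup.S : SL(2, ℤ)) : Matrix (Fin 2) (Fin 2) ℤ).trace = 0 := by
  rw [ModularGroup.coe_S]
  simp [Matrix.trace_fin_two]

theorem trace_ST :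
    ((ModularGroup.S * ModularGroup.T : SL(2, ℤ)) : Matrix (Fin 2) (Fin 2) ℤ).trace = 1 := by
  rw [Matrix.SpecialLinearGroup.coe_mul, ModularGroup.coe_S, ModularGroup.coe_T]
  simp [Matrix.trace_fin_two]

/-! ### the bound over an arbitrary field -/

/-- the elements of `Γ₀(N)` whose trace `t` satisfies `t ^ 2 ≤ 4` -/
def smallTrace (N : ℕ) : Set (Gamma0 N) :=
  {γ | ((γ : SL(2, ℤ)) : Matrix (Fin 2) (Fin 2) ℤ).trace ^ 2 ≤ 4}

/-- homomorphisms `Γ₀(N) → K` killing every element whose trace `t` satisfies `t ^ 2 ≤ 4` -/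
abbrev smallTraceHoms (N : ℕ) (K : Type*) [Field K] : Submodule K (Additive (Gamma0 N) →+ K) :=
  Lift.killHoms (smallTrace N) K

theorem smallTraceHoms_bound (N : ℕ) [NeZero N] (K : Type*) [Field K] :
    Module.Finite K (smallTraceHoms N K) ∧
      (Module.finrank K (smallTraceHoms N K) : ℚ) ≤ 2 * ModularCurve.genusFormula N := by
  have hTdef : (ModularGroup.S)⁻¹ * (ModularGroup.S * ModularGroup.T) = ModularGroup.T := by group
  have key := Lift.finrank_add_orbits_le (K := K) (G := SL(2, ℤ)) (Gamma0 N)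
    ModularGroup.S (ModularGroup.S * ModularGroup.T) Fermat.Agent.FF.closure_S_ST
    (smallTraceHoms N K) (by
      intro φ hφ e he j g
      by_cases hmem : g⁻¹ * e ^ j * g ∈ Gamma0 N
      · rw [Lift.ext0_mem _ φ hmem]
        refine hφ ⟨g⁻¹ * e ^ j * g, hmem⟩ ?_
        show ((g⁻¹ * e ^ j * g : SL(2, ℤ)) : Matrix (Fin 2) (Fin 2) ℤ).trace ^ 2 ≤ 4
        rw [Fermat.Agent.FF.trace_conj_SL]
        rcases he with rfl | rfl | rfl
        · exact trace_pow_sq_le_of_trace_eq_zero _ trace_S j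
        · exact trace_pow_sq_le_of_trace_eq_one _ trace_ST j
        · rw [hTdef, Fermat.Agent.FF.trace_T_pow]; norm_num
      · unfold Lift.ext0
        rw [dif_neg hmem])
  refine ⟨key.1, ?_⟩
  have h2 := key.2
  rw [hTdef] at h2
  have hC := Fermat.Agent.FF.cosetCounts N
  have hX : Nat.card (SL(2, ℤ) ⧸ Gamma0 N) = ModularCurve.dedekindPsi N := hC.card_X
  have hkey : ∀ (dH oS oU oT : ℕ), dH + oS + oU + oT ≤ Nat.card (SL(2, ℤ) ⧸ Gamma0 N) + 2 →
      oS = Fermat.Agent.FF.orbCount N ModularGroup.S →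
      oU = Fermat.Agent.FF.orbCount N (ModularGroup.S * ModularGroup.T) →
      oT = Fermat.Agent.FF.orbCount N ModularGroup.T →
      (dH : ℚ) ≤ 2 * ModularCurve.genusFormula N := by
    intro dH oS oU oT h hS hU hT
    rw [hX] at h
    have hoS := hC.orb_S
    have hoU := hC.orb_U
    have hoT := hC.orb_T
    rw [← hS] at hoS
    rw [← hU] at hoU
    rw [← hT] at hoT
    unfold ModularCurve.genusFormula
    have h' : (dH : ℚ) + oS + oU + oT ≤ ModularCurve.dedekindPsi N + 2 := by exact_mod_cast h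
    have hoS' : (2 : ℚ) * oS = ModularCurve.dedekindPsi N + ModularCurve.nuTwo N := by
      exact_mod_cast hoS
    have hoU' : (3 : ℚ) * oU = ModularCurve.dedekindPsi N + 2 * ModularCurve.nuThree N := by
      exact_mod_cast hoU
    have hoT' : (oT : ℚ) = ModularCurve.cuspCount N := by exact_mod_cast hoT
    rw [← hoT']
    linarith
  exact hkey _ _ _ _ h2 rfl rfl rfl

end Fermat.Agent.S16
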