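import Fermat.Agent.S16.LiftAlg

/-!
# S16, piece 84-P11(d), bridge (helper6): from `killHoms` to the abelian quotient

For a finitely generated group `Γ` and a set `bad ⊆ Γ`, the homomorphisms `Γ → A` killing `bad`
are the homomorphisms `Q → A`, `Q = Γ^ab / ⟨bad⟩`.  Hence `Lift.exists_lift_of_finrank` gives:
if `dim_ℂ killHoms bad ℂ ≥ g` and `dim killHoms bad (ZMod ℓ) ≤ g` for all primes `ℓ`, every
homomorphism `Γ → ZMod n` killing `bad` lifts to a homomorphism `Γ → ℤ` killing `bad`.
-/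

set_option autoImplicit false

namespace Fermat.Agent.S16.Lift

section Bridge

variable {Γ : Type*} [Group Γ] (bad : Set Γ)

/-- the subgroup of the abelianization generated by the bad elements -/
def badSub : Subgroup (Abelianization Γ) := Subgroup.closure (Abelianization.of '' bad)

/-- the quotient `Γ^ab / ⟨bad⟩`, written additively -/
abbrev QB : Type _ := Additive (Abelianization Γ ⧸ badSub bad)

/-- the projection `Γ → Q` (multiplicative version) -/
def piM : Γ →* (Abelianization Γ ⧸ badSub bad) :=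
  (QuotientGroup.mk' (badSub bad)).comp Abelianization.of

/-- the projection `Γ → Q` -/
def piB : Additive Γ →+ QB bad := MonoidHom.toAdditive (piM bad)

theorem piM_surjective : Function.Surjective (piM bad) := by
  intro x
  obtain ⟨y, rfl⟩ := QuotientGroup.mk'_surjective (badSub bad) x
  obtain ⟨z, rfl⟩ := QuotientGroup.mk'_surjective (commutator Γ) y
  exact ⟨z, rfl⟩

theorem piB_surjective : Function.Surjective (piB bad) := by
  intro x
  obtain ⟨z, hz⟩ := piM_surjective bad (Additive.toMul x)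
  exact ⟨Additive.ofMul z, by
    show Additive.ofMul (piM bad z) = x
    rw [hz]; rfl⟩

theorem piM_bad {γ : Γ} (hγ : γ ∈ bad) : piM bad γ = 1 := by
  show (QuotientGroup.mk' (badSub bad)) (Abelianization.of γ) = 1
  rw [QuotientGroup.mk'_apply, QuotientGroup.eq_one_iff]
  exact Subgroup.subset_closure ⟨γ, hγ, rfl⟩

theorem piB_bad {γ : Γ} (hγ : γ ∈ bad) : piB bad (Additive.ofMul γ) = 0 := by
  show Additive.ofMul (piM bad γ) = 0
  rw [piM_bad bad hγ]; rfl

variable {bad}

/-- the universal property, multiplicative version -/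
def liftM {A : Type*} [CommGroup A] (f : Γ →* A) (hf : ∀ γ ∈ bad, f γ = 1) :
    (Abelianization Γ ⧸ badSub bad) →* A :=
  QuotientGroup.lift (badSub bad) (Abelianization.lift f) (by
    intro x hx
    have hle : badSub bad ≤ (Abelianization.lift f).ker := by
      rw [badSub, Subgroup.closure_le]
      rintro _ ⟨γ, hγ, rfl⟩
      rw [SetLike.mem_coe, MonoidHom.mem_ker, Abelianization.lift_apply_of]
      exact hf γ hγ
    exact hle hx)

theorem liftM_piM {A : Type*} [CommGroup A] (f : Γ →* A) (hf : ∀ γ ∈ bad, f γ = 1) (γ : Γ) :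
    liftM f hf (piM bad γ) = f γ := by
  show QuotientGroup.lift (badSub bad) (Abelianization.lift f) _
    ((QuotientGroup.mk' (badSub bad)) (Abelianization.of γ)) = f γ
  rw [QuotientGroup.mk'_apply, QuotientGroup.lift_mk, Abelianization.lift_apply_of]

/-- the universal property: a homomorphism killing `bad` factors through `Q` -/
def liftB {A : Type*} [AddCommGroup A] (φ : Additive Γ →+ A)
    (hφ : ∀ γ ∈ bad, φ (Additive.ofMul γ) = 0) : QB bad →+ A :=
  MonoidHom.toAdditiveLeft (liftM (AddMonoidHom.toMultiplicativeRight φ) (fun γ hγ => by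
    show Multiplicative.ofAdd (φ (Additive.ofMul γ)) = 1
    rw [hφ γ hγ]; rfl))

theorem liftB_piB {A : Type*} [AddCommGroup A] (φ : Additive Γ →+ A)
    (hφ : ∀ γ ∈ bad, φ (Additive.ofMul γ) = 0) (x : Additive Γ) :
    liftB φ hφ (piB bad x) = φ x := by
  show Multiplicative.toAdd (liftM (AddMonoidHom.toMultiplicativeRight φ) _
    (piM bad (Additive.toMul x))) = φ x
  rw [liftM_piM]
  rfl

variable (bad)

/-- homomorphisms from `Q` are the homomorphisms from `Γ` killing `bad` -/
noncomputable def homEquiv (K : Type*) [CommRing K] : (QB bad →+ K) ≃ₗ[K] killHoms bad K where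
  toFun ψ := ⟨ψ.comp (piB bad), fun γ hγ => by
    show ψ (piB bad (Additive.ofMul γ)) = 0
    rw [piB_bad bad hγ, map_zero]⟩
  map_add' ψ₁ ψ₂ := by
    apply Subtype.ext
    apply AddMonoidHom.ext
    intro x
    rfl
  map_smul' c ψ := by
    apply Subtype.ext
    apply AddMonoidHom.ext
    intro x
    rfl
  invFun φ := liftB φ.1 φ.2
  left_inv ψ := by
    apply AddMonoidHom.ext
    intro x
    obtain ⟨y, rfl⟩ := piB_surjective bad x
    exact liftB_piB _ _ y
  right_inv φ := by
    apply Subtype.ext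
    apply AddMonoidHom.ext
    intro x
    exact liftB_piB φ.1 φ.2 x

instance instFG_QB [Group.FG Γ] : AddGroup.FG (QB bad) := by
  have : Group.FG (Abelianization Γ) := QuotientGroup.fg (commutator Γ)
  have : Group.FG (Abelianization Γ ⧸ badSub bad) := QuotientGroup.fg (badSub bad)
  exact AddGroup.fg_of_group_fg

/-- **(d-BR)**: lifting homomorphisms to `ZMod n` killing `bad`. -/
theorem exists_lift_of_killHoms [Group.FG Γ] (g : ℕ)
    (h0 : g ≤ Module.finrank ℂ (killHoms bad ℂ))
    (hl : ∀ (ℓ : ℕ) [Fact ℓ.Prime], Module.Finite (ZMod ℓ) (killHoms bad (ZMod ℓ)) ∧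
      Module.finrank (ZMod ℓ) (killHoms bad (ZMod ℓ)) ≤ g)
    (n : ℕ) (ψ : Additive Γ →+ ZMod n) (hψ : ∀ γ ∈ bad, ψ (Additive.ofMul γ) = 0) :
    ∃ ψ' : Additive Γ →+ ℤ, (∀ γ ∈ bad, ψ' (Additive.ofMul γ) = 0) ∧
      ∀ γ : Γ, ((ψ' (Additive.ofMul γ) : ℤ) : ZMod n) = ψ (Additive.ofMul γ) := by
  have h0' : g ≤ Module.finrank ℂ (QB bad →+ ℂ) := by
    rw [(homEquiv bad ℂ).finrank_eq]
    exact h0
  have hl' : ∀ (ℓ : ℕ) [Fact ℓ.Prime], Module.Finite (ZMod ℓ) (QB bad →+ ZMod ℓ) ∧
      Module.finrank (ZMod ℓ) (QB bad →+ ZMod ℓ) ≤ g := by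
    intro ℓ _
    obtain ⟨hfin, hle⟩ := hl ℓ
    refine ⟨Module.Finite.equiv (homEquiv bad (ZMod ℓ)).symm, ?_⟩
    rw [(homEquiv bad (ZMod ℓ)).finrank_eq]
    exact hle
  obtain ⟨ψ', hψ'⟩ := exists_lift_of_finrank (Q := QB bad) g h0' hl' n (liftB ψ hψ)
  refine ⟨ψ'.comp (piB bad), fun γ hγ => ?_, fun γ => ?_⟩
  · show ψ' (piB bad (Additive.ofMul γ)) = 0
    rw [piB_bad bad hγ, map_zero]
  · show ((ψ' (piB bad (Additive.ofMul γ)) : ℤ) : ZMod n) = ψ (Additive.ofMul γ)
    rw [hψ', liftB_piB]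

end Bridge

end Fermat.Agent.S16.Lift
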