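import Fermat.Agent.S16.LiftBound
import Fermat.Agent.FF.S20Final
import Fermat.Agent.Lib.CuspFormFinDim

/-!
# S16, piece 84-P11 (d-F2) (helper7): `dim_ℂ smallTraceHoms N ℂ = 2 g`

A homomorphism `Γ₀(N) → ℂ` that kills the elements of trace `± 2` kills the elements of trace
`0` (`γ² = -1`) and of trace `± 1` (`γ³ = ∓ 1`), so `smallTraceHoms N ℂ` is the space of parabolic
homomorphisms, of dimension `2 g` by Eichler–Shimura (S21) and the dimension formula (S20).
-/

set_option autoImplicit false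
set_option linter.style.haveILetI false

open CongruenceSubgroup ModularCurve
open scoped MatrixGroups

namespace Fermat.Agent.S16

/-- In a torsion-free target, a parabolic homomorphism kills every element whose trace `t`
satisfies `t ^ 2 ≤ 4`. -/
theorem IsParabolicHom.eq_zero_of_trace_sq_le {Γ : Subgroup SL(2, ℤ)} {A : Type*} [AddCommGroup A]
    [IsAddTorsionFree A] {φ : Additive Γ →+ A} (hφ : Period.IsParabolicHom Γ φ) (γ : Γ)
    (hγ : ((γ : SL(2, ℤ)) : Matrix (Fin 2) (Fin 2) ℤ).trace ^ 2 ≤ 4) :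
    φ (Additive.ofMul γ) = 0 := by
  set t := ((γ : SL(2, ℤ)) : Matrix (Fin 2) (Fin 2) ℤ).trace with ht
  have h0 : (((γ : SL(2, ℤ)) ^ 0 : SL(2, ℤ)) : Matrix (Fin 2) (Fin 2) ℤ).trace = 2 :=
    trace_pow_zero _
  have h1 : (((γ : SL(2, ℤ)) ^ 1 : SL(2, ℤ)) : Matrix (Fin 2) (Fin 2) ℤ).trace = t := by
    rw [pow_one]
  have h2 : (((γ : SL(2, ℤ)) ^ 2 : SL(2, ℤ)) : Matrix (Fin 2) (Fin 2) ℤ).trace = t * t - 2 := by
    have := trace_pow_add_two (γ : SL(2, ℤ)) 0
    rw [zero_add, zero_add, h1, h0] at this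
    exact this
  have h3 : (((γ : SL(2, ℤ)) ^ 3 : SL(2, ℤ)) : Matrix (Fin 2) (Fin 2) ℤ).trace
      = t * (t * t - 2) - t := by
    have := trace_pow_add_two (γ : SL(2, ℤ)) 1
    rw [show 1 + 2 = 3 from rfl, show 1 + 1 = 2 from rfl, h2, h1] at this
    exact this
  -- the possible traces
  have hcases : t ^ 2 = 4 ∨ t = 0 ∨ t ^ 2 = 1 := by
    have hlo : -2 ≤ t := by nlinarith
    have hhi : t ≤ 2 := by nlinarith
    interval_cases t <;> simp
  have hpow : ∀ n : ℕ, φ (Additive.ofMul (γ ^ n)) = n • φ (Additive.ofMul γ) := by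
    intro n
    rw [ofMul_pow, map_nsmul]
  rcases hcases with h | h | h
  · exact hφ γ h
  · -- trace 0: the square has trace -2
    have hsq : φ (Additive.ofMul (γ ^ 2)) = 0 := by
      apply hφ
      rw [Subgroup.coe_pow, h2, h]
      norm_num
    rw [hpow] at hsq
    exact (nsmul_right_injective (M := A) (by norm_num : (2 : ℕ) ≠ 0)) (by simpa using hsq)
  · -- trace ± 1: the cube has trace ∓ 2
    have hcube : φ (Additive.ofMul (γ ^ 3)) = 0 := by
      apply hφ
      rw [Subgroup.coe_pow, h3]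
      have : t * (t * t - 2) - t = t * (t ^ 2 - 3) := by ring
      rw [this, h, mul_pow, h]
      norm_num
    rw [hpow] at hcube
    exact (nsmul_right_injective (M := A) (by norm_num : (3 : ℕ) ≠ 0)) (by simpa using hcube)

/-- Over `ℂ`, the homomorphisms killing the elements of small trace are exactly the parabolic
homomorphisms. -/
theorem smallTraceHoms_complex_eq (N : ℕ) :
    smallTraceHoms N ℂ = Period.parabolicHoms ℂ (Gamma0 N) ℂ := by
  ext φ
  rw [Lift.mem_killHoms, Period.mem_parabolicHoms_iff]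
  constructor
  · intro h γ hγ
    exact h γ (by
      show ((γ : SL(2, ℤ)) : Matrix (Fin 2) (Fin 2) ℤ).trace ^ 2 ≤ 4
      rw [hγ])
  · intro h γ hγ
    exact IsParabolicHom.eq_zero_of_trace_sq_le h γ hγ

/-- `dim_ℂ smallTraceHoms N ℂ = 2 g`. -/
theorem finrank_smallTraceHoms_complex (N : ℕ) [NeZero N] :
    (Module.finrank ℂ (smallTraceHoms N ℂ) : ℚ) = 2 * ModularCurve.genusFormula N := by
  obtain ⟨hinj, hrange⟩ := Fermat.Agent.FF.eichlerShimura_of_interfaces N
    (Fermat.Agent.S21.periodStatement N) (Fermat.Agent.FF.finrank_cuspForm_eq_genusFormula N)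
  haveI : FiniteDimensional ℂ (CuspForm (Gamma0 N) 2) :=
    Fermat.Agent.Lib.CuspFormFinDim.finiteDimensional N 2
  rw [smallTraceHoms_complex_eq, ← hrange, LinearMap.finrank_range_of_inj hinj,
    Module.finrank_prod]
  push_cast
  rw [Fermat.Agent.FF.finrank_cuspForm_eq_genusFormula N]
  ring

end Fermat.Agent.S16
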