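import Mathlib
import Fermat.Agent.S16.LiftBound
import Fermat.Agent.S16.LiftComplex
import Fermat.Agent.S16.LiftBridge

/-!
# S16, piece 84-P11(d): the lift, assembled

A homomorphism `Γ₀(N) → ZMod n` killing every element of trace `t` with `t ^ 2 ≤ 4` is the
reduction of a parabolic homomorphism `Γ₀(N) → ℤ`.
-/

set_option autoImplicit false

open CongruenceSubgroup
open scoped MatrixGroups

namespace Fermat.Agent.S16

theorem groupFG_SL2Z : Group.FG SL(2, ℤ) := by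
  rw [Group.fg_iff]
  refine ⟨{ModularGroup.S, ModularGroup.T}, ?_, by simp⟩
  exact _root_.SpecialLinearGroup.SL2Z_generators

theorem groupFG_Gamma0 (N : ℕ) [NeZero N] : Group.FG (Gamma0 N) := by
  have := groupFG_SL2Z
  exact Subgroup.fg_of_index_ne_zero (H := Gamma0 N)

/-- **84-P11(d)**: the lift of a homomorphism to `ZMod n` killing the elements of small trace. -/
theorem exists_parabolic_lift (N : ℕ) [NeZero N] (n : ℕ)
    (ψ : Additive (Gamma0 N) →+ ZMod n)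
    (hψ : ∀ γ : Gamma0 N,
      ((γ : SL(2, ℤ)) : Matrix (Fin 2) (Fin 2) ℤ).trace ^ 2 ≤ 4 → ψ (Additive.ofMul γ) = 0) :
    ∃ ψ' : Additive (Gamma0 N) →+ ℤ,
      ModularCurve.Period.IsParabolicHom (Gamma0 N) ψ' ∧
      ∀ γ : Gamma0 N, ((ψ' (Additive.ofMul γ) : ℤ) : ZMod n) = ψ (Additive.ofMul γ) := by
  have hF2 := finrank_smallTraceHoms_complex N
  have hFG := groupFG_Gamma0 N
  obtain ⟨ψ', h1, h2⟩ := Lift.exists_lift_of_killHoms (smallTrace N)
    (Module.finrank ℂ (smallTraceHoms N ℂ)) le_rfl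
    (fun ℓ _ => by
      refine ⟨(smallTraceHoms_bound N (ZMod ℓ)).1, ?_⟩
      have h3 := (smallTraceHoms_bound N (ZMod ℓ)).2
      rw [← hF2] at h3
      exact_mod_cast h3) n ψ (fun γ hγ => hψ γ hγ)
  refine ⟨ψ', fun γ hγ => h1 γ ?_, h2⟩
  show ((γ : SL(2, ℤ)) : Matrix (Fin 2) (Fin 2) ℤ).trace ^ 2 ≤ 4
  rw [hγ]

end Fermat.Agent.S16
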