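import Fermat.Agent.S16.HeckeHomT
import Fermat.Prelude.Def_ModularCurve_PeriodHomPair

/-!
# S16, piece 84-P11 (b), piece X: the Hecke operators on `Hom(Γ₀(N), A)` commute with the
involution `charInvolution` (conjugation by `J = diag(-1, 1)`).
-/

set_option autoImplicit false

open scoped MatrixGroups
open CongruenceSubgroup ModularCurve ModularCurve.Period Matrix.SpecialLinearGroup
open P2MW.S_ModularForm_heckeT_slash_eq_self_of_mem_Gamma0.ModularForm.HeckeSlashInvariance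

namespace Fermat.Agent.S16

theorem jGL_mul_mapGL (δ : SL(2, ℤ)) :
    UpperHalfPlane.J * mapGL ℝ δ = mapGL ℝ (jConjSL δ) * UpperHalfPlane.J := by
  ext i j
  fin_cases i <;> fin_cases j <;>
    simp [Matrix.mul_apply, Fin.sum_univ_two, jConjMat]

theorem jGL_inv : (UpperHalfPlane.J)⁻¹ = UpperHalfPlane.J := by
  rw [inv_eq_iff_mul_eq_one]
  have := UpperHalfPlane.J_sq
  rwa [sq] at this

/-- the automorphism `jConjGamma0` as a `MulEquiv`. -/
def jConjEquiv (N : ℕ) : Gamma0 N ≃* Gamma0 N where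
  toFun := jConjGamma0 N
  invFun := jConjGamma0 N
  left_inv := jConjGamma0_jConjGamma0 N
  right_inv := jConjGamma0_jConjGamma0 N
  map_mul' := map_mul _

theorem jConjEquiv_toMonoidHom (N : ℕ) : (jConjEquiv N).toMonoidHom = jConjGamma0 N := rfl

theorem conjJ_gammaToGL (N : ℕ) (γ : Gamma0 N) :
    MulAut.conj UpperHalfPlane.J (gammaToGL N γ) = gammaToGL N (jConjEquiv N γ) := by
  rw [MulAut.conj_apply, gammaToGL_apply, jGL_mul_mapGL, mul_assoc, mul_inv_cancel, mul_one]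
  rfl

/-- the translation `T ^ m` as an element of `Γ₀(N)`. -/
def transGamma0 (N : ℕ) (m : ℤ) : Gamma0 N :=
  ⟨ModularGroup.T ^ m, by
    rw [Gamma0_mem, ModularGroup.coe_T_zpow]
    simp⟩

theorem val_gammaToGL_trans (N : ℕ) (m : ℤ) :
    ((gammaToGL N (transGamma0 N m) : GL (Fin 2) ℝ) : Matrix (Fin 2) (Fin 2) ℝ)
      = !![(1 : ℝ), (m : ℝ); 0, 1] := by
  ext i j
  rw [gammaToGL_apply, mapGL_entry]
  change (((ModularGroup.T ^ m : SL(2, ℤ)) i j : ℤ) : ℝ) = _
  rw [ModularGroup.coe_T_zpow]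
  fin_cases i <;> fin_cases j <;> simp

/-- conjugation by `J` of an upper triangular matrix `[[1, j], [0, q]]`. -/
theorem conjJ_upper (N : ℕ) (q : ℕ) [NeZero q] (j : ZMod q) (M M' : GL (Fin 2) ℝ)
    (hM : (M : Matrix (Fin 2) (Fin 2) ℝ) = !![(1 : ℝ), ((j.val : ℕ) : ℝ); 0, (q : ℝ)])
    (hM' : (M' : Matrix (Fin 2) (Fin 2) ℝ) = !![(1 : ℝ), (((-j).val : ℕ) : ℝ); 0, (q : ℝ)]) :
    ∃ t : Gamma0 N, MulAut.conj UpperHalfPlane.J M = gammaToGL N t * M' := by
  -- `j.val + (-j).val = k * q`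
  have hdvd : q ∣ j.val + (-j).val := by
    rw [← ZMod.natCast_eq_zero_iff]
    push_cast
    rw [ZMod.natCast_zmod_val, ZMod.natCast_zmod_val]
    ring
  obtain ⟨k, hk⟩ := hdvd
  refine ⟨transGamma0 N (-(k : ℤ)), ?_⟩
  rw [MulAut.conj_apply, jGL_inv]
  apply Units.ext
  rw [Units.val_mul, Units.val_mul, Units.val_mul, val_gammaToGL_trans, hM, hM',
    UpperHalfPlane.val_J]
  have hk' : ((j.val : ℕ) : ℝ) + (((-j).val : ℕ) : ℝ) = (k : ℝ) * (q : ℝ) := by
    have := congrArg (Nat.cast : ℕ → ℝ) hk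
    push_cast at this
    linarith
  have hk'' : ((ZMod.cast j : ℝ)) + ((ZMod.cast (-j) : ℝ)) = (k : ℝ) * (q : ℝ) := by
    rw [← ZMod.natCast_val, ← ZMod.natCast_val]; exact hk'
  ext a b
  fin_cases a <;> fin_cases b <;>
    simp [Matrix.mul_apply, Fin.sum_univ_two]
  linarith

section T

variable (N ℓ : ℕ) [Fact ℓ.Prime]

theorem conjJ_heckeRep (x : OnePoint (ZMod ℓ)) :
    ∃ (t : Gamma0 N) (y : OnePoint (ZMod ℓ)),
      MulAut.conj UpperHalfPlane.J (heckeRep ℓ x) = gammaToGL N t * heckeRep ℓ y := by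
  have : NeZero ℓ := ⟨(Fact.out : ℓ.Prime).ne_zero⟩
  induction x using OnePoint.rec with
  | infty =>
    refine ⟨1, OnePoint.infty, ?_⟩
    rw [map_one, one_mul, MulAut.conj_apply, jGL_inv]
    apply Units.ext
    rw [Units.val_mul, Units.val_mul, val_heckeRep_infty, UpperHalfPlane.val_J]
    ext a b
    fin_cases a <;> fin_cases b <;>
      simp [Matrix.mul_apply, Fin.sum_univ_two]
  | coe j =>
    obtain ⟨t, ht⟩ := conjJ_upper N ℓ j (heckeRep ℓ (j : OnePoint (ZMod ℓ)))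
      (heckeRep ℓ ((-j : ZMod ℓ) : OnePoint (ZMod ℓ)))
      (by rw [val_heckeRep_coe]; simp) (by rw [val_heckeRep_coe]; simp)
    exact ⟨t, _, ht⟩

end T

variable {N : ℕ} {A : Type*} [AddCommGroup A]

/-- `tau_ℓ` commutes with the involution. -/
theorem heckeHomT_charInvolution (ℓ : ℕ) [Fact ℓ.Prime] (hℓN : ¬ ℓ ∣ N)
    (ψ : Additive (Gamma0 N) →+ A) :
    heckeHomT N ℓ hℓN (ModularCurve.Period.charInvolution N ℤ A ψ)
      = ModularCurve.Period.charInvolution N ℤ A (heckeHomT N ℓ hℓN ψ) :=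
  (datumT N ℓ hℓN).tau_comp_aut (jConjEquiv N) (MulAut.conj UpperHalfPlane.J)
    (fun γ => conjJ_gammaToGL N γ) (fun x => conjJ_heckeRep N ℓ x) ψ

/-- `tau_q` commutes with the involution. -/
theorem heckeHomU_charInvolution (q : ℕ) [NeZero q] (hqN : q ∣ N)
    (ψ : Additive (Gamma0 N) →+ A) :
    heckeHomU N q hqN (ModularCurve.Period.charInvolution N ℤ A ψ)
      = ModularCurve.Period.charInvolution N ℤ A (heckeHomU N q hqN ψ) :=
  (datumU N q hqN).tau_comp_aut (jConjEquiv N) (MulAut.conj UpperHalfPlane.J)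
    (fun γ => conjJ_gammaToGL N γ)
    (fun x => by
      obtain ⟨t, ht⟩ := conjJ_upper N q x (ModularForm.heckeMatrix q x.val)
        (ModularForm.heckeMatrix q (-x).val)
        (by rw [ModularForm.val_heckeMatrix (NeZero.ne q)])
        (by rw [ModularForm.val_heckeMatrix (NeZero.ne q)])
      exact ⟨t, -x, ht⟩) ψ

end Fermat.Agent.S16
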