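import Mathlib

/-!
# S16, piece 84-P11 (a), abstract part: Hecke operators on `Hom(Γ, A)` from a coset datum

`ι : Γ →* G` injective, `rep : X → G` (finitely many representatives) with
* `rep x * ι γ ∈ ι Γ * rep X` for all `γ`, `x`;
* the cosets `ι Γ * rep x` are pairwise different.
Then `γ` permutes `X` (`next γ`), there is a cocycle `coc γ x ∈ Γ` with
`rep x * ι γ = ι (coc γ x) * rep (next γ x)`, and `(tau ψ)(γ) = ∑ x, ψ (coc γ x)` is an endomorphism
of `Hom(Γ, A)`, natural in `A`.
-/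

set_option autoImplicit false

namespace Fermat.Agent.S16

/-- An abstract double coset datum. -/
structure CosetDatum (Γ G X : Type*) [Group Γ] [Group G] where
  /-- the embedding of `Γ` -/
  ι : Γ →* G
  ι_inj : Function.Injective ι
  /-- the representatives -/
  rep : X → G
  exists_mul : ∀ (γ : Γ) (x : X), ∃ (γ' : Γ) (x' : X), rep x * ι γ = ι γ' * rep x'
  rep_inj : ∀ (γ : Γ) (x x' : X), ι γ * rep x = rep x' → x = x'

namespace CosetDatum

variable {Γ G X : Type*} [Group Γ] [Group G] (D : CosetDatum Γ G X)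

/-- the cocycle -/
noncomputable def coc (γ : Γ) (x : X) : Γ := (D.exists_mul γ x).choose

/-- the permutation of the representatives (as a function) -/
noncomputable def next (γ : Γ) (x : X) : X := (D.exists_mul γ x).choose_spec.choose

theorem spec (γ : Γ) (x : X) : D.rep x * D.ι γ = D.ι (D.coc γ x) * D.rep (D.next γ x) :=
  (D.exists_mul γ x).choose_spec.choose_spec

theorem unique {γ γ' : Γ} {x x' : X} (h : D.rep x * D.ι γ = D.ι γ' * D.rep x') :
    x' = D.next γ x ∧ γ' = D.coc γ x := by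
  have h1 : D.ι ((D.coc γ x)⁻¹ * γ') * D.rep x' = D.rep (D.next γ x) := by
    rw [map_mul, map_inv, mul_assoc, ← h, D.spec γ x, ← mul_assoc, inv_mul_cancel, one_mul]
  have hx : x' = D.next γ x := D.rep_inj _ _ _ h1
  refine ⟨hx, ?_⟩
  rw [hx] at h1
  have h2 : D.ι ((D.coc γ x)⁻¹ * γ') = 1 := by
    have := congrArg (· * (D.rep (D.next γ x))⁻¹) h1
    simpa [mul_assoc] using this
  have h3 : (D.coc γ x)⁻¹ * γ' = 1 := D.ι_inj (by rw [h2, map_one])
  exact (inv_mul_eq_one.mp h3).symm

theorem next_one (x : X) : D.next 1 x = x :=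
  ((D.unique (γ := 1) (γ' := 1) (x := x) (x' := x) (by simp)).1).symm

theorem coc_one (x : X) : D.coc 1 x = 1 :=
  ((D.unique (γ := 1) (γ' := 1) (x := x) (x' := x) (by simp)).2).symm

theorem mul_aux (γ δ : Γ) (x : X) :
    D.rep x * D.ι (γ * δ)
      = D.ι (D.coc γ x * D.coc δ (D.next γ x)) * D.rep (D.next δ (D.next γ x)) := by
  rw [map_mul, ← mul_assoc, D.spec γ x, mul_assoc, D.spec δ, ← mul_assoc, map_mul]

theorem next_mul (γ δ : Γ) (x : X) : D.next (γ * δ) x = D.next δ (D.next γ x) :=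
  ((D.unique (D.mul_aux γ δ x)).1).symm

theorem coc_mul (γ δ : Γ) (x : X) :
    D.coc (γ * δ) x = D.coc γ x * D.coc δ (D.next γ x) :=
  ((D.unique (D.mul_aux γ δ x)).2).symm

/-- the permutation of the representatives -/
noncomputable def perm (γ : Γ) : Equiv.Perm X where
  toFun := D.next γ
  invFun := D.next γ⁻¹
  left_inv x := by rw [← D.next_mul, mul_inv_cancel, D.next_one]
  right_inv x := by rw [← D.next_mul, inv_mul_cancel, D.next_one]

@[simp] theorem perm_apply (γ : Γ) (x : X) : D.perm γ x = D.next γ x := rfl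

theorem next_pow (γ : Γ) (k : ℕ) (x : X) : D.next (γ ^ k) x = ((D.perm γ) ^ k) x := by
  induction k generalizing x with
  | zero => simp [D.next_one]
  | succ k ih =>
    rw [pow_succ', D.next_mul, ih, pow_succ, Equiv.Perm.mul_apply, perm_apply]

section tau

variable [Fintype X] {A : Type*} [AddCommGroup A]

/-- the Hecke operator on homomorphisms -/
noncomputable def tau (ψ : Additive Γ →+ A) : Additive Γ →+ A where
  toFun γ := ∑ x : X, ψ (Additive.ofMul (D.coc (Additive.toMul γ) x))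
  map_zero' := by
    refine Finset.sum_eq_zero fun x _ => ?_
    rw [toMul_zero, D.coc_one, ofMul_one, map_zero]
  map_add' γ δ := by
    have h : ∀ x : X, ψ (Additive.ofMul (D.coc (Additive.toMul (γ + δ)) x))
        = ψ (Additive.ofMul (D.coc (Additive.toMul γ) x))
          + ψ (Additive.ofMul (D.coc (Additive.toMul δ) (D.perm (Additive.toMul γ) x))) := by
      intro x
      rw [toMul_add, D.coc_mul, ofMul_mul, map_add, perm_apply]
    simp only [h, Finset.sum_add_distrib]
    congr 1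
    exact Equiv.sum_comp (D.perm (Additive.toMul γ))
      (fun y => ψ (Additive.ofMul (D.coc (Additive.toMul δ) y)))

theorem tau_apply (ψ : Additive Γ →+ A) (γ : Γ) :
    D.tau ψ (Additive.ofMul γ) = ∑ x : X, ψ (Additive.ofMul (D.coc γ x)) := rfl

/-- `tau` is additive -/
noncomputable def tauHom : (Additive Γ →+ A) →+ (Additive Γ →+ A) where
  toFun := D.tau
  map_zero' := by
    refine AddMonoidHom.ext fun γ => ?_
    change ∑ x : X, (0 : Additive Γ →+ A) _ = 0
    simp
  map_add' ψ φ := by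
    refine AddMonoidHom.ext fun γ => ?_
    change ∑ x : X, (ψ + φ) _ = (∑ x : X, ψ _) + ∑ x : X, φ _
    simp [Finset.sum_add_distrib]

@[simp] theorem tauHom_apply (ψ : Additive Γ →+ A) : D.tauHom ψ = D.tau ψ := rfl

theorem tau_add (ψ φ : Additive Γ →+ A) : D.tau (ψ + φ) = D.tau ψ + D.tau φ :=
  map_add D.tauHom ψ φ

theorem tau_sub (ψ φ : Additive Γ →+ A) : D.tau (ψ - φ) = D.tau ψ - D.tau φ :=
  map_sub D.tauHom ψ φ

theorem tau_zsmul (n : ℤ) (ψ : Additive Γ →+ A) : D.tau (n • ψ) = n • D.tau ψ :=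
  map_zsmul D.tauHom n ψ

theorem tau_nsmul (n : ℕ) (ψ : Additive Γ →+ A) : D.tau (n • ψ) = n • D.tau ψ :=
  map_nsmul D.tauHom n ψ

/-- naturality in the coefficient group -/
theorem tau_comp {B : Type*} [AddCommGroup B] (φ : A →+ B) (ψ : Additive Γ →+ A) :
    D.tau (φ.comp ψ) = φ.comp (D.tau ψ) := by
  refine AddMonoidHom.ext fun γ => ?_
  change ∑ x : X, φ (ψ _) = φ (∑ x : X, ψ _)
  rw [map_sum]

omit [Fintype X] in
/-- the cocycle of a power, summed along the orbit -/
theorem sum_coc_pow (ψ : Additive Γ →+ A) (γ : Γ) (k : ℕ) (x : X) :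
    ψ (Additive.ofMul (D.coc (γ ^ k) x))
      = ∑ j ∈ Finset.range k, ψ (Additive.ofMul (D.coc γ (((D.perm γ) ^ j) x))) := by
  induction k with
  | zero => simp [D.coc_one]
  | succ k ih =>
    rw [pow_succ, D.coc_mul, ofMul_mul, map_add, ih, Finset.sum_range_succ, D.next_pow]

/-- If `ψ` vanishes on a class `P` of elements that is stable under powers and under the
"conjugations" `γ ↦ γ'` (`rep x * ι γ = ι γ' * rep x`), and `A` is torsion free, then `tau ψ`
vanishes on `P`. -/
theorem tau_vanish [IsAddTorsionFree A] (P : Γ → Prop)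
    (hpow : ∀ γ, P γ → ∀ k : ℕ, P (γ ^ k))
    (hconj : ∀ (γ γ' : Γ) (x : X), D.rep x * D.ι γ = D.ι γ' * D.rep x → P γ → P γ')
    (ψ : Additive Γ →+ A) (hψ : ∀ γ, P γ → ψ (Additive.ofMul γ) = 0)
    (γ : Γ) (hγ : P γ) : D.tau ψ (Additive.ofMul γ) = 0 := by
  classical
  set K := orderOf (D.perm γ) with hK
  have hKpos : 0 < K := orderOf_pos (D.perm γ)
  have hfix : ∀ x : X, D.next (γ ^ K) x = x := by
    intro x
    rw [D.next_pow, hK, pow_orderOf_eq_one, Equiv.Perm.one_apply]
  have h0 : ∀ x : X, ψ (Additive.ofMul (D.coc (γ ^ K) x)) = 0 := by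
    intro x
    refine hψ _ (hconj (γ ^ K) _ x ?_ (hpow γ hγ K))
    have := D.spec (γ ^ K) x
    rwa [hfix x] at this
  have h1 : ∑ x : X, ∑ j ∈ Finset.range K,
      ψ (Additive.ofMul (D.coc γ (((D.perm γ) ^ j) x))) = 0 := by
    refine Finset.sum_eq_zero fun x _ => ?_
    rw [← D.sum_coc_pow ψ γ K x, h0 x]
  rw [Finset.sum_comm] at h1
  have h2 : ∀ j ∈ Finset.range K, ∑ x : X, ψ (Additive.ofMul (D.coc γ (((D.perm γ) ^ j) x)))
      = ∑ x : X, ψ (Additive.ofMul (D.coc γ x)) := by
    intro j _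
    exact Equiv.sum_comp ((D.perm γ) ^ j) (fun y => ψ (Additive.ofMul (D.coc γ y)))
  rw [Finset.sum_congr rfl h2, Finset.sum_const, Finset.card_range] at h1
  rw [tau_apply]
  refine (nsmul_right_injective hKpos.ne') ?_
  change K • ∑ x : X, ψ (Additive.ofMul (D.coc γ x)) = K • (0 : A)
  rw [h1, nsmul_zero]

/-- compatibility with an automorphism of `Γ` induced by an automorphism of `G` that permutes the
cosets of the representatives. -/
theorem tau_comp_aut (θ : Γ ≃* Γ) (Θ : G ≃* G) (hΘ : ∀ γ, Θ (D.ι γ) = D.ι (θ γ))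
    (hrep : ∀ x : X, ∃ (t : Γ) (y : X), Θ (D.rep x) = D.ι t * D.rep y)
    (ψ : Additive Γ →+ A) :
    D.tau (ψ.comp (MonoidHom.toAdditive θ.toMonoidHom))
      = (D.tau ψ).comp (MonoidHom.toAdditive θ.toMonoidHom) := by
  classical
  choose t bar hbar using hrep
  -- `bar` is injective, hence bijective
  have hbar_inj : Function.Injective bar := by
    intro x y hxy
    have h1 := hbar x
    have h2 := hbar y
    rw [hxy] at h1
    have h3 : Θ (D.rep x) = D.ι (t x * (t y)⁻¹) * Θ (D.rep y) := by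
      rw [h1, h2, map_mul, map_inv, mul_assoc, inv_mul_cancel_left]
    have h4 : Θ (D.rep x) = Θ (D.ι (θ.symm (t x * (t y)⁻¹)) * D.rep y) := by
      rw [map_mul, hΘ, MulEquiv.apply_symm_apply]
      exact h3
    have h5 := Θ.injective h4
    exact (D.rep_inj _ _ _ h5.symm).symm
  have hbar_bij : Function.Bijective bar := Finite.injective_iff_bijective.mp hbar_inj
  let e : X ≃ X := Equiv.ofBijective bar hbar_bij
  -- the transformed cocycle
  have key : ∀ (γ : Γ) (x : X),
      D.coc (θ γ) (bar x) = (t x)⁻¹ * θ (D.coc γ x) * t (D.next γ x)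
        ∧ D.next (θ γ) (bar x) = bar (D.next γ x) := by
    intro γ x
    have h := congrArg Θ (D.spec γ x)
    rw [map_mul, map_mul, hΘ, hΘ, hbar x, hbar (D.next γ x)] at h
    have h' : D.rep (bar x) * D.ι (θ γ)
        = D.ι ((t x)⁻¹ * θ (D.coc γ x) * t (D.next γ x)) * D.rep (bar (D.next γ x)) := by
      have := congrArg ((D.ι (t x))⁻¹ * ·) h
      simp only [mul_assoc, inv_mul_cancel_left] at this
      rw [this]
      simp only [map_mul, map_inv, mul_assoc]
    obtain ⟨h1, h2⟩ := D.unique h'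
    exact ⟨h2.symm, h1.symm⟩
  refine AddMonoidHom.ext fun γ => ?_
  change ∑ x : X, ψ (Additive.ofMul (θ (D.coc (Additive.toMul γ) x)))
    = ∑ x : X, ψ (Additive.ofMul (D.coc (θ (Additive.toMul γ)) x))
  set g := Additive.toMul γ with hg
  rw [← Equiv.sum_comp e (fun y => ψ (Additive.ofMul (D.coc (θ g) y)))]
  have h2 : ∀ x : X, ψ (Additive.ofMul (D.coc (θ g) (e x)))
      = ψ (Additive.ofMul (θ (D.coc g x)))
        + (ψ (Additive.ofMul (t (D.perm g x))) - ψ (Additive.ofMul (t x))) := by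
    intro x
    change ψ (Additive.ofMul (D.coc (θ g) (bar x))) = _
    rw [(key g x).1, ofMul_mul, ofMul_mul, map_add, map_add, ofMul_inv, map_neg, perm_apply]
    abel
  rw [Finset.sum_congr rfl (fun x _ => h2 x), Finset.sum_add_distrib, Finset.sum_sub_distrib,
    Equiv.sum_comp (D.perm g) (fun y => ψ (Additive.ofMul (t y))), sub_self, add_zero]

end tau

end CosetDatum

end Fermat.Agent.S16
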