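import Mathlib
import Fermat.Prelude.Thm_ModularForm_heckeT_slash_eq_self_of_mem_Gamma0
import Fermat.Prelude.Thm_ModularForm_heckeU_slash_eq_self_of_mem_Gamma0
import Fermat.Prelude.Def_ModularCurve_PeriodMap
import Fermat.Agent.S16.HeckeHomAbs

/-!
# S16, piece 84-P11 (a): the Hecke operators `tau_l` (`l ∤ N`) and `tau_q` (`q ∣ N`) on
`Hom(Γ₀(N), A)`, natural in `A`, preserving parabolic homomorphisms (for torsion free `A`).
-/

set_option autoImplicit false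

namespace Fermat.Agent.S16

open Matrix.SpecialLinearGroup CongruenceSubgroup
open scoped MatrixGroups
open P2MW.S_ModularForm_heckeT_slash_eq_self_of_mem_Gamma0.ModularForm.HeckeSlashInvariance

/-- the embedding `Γ₀(N) → GL₂(ℝ)` -/
noncomputable def gammaToGL (N : ℕ) : Gamma0 N →* GL (Fin 2) ℝ :=
  (mapGL ℝ).comp (Gamma0 N).subtype

theorem gammaToGL_apply (N : ℕ) (γ : Gamma0 N) : gammaToGL N γ = mapGL ℝ (γ : SL(2, ℤ)) := rfl

theorem gammaToGL_injective (N : ℕ) : Function.Injective (gammaToGL N) :=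
  (mapGL_injective (R := ℤ) (S := ℝ)).comp Subtype.val_injective

theorem mapGL_entry (g : SL(2, ℤ)) (i j : Fin 2) :
    ((mapGL ℝ g : GL (Fin 2) ℝ) : Matrix (Fin 2) (Fin 2) ℝ) i j = ((g i j : ℤ) : ℝ) := by
  simp

theorem sl_det_eq (g : SL(2, ℤ)) : g 0 0 * g 1 1 - g 0 1 * g 1 0 = 1 := by
  have h := g.det_coe
  rwa [Matrix.det_fin_two] at h

/-- Hermite normal form uniqueness: if `g * [[a, b], [0, d]] = [[a', b'], [0, d']]` with positive
`a, a'` then `a = a'`, `d = d'` and `b' = b + g₀₁ d`. -/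
theorem upper_unique (g : SL(2, ℤ)) (a b d a' b' d' : ℤ) (ha : 0 < a) (ha' : 0 < a')
    (M M' : GL (Fin 2) ℝ)
    (hM : (M : Matrix (Fin 2) (Fin 2) ℝ) = !![(a : ℝ), (b : ℝ); 0, (d : ℝ)])
    (hM' : (M' : Matrix (Fin 2) (Fin 2) ℝ) = !![(a' : ℝ), (b' : ℝ); 0, (d' : ℝ)])
    (h : mapGL ℝ g * M = M') :
    a = a' ∧ d = d' ∧ b' = b + g 0 1 * d := by
  have hmat : ((mapGL ℝ g : GL (Fin 2) ℝ) : Matrix (Fin 2) (Fin 2) ℝ) * (M : Matrix _ _ ℝ)
      = (M' : Matrix _ _ ℝ) := by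
    rw [← h]; rfl
  rw [hM, hM'] at hmat
  have e00 := congrFun (congrFun hmat 0) 0
  have e01 := congrFun (congrFun hmat 0) 1
  have e10 := congrFun (congrFun hmat 1) 0
  have e11 := congrFun (congrFun hmat 1) 1
  simp only [Matrix.mul_apply, Fin.sum_univ_two, mapGL_entry, Matrix.of_apply, Matrix.cons_val',
    Matrix.cons_val_zero, Matrix.cons_val_one, Matrix.cons_val_fin_one, mul_zero, add_zero]
    at e00 e01 e10 e11
  have i00 : g 0 0 * a = a' := by exact_mod_cast e00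
  have i01 : g 0 0 * b + g 0 1 * d = b' := by exact_mod_cast e01
  have i10 : g 1 0 * a = 0 := by exact_mod_cast e10
  have i11 : g 1 0 * b + g 1 1 * d = d' := by exact_mod_cast e11
  have hc : g 1 0 = 0 := by
    rcases mul_eq_zero.mp i10 with h | h
    · exact h
    · exact absurd h ha.ne'
  have hdet := sl_det_eq g
  rw [hc, mul_zero, sub_zero] at hdet
  have hg00 : g 0 0 = 1 := by
    rcases Int.eq_one_or_neg_one_of_mul_eq_one hdet with h | h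
    · exact h
    · exfalso
      rw [h] at i00
      linarith
  have hg11 : g 1 1 = 1 := by rw [hg00, one_mul] at hdet; exact hdet
  refine ⟨?_, ?_, ?_⟩
  · rw [hg00, one_mul] at i00; exact i00
  · rw [hc, hg11, zero_mul, zero_add, one_mul] at i11; exact i11
  · rw [hg00, one_mul] at i01; exact i01.symm

/-- entries of the cocycle: if `[[a, b], [0, d]] * g = g' * [[a', b'], [0, d']]` then
`g'₀₀ a' = a g₀₀ + b g₁₀`, `g'₁₀ a' = d g₁₀`, `g'₁₀ b' + g'₁₁ d' = d g₁₁`. -/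
theorem upper_entries (g g' : SL(2, ℤ)) (a b d a' b' d' : ℤ)
    (M M' : GL (Fin 2) ℝ)
    (hM : (M : Matrix (Fin 2) (Fin 2) ℝ) = !![(a : ℝ), (b : ℝ); 0, (d : ℝ)])
    (hM' : (M' : Matrix (Fin 2) (Fin 2) ℝ) = !![(a' : ℝ), (b' : ℝ); 0, (d' : ℝ)])
    (h : M * mapGL ℝ g = mapGL ℝ g' * M') :
    g' 0 0 * a' = a * g 0 0 + b * g 1 0 ∧ g' 1 0 * a' = d * g 1 0
      ∧ g' 1 0 * b' + g' 1 1 * d' = d * g 1 1 := by
  have hmat : (M : Matrix _ _ ℝ) * ((mapGL ℝ g : GL (Fin 2) ℝ) : Matrix (Fin 2) (Fin 2) ℝ)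
      = ((mapGL ℝ g' : GL (Fin 2) ℝ) : Matrix (Fin 2) (Fin 2) ℝ) * (M' : Matrix _ _ ℝ) := by
    rw [← Units.val_mul, ← Units.val_mul, h]
  rw [hM, hM'] at hmat
  have e00 := congrFun (congrFun hmat 0) 0
  have e10 := congrFun (congrFun hmat 1) 0
  have e11 := congrFun (congrFun hmat 1) 1
  simp only [Matrix.mul_apply, Fin.sum_univ_two, mapGL_entry, Matrix.of_apply, Matrix.cons_val',
    Matrix.cons_val_zero, Matrix.cons_val_one, Matrix.cons_val_fin_one, mul_zero, add_zero,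
    zero_mul, zero_add] at e00 e10 e11
  refine ⟨?_, ?_, ?_⟩
  · exact_mod_cast e00.symm
  · exact_mod_cast e10.symm
  · exact_mod_cast e11.symm

section T

variable (N ℓ : ℕ) [Fact ℓ.Prime]

theorem val_heckeRep_coe (j : ZMod ℓ) :
    ((heckeRep ℓ (j : OnePoint (ZMod ℓ)) : GL (Fin 2) ℝ) : Matrix (Fin 2) (Fin 2) ℝ)
      = !![((1 : ℤ) : ℝ), ((j.val : ℤ) : ℝ); 0, ((ℓ : ℤ) : ℝ)] := by
  rw [heckeRep_coe, ModularForm.val_heckeMatrix (Fact.out : ℓ.Prime).ne_zero]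
  simp

theorem val_heckeRep_infty :
    ((heckeRep ℓ (OnePoint.infty : OnePoint (ZMod ℓ)) : GL (Fin 2) ℝ) : Matrix (Fin 2) (Fin 2) ℝ)
      = !![((ℓ : ℤ) : ℝ), ((0 : ℤ) : ℝ); 0, ((1 : ℤ) : ℝ)] := by
  rw [heckeRep_infty, ModularForm.val_heckeDiagMatrix (Fact.out : ℓ.Prime).ne_zero]
  simp

theorem heckeRep_inj (g : SL(2, ℤ)) (x x' : OnePoint (ZMod ℓ))
    (h : mapGL ℝ g * heckeRep ℓ x = heckeRep ℓ x') : x = x' := by
  have hℓ1 : (1 : ℤ) < ℓ := by exact_mod_cast (Fact.out : ℓ.Prime).one_lt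
  have hℓ0 : (0 : ℤ) < ℓ := by linarith
  have : NeZero ℓ := ⟨(Fact.out : ℓ.Prime).ne_zero⟩
  induction x using OnePoint.rec with
  | infty =>
    induction x' using OnePoint.rec with
    | infty => rfl
    | coe j' =>
      exfalso
      obtain ⟨h1, -, -⟩ := upper_unique g ℓ 0 1 1 j'.val ℓ hℓ0 one_pos _ _
        (val_heckeRep_infty ℓ) (val_heckeRep_coe ℓ j') h
      linarith
  | coe j =>
    induction x' using OnePoint.rec with
    | infty =>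
      exfalso
      obtain ⟨h1, -, -⟩ := upper_unique g 1 j.val ℓ ℓ 0 1 one_pos hℓ0 _ _
        (val_heckeRep_coe ℓ j) (val_heckeRep_infty ℓ) h
      linarith
    | coe j' =>
      obtain ⟨-, -, h3⟩ := upper_unique g 1 j.val ℓ 1 j'.val ℓ one_pos one_pos _ _
        (val_heckeRep_coe ℓ j) (val_heckeRep_coe ℓ j') h
      have h4 := congrArg (Int.cast : ℤ → ZMod ℓ) h3
      push_cast at h4
      rw [ZMod.natCast_zmod_val, ZMod.natCast_zmod_val, ZMod.natCast_self, mul_zero,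
        add_zero] at h4
      rw [h4]

/-- the coset datum of `T_ℓ`, `ℓ ∤ N` -/
noncomputable def datumT (hℓN : ¬ ℓ ∣ N) : CosetDatum (Gamma0 N) (GL (Fin 2) ℝ) (OnePoint (ZMod ℓ)) where
  ι := gammaToGL N
  ι_inj := gammaToGL_injective N
  rep := heckeRep ℓ
  exists_mul γ x := by
    have hγ : (N : ℤ) ∣ (γ : SL(2, ℤ)) 1 0 :=
      (ZMod.intCast_zmod_eq_zero_iff_dvd _ _).mp (Gamma0_mem.mp γ.2)
    obtain ⟨g', hg', hmul⟩ := heckeRep_mul hℓN (γ : SL(2, ℤ)) hγ x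
    exact ⟨⟨g', Gamma0_mem.mpr ((ZMod.intCast_zmod_eq_zero_iff_dvd _ _).mpr hg')⟩, _, hmul⟩
  rep_inj γ x x' h := heckeRep_inj ℓ (γ : SL(2, ℤ)) x x' h

end T

section U

variable (N q : ℕ) [NeZero q]

theorem heckeMatrix_inj (g : SL(2, ℤ)) (j j' : ZMod q)
    (h : mapGL ℝ g * ModularForm.heckeMatrix q j.val = ModularForm.heckeMatrix q j'.val) :
    j = j' := by
  have hq : q ≠ 0 := NeZero.ne q
  have v : ∀ i : ZMod q, ((ModularForm.heckeMatrix q i.val : GL (Fin 2) ℝ) :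
      Matrix (Fin 2) (Fin 2) ℝ) = !![((1 : ℤ) : ℝ), ((i.val : ℤ) : ℝ); 0, ((q : ℤ) : ℝ)] := by
    intro i
    rw [ModularForm.val_heckeMatrix hq]
    simp
  obtain ⟨-, -, h3⟩ := upper_unique g 1 j.val q 1 j'.val q one_pos one_pos _ _ (v j) (v j') h
  have h4 := congrArg (Int.cast : ℤ → ZMod q) h3
  push_cast at h4
  rw [ZMod.natCast_zmod_val, ZMod.natCast_zmod_val, ZMod.natCast_self, mul_zero,
    add_zero] at h4
  exact h4.symm

/-- the coset datum of `U_q`, `q ∣ N` -/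
noncomputable def datumU (hqN : q ∣ N) : CosetDatum (Gamma0 N) (GL (Fin 2) ℝ) (ZMod q) where
  ι := gammaToGL N
  ι_inj := gammaToGL_injective N
  rep j := ModularForm.heckeMatrix q j.val
  exists_mul γ x := by
    have hγ : (N : ℤ) ∣ (γ : SL(2, ℤ)) 1 0 :=
      (ZMod.intCast_zmod_eq_zero_iff_dvd _ _).mp (Gamma0_mem.mp γ.2)
    have hc : (q : ℤ) ∣ (γ : SL(2, ℤ)) 1 0 := (Int.natCast_dvd_natCast.mpr hqN).trans hγ
    obtain ⟨g', hg', hmul⟩ := heckeMatrix_mul_of_dvd (γ : SL(2, ℤ)) hc x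
    refine ⟨⟨g', Gamma0_mem.mpr ((ZMod.intCast_zmod_eq_zero_iff_dvd _ _).mpr ?_)⟩, _, hmul⟩
    rw [hg']
    exact Dvd.dvd.mul_left hγ _
  rep_inj γ x x' h := heckeMatrix_inj q (γ : SL(2, ℤ)) x x' h

end U

/-! ### parabolic elements -/

section Parabolic

theorem sl_sq (g : SL(2, ℤ)) :
    ((g * g : SL(2, ℤ)) : Matrix (Fin 2) (Fin 2) ℤ)
      = (g : Matrix (Fin 2) (Fin 2) ℤ).trace • (g : Matrix (Fin 2) (Fin 2) ℤ) - 1 := by
  have hdet := sl_det_eq g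
  ext i j
  simp only [Matrix.SpecialLinearGroup.coe_mul, Matrix.mul_apply, Fin.sum_univ_two,
    Matrix.sub_apply, Matrix.smul_apply, Matrix.one_apply, Matrix.trace_fin_two, smul_eq_mul]
  fin_cases i <;> fin_cases j <;> simp <;>
    first
    | ring1
    | linear_combination (-1 : ℤ) * hdet

theorem trace_pow_succ_succ (g : SL(2, ℤ)) (k : ℕ) :
    ((g ^ (k + 2) : SL(2, ℤ)) : Matrix (Fin 2) (Fin 2) ℤ).trace
      = (g : Matrix (Fin 2) (Fin 2) ℤ).trace * ((g ^ (k + 1) : SL(2, ℤ)) : Matrix (Fin 2) (Fin 2) ℤ).trace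
        - ((g ^ k : SL(2, ℤ)) : Matrix (Fin 2) (Fin 2) ℤ).trace := by
  have h : ((g ^ (k + 2) : SL(2, ℤ)) : Matrix (Fin 2) (Fin 2) ℤ)
      = ((g ^ k : SL(2, ℤ)) : Matrix (Fin 2) (Fin 2) ℤ) * ((g * g : SL(2, ℤ)) : Matrix (Fin 2) (Fin 2) ℤ) := by
    rw [← Matrix.SpecialLinearGroup.coe_mul, ← pow_two, ← pow_add]
  have h' : ((g ^ (k + 1) : SL(2, ℤ)) : Matrix (Fin 2) (Fin 2) ℤ)
      = ((g ^ k : SL(2, ℤ)) : Matrix (Fin 2) (Fin 2) ℤ) * (g : Matrix (Fin 2) (Fin 2) ℤ) := by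
    rw [← Matrix.SpecialLinearGroup.coe_mul, ← pow_succ]
  rw [h, sl_sq, Matrix.mul_sub, Matrix.mul_smul, Matrix.mul_one, Matrix.trace_sub, Matrix.trace_smul,
    ← h', smul_eq_mul]

/-- powers of elements of trace `±2` have trace `±2` -/
theorem trace_sq_pow (g : SL(2, ℤ)) (h : (g : Matrix (Fin 2) (Fin 2) ℤ).trace ^ 2 = 4) (k : ℕ) :
    ((g ^ k : SL(2, ℤ)) : Matrix (Fin 2) (Fin 2) ℤ).trace ^ 2 = 4 := by
  -- `2 * trace (g^(k+1)) = t * trace (g^k)` and `trace (g^k)^2 = 4`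
  have key : ∀ k : ℕ, 2 * ((g ^ (k + 1) : SL(2, ℤ)) : Matrix (Fin 2) (Fin 2) ℤ).trace
      = (g : Matrix (Fin 2) (Fin 2) ℤ).trace * ((g ^ k : SL(2, ℤ)) : Matrix (Fin 2) (Fin 2) ℤ).trace
      ∧ ((g ^ k : SL(2, ℤ)) : Matrix (Fin 2) (Fin 2) ℤ).trace ^ 2 = 4 := by
    intro k
    induction k with
    | zero =>
      constructor
      · rw [pow_zero, zero_add, pow_one, Matrix.SpecialLinearGroup.coe_one, Matrix.trace_one]
        simp [mul_comm]
      · rw [pow_zero, Matrix.SpecialLinearGroup.coe_one, Matrix.trace_one]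
        simp
        try norm_num
    | succ k ih =>
      obtain ⟨ih1, ih2⟩ := ih
      have hrec := trace_pow_succ_succ g k
      have e1 : 2 * ((g ^ (k + 1 + 1) : SL(2, ℤ)) : Matrix (Fin 2) (Fin 2) ℤ).trace
          = (g : Matrix (Fin 2) (Fin 2) ℤ).trace
            * ((g ^ (k + 1) : SL(2, ℤ)) : Matrix (Fin 2) (Fin 2) ℤ).trace := by
        have : 4 * ((g ^ (k + 1 + 1) : SL(2, ℤ)) : Matrix (Fin 2) (Fin 2) ℤ).trace
            = 2 * ((g : Matrix (Fin 2) (Fin 2) ℤ).trace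
              * ((g ^ (k + 1) : SL(2, ℤ)) : Matrix (Fin 2) (Fin 2) ℤ).trace) := by
          rw [show k + 1 + 1 = k + 2 from rfl, hrec]
          linear_combination (((g ^ k : SL(2, ℤ)) : Matrix (Fin 2) (Fin 2) ℤ).trace) * h
            + (g : Matrix (Fin 2) (Fin 2) ℤ).trace * ih1
        linarith
      refine ⟨e1, ?_⟩
      have : 4 * ((g ^ (k + 1) : SL(2, ℤ)) : Matrix (Fin 2) (Fin 2) ℤ).trace ^ 2 = 4 * 4 := by
        linear_combination (2 * ((g ^ (k + 1) : SL(2, ℤ)) : Matrix (Fin 2) (Fin 2) ℤ).trace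
          + (g : Matrix (Fin 2) (Fin 2) ℤ).trace
            * ((g ^ k : SL(2, ℤ)) : Matrix (Fin 2) (Fin 2) ℤ).trace) * ih1
          + ((g ^ k : SL(2, ℤ)) : Matrix (Fin 2) (Fin 2) ℤ).trace ^ 2 * h + 4 * ih2
      linarith
  exact (key k).2

theorem trace_mapGL (g : SL(2, ℤ)) :
    ((mapGL ℝ g : GL (Fin 2) ℝ) : Matrix (Fin 2) (Fin 2) ℝ).trace
      = (((g : Matrix (Fin 2) (Fin 2) ℤ).trace : ℤ) : ℝ) := by
  rw [Matrix.trace_fin_two, Matrix.trace_fin_two, mapGL_entry, mapGL_entry]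
  push_cast
  rfl

/-- conjugate elements have the same trace -/
theorem trace_eq_of_conj (g g' : SL(2, ℤ)) (M : GL (Fin 2) ℝ)
    (h : M * mapGL ℝ g = mapGL ℝ g' * M) :
    (g' : Matrix (Fin 2) (Fin 2) ℤ).trace = (g : Matrix (Fin 2) (Fin 2) ℤ).trace := by
  have h1 : mapGL ℝ g' = M * mapGL ℝ g * M⁻¹ := by
    rw [h, mul_inv_cancel_right]
  have h2 : ((mapGL ℝ g' : GL (Fin 2) ℝ) : Matrix (Fin 2) (Fin 2) ℝ).trace
      = ((mapGL ℝ g : GL (Fin 2) ℝ) : Matrix (Fin 2) (Fin 2) ℝ).trace := by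
    rw [h1, Units.val_mul, Units.val_mul, Matrix.trace_mul_comm, ← mul_assoc, ← Units.val_mul,
      inv_mul_cancel, Units.val_one, one_mul]
  rw [trace_mapGL, trace_mapGL] at h2
  exact_mod_cast h2

variable {N : ℕ}

/-- the class of elements of trace `±2` of `Γ₀(N)` -/
def IsPar (γ : Gamma0 N) : Prop := ((γ : SL(2, ℤ)) : Matrix (Fin 2) (Fin 2) ℤ).trace ^ 2 = 4

theorem isPar_pow (γ : Gamma0 N) (h : IsPar γ) (k : ℕ) : IsPar (γ ^ k) := by
  unfold IsPar at h ⊢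
  rw [SubmonoidClass.coe_pow]
  exact trace_sq_pow _ h k

theorem isPar_conj (γ γ' : Gamma0 N) (M : GL (Fin 2) ℝ)
    (h : M * gammaToGL N γ = gammaToGL N γ' * M) (hγ : IsPar γ) : IsPar γ' := by
  unfold IsPar at hγ ⊢
  rw [trace_eq_of_conj (γ : SL(2, ℤ)) (γ' : SL(2, ℤ)) M h]
  exact hγ

end Parabolic

/-! ### the operators -/

section Operators

open ModularCurve.Period

variable (N : ℕ) {A : Type*} [AddCommGroup A]

/-- `tau_ℓ` on `Hom(Γ₀(N), A)`, `ℓ ∤ N` prime -/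
noncomputable def heckeHomT (ℓ : ℕ) [Fact ℓ.Prime] (hℓN : ¬ ℓ ∣ N) :
    (Additive (Gamma0 N) →+ A) →+ (Additive (Gamma0 N) →+ A) :=
  (datumT N ℓ hℓN).tauHom

/-- `tau_q` on `Hom(Γ₀(N), A)`, `q ∣ N` -/
noncomputable def heckeHomU (q : ℕ) [NeZero q] (hqN : q ∣ N) :
    (Additive (Gamma0 N) →+ A) →+ (Additive (Gamma0 N) →+ A) :=
  (datumU N q hqN).tauHom

variable {N}

theorem heckeHomT_apply (ℓ : ℕ) [Fact ℓ.Prime] (hℓN : ¬ ℓ ∣ N) (ψ : Additive (Gamma0 N) →+ A)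
    (γ : Gamma0 N) :
    heckeHomT N ℓ hℓN ψ (Additive.ofMul γ)
      = ∑ x : OnePoint (ZMod ℓ), ψ (Additive.ofMul ((datumT N ℓ hℓN).coc γ x)) := rfl

theorem heckeHomU_apply (q : ℕ) [NeZero q] (hqN : q ∣ N) (ψ : Additive (Gamma0 N) →+ A)
    (γ : Gamma0 N) :
    heckeHomU N q hqN ψ (Additive.ofMul γ)
      = ∑ x : ZMod q, ψ (Additive.ofMul ((datumU N q hqN).coc γ x)) := rfl

/-- the defining relation of the cocycle of `tau_ℓ` -/
theorem datumT_spec (ℓ : ℕ) [Fact ℓ.Prime] (hℓN : ¬ ℓ ∣ N) (γ : Gamma0 N) (x : OnePoint (ZMod ℓ)) :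
    heckeRep ℓ x * mapGL ℝ (γ : SL(2, ℤ))
      = mapGL ℝ (((datumT N ℓ hℓN).coc γ x : Gamma0 N) : SL(2, ℤ))
        * heckeRep ℓ ((datumT N ℓ hℓN).next γ x) :=
  (datumT N ℓ hℓN).spec γ x

/-- the defining relation of the cocycle of `tau_q` -/
theorem datumU_spec (q : ℕ) [NeZero q] (hqN : q ∣ N) (γ : Gamma0 N) (x : ZMod q) :
    ModularForm.heckeMatrix q x.val * mapGL ℝ (γ : SL(2, ℤ))
      = mapGL ℝ (((datumU N q hqN).coc γ x : Gamma0 N) : SL(2, ℤ))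
        * ModularForm.heckeMatrix q ((datumU N q hqN).next γ x).val :=
  (datumU N q hqN).spec γ x

/-- naturality of `tau_ℓ` in the coefficients -/
theorem heckeHomT_comp (ℓ : ℕ) [Fact ℓ.Prime] (hℓN : ¬ ℓ ∣ N) {B : Type*} [AddCommGroup B]
    (φ : A →+ B) (ψ : Additive (Gamma0 N) →+ A) :
    heckeHomT N ℓ hℓN (φ.comp ψ) = φ.comp (heckeHomT N ℓ hℓN ψ) :=
  (datumT N ℓ hℓN).tau_comp φ ψ

/-- naturality of `tau_q` in the coefficients -/
theorem heckeHomU_comp (q : ℕ) [NeZero q] (hqN : q ∣ N) {B : Type*} [AddCommGroup B]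
    (φ : A →+ B) (ψ : Additive (Gamma0 N) →+ A) :
    heckeHomU N q hqN (φ.comp ψ) = φ.comp (heckeHomU N q hqN ψ) :=
  (datumU N q hqN).tau_comp φ ψ

/-- `tau_ℓ` preserves parabolic homomorphisms (torsion free coefficients) -/
theorem heckeHomT_isParabolicHom [IsAddTorsionFree A] (ℓ : ℕ) [Fact ℓ.Prime] (hℓN : ¬ ℓ ∣ N)
    (ψ : Additive (Gamma0 N) →+ A) (hψ : IsParabolicHom (Gamma0 N) ψ) :
    IsParabolicHom (Gamma0 N) (heckeHomT N ℓ hℓN ψ) := by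
  intro γ hγ
  exact (datumT N ℓ hℓN).tau_vanish IsPar isPar_pow
    (fun γ γ' x h hγ => isPar_conj γ γ' _ h hγ) ψ (fun γ hγ => hψ γ hγ) γ hγ

/-- `tau_q` preserves parabolic homomorphisms (torsion free coefficients) -/
theorem heckeHomU_isParabolicHom [IsAddTorsionFree A] (q : ℕ) [NeZero q] (hqN : q ∣ N)
    (ψ : Additive (Gamma0 N) →+ A) (hψ : IsParabolicHom (Gamma0 N) ψ) :
    IsParabolicHom (Gamma0 N) (heckeHomU N q hqN ψ) := by
  intro γ hγ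
  exact (datumU N q hqN).tau_vanish IsPar isPar_pow
    (fun γ γ' x h hγ => isPar_conj γ γ' _ h hγ) ψ (fun γ hγ => hψ γ hγ) γ hγ

end Operators

end Fermat.Agent.S16
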