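import Mathlib
import Fermat.Agent.S21.Primitive
import Fermat.Agent.S16.HeckeHomT

/-!
# S16 item 84-P11 (b), piece Y: the period map intertwines the Hecke operators on weight two cusp
forms with the operators `heckeHomT`, `heckeHomU` on `Hom(Γ₀(N), ℂ)`.
-/

set_option autoImplicit false

namespace Fermat.Agent.S16

open UpperHalfPlane hiding I
open Complex Matrix.SpecialLinearGroup CongruenceSubgroup ModularCurve ModularCurve.Period
open scoped MatrixGroups ModularForm
open P2MW.S_ModularForm_heckeT_slash_eq_self_of_mem_Gamma0.ModularForm.HeckeSlashInvariance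
open Fermat.Agent.S21 Fermat.Agent.S22

variable {N : ℕ} [NeZero N]

/-- the primitive of `T_ℓ f` -/
theorem prim_heckeT (ℓ : ℕ) [Fact ℓ.Prime] (hℓ : ℓ.Prime) (hℓN : ¬ ℓ ∣ N) (f : CuspForm (Gamma0 N) 2) (τ : ℍ) :
    prim N (CuspForm.heckeTLin 2 hℓ hℓN f) τ
      = ∑ x : OnePoint (ZMod ℓ), prim N f (heckeRep ℓ x • τ) := by
  have hℓ0 : (ℓ : ℂ) ≠ 0 := by exact_mod_cast hℓ.ne_zero
  rw [prim_apply, eichlerIntegral_heckeT (by norm_num) ℓ hℓ hℓN f, heckeT_eq_sum_onePoint]
  simp only [Pi.smul_apply, Finset.sum_apply, smul_eq_mul, Finset.mul_sum]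
  refine Finset.sum_congr rfl fun x _ => ?_
  rw [prim_apply]
  induction x using OnePoint.rec with
  | infty =>
    rw [heckeRep_infty, ModularForm.slash_heckeDiagMatrix_apply _ hℓ.ne_zero]
    norm_num
    field_simp
  | coe j =>
    rw [heckeRep_coe, ModularForm.slash_heckeMatrix_apply _ hℓ.ne_zero]
    norm_num
    field_simp

/-- the primitive of `U_q f` -/
theorem prim_heckeU (q : ℕ) [NeZero q] (hq : q.Prime) (hqN : q ∣ N) (f : CuspForm (Gamma0 N) 2)
    (τ : ℍ) :
    prim N (CuspForm.heckeULin 2 hqN f) τ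
      = ∑ x : ZMod q, prim N f (ModularForm.heckeMatrix q x.val • τ) := by
  have hq0 : (q : ℂ) ≠ 0 := by exact_mod_cast hq.ne_zero
  rw [prim_apply, eichlerIntegral_heckeU (by norm_num) q hq hqN f, heckeU_eq_sum_zmod]
  simp only [Pi.smul_apply, Finset.sum_apply, smul_eq_mul, Finset.mul_sum]
  refine Finset.sum_congr rfl fun x _ => ?_
  rw [prim_apply, ModularForm.slash_heckeMatrix_apply _ hq.ne_zero]
  norm_num
  field_simp

/-- the action of `SL(2, ℤ)` on `ℍ` is the action through `GL(2, ℝ)` -/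
theorem sl_smul_eq (g : SL(2, ℤ)) (z : ℍ) : g • z = mapGL ℝ g • z := rfl

/-- **The period map intertwines `T_ℓ` and `tau_ℓ`.** -/
theorem periodMap_heckeT (ℓ : ℕ) [Fact ℓ.Prime] (hℓ : ℓ.Prime) (hℓN : ¬ ℓ ∣ N)
    (f : CuspForm (Gamma0 N) 2) :
    periodMap N (CuspForm.heckeTLin 2 hℓ hℓN f) = heckeHomT N ℓ hℓN (periodMap N f) := by
  refine AddMonoidHom.ext fun γ' => ?_
  obtain ⟨γ, rfl⟩ : ∃ γ : Gamma0 N, Additive.ofMul γ = γ' := ⟨Additive.toMul γ', rfl⟩
  rw [heckeHomT_apply, periodMap_apply _ γ UpperHalfPlane.I, prim_heckeT, prim_heckeT,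
    ← Finset.sum_sub_distrib]
  have h1 : ∀ x : OnePoint (ZMod ℓ),
      prim N f (heckeRep ℓ x • ((γ : SL(2, ℤ)) • UpperHalfPlane.I))
        = periodMap N f (Additive.ofMul ((datumT N ℓ hℓN).coc γ x))
          + prim N f (heckeRep ℓ ((datumT N ℓ hℓN).next γ x) • UpperHalfPlane.I) := by
    intro x
    rw [periodMap_apply f _ (heckeRep ℓ ((datumT N ℓ hℓN).next γ x) • UpperHalfPlane.I),
      sl_smul_eq, sl_smul_eq, ← mul_smul, ← mul_smul, datumT_spec ℓ hℓN γ x]
    ring
  simp only [h1]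
  rw [Finset.sum_sub_distrib, Finset.sum_add_distrib]
  have h2 : ∑ x : OnePoint (ZMod ℓ),
      prim N f (heckeRep ℓ ((datumT N ℓ hℓN).next γ x) • UpperHalfPlane.I)
        = ∑ x : OnePoint (ZMod ℓ), prim N f (heckeRep ℓ x • UpperHalfPlane.I) :=
    Equiv.sum_comp ((datumT N ℓ hℓN).perm γ)
      (fun x => prim N f (heckeRep ℓ x • UpperHalfPlane.I))
  rw [h2]
  ring

/-- **The period map intertwines `U_q` and `tau_q`.** -/
theorem periodMap_heckeU (q : ℕ) [NeZero q] (hq : q.Prime) (hqN : q ∣ N)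
    (f : CuspForm (Gamma0 N) 2) :
    periodMap N (CuspForm.heckeULin 2 hqN f) = heckeHomU N q hqN (periodMap N f) := by
  refine AddMonoidHom.ext fun γ' => ?_
  obtain ⟨γ, rfl⟩ : ∃ γ : Gamma0 N, Additive.ofMul γ = γ' := ⟨Additive.toMul γ', rfl⟩
  rw [heckeHomU_apply, periodMap_apply _ γ UpperHalfPlane.I, prim_heckeU _ hq, prim_heckeU _ hq,
    ← Finset.sum_sub_distrib]
  have h1 : ∀ x : ZMod q,
      prim N f (ModularForm.heckeMatrix q x.val • ((γ : SL(2, ℤ)) • UpperHalfPlane.I))
        = periodMap N f (Additive.ofMul ((datumU N q hqN).coc γ x))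
          + prim N f (ModularForm.heckeMatrix q ((datumU N q hqN).next γ x).val
              • UpperHalfPlane.I) := by
    intro x
    rw [periodMap_apply f _
        (ModularForm.heckeMatrix q ((datumU N q hqN).next γ x).val • UpperHalfPlane.I),
      sl_smul_eq, sl_smul_eq, ← mul_smul, ← mul_smul, datumU_spec q hqN γ x]
    ring
  simp only [h1]
  rw [Finset.sum_sub_distrib, Finset.sum_add_distrib]
  have h2 : ∑ x : ZMod q,
      prim N f (ModularForm.heckeMatrix q ((datumU N q hqN).next γ x).val • UpperHalfPlane.I)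
        = ∑ x : ZMod q, prim N f (ModularForm.heckeMatrix q x.val • UpperHalfPlane.I) :=
    Equiv.sum_comp ((datumU N q hqN).perm γ)
      (fun x => prim N f (ModularForm.heckeMatrix q x.val • UpperHalfPlane.I))
  rw [h2]
  ring

/-- the value of `periodHomPair` -/
theorem periodHomPair_apply (w : CuspForm (Gamma0 N) 2 × CuspForm (Gamma0 N) 2) :
    periodHomPair N w
      = (periodMap N w.1 + charInvolution N ℂ ℂ (periodMap N w.1))
        + (periodMap N w.2 - charInvolution N ℂ ℂ (periodMap N w.2)) := by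
  obtain ⟨pml, hpml, hdef⟩ := ModularCurve.periodHomPair_def N existsPeriodMapLinear
  rw [hdef]
  simp only [LinearMap.coprod_apply, LinearMap.comp_apply, LinearMap.add_apply,
    LinearMap.sub_apply, LinearMap.id_apply, hpml]

/-- an additive operator on `Hom(Γ₀(N), ℂ)` that commutes with the involution and is intertwined
with an operator on cusp forms by the period map is intertwined by `periodHomPair` -/
theorem periodHomPair_intertwine
    (t : CuspForm (Gamma0 N) 2 → CuspForm (Gamma0 N) 2)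
    (τ : (Additive (Gamma0 N) →+ ℂ) →+ (Additive (Gamma0 N) →+ ℂ))
    (ht : ∀ f, periodMap N (t f) = τ (periodMap N f))
    (hcomm : ∀ ψ : Additive (Gamma0 N) →+ ℂ,
      τ (charInvolution N ℂ ℂ ψ) = charInvolution N ℂ ℂ (τ ψ))
    (w : CuspForm (Gamma0 N) 2 × CuspForm (Gamma0 N) 2) :
    periodHomPair N (t w.1, t w.2) = τ (periodHomPair N w) := by
  rw [periodHomPair_apply, periodHomPair_apply, map_add, map_add, map_sub, hcomm, hcomm, ht, ht]

end Fermat.Agent.S16
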