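import Mathlib
import Fermat.Agent.S16.HeckePeriod
import Fermat.Agent.S16.HeckeHomInv

/-!
# S16 item 84-P11 (b): `periodHomPair` intertwines the Hecke operators on pairs of weight two cusp
forms with the operators `heckeHomT`, `heckeHomU` on `Hom(Γ₀(N), ℂ)`.
-/

set_option autoImplicit false

namespace Fermat.Agent.S16

open CongruenceSubgroup ModularCurve ModularCurve.Period
open scoped MatrixGroups

variable {N : ℕ} [NeZero N]

/-- **`periodHomPair` intertwines `T_ℓ` and `tau_ℓ`.** -/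
theorem periodHomPair_heckeT (ℓ : ℕ) [Fact ℓ.Prime] (hℓ : ℓ.Prime) (hℓN : ¬ ℓ ∣ N)
    (w : CuspForm (Gamma0 N) 2 × CuspForm (Gamma0 N) 2) :
    periodHomPair N (CuspForm.heckeTLin 2 hℓ hℓN w.1, CuspForm.heckeTLin 2 hℓ hℓN w.2)
      = heckeHomT N ℓ hℓN (periodHomPair N w) :=
  periodHomPair_intertwine (fun f => CuspForm.heckeTLin 2 hℓ hℓN f) (heckeHomT N ℓ hℓN)
    (fun f => periodMap_heckeT ℓ hℓ hℓN f) (fun ψ => heckeHomT_charInvolution ℓ hℓN ψ) w

/-- **`periodHomPair` intertwines `U_q` and `tau_q`.** -/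
theorem periodHomPair_heckeU (q : ℕ) [NeZero q] (hq : q.Prime) (hqN : q ∣ N)
    (w : CuspForm (Gamma0 N) 2 × CuspForm (Gamma0 N) 2) :
    periodHomPair N (CuspForm.heckeULin 2 hqN w.1, CuspForm.heckeULin 2 hqN w.2)
      = heckeHomU N q hqN (periodHomPair N w) :=
  periodHomPair_intertwine (fun f => CuspForm.heckeULin 2 hqN f) (heckeHomU N q hqN)
    (fun f => periodMap_heckeU q hq hqN f) (fun ψ => heckeHomU_charInvolution q hqN ψ) w

end Fermat.Agent.S16
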