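import Fermat.Agent.S16.ShimuraChar
import Fermat.Agent.S16.HeckeHomT

/-!
# S16, piece 84-P11c (2/2): the Shimura character is an Eisenstein eigenvector

`tau_p chi = chi` and `tau_ℓ chi = (1 + ℓ) chi` (`ℓ ≠ p` prime), for helper2's Hecke operators
`heckeHomU`, `heckeHomT` on `Hom(Γ₀(p), A)`.
-/

set_option autoImplicit false

open scoped MatrixGroups
open CongruenceSubgroup ModularCurve Matrix.SpecialLinearGroup
open P2MW.S_ModularForm_heckeT_slash_eq_self_of_mem_Gamma0.ModularForm.HeckeSlashInvariance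

namespace Fermat.Agent.S16

variable (p : ℕ) [Fact p.Prime]

/-- the logarithm `(ℤ/p)ˣ → ℤ/n` used in `shimuraChar`. -/
noncomputable def unitLog : Additive (ZMod p)ˣ →+ ZMod (eisensteinNumerator p) :=
  cyclicLog (G := (ZMod p)ˣ) inferInstance (eisensteinNumerator_dvd_card p)

theorem shimuraChar_eq_unitLog (γ : Gamma0 p) :
    shimuraChar p (Additive.ofMul γ) = unitLog p (Additive.ofMul (gamma0Units p γ)) := rfl

/-- If the upper left entries satisfy `a(γ') u' = u a(γ)` mod `p`, then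
`d(γ') = d(γ) u⁻¹ u'`. -/
theorem gamma0Units_eq_of_entries (γ γ' : Gamma0 p) (u u' : (ZMod p)ˣ)
    (h : (((γ' : SL(2, ℤ)) 0 0 : ℤ) : ZMod p) * (u' : ZMod p)
      = (u : ZMod p) * (((γ : SL(2, ℤ)) 0 0 : ℤ) : ZMod p)) :
    gamma0Units p γ' = gamma0Units p γ * u⁻¹ * u' := by
  apply Units.ext
  rw [Units.val_mul, Units.val_mul, coe_gamma0Units, coe_gamma0Units]
  have h1 := gamma0_entries_mul p γ'
  have h2 := gamma0_entries_mul p γ
  set a' : ZMod p := (((γ' : SL(2, ℤ)) 0 0 : ℤ) : ZMod p)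
  set d' : ZMod p := (((γ' : SL(2, ℤ)) 1 1 : ℤ) : ZMod p)
  set a : ZMod p := (((γ : SL(2, ℤ)) 0 0 : ℤ) : ZMod p)
  set d : ZMod p := (((γ : SL(2, ℤ)) 1 1 : ℤ) : ZMod p)
  have hu : (u : ZMod p) * ((u⁻¹ : (ZMod p)ˣ) : ZMod p) = 1 := Units.mul_inv u
  calc d' = d' * (a * d) * ((u : ZMod p) * ((u⁻¹ : (ZMod p)ˣ) : ZMod p)) := by
        rw [h2, hu, mul_one, mul_one]
    _ = (d' * d * ((u⁻¹ : (ZMod p)ˣ) : ZMod p)) * ((u : ZMod p) * a) := by ring
    _ = (d' * d * ((u⁻¹ : (ZMod p)ˣ) : ZMod p)) * (a' * (u' : ZMod p)) := by rw [h]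
    _ = (a' * d') * d * ((u⁻¹ : (ZMod p)ˣ) : ZMod p) * (u' : ZMod p) := by ring
    _ = d * ((u⁻¹ : (ZMod p)ˣ) : ZMod p) * (u' : ZMod p) := by rw [h1, one_mul]

theorem shimuraChar_eq_of_entries (γ γ' : Gamma0 p) (u u' : (ZMod p)ˣ)
    (h : (((γ' : SL(2, ℤ)) 0 0 : ℤ) : ZMod p) * (u' : ZMod p)
      = (u : ZMod p) * (((γ : SL(2, ℤ)) 0 0 : ℤ) : ZMod p)) :
    shimuraChar p (Additive.ofMul γ')
      = shimuraChar p (Additive.ofMul γ) - unitLog p (Additive.ofMul u)
        + unitLog p (Additive.ofMul u') := by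
  rw [shimuraChar_eq_unitLog, shimuraChar_eq_unitLog, gamma0Units_eq_of_entries p γ γ' u u' h,
    ofMul_mul, ofMul_mul, map_add, map_add, ofMul_inv, map_neg]
  ring

theorem gamma0_lower_left (γ : Gamma0 p) : ((((γ : SL(2, ℤ)) 1 0 : ℤ)) : ZMod p) = 0 :=
  Gamma0_mem.mp γ.2

/-- `p = 1` in `ZMod n`. -/
theorem natCast_prime_eq_one : ((p : ℕ) : ZMod (eisensteinNumerator p)) = 1 := by
  have hp : p.Prime := Fact.out
  have h1 : 1 ≤ p := hp.one_lt.le
  have h2 : ((p - 1 : ℕ) : ZMod (eisensteinNumerator p)) = 0 :=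
    (ZMod.natCast_eq_zero_iff _ _).mpr (eisensteinNumerator_dvd p)
  rw [Nat.cast_sub h1, Nat.cast_one, sub_eq_zero] at h2
  exact h2

/-! ### `tau_p` -/

/-- `tau_p chi = chi`. -/
theorem heckeHomU_shimuraChar [NeZero p] :
    heckeHomU p p (dvd_refl p) (shimuraChar p) = shimuraChar p := by
  refine AddMonoidHom.ext fun γ' => ?_
  obtain ⟨γ, rfl⟩ : ∃ γ : Gamma0 p, Additive.ofMul γ = γ' := ⟨Additive.toMul γ', rfl⟩
  rw [heckeHomU_apply]
  have hp0 : p ≠ 0 := (Fact.out : p.Prime).ne_zero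
  have key : ∀ x : ZMod p, shimuraChar p (Additive.ofMul ((datumU p p (dvd_refl p)).coc γ x))
      = shimuraChar p (Additive.ofMul γ) := by
    intro x
    have hspec := datumU_spec p (dvd_refl p) γ x
    obtain ⟨e1, -, -⟩ := upper_entries (γ : SL(2, ℤ))
      (((datumU p p (dvd_refl p)).coc γ x : Gamma0 p) : SL(2, ℤ))
      1 x.val p 1 ((datumU p p (dvd_refl p)).next γ x).val p _ _
      (by rw [ModularForm.val_heckeMatrix hp0]; simp)
      (by rw [ModularForm.val_heckeMatrix hp0]; simp) hspec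
    have h := shimuraChar_eq_of_entries p γ ((datumU p p (dvd_refl p)).coc γ x) 1 1 (by
      have e2 := congrArg (Int.cast : ℤ → ZMod p) e1
      push_cast at e2
      rw [gamma0_lower_left p γ, mul_zero, add_zero] at e2
      simpa using e2)
    rw [h]; simp
  rw [Finset.sum_congr rfl (fun x _ => key x), Finset.sum_const, Finset.card_univ, ZMod.card,
    nsmul_eq_mul, natCast_prime_eq_one, one_mul]

/-! ### `tau_ℓ` -/

variable (ℓ : ℕ) [Fact ℓ.Prime]

/-- the upper left entry of `heckeRep ℓ x`, as a unit mod `p` (`ℓ ≠ p`). -/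
noncomputable def repUnit (hℓ : ¬ ℓ ∣ p) : OnePoint (ZMod ℓ) → (ZMod p)ˣ
  | OnePoint.infty => ZMod.unitOfCoprime ℓ (by
      have hp : p.Prime := Fact.out
      have hℓ' : ℓ.Prime := Fact.out
      exact (Nat.coprime_primes hℓ' hp).mpr (fun h => hℓ (h ▸ dvd_refl _)))
  | OnePoint.some _ => 1

/-- `tau_ℓ chi = (1 + ℓ) chi`. -/
theorem heckeHomT_shimuraChar (hℓ : ¬ ℓ ∣ p) :
    heckeHomT p ℓ hℓ (shimuraChar p) = (ℓ + 1) • shimuraChar p := by
  refine AddMonoidHom.ext fun γ' => ?_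
  obtain ⟨γ, rfl⟩ : ∃ γ : Gamma0 p, Additive.ofMul γ = γ' := ⟨Additive.toMul γ', rfl⟩
  rw [heckeHomT_apply]
  have key : ∀ x : OnePoint (ZMod ℓ),
      shimuraChar p (Additive.ofMul ((datumT p ℓ hℓ).coc γ x))
        = shimuraChar p (Additive.ofMul γ) - unitLog p (Additive.ofMul (repUnit p ℓ hℓ x))
          + unitLog p (Additive.ofMul (repUnit p ℓ hℓ ((datumT p ℓ hℓ).perm γ x))) := by
    intro x
    have hspec := datumT_spec ℓ hℓ γ x
    apply shimuraChar_eq_of_entries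
    rw [CosetDatum.perm_apply]
    generalize (datumT p ℓ hℓ).next γ x = x' at hspec ⊢
    generalize (datumT p ℓ hℓ).coc γ x = γ'' at hspec ⊢
    induction x using OnePoint.rec with
    | infty =>
      induction x' using OnePoint.rec with
      | infty =>
        obtain ⟨e1, -, -⟩ := upper_entries (γ : SL(2, ℤ)) (γ'' : SL(2, ℤ)) ℓ 0 1 ℓ 0 1 _ _
          (val_heckeRep_infty ℓ) (val_heckeRep_infty ℓ) hspec
        have e2 := congrArg (Int.cast : ℤ → ZMod p) e1
        push_cast at e2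
        simpa [repUnit] using e2
      | coe j' =>
        obtain ⟨e1, -, -⟩ := upper_entries (γ : SL(2, ℤ)) (γ'' : SL(2, ℤ)) ℓ 0 1 1 j'.val ℓ _ _
          (val_heckeRep_infty ℓ) (val_heckeRep_coe ℓ j') hspec
        have e2 := congrArg (Int.cast : ℤ → ZMod p) e1
        push_cast at e2
        simpa [repUnit] using e2
    | coe j =>
      induction x' using OnePoint.rec with
      | infty =>
        obtain ⟨e1, -, -⟩ := upper_entries (γ : SL(2, ℤ)) (γ'' : SL(2, ℤ)) 1 j.val ℓ ℓ 0 1 _ _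
          (val_heckeRep_coe ℓ j) (val_heckeRep_infty ℓ) hspec
        have e2 := congrArg (Int.cast : ℤ → ZMod p) e1
        push_cast at e2
        rw [gamma0_lower_left p γ, mul_zero, add_zero] at e2
        simpa [repUnit] using e2
      | coe j' =>
        obtain ⟨e1, -, -⟩ := upper_entries (γ : SL(2, ℤ)) (γ'' : SL(2, ℤ)) 1 j.val ℓ 1 j'.val ℓ
          _ _ (val_heckeRep_coe ℓ j) (val_heckeRep_coe ℓ j') hspec
        have e2 := congrArg (Int.cast : ℤ → ZMod p) e1
        push_cast at e2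
        rw [gamma0_lower_left p γ, mul_zero, add_zero] at e2
        simpa [repUnit] using e2
  rw [Finset.sum_congr rfl (fun x _ => key x), Finset.sum_add_distrib, Finset.sum_sub_distrib,
    Equiv.sum_comp ((datumT p ℓ hℓ).perm γ)
      (fun y => unitLog p (Additive.ofMul (repUnit p ℓ hℓ y))),
    sub_add_cancel, Finset.sum_const, Finset.card_univ]
  have hcard : Fintype.card (OnePoint (ZMod ℓ)) = ℓ + 1 := by
    have : NeZero ℓ := ⟨(Fact.out : ℓ.Prime).ne_zero⟩
    rw [← Nat.card_eq_fintype_card]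
    have : Nat.card (OnePoint (ZMod ℓ)) = Nat.card (Option (ZMod ℓ)) := rfl
    rw [this, Nat.card_eq_fintype_card, Fintype.card_option, ZMod.card]
  rw [hcard]
  rfl

end Fermat.Agent.S16
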