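import Fermat.Agent.S16.StepALB
import Fermat.Agent.S16.ShimuraHecke

/-!
# S16, piece 84-P11(e): the lower bound `Cong p n`, `n = eisensteinNumerator p`

Wiring of the pieces (b) (`aeval_eis_mul_eq_zero`, helper2), (c) (Shimura character, helper8) and
(d) (`exists_parabolic_lift`, lead) with Step A (`cong_iff_forall_eval_dvd`, helper4).
The statements of (b) and (d) enter as hypotheses `LiftStatement`, `ModuleStatement` in exactly
the announced shapes.
-/

set_option autoImplicit false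

open scoped MatrixGroups
open CongruenceSubgroup ModularCurve

namespace Fermat.Agent.S16

/-- The statement of piece (d) (lead's `exists_parabolic_lift`). -/
def LiftStatement (N n : ℕ) : Prop :=
  ∀ (ψ : Additive (Gamma0 N) →+ ZMod n),
    (∀ γ : Gamma0 N,
      ((γ : SL(2, ℤ)) : Matrix (Fin 2) (Fin 2) ℤ).trace ^ 2 ≤ 4 → ψ (Additive.ofMul γ) = 0) →
    ∃ ψ' : Additive (Gamma0 N) →+ ℤ,
      ModularCurve.Period.IsParabolicHom (Gamma0 N) ψ' ∧
      ∀ γ : Gamma0 N, ((ψ' (Additive.ofMul γ) : ℤ) : ZMod n) = ψ (Additive.ofMul γ)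

/-- The statement of piece (b) (helper2's `aeval_eis_mul_eq_zero`). -/
def ModuleStatement (N n : ℕ) [NeZero N] : Prop :=
  ∀ (χ : Additive (Gamma0 N) →+ ZMod n) (ψ : Additive (Gamma0 N) →+ ℤ),
    ModularCurve.Period.IsParabolicHom (Gamma0 N) ψ →
    (∀ γ : Gamma0 N, ((ψ (Additive.ofMul γ) : ℤ) : ZMod n) = χ (Additive.ofMul γ)) →
    (∀ (ℓ : ℕ) [Fact ℓ.Prime] (hℓN : ¬ ℓ ∣ N), heckeHomT N ℓ hℓN χ = (ℓ + 1) • χ) →
    (∀ (q : ℕ) [Fact q.Prime] (hqN : q ∣ N),
      haveI : NeZero q := ⟨(Fact.out : q.Prime).ne_zero⟩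
      heckeHomU N q hqN χ = χ) →
    ∀ (P : MvPolynomial Nat.Primes ℤ), CuspForm.heckeEvalForms N 2 P = 0 →
    ∀ γ : Gamma0 N,
      ((MvPolynomial.aeval (ModularCurve.eisensteinSystem N) P : ℤ) : ZMod n) *
        χ (Additive.ofMul γ) = 0

variable (p : ℕ) [Fact p.Prime]

/-- **84-P11(e).** The lower bound from the pieces (b), (c), (d). -/
theorem cong_eisensteinNumerator_of
    (hd : LiftStatement p (eisensteinNumerator p))
    (hb : haveI : NeZero p := ⟨(Fact.out : p.Prime).ne_zero⟩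
      ModuleStatement p (eisensteinNumerator p)) :
    Cong p (eisensteinNumerator p) := by
  have : NeZero p := ⟨(Fact.out : p.Prime).ne_zero⟩
  rw [cong_iff_forall_eval_dvd]
  intro P hP
  obtain ⟨ψ', hpar, hlift⟩ := hd (shimuraChar p) (shimuraChar_eq_zero_of_trace_sq_le p)
  obtain ⟨γ, hγ⟩ := exists_shimuraChar_eq_one p
  have h := hb (shimuraChar p) ψ' hpar hlift
    (fun ℓ _ hℓN => heckeHomT_shimuraChar p ℓ hℓN)
    (fun q hq hqN => by
      have hqp : q = p := (Nat.prime_dvd_prime_iff_eq hq.out Fact.out).mp hqN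
      subst hqp
      exact heckeHomU_shimuraChar q) P hP γ
  rw [hγ, mul_one] at h
  exact (ZMod.intCast_zmod_eq_zero_iff_dvd _ _).mp h

end Fermat.Agent.S16
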