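import Fermat.Agent.S16.HeckeModule
import Fermat.Agent.S16.HeckePeriodPair
import Fermat.Agent.S16.LowerBound
import Fermat.Agent.S21

/-!
# S16, piece 84-P11: the lower bound, final wiring

* `aeval_eis_mul_eq_zero` : the module statement (piece (b)), from `HeckeModule.lean` (Z),
  `HeckePeriodPair.lean` (Y) and S21.
* `cong_eisensteinNumerator_of_lift` : `Cong p (eisensteinNumerator p)` from the lifting
  statement (d) alone.
-/

set_option autoImplicit false

open scoped MatrixGroups
open CongruenceSubgroup ModularCurve ModularCurve.Period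

namespace Fermat.Agent.S16

theorem periodHeckeStatement (N : ℕ) [NeZero N] : PeriodHeckeStatement N :=
  ⟨fun ℓ _ hℓ hℓN w => periodHomPair_heckeT ℓ hℓ hℓN w,
    fun q _ hq hqN w => periodHomPair_heckeU q hq hqN w⟩

/-- **84-P11(b).** Every Hecke polynomial which is zero on `S₂(Γ₀(N))` kills, through its
Eisenstein value, every Eisenstein character modulo `n` with a parabolic lift to `ℤ`. -/
theorem aeval_eis_mul_eq_zero (N : ℕ) [NeZero N] (n : ℕ)
    (χ : Additive (Gamma0 N) →+ ZMod n) (ψ : Additive (Gamma0 N) →+ ℤ)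
    (hpar : ModularCurve.Period.IsParabolicHom (Gamma0 N) ψ)
    (hlift : ∀ γ : Gamma0 N, ((ψ (Additive.ofMul γ) : ℤ) : ZMod n) = χ (Additive.ofMul γ))
    (hT : ∀ (ℓ : ℕ) [Fact ℓ.Prime] (hℓN : ¬ ℓ ∣ N), heckeHomT N ℓ hℓN χ = (ℓ + 1) • χ)
    (hU : ∀ (q : ℕ) [Fact q.Prime] (hqN : q ∣ N),
      haveI : NeZero q := ⟨(Fact.out : q.Prime).ne_zero⟩
      heckeHomU N q hqN χ = χ)
    (P : MvPolynomial Nat.Primes ℤ) (hP : CuspForm.heckeEvalForms N 2 P = 0)
    (γ : Gamma0 N) :
    ((MvPolynomial.aeval (ModularCurve.eisensteinSystem N) P : ℤ) : ZMod n) *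
      χ (Additive.ofMul γ) = 0 :=
  aeval_eis_mul_eq_zero_of N n (periodHeckeStatement N) (Fermat.Agent.S21.result N).2
    χ ψ hpar hlift hT hU P hP γ

theorem moduleStatement (N : ℕ) [NeZero N] (n : ℕ) : ModuleStatement N n :=
  fun χ ψ hpar hlift hT hU P hP γ => aeval_eis_mul_eq_zero N n χ ψ hpar hlift hT hU P hP γ

/-- **The lower bound**, up to the lifting statement (d). -/
theorem cong_eisensteinNumerator_of_lift (p : ℕ) [Fact p.Prime]
    (hd : LiftStatement p (eisensteinNumerator p)) : Cong p (eisensteinNumerator p) :=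
  haveI : NeZero p := ⟨(Fact.out : p.Prime).ne_zero⟩
  cong_eisensteinNumerator_of p hd (moduleStatement p _)

end Fermat.Agent.S16
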