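import Mathlib

/-!
# S16, Step A, arithmetic part: the coefficients of the Eisenstein series of level `p`

`eisCoeff p k = σ₁(k) - p σ₁(k/p) [p ∣ k]` (the sum of the divisors of `k` prime to `p`), with
its Hecke relations.
-/

set_option autoImplicit false

namespace Fermat.Agent.S16

open ArithmeticFunction

/-- Hecke relation for `σ₁` at a prime `ℓ`. -/
theorem sigma_one_hecke {ℓ : ℕ} (hℓ : ℓ.Prime) {k : ℕ} (hk : 0 < k) :
    (sigma 1 (k * ℓ) : ℤ) + (if ℓ ∣ k then (ℓ : ℤ) * sigma 1 (k / ℓ) else 0) =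
      (1 + (ℓ : ℤ)) * sigma 1 k := by
  obtain ⟨a, k', hk', rfl⟩ := Nat.exists_eq_pow_mul_and_not_dvd hk.ne' ℓ hℓ.ne_one
  have hcop : Nat.Coprime ℓ k' := (Nat.Prime.coprime_iff_not_dvd hℓ).mpr hk'
  have hcopa : ∀ b : ℕ, Nat.Coprime (ℓ ^ b) k' := fun b => Nat.Coprime.pow_left b hcop
  have hmul : ∀ b : ℕ, sigma 1 (ℓ ^ b * k') = sigma 1 (ℓ ^ b) * sigma 1 k' := fun b =>
    isMultiplicative_sigma.map_mul_of_coprime (hcopa b)
  have h1 : ℓ ^ a * k' * ℓ = ℓ ^ (a + 1) * k' := by ring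
  rw [h1, hmul, hmul]
  have hs : ∀ b : ℕ, (sigma 1 (ℓ ^ b) : ℤ) = ∑ j ∈ Finset.range (b + 1), (ℓ : ℤ) ^ j := by
    intro b
    rw [sigma_apply_prime_pow hℓ]
    push_cast
    simp
  rcases Nat.eq_zero_or_pos a with ha | ha
  · subst ha
    have hnd : ¬ ℓ ∣ ℓ ^ 0 * k' := by simpa using hk'
    rw [if_neg hnd]
    push_cast
    rw [hs, hs]
    simp [Finset.sum_range_succ]
  · obtain ⟨b, rfl⟩ : ∃ b, a = b + 1 := ⟨a - 1, by omega⟩
    have hd : ℓ ∣ ℓ ^ (b + 1) * k' := Dvd.dvd.mul_right (dvd_pow_self ℓ (by omega)) k'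
    have hdiv : ℓ ^ (b + 1) * k' / ℓ = ℓ ^ b * k' := by
      rw [pow_succ, mul_assoc, mul_comm ℓ k', ← mul_assoc]
      exact Nat.mul_div_cancel _ hℓ.pos
    rw [if_pos hd, hdiv, hmul]
    push_cast
    rw [hs, hs, hs]
    rw [Finset.sum_range_succ (fun j => (ℓ : ℤ) ^ j) (b + 1 + 1),
      Finset.sum_range_succ (fun j => (ℓ : ℤ) ^ j) (b + 1)]
    ring

/-- The `k`-th coefficient of the Eisenstein series of weight `2` and level `p`
(for `p` prime and `k ≥ 1`: the sum of the divisors of `k` prime to `p`). -/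
def eisCoeff (p k : ℕ) : ℤ :=
  (sigma 1 k : ℤ) - if p ∣ k then (p : ℤ) * sigma 1 (k / p) else 0

theorem eisCoeff_one {p : ℕ} (hp : p.Prime) : eisCoeff p 1 = 1 := by
  unfold eisCoeff
  rw [if_neg (by simpa using hp.ne_one)]
  simp

/-- `U_p`-relation. -/
theorem eisCoeff_mul_self {p : ℕ} (hp : p.Prime) {k : ℕ} (hk : 0 < k) :
    eisCoeff p (k * p) = eisCoeff p k := by
  unfold eisCoeff
  rw [if_pos (Dvd.intro_left k rfl), Nat.mul_div_cancel _ hp.pos]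
  have h := sigma_one_hecke hp hk
  linarith

/-- `T_ℓ`-relation, `ℓ ≠ p`. -/
theorem eisCoeff_hecke {p : ℕ} (hp : p.Prime) {ℓ : ℕ} (hℓ : ℓ.Prime) (hℓp : ℓ ≠ p) {k : ℕ}
    (hk : 0 < k) :
    eisCoeff p (k * ℓ) + (if ℓ ∣ k then (ℓ : ℤ) * eisCoeff p (k / ℓ) else 0) =
      (1 + (ℓ : ℤ)) * eisCoeff p k := by
  unfold eisCoeff
  have h := sigma_one_hecke hℓ hk
  have hpl : Nat.Coprime p ℓ := (Nat.coprime_primes hp hℓ).mpr (Ne.symm hℓp)
  have hdvd : p ∣ k * ℓ ↔ p ∣ k := Nat.Coprime.dvd_mul_right hpl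
  by_cases hpk : p ∣ k
  · obtain ⟨k₁, rfl⟩ := hpk
    have hk₁ : 0 < k₁ := Nat.pos_of_mul_pos_right (a := p) hk |> fun h => by
      rcases Nat.eq_zero_or_pos k₁ with h0 | h0
      · subst h0; simp at hk
      · exact h0
    have h' := sigma_one_hecke hℓ hk₁
    have e1 : p * k₁ * ℓ / p = k₁ * ℓ := by
      rw [mul_assoc]; exact Nat.mul_div_cancel_left _ hp.pos
    have e2 : p * k₁ / p = k₁ := Nat.mul_div_cancel_left _ hp.pos
    have hℓd : ℓ ∣ p * k₁ ↔ ℓ ∣ k₁ := Nat.Coprime.dvd_mul_left hpl.symm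
    rw [if_pos (hdvd.mpr (Dvd.intro k₁ rfl)), if_pos (Dvd.intro k₁ rfl), e1, e2]
    by_cases hℓk : ℓ ∣ k₁
    · obtain ⟨k₂, rfl⟩ := hℓk
      have e3 : p * (ℓ * k₂) / ℓ = p * k₂ := by
        rw [mul_left_comm]; exact Nat.mul_div_cancel_left _ hℓ.pos
      have e4 : ℓ * k₂ / ℓ = k₂ := Nat.mul_div_cancel_left _ hℓ.pos
      have e5 : p * k₂ / p = k₂ := Nat.mul_div_cancel_left _ hp.pos
      rw [if_pos (hℓd.mpr (Dvd.intro k₂ rfl)), e3, if_pos (Dvd.intro k₂ rfl), e5]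
      rw [if_pos (hℓd.mpr (Dvd.intro k₂ rfl)), e3] at h
      rw [if_pos (Dvd.intro k₂ rfl), e4] at h'
      linear_combination h - (p : ℤ) * h'
    · rw [if_neg (fun hh => hℓk (hℓd.mp hh))]
      rw [if_neg (fun hh => hℓk (hℓd.mp hh))] at h
      rw [if_neg hℓk] at h'
      linear_combination h - (p : ℤ) * h'
  · rw [if_neg (fun hh => hpk (hdvd.mp hh)), if_neg hpk]
    by_cases hℓk : ℓ ∣ k
    · obtain ⟨k₂, rfl⟩ := hℓk
      have e4 : ℓ * k₂ / ℓ = k₂ := Nat.mul_div_cancel_left _ hℓ.pos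
      have hpk₂ : ¬ p ∣ k₂ := fun hh => hpk (Dvd.dvd.mul_left hh ℓ)
      rw [if_pos (Dvd.intro k₂ rfl), e4, if_neg hpk₂]
      rw [if_pos (Dvd.intro k₂ rfl), e4] at h
      linear_combination h
    · rw [if_neg hℓk]
      rw [if_neg hℓk] at h
      linear_combination h

end Fermat.Agent.S16
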