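import Fermat.Prelude.Def_CuspForm_IntegralStructure
import Fermat.Agent.S16.Sigma

/-!
# S16: the congruence property `Cong p M`

`Cong p M`: some cusp form of weight `2` and level `Γ₀(p)` has a `q`-expansion congruent modulo `M`
to `δ = ∑_{k ≥ 1} eisCoeff p k q^k`, the non-constant part of the Eisenstein series of level `p`.
-/

set_option autoImplicit false

namespace Fermat.Agent.S16

/-- `Cong p M`: some cusp form of weight `2` and level `Γ₀(p)` has integral `q`-expansion
coefficients `a_k`, `k ≥ 1`, with `a_k ≡ eisCoeff p k` modulo `M`. -/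
def Cong (p M : ℕ) : Prop :=
  ∃ f : CuspForm (CongruenceSubgroup.Gamma0 p) 2, ∀ k : ℕ, 0 < k →
    ∃ a : ℤ, ModularFormClass.qCoeff ⇑f k = (a : ℂ) ∧ (M : ℤ) ∣ a - eisCoeff p k

end Fermat.Agent.S16
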