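import Mathlib

/-!
# S16, Step A, linear algebra part: a saturated non-degenerate pairing of lattices is perfect
-/

set_option autoImplicit false

namespace Fermat.Agent.S16

open Module

/-- Let `B : L × T → ℤ` be a pairing of free `ℤ`-modules of finite rank, non-degenerate on both
sides and saturated on the `L`-side. Then every functional on `T` is `B f` for some `f`. -/
theorem exists_rep_of_pairing {L T : Type*} [AddCommGroup L] [Module ℤ L] [Module.Free ℤ L]
    [Module.Finite ℤ L] [AddCommGroup T] [Module ℤ T] [Module.Free ℤ T] [Module.Finite ℤ T]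
    (B : L →ₗ[ℤ] T →ₗ[ℤ] ℤ)
    (hL : ∀ f, (∀ t, B f t = 0) → f = 0) (hT : ∀ t, (∀ f, B f t = 0) → t = 0)
    (hsat : ∀ (N : ℕ) (lam : T →ₗ[ℤ] ℤ) (f : L), N ≠ 0 → (∀ t, B f t = N * lam t) →
      ∃ f', ∀ t, B f' t = lam t)
    (lam : T →ₗ[ℤ] ℤ) : ∃ f, ∀ t, B f t = lam t := by
  have hBinj : Function.Injective B := by
    rw [← LinearMap.ker_eq_bot, LinearMap.ker_eq_bot']
    intro f hf
    exact hL f fun t => by rw [hf]; rfl
  have hB'inj : Function.Injective B.flip := by
    rw [← LinearMap.ker_eq_bot, LinearMap.ker_eq_bot']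
    intro t ht
    refine hT t fun f => ?_
    have := LinearMap.congr_fun ht f
    simpa using this
  have h1 : finrank ℤ L ≤ finrank ℤ T := by
    have := LinearMap.finrank_le_finrank_of_injective hBinj
    rwa [Module.finrank_linearMap_self] at this
  have h2 : finrank ℤ T ≤ finrank ℤ L := by
    have := LinearMap.finrank_le_finrank_of_injective hB'inj
    rwa [Module.finrank_linearMap_self] at this
  have hrank : finrank ℤ (LinearMap.range B) = finrank ℤ (T →ₗ[ℤ] ℤ) := by
    rw [LinearMap.finrank_range_of_inj hBinj, Module.finrank_linearMap_self]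
    exact le_antisymm h1 h2
  have hfin : Finite ((T →ₗ[ℤ] ℤ) ⧸ LinearMap.range B) :=
    Submodule.finiteQuotientOfFreeOfRankEq _ hrank
  have hfin' : Finite ((T →ₗ[ℤ] ℤ) ⧸ (LinearMap.range B).toAddSubgroup) := hfin
  have hidx : (LinearMap.range B).toAddSubgroup.index ≠ 0 := by
    rw [AddSubgroup.index]
    exact Nat.card_pos.ne'
  have hmem : (LinearMap.range B).toAddSubgroup.index • lam ∈ LinearMap.range B :=
    AddSubgroup.nsmul_index_mem (LinearMap.range B).toAddSubgroup lam
  obtain ⟨f, hf⟩ := hmem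
  refine hsat _ lam f hidx fun t => ?_
  rw [hf]
  simp

end Fermat.Agent.S16
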