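import Fermat.Prelude.Def_CuspForm_HeckeLocal
import Fermat.Prelude.Def_CuspForm_HeckeEvalForms
import Fermat.Prelude.Def_HeckeGalois_EichlerShimura
import Fermat.Prelude.Def_ModularCurve_ModularUnit
import Fermat.Prelude.Thm_ModularFormClass_qCoeff_heckeT
import Fermat.Prelude.Thm_ModularFormClass_qCoeff_heckeU
import Fermat.Prelude.Thm_CongruenceSubgroup_one_mem_strictPeriods_Gamma0
import Fermat.Prelude.Thm_UpperHalfPlane_eq_of_forall_qCoeff_eq
import Fermat.Prelude.Sol.S_CuspForm_intLattice_fg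
import Fermat.Agent.S16.Sigma
import Fermat.Agent.S16.Defs
import Fermat.Agent.S16.Duality

/-!
# S16, Step A: the index of the Eisenstein ideal via congruences with the Eisenstein series

`Nat.card (T / I) = n` as soon as, for every `m > 0`: there is a cusp form of weight `2` and level
`Γ₀(p)` whose `q`-expansion is congruent to `δ = ∑ eisCoeff p k q^k` modulo `m` iff `m ∣ n`.
-/

set_option autoImplicit false
set_option linter.style.haveILetI false

open ModularFormClass CongruenceSubgroup UpperHalfPlane ModularCurve CuspForm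

namespace Fermat.Agent.S16

section qc

variable {N : ℕ}

theorem hΓ0 (N : ℕ) :
    (1 : ℝ) ∈ (Subgroup.map (Matrix.SpecialLinearGroup.mapGL ℝ) (Gamma0 N)).strictPeriods :=
  CongruenceSubgroup.one_mem_strictPeriods_Gamma0 N

theorem qCoeff_add' (f g : CuspForm (Gamma0 N) 2) (n : ℕ) :
    qCoeff ⇑(f + g) n = qCoeff ⇑f n + qCoeff ⇑g n :=
  P2MW.S_CuspForm_intLattice_fg.W3WsD.qCoeff_add f g n

theorem qCoeff_smul' (c : ℂ) (f : CuspForm (Gamma0 N) 2) (n : ℕ) :
    qCoeff ⇑(c • f) n = c * qCoeff ⇑f n := by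
  have h1 : ⇑(c • f) = c • ⇑f := rfl
  simp only [qCoeff, h1]
  rw [ModularForm.qExpansion_smul one_pos (hΓ0 N) c f]
  simp

/-- The `n`-th `q`-expansion coefficient as a linear functional. -/
noncomputable def qc (N n : ℕ) : CuspForm (Gamma0 N) 2 →ₗ[ℂ] ℂ where
  toFun f := qCoeff ⇑f n
  map_add' f g := qCoeff_add' f g n
  map_smul' c f := by simpa using qCoeff_smul' c f n

theorem qc_apply (n : ℕ) (f : CuspForm (Gamma0 N) 2) : qc N n f = qCoeff ⇑f n := rfl

theorem qc_zero_index (f : CuspForm (Gamma0 N) 2) : qc N 0 f = 0 := by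
  rw [qc_apply]
  exact CuspFormClass.qExpansion_coeff_zero f one_pos (hΓ0 N)

theorem cuspForm_ext_qc {f g : CuspForm (Gamma0 N) 2} (h : ∀ n, qc N n f = qc N n g) : f = g := by
  have hcusp : Fact (IsCusp OnePoint.infty
      (Subgroup.map (Matrix.SpecialLinearGroup.mapGL ℝ) (Gamma0 N))) :=
    ⟨Subgroup.isCusp_of_mem_strictPeriods one_pos (hΓ0 N)⟩
  apply DFunLike.coe_injective
  exact UpperHalfPlane.eq_of_forall_qCoeff_eq
    (SlashInvariantFormClass.periodic_comp_ofComplex f (hΓ0 N)) (ModularFormClass.holo f)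
    (ModularFormClass.bdd_at_infty f)
    (SlashInvariantFormClass.periodic_comp_ofComplex g (hΓ0 N)) (ModularFormClass.holo g)
    (ModularFormClass.bdd_at_infty g) h

theorem qc_heckeT {ℓ : ℕ} (hℓ : ℓ.Prime) (hℓN : ¬ ℓ ∣ N) (f : CuspForm (Gamma0 N) 2) (n : ℕ) :
    qc N n (CuspForm.heckeTLin 2 hℓ hℓN f) =
      qc N (n * ℓ) f + if ℓ ∣ n then (ℓ : ℂ) * qc N (n / ℓ) f else 0 := by
  rw [qc_apply, CuspForm.coe_heckeTLin_apply,
    ModularFormClass.qCoeff_heckeT f (hΓ0 N) hℓ.ne_zero n, ModularForm.coeffHeckeT_apply]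
  simp [qc_apply]

theorem qc_heckeU [NeZero N] {ℓ : ℕ} (hℓ : ℓ.Prime) (hℓN : ℓ ∣ N) (f : CuspForm (Gamma0 N) 2)
    (n : ℕ) :
    qc N n (CuspForm.heckeULin 2 hℓN f) = qc N (n * ℓ) f := by
  rw [qc_apply, CuspForm.coe_heckeULin_apply,
    ModularFormClass.qCoeff_heckeU f (hΓ0 N) hℓ.ne_zero n, ModularForm.coeffHeckeU_apply]
  rfl

theorem mem_intLattice_iff_qc (f : CuspForm (Gamma0 N) 2) :
    f ∈ CuspForm.intLattice N 2 ↔ ∀ n : ℕ, ∃ m : ℤ, qc N n f = (m : ℂ) :=
  P2MW.S_CuspForm_intLattice_fg.W3WsD.mem_intLattice_iff f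

end qc

section action

variable (p : ℕ) [Fact p.Prime]

/-- The action of a Hecke polynomial on cusp forms of weight `2` and level `Γ₀(p)`. -/
noncomputable def act (P : HeckeAlg) : Module.End ℂ (CuspForm (Gamma0 p) 2) :=
  (heckeEvalForms p 2 P : heckeAlgebra p 2 ∅).1

theorem act_mem (P : HeckeAlg) : act p P ∈ heckeAlgebra p 2 ∅ :=
  (heckeEvalForms p 2 P : heckeAlgebra p 2 ∅).2

theorem act_C (a : ℤ) (f : CuspForm (Gamma0 p) 2) : act p (MvPolynomial.C a) f = (a : ℂ) • f := by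
  unfold act
  rw [heckeEvalForms_C]
  simp only [Subalgebra.coe_algebraMap, Module.algebraMap_end_apply]
  exact (Int.cast_smul_eq_zsmul ℂ a f).symm

theorem act_add (P Q : HeckeAlg) (f : CuspForm (Gamma0 p) 2) :
    act p (P + Q) f = act p P f + act p Q f := by
  unfold act
  rw [map_add]
  rfl

theorem act_mul (P Q : HeckeAlg) (f : CuspForm (Gamma0 p) 2) :
    act p (P * Q) f = act p P (act p Q f) := by
  unfold act
  rw [map_mul]
  rfl

theorem act_sub (P Q : HeckeAlg) (f : CuspForm (Gamma0 p) 2) :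
    act p (P - Q) f = act p P f - act p Q f := by
  unfold act
  rw [map_sub]
  rfl

theorem act_one (f : CuspForm (Gamma0 p) 2) : act p 1 f = f := by
  unfold act
  rw [map_one]
  rfl

theorem act_zero (f : CuspForm (Gamma0 p) 2) : act p 0 f = 0 := by
  unfold act
  rw [map_zero]
  rfl

theorem qc_act_X_of_dvd {ℓ : Nat.Primes} (h : (ℓ : ℕ) ∣ p) (f : CuspForm (Gamma0 p) 2) (n : ℕ) :
    qc p n (act p (MvPolynomial.X ℓ) f) = qc p (n * ℓ) f := by
  unfold act
  have := heckeEvalForms_heckeGen_of_dvd (N := p) (k := 2) h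
  rw [heckeGen] at this
  rw [this, heckeAlgebra.coe_U]
  exact qc_heckeU ℓ.2 h f n

theorem qc_act_X_of_not_dvd {ℓ : Nat.Primes} (h : ¬ (ℓ : ℕ) ∣ p) (f : CuspForm (Gamma0 p) 2)
    (n : ℕ) :
    qc p n (act p (MvPolynomial.X ℓ) f) =
      qc p (n * ℓ) f + if (ℓ : ℕ) ∣ n then ((ℓ : ℕ) : ℂ) * qc p (n / ℓ) f else 0 := by
  unfold act
  have := heckeEvalForms_heckeGen_of_not_dvd (N := p) (k := 2) h
  rw [heckeGen] at this
  rw [this, heckeAlgebra.coe_T]
  exact qc_heckeT ℓ.2 h f n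

end action

section eismod

variable (p : ℕ) [Fact p.Prime]

/-- `f ≡ c · δ (mod m)` coefficientwise, where `δ = ∑_{k ≥ 1} eisCoeff p k q^k`. -/
def EisMod (p m : ℕ) (c : ℤ) (f : CuspForm (Gamma0 p) 2) : Prop :=
  ∀ k : ℕ, 0 < k → ∃ a : ℤ, qc p k f = (a : ℂ) ∧ (m : ℤ) ∣ a - c * eisCoeff p k

variable {p} {m : ℕ}

omit [Fact p.Prime] in
theorem EisMod.mem_intLattice {c : ℤ} {f : CuspForm (Gamma0 p) 2} (h : EisMod p m c f) :
    f ∈ CuspForm.intLattice p 2 := by
  rw [mem_intLattice_iff_qc]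
  intro n
  rcases Nat.eq_zero_or_pos n with h0 | h0
  · subst h0
    exact ⟨0, by rw [qc_zero_index]; simp⟩
  · obtain ⟨a, ha, -⟩ := h n h0
    exact ⟨a, ha⟩

omit [Fact p.Prime] in
theorem EisMod.smul {c : ℤ} {f : CuspForm (Gamma0 p) 2} (h : EisMod p m c f) (a : ℤ) :
    EisMod p m (c * a) ((a : ℂ) • f) := by
  intro k hk
  obtain ⟨b, hb, hdvd⟩ := h k hk
  refine ⟨a * b, by rw [map_smul, hb]; push_cast; rfl, ?_⟩
  have : a * b - c * a * eisCoeff p k = a * (b - c * eisCoeff p k) := by ring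
  rw [this]
  exact Dvd.dvd.mul_left hdvd a

omit [Fact p.Prime] in
theorem EisMod.add {c c' : ℤ} {f g : CuspForm (Gamma0 p) 2} (h : EisMod p m c f)
    (h' : EisMod p m c' g) : EisMod p m (c + c') (f + g) := by
  intro k hk
  obtain ⟨b, hb, hdvd⟩ := h k hk
  obtain ⟨b', hb', hdvd'⟩ := h' k hk
  refine ⟨b + b', by rw [map_add, hb, hb']; push_cast; rfl, ?_⟩
  have : b + b' - (c + c') * eisCoeff p k = (b - c * eisCoeff p k) + (b' - c' * eisCoeff p k) := by
    ring
  rw [this]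
  exact dvd_add hdvd hdvd'

theorem EisMod.act_X {c : ℤ} {f : CuspForm (Gamma0 p) 2} (h : EisMod p m c f) (ℓ : Nat.Primes) :
    EisMod p m (c * eisensteinSystem p ℓ) (act p (MvPolynomial.X ℓ) f) := by
  have hp : p.Prime := Fact.out
  intro k hk
  by_cases hℓ : (ℓ : ℕ) ∣ p
  · have hℓp : (ℓ : ℕ) = p := (Nat.prime_dvd_prime_iff_eq ℓ.2 hp).mp hℓ
    rw [qc_act_X_of_dvd p hℓ, eisensteinSystem_of_dvd hℓ, hℓp]
    obtain ⟨b, hb, hdvd⟩ := h (k * p) (Nat.mul_pos hk hp.pos)
    refine ⟨b, hb, ?_⟩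
    rw [eisCoeff_mul_self hp hk] at hdvd
    simpa using hdvd
  · have hℓp : (ℓ : ℕ) ≠ p := fun hh => hℓ (hh ▸ dvd_rfl)
    rw [qc_act_X_of_not_dvd p hℓ, eisensteinSystem_of_not_dvd hℓ]
    obtain ⟨b, hb, hdvd⟩ := h (k * ℓ) (Nat.mul_pos hk ℓ.2.pos)
    have hrel := eisCoeff_hecke hp ℓ.2 hℓp hk
    by_cases hℓk : (ℓ : ℕ) ∣ k
    · have hpos : 0 < k / ℓ := Nat.div_pos (Nat.le_of_dvd hk hℓk) ℓ.2.pos
      obtain ⟨b', hb', hdvd'⟩ := h (k / ℓ) hpos
      rw [if_pos hℓk] at hrel ⊢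
      refine ⟨b + (ℓ : ℕ) * b', by rw [hb, hb']; push_cast; rfl, ?_⟩
      have : b + ((ℓ : ℕ) : ℤ) * b' - c * (1 + ((ℓ : ℕ) : ℤ)) * eisCoeff p k =
          (b - c * eisCoeff p (k * ℓ)) + ((ℓ : ℕ) : ℤ) * (b' - c * eisCoeff p (k / ℓ)) := by
        linear_combination c * hrel
      rw [this]
      exact dvd_add hdvd (Dvd.dvd.mul_left hdvd' _)
    · rw [if_neg hℓk] at hrel ⊢
      refine ⟨b, by rw [hb, add_zero], ?_⟩
      have : b - c * (1 + ((ℓ : ℕ) : ℤ)) * eisCoeff p k = b - c * eisCoeff p (k * ℓ) := by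
        linear_combination c * hrel
      rw [this]
      exact hdvd

theorem EisMod.act (P : HeckeAlg) : ∀ {c : ℤ} {f : CuspForm (Gamma0 p) 2}, EisMod p m c f →
    EisMod p m (c * MvPolynomial.aeval (eisensteinSystem p) P) (act p P f) := by
  induction P using MvPolynomial.induction_on with
  | C a =>
    intro c f h
    rw [act_C, MvPolynomial.aeval_C]
    exact h.smul a
  | add P Q hP hQ =>
    intro c f h
    rw [act_add, map_add, mul_add]
    exact (hP h).add (hQ h)
  | mul_X P ℓ hP =>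
    intro c f h
    rw [act_mul, map_mul, MvPolynomial.aeval_X, mul_comm _ (eisensteinSystem p ℓ), ← mul_assoc]
    exact hP (h.act_X ℓ)

end eismod

section phi

variable (p : ℕ) [Fact p.Prime]

/-- The map from the abstract Hecke algebra to the Hecke algebra of the lattice. -/
noncomputable def phi : HeckeAlg →+* ↥(heckeLatticeAlgebra p ∅) :=
  (latticeRestrictHom p ∅).toRingHom.comp (heckeEvalForms p 2)

theorem phi_apply_coe (P : HeckeAlg) (f : ↥(intLattice p 2)) :
    (((phi p P : ↥(heckeLatticeAlgebra p ∅)) : Module.End ℤ ↥(intLattice p 2)) f :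
      CuspForm (Gamma0 p) 2) = act p P (f : CuspForm (Gamma0 p) 2) := rfl

theorem phi_eq_zero_iff (P : HeckeAlg) :
    phi p P = 0 ↔ ∀ f ∈ intLattice p 2, act p P f = 0 := by
  constructor
  · intro h f hf
    have := phi_apply_coe p P ⟨f, hf⟩
    rw [h] at this
    exact this.symm
  · intro h
    apply Subtype.ext
    refine LinearMap.ext fun f => Subtype.ext ?_
    rw [phi_apply_coe]
    exact h f.1 f.2

theorem act_surjective {t : Module.End ℂ (CuspForm (Gamma0 p) 2)} (ht : t ∈ heckeAlgebra p 2 ∅) :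
    ∃ P : HeckeAlg, act p P = t := by
  induction ht using Algebra.adjoin_induction with
  | mem x hx =>
    rcases hx with ⟨ℓ, hℓ, hℓN, -, rfl⟩ | ⟨q, hqN, hq, -, rfl⟩
    · refine ⟨MvPolynomial.X ⟨ℓ, hℓ⟩, ?_⟩
      unfold act
      have : heckeEvalForms p 2 (MvPolynomial.X ⟨ℓ, hℓ⟩) =
          heckeAlgebra.T hℓ hℓN (Set.notMem_empty _) :=
        heckeEvalForms_heckeGen_of_not_dvd (N := p) (k := 2) (ℓ := ⟨ℓ, hℓ⟩) hℓN
      rw [this, heckeAlgebra.coe_T]
    · refine ⟨MvPolynomial.X ⟨q, hq⟩, ?_⟩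
      unfold act
      have : heckeEvalForms p 2 (MvPolynomial.X ⟨q, hq⟩) =
          heckeAlgebra.U hq hqN (Set.notMem_empty _) :=
        heckeEvalForms_heckeGen_of_dvd (N := p) (k := 2) (q := ⟨q, hq⟩) hqN
      rw [this, heckeAlgebra.coe_U]
  | algebraMap r =>
    refine ⟨MvPolynomial.C r, ?_⟩
    unfold act
    rw [heckeEvalForms_C]
    rfl
  | add x y hx hy ihx ihy =>
    obtain ⟨P, rfl⟩ := ihx
    obtain ⟨Q, rfl⟩ := ihy
    refine ⟨P + Q, ?_⟩
    unfold act
    rw [map_add]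
    rfl
  | mul x y hx hy ihx ihy =>
    obtain ⟨P, rfl⟩ := ihx
    obtain ⟨Q, rfl⟩ := ihy
    refine ⟨P * Q, ?_⟩
    unfold act
    rw [map_mul]
    rfl

theorem phi_surjective : Function.Surjective (phi p) := by
  intro t
  obtain ⟨s, rfl⟩ := latticeRestrictHom_surjective p ∅ t
  obtain ⟨P, hP⟩ := act_surjective p s.2
  refine ⟨P, ?_⟩
  have hs : heckeEvalForms p 2 P = s := Subtype.ext hP
  show (latticeRestrictHom p ∅) (heckeEvalForms p 2 P) = (latticeRestrictHom p ∅) s
  rw [hs]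

/-- Lower bound direction: a cusp form congruent to `δ` modulo `m` forces `m` to divide the
Eisenstein value of every Hecke polynomial killing the lattice. -/
theorem dvd_of_eisMod {m : ℕ} {f : CuspForm (Gamma0 p) 2} (h : EisMod p m 1 f) {P : HeckeAlg}
    (hP : phi p P = 0) : (m : ℤ) ∣ MvPolynomial.aeval (eisensteinSystem p) P := by
  have hp : p.Prime := Fact.out
  have h0 : act p P f = 0 := (phi_eq_zero_iff p P).mp hP f h.mem_intLattice
  obtain ⟨a, ha, hdvd⟩ := h.act P 1 one_pos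
  rw [h0, map_zero] at ha
  have ha0 : a = 0 := by exact_mod_cast ha.symm
  rw [ha0, eisCoeff_one hp, one_mul, mul_one, zero_sub] at hdvd
  exact (dvd_neg.mp hdvd)

/-- The Hecke polynomial `T_k`: `a_1(T_k f) = a_k(f)`, with Eisenstein value `eisCoeff p k`. -/
theorem exists_heckePoly (k : ℕ) (hk : 0 < k) :
    ∃ P : HeckeAlg, (∀ f : CuspForm (Gamma0 p) 2, qc p 1 (act p P f) = qc p k f) ∧
      MvPolynomial.aeval (eisensteinSystem p) P = eisCoeff p k := by
  have hp : p.Prime := Fact.out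
  induction k using Nat.strong_induction_on with
  | _ k ih =>
    rcases Nat.lt_or_ge 1 k with h1 | h1
    · -- k > 1
      have hℓ : (Nat.minFac k).Prime := Nat.minFac_prime (by omega)
      obtain ⟨k', hk'⟩ := Nat.minFac_dvd k
      set ℓ : Nat.Primes := ⟨Nat.minFac k, hℓ⟩ with hℓdef
      have hk'pos : 0 < k' := by
        rcases Nat.eq_zero_or_pos k' with h0 | h0
        · rw [h0, mul_zero] at hk'; omega
        · exact h0
      have hk'lt : k' < k := by
        rw [hk']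
        calc k' = 1 * k' := (one_mul _).symm
          _ < Nat.minFac k * k' := Nat.mul_lt_mul_of_pos_right hℓ.one_lt hk'pos
      have hkeq : k = k' * (ℓ : ℕ) := by rw [hk', mul_comm]
      obtain ⟨P', hP', hev'⟩ := ih k' hk'lt hk'pos
      by_cases hℓp : (ℓ : ℕ) ∣ p
      · have hℓeq : (ℓ : ℕ) = p := (Nat.prime_dvd_prime_iff_eq ℓ.2 hp).mp hℓp
        refine ⟨P' * MvPolynomial.X ℓ, fun f => ?_, ?_⟩
        · rw [act_mul, hP', qc_act_X_of_dvd p hℓp, ← hkeq]
        · rw [map_mul, MvPolynomial.aeval_X, hev', eisensteinSystem_of_dvd hℓp, mul_one, hkeq,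
            hℓeq, eisCoeff_mul_self hp hk'pos]
      · have hℓne : (ℓ : ℕ) ≠ p := fun hh => hℓp (hh ▸ dvd_rfl)
        have hrel := eisCoeff_hecke hp ℓ.2 hℓne hk'pos
        by_cases hℓk : (ℓ : ℕ) ∣ k'
        · have hpos : 0 < k' / ℓ := Nat.div_pos (Nat.le_of_dvd hk'pos hℓk) ℓ.2.pos
          have hlt : k' / ℓ < k := lt_of_le_of_lt (Nat.div_le_self _ _) hk'lt
          obtain ⟨P'', hP'', hev''⟩ := ih (k' / ℓ) hlt hpos
          rw [if_pos hℓk] at hrel
          refine ⟨P' * MvPolynomial.X ℓ - MvPolynomial.C (((ℓ : ℕ) : ℤ)) * P'', fun f => ?_, ?_⟩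
          · rw [act_sub, map_sub, act_mul, hP', qc_act_X_of_not_dvd p hℓp, if_pos hℓk, act_mul,
              act_C, map_smul, hP'', ← hkeq]
            simp
          · rw [map_sub, map_mul, map_mul, MvPolynomial.aeval_X, MvPolynomial.aeval_C, hev',
              hev'', eisensteinSystem_of_not_dvd hℓp, hkeq]
            simp only [eq_intCast, Int.cast_id]
            linear_combination (-1 : ℤ) * hrel
        · rw [if_neg hℓk] at hrel
          refine ⟨P' * MvPolynomial.X ℓ, fun f => ?_, ?_⟩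
          · rw [act_mul, hP', qc_act_X_of_not_dvd p hℓp, if_neg hℓk, add_zero, ← hkeq]
          · rw [map_mul, MvPolynomial.aeval_X, hev', eisensteinSystem_of_not_dvd hℓp, hkeq]
            linear_combination (-1 : ℤ) * hrel
    · have hk1 : k = 1 := by omega
      subst hk1
      refine ⟨1, fun f => by rw [act_one], ?_⟩
      rw [map_one, eisCoeff_one hp]

end phi

section pairing

variable (p : ℕ) [Fact p.Prime]

/-- The `n`-th `q`-expansion coefficient of an element of the lattice, as an integer. -/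
noncomputable def qcInt (n : ℕ) : ↥(intLattice p 2) →ₗ[ℤ] ℤ where
  toFun f := Classical.choose ((mem_intLattice_iff_qc f.1).mp f.2 n)
  map_add' f g := by
    apply Int.cast_injective (α := ℂ)
    rw [← Classical.choose_spec ((mem_intLattice_iff_qc (f + g).1).mp (f + g).2 n)]
    push_cast
    rw [← Classical.choose_spec ((mem_intLattice_iff_qc f.1).mp f.2 n),
      ← Classical.choose_spec ((mem_intLattice_iff_qc g.1).mp g.2 n)]
    exact map_add _ _ _
  map_smul' c f := by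
    apply Int.cast_injective (α := ℂ)
    rw [← Classical.choose_spec ((mem_intLattice_iff_qc (c • f).1).mp (c • f).2 n)]
    simp only [RingHom.id_apply, smul_eq_mul]
    push_cast
    rw [← Classical.choose_spec ((mem_intLattice_iff_qc f.1).mp f.2 n)]
    rw [← Int.cast_smul_eq_zsmul ℂ c, map_smul, smul_eq_mul]

omit [Fact p.Prime] in
theorem qcInt_spec (n : ℕ) (f : ↥(intLattice p 2)) :
    ((qcInt p n f : ℤ) : ℂ) = qc p n (f : CuspForm (Gamma0 p) 2) :=
  (Classical.choose_spec ((mem_intLattice_iff_qc f.1).mp f.2 n)).symm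

/-- The pairing `(f, t) ↦ a_1(t f)` between the lattice and its Hecke algebra. -/
noncomputable def pairing :
    ↥(intLattice p 2) →ₗ[ℤ] ↥(heckeLatticeAlgebra p ∅) →ₗ[ℤ] ℤ :=
  LinearMap.mk₂ ℤ
    (fun f t => qcInt p 1 ((t : Module.End ℤ ↥(intLattice p 2)) f))
    (fun f g t => by rw [map_add, map_add])
    (fun c f t => by rw [map_smul, map_smul])
    (fun f t t' => by
      rw [Subalgebra.coe_add, LinearMap.add_apply, map_add])
    (fun c f t => by
      rw [Subalgebra.coe_smul, LinearMap.smul_apply, map_smul])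

theorem pairing_apply (f : ↥(intLattice p 2)) (t : ↥(heckeLatticeAlgebra p ∅)) :
    pairing p f t = qcInt p 1 ((t : Module.End ℤ ↥(intLattice p 2)) f) := rfl

theorem pairing_phi (f : ↥(intLattice p 2)) (P : HeckeAlg) :
    ((pairing p f (phi p P) : ℤ) : ℂ) = qc p 1 (act p P (f : CuspForm (Gamma0 p) 2)) := by
  rw [pairing_apply, qcInt_spec, phi_apply_coe]

theorem act_mem_intLattice (P : HeckeAlg) {f : CuspForm (Gamma0 p) 2}
    (hf : f ∈ intLattice p 2) : act p P f ∈ intLattice p 2 :=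
  mem_intLattice_of_mem_heckeAlgebra one_le_two (act_mem p P) hf

theorem pairing_left_nondeg (f : ↥(intLattice p 2)) (h : ∀ t, pairing p f t = 0) : f = 0 := by
  apply Subtype.ext
  apply cuspForm_ext_qc
  intro n
  rw [Submodule.coe_zero, map_zero]
  rcases Nat.eq_zero_or_pos n with h0 | h0
  · subst h0
    exact qc_zero_index _
  · obtain ⟨P, hP, -⟩ := exists_heckePoly p n h0
    rw [← hP, ← pairing_phi, h]
    simp

theorem pairing_right_nondeg (t : ↥(heckeLatticeAlgebra p ∅)) (h : ∀ f, pairing p f t = 0) :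
    t = 0 := by
  obtain ⟨P, rfl⟩ := phi_surjective p t
  rw [phi_eq_zero_iff]
  intro f hf
  apply cuspForm_ext_qc
  intro n
  rw [map_zero]
  rcases Nat.eq_zero_or_pos n with h0 | h0
  · subst h0
    exact qc_zero_index _
  · obtain ⟨Q, hQ, -⟩ := exists_heckePoly p n h0
    rw [← hQ, ← act_mul, mul_comm, act_mul]
    have := pairing_phi p ⟨act p Q f, act_mem_intLattice p Q hf⟩ P
    rw [h] at this
    rw [← this]
    simp

theorem pairing_saturated_mem (N : ℕ) (lam : ↥(heckeLatticeAlgebra p ∅) →ₗ[ℤ] ℤ)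
    (f : ↥(intLattice p 2)) (hN : N ≠ 0) (h : ∀ t, pairing p f t = N * lam t) :
    ((N : ℂ)⁻¹ • (f : CuspForm (Gamma0 p) 2)) ∈ intLattice p 2 := by
  have hNC : (N : ℂ) ≠ 0 := Nat.cast_ne_zero.mpr hN
  rw [mem_intLattice_iff_qc]
  intro n
  rcases Nat.eq_zero_or_pos n with h0 | h0
  · subst h0
    exact ⟨0, by rw [qc_zero_index]; simp⟩
  · obtain ⟨P, hP, -⟩ := exists_heckePoly p n h0
    refine ⟨lam (phi p P), ?_⟩
    rw [map_smul, ← hP, ← pairing_phi, h]
    push_cast
    rw [smul_eq_mul, ← mul_assoc, inv_mul_cancel₀ hNC, one_mul]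

set_option maxHeartbeats 1600000 in
theorem pairing_saturated_aux (N : ℕ) (lam : ↥(heckeLatticeAlgebra p ∅) →ₗ[ℤ] ℤ)
    (f f' : ↥(intLattice p 2)) (hN : N ≠ 0) (h : ∀ t, pairing p f t = N * lam t)
    (hf' : (f' : CuspForm (Gamma0 p) 2) = (N : ℂ)⁻¹ • (f : CuspForm (Gamma0 p) 2))
    (t : ↥(heckeLatticeAlgebra p ∅)) : pairing p f' t = lam t := by
  have hNC : (N : ℂ) ≠ 0 := Nat.cast_ne_zero.mpr hN
  obtain ⟨P, rfl⟩ := phi_surjective p t
  have h1 := pairing_phi p f P
  have h2 := pairing_phi p f' P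
  have h3 := h (phi p P)
  generalize pairing p f (phi p P) = x at h1 h3
  generalize pairing p f' (phi p P) = y at h2 ⊢
  generalize lam (phi p P) = z at h3 ⊢
  clear h
  rw [hf', (act p P).map_smul, (qc p 1).map_smul, ← h1, h3] at h2
  apply Int.cast_injective (α := ℂ)
  rw [h2]
  push_cast
  rw [smul_eq_mul, ← mul_assoc, inv_mul_cancel₀ hNC, one_mul]

theorem pairing_saturated (N : ℕ) (lam : ↥(heckeLatticeAlgebra p ∅) →ₗ[ℤ] ℤ)
    (f : ↥(intLattice p 2)) (hN : N ≠ 0) (h : ∀ t, pairing p f t = N * lam t) :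
    ∃ f', ∀ t, pairing p f' t = lam t :=
  ⟨⟨_, pairing_saturated_mem p N lam f hN h⟩,
    pairing_saturated_aux p N lam f _ hN h rfl⟩

/-- Every functional on the Hecke algebra of the lattice is `t ↦ a_1(t f)` for some `f`. -/
theorem exists_form_of_functional (lam : ↥(heckeLatticeAlgebra p ∅) →ₗ[ℤ] ℤ) :
    ∃ f : ↥(intLattice p 2), ∀ t, pairing p f t = lam t := by
  haveI := intLattice.moduleFinite p
  haveI := intLattice.moduleFree p
  exact exists_rep_of_pairing (pairing p) (pairing_left_nondeg p) (pairing_right_nondeg p)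
    (pairing_saturated p) lam

end pairing

section main

variable (p : ℕ) [Fact p.Prime]

omit [Fact p.Prime] in
theorem cong_iff_eisMod (M : ℕ) : Cong p M ↔ ∃ f : CuspForm (Gamma0 p) 2, EisMod p M 1 f := by
  unfold Cong EisMod
  simp only [one_mul]
  rfl

/-- A linear functional on the Hecke algebra lifting the Eisenstein character modulo `m`. -/
theorem exists_functional {m : ℕ}
    (h : ∀ P : HeckeAlg, phi p P = 0 → (m : ℤ) ∣ MvPolynomial.aeval (eisensteinSystem p) P) :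
    ∃ lam : ↥(heckeLatticeAlgebra p ∅) →ₗ[ℤ] ℤ, ∀ P : HeckeAlg,
      (m : ℤ) ∣ lam (phi p P) - MvPolynomial.aeval (eisensteinSystem p) P := by
  let g : HeckeAlg →+* ZMod m :=
    (Int.castRingHom (ZMod m)).comp (MvPolynomial.aeval (eisensteinSystem p)).toRingHom
  have hker : RingHom.ker (phi p) ≤ RingHom.ker g := by
    intro P hP
    rw [RingHom.mem_ker] at hP ⊢
    exact (ZMod.intCast_zmod_eq_zero_iff_dvd _ m).mpr (h P hP)
  let psi : ↥(heckeLatticeAlgebra p ∅) →+* ZMod m :=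
    (phi p).liftOfSurjective (phi_surjective p) ⟨g, hker⟩
  have hpsi : ∀ P, psi (phi p P) = g P := fun P =>
    RingHom.liftOfSurjective_comp_apply (phi p) (phi_surjective p) ⟨g, hker⟩ P
  let psiL : ↥(heckeLatticeAlgebra p ∅) →ₗ[ℤ] ZMod m := psi.toAddMonoidHom.toIntLinearMap
  let castL : ℤ →ₗ[ℤ] ZMod m := (Int.castAddHom (ZMod m)).toIntLinearMap
  have hsurj : Function.Surjective castL := ZMod.intCast_surjective
  obtain ⟨lam, hlam⟩ := Module.projective_lifting_property castL psiL hsurj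
  refine ⟨lam, fun P => ?_⟩
  have h1 : castL (lam (phi p P)) = psiL (phi p P) := LinearMap.congr_fun hlam (phi p P)
  have h2 : ((lam (phi p P) : ℤ) : ZMod m) =
      ((MvPolynomial.aeval (eisensteinSystem p) P : ℤ) : ZMod m) := h1.trans (hpsi P)
  have h3 := (ZMod.intCast_eq_intCast_iff_dvd_sub _ _ m).mp h2.symm
  exact h3

/-- Upper bound direction: if `m` divides the Eisenstein value of every Hecke polynomial killing
the lattice, then some cusp form is congruent to `δ` modulo `m`. -/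
theorem cong_of_dvd {m : ℕ}
    (h : ∀ P : HeckeAlg, phi p P = 0 → (m : ℤ) ∣ MvPolynomial.aeval (eisensteinSystem p) P) :
    Cong p m := by
  obtain ⟨lam, hlam⟩ := exists_functional p h
  obtain ⟨f, hf⟩ := exists_form_of_functional p lam
  refine ⟨f.1, fun k hk => ?_⟩
  obtain ⟨P, hP, hev⟩ := exists_heckePoly p k hk
  refine ⟨lam (phi p P), ?_, ?_⟩
  · rw [← hf, pairing_phi, hP]
    rfl
  · rw [← hev]
    exact hlam P

/-- Lower bound direction, in terms of `Cong`. -/
theorem dvd_of_cong {m : ℕ} (h : Cong p m) {P : HeckeAlg} (hP : phi p P = 0) :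
    (m : ℤ) ∣ MvPolynomial.aeval (eisensteinSystem p) P := by
  obtain ⟨f, hf⟩ := (cong_iff_eisMod p m).mp h
  exact dvd_of_eisMod p hf hP

/-- Membership in the image of the Eisenstein ideal, for integers. -/
theorem intCast_mem_map_iff (c : ℤ) :
    ((c : ℤ) : ↥(heckeLatticeAlgebra p ∅)) ∈ Ideal.map (phi p) (eisensteinIdeal p) ↔
      ∃ P : HeckeAlg, phi p P = 0 ∧ MvPolynomial.aeval (eisensteinSystem p) P = c := by
  rw [Ideal.mem_map_iff_of_surjective (phi p) (phi_surjective p)]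
  constructor
  · rintro ⟨Q, hQ, hQc⟩
    have hQ0 : MvPolynomial.aeval (eisensteinSystem p) Q = 0 := (mem_eigenIdeal_iff _ _).mp hQ
    refine ⟨MvPolynomial.C c - Q, ?_, ?_⟩
    · rw [map_sub, hQc, sub_eq_zero]
      exact map_intCast (phi p) c
    · rw [map_sub, hQ0, sub_zero, MvPolynomial.aeval_C]
      rfl
  · rintro ⟨P, hP, hPc⟩
    refine ⟨MvPolynomial.C c - P, ?_, ?_⟩
    · refine (mem_eigenIdeal_iff _ _).mpr ?_
      rw [map_sub, hPc, MvPolynomial.aeval_C, sub_eq_zero]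
      rfl
    · rw [map_sub, hP, sub_zero]
      exact map_intCast (phi p) c

theorem phi_sub_intCast_mem (P : HeckeAlg) :
    phi p P - ((MvPolynomial.aeval (eisensteinSystem p) P : ℤ) : ↥(heckeLatticeAlgebra p ∅)) ∈
      Ideal.map (phi p) (eisensteinIdeal p) := by
  have h1 : P - MvPolynomial.C (MvPolynomial.aeval (eisensteinSystem p) P) ∈ eisensteinIdeal p := by
    refine (mem_eigenIdeal_iff _ _).mpr ?_
    rw [map_sub, MvPolynomial.aeval_C, sub_eq_zero]
    rfl
  have h2 := Ideal.mem_map_of_mem (phi p) h1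
  rw [map_sub] at h2
  have h3 : phi p (MvPolynomial.C (MvPolynomial.aeval (eisensteinSystem p) P)) =
      ((MvPolynomial.aeval (eisensteinSystem p) P : ℤ) : ↥(heckeLatticeAlgebra p ∅)) :=
    map_intCast (phi p) _
  rw [h3] at h2
  exact h2

set_option maxHeartbeats 3200000 in
/-- The quotient of the Hecke algebra by the Eisenstein ideal is `ℤ / d`, where `d ℤ` is the set
of Eisenstein values of the Hecke polynomials killing the lattice. -/
theorem exists_card_eq :
    ∃ d : ℕ, Nat.card (↥(heckeLatticeAlgebra p ∅) ⧸ Ideal.map (phi p) (eisensteinIdeal p)) = d ∧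
      ∀ c : ℤ, (d : ℤ) ∣ c ↔
        ∃ P : HeckeAlg, phi p P = 0 ∧ MvPolynomial.aeval (eisensteinSystem p) P = c := by
  set J := Ideal.map (phi p) (eisensteinIdeal p) with hJ
  let ι : ℤ →+* (↥(heckeLatticeAlgebra p ∅) ⧸ J) := Int.castRingHom _
  have hι : ∀ c : ℤ, ι c = Ideal.Quotient.mk J ((c : ℤ) : ↥(heckeLatticeAlgebra p ∅)) := fun c =>
    (map_intCast (Ideal.Quotient.mk J) c).symm
  have hsurj : Function.Surjective ι := by
    intro x
    obtain ⟨t, rfl⟩ := Ideal.Quotient.mk_surjective x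
    obtain ⟨P, rfl⟩ := phi_surjective p t
    refine ⟨MvPolynomial.aeval (eisensteinSystem p) P, ?_⟩
    rw [hι]
    exact ((Ideal.Quotient.eq).mpr (phi_sub_intCast_mem p P)).symm
  have hker : ∀ c : ℤ, c ∈ RingHom.ker ι ↔
      ∃ P : HeckeAlg, phi p P = 0 ∧ MvPolynomial.aeval (eisensteinSystem p) P = c := by
    intro c
    rw [RingHom.mem_ker, hι, Ideal.Quotient.eq_zero_iff_mem]
    exact intCast_mem_map_iff p c
  set g := Submodule.IsPrincipal.generator (RingHom.ker ι) with hg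
  have hspan : Ideal.span {(g.natAbs : ℤ)} = RingHom.ker ι := by
    rw [Int.span_natAbs]
    exact Ideal.span_singleton_generator _
  refine ⟨g.natAbs, ?_, fun c => ?_⟩
  · have e1 : (ℤ ⧸ RingHom.ker ι) ≃+* (↥(heckeLatticeAlgebra p ∅) ⧸ J) :=
      RingHom.quotientKerEquivOfSurjective hsurj
    have e2 : (ℤ ⧸ Ideal.span {(g.natAbs : ℤ)}) ≃+* (ℤ ⧸ RingHom.ker ι) :=
      Ideal.quotEquivOfEq hspan
    have e3 : (ℤ ⧸ Ideal.span {(g.natAbs : ℤ)}) ≃+* ZMod g.natAbs :=
      Int.quotientSpanNatEquivZMod g.natAbs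
    rw [← Nat.card_congr e1.toEquiv, ← Nat.card_congr e2.toEquiv, Nat.card_congr e3.toEquiv,
      Nat.card_zmod]
  · rw [← hker, ← hspan, Ideal.mem_span_singleton]

/-- **Step A**, general form. -/
theorem card_eq_of_forall_dvd_iff {n : ℕ} (hn : 0 < n)
    (H : ∀ m : ℕ, 0 < m → (Cong p m ↔ m ∣ n)) :
    Nat.card (↥(heckeLatticeAlgebra p ∅) ⧸ Ideal.map (phi p) (eisensteinIdeal p)) = n := by
  obtain ⟨d, hd, hdvd⟩ := exists_card_eq p
  rw [hd]
  have key : ∀ m : ℕ, 0 < m → (m ∣ d ↔ m ∣ n) := by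
    intro m hm
    rw [← H m hm]
    constructor
    · intro hmd
      refine cong_of_dvd p fun P hP => ?_
      have : (d : ℤ) ∣ MvPolynomial.aeval (eisensteinSystem p) P := (hdvd _).mpr ⟨P, hP, rfl⟩
      exact dvd_trans (Int.natCast_dvd_natCast.mpr hmd) this
    · intro hc
      obtain ⟨P, hP, hPd⟩ := (hdvd (d : ℤ)).mp dvd_rfl
      have := dvd_of_cong p hc hP
      rw [hPd] at this
      exact Int.natCast_dvd_natCast.mp this
  rcases Nat.eq_zero_or_pos d with h0 | h0
  · exfalso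
    have h1 : n + 1 ∣ n := (key (n + 1) (Nat.succ_pos n)).mp (h0 ▸ dvd_zero _)
    have := Nat.le_of_dvd hn h1
    omega
  · exact Nat.dvd_antisymm ((key d h0).mp dvd_rfl) ((key n hn).mpr dvd_rfl)

omit [Fact p.Prime] in
theorem Cong.of_dvd {m m' : ℕ} (h : Cong p m') (hm : m ∣ m') : Cong p m := by
  obtain ⟨f, hf⟩ := h
  refine ⟨f, fun k hk => ?_⟩
  obtain ⟨a, ha, hdvd⟩ := hf k hk
  exact ⟨a, ha, dvd_trans (Int.natCast_dvd_natCast.mpr hm) hdvd⟩

/-- `Cong p m` in terms of Hecke polynomials: `m` divides the Eisenstein value of every Hecke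
polynomial killing the lattice of integral cusp forms. -/
theorem cong_iff_forall_dvd (m : ℕ) :
    Cong p m ↔ ∀ P : HeckeAlg, (∀ f ∈ intLattice p 2, act p P f = 0) →
      (m : ℤ) ∣ MvPolynomial.aeval (eisensteinSystem p) P :=
  ⟨fun h P hP => dvd_of_cong p h ((phi_eq_zero_iff p P).mpr hP),
    fun h => cong_of_dvd p fun P hP => h P ((phi_eq_zero_iff p P).mp hP)⟩

omit [Fact p.Prime] in
theorem eisensteinNumerator_pos (hp : p.Prime) : 0 < eisensteinNumerator p := by
  unfold eisensteinNumerator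
  have h1 : 0 < p - 1 := Nat.sub_pos_of_lt hp.one_lt
  exact Nat.div_pos (Nat.le_of_dvd h1 (Nat.gcd_dvd_left _ _)) (Nat.gcd_pos_of_pos_left _ h1)

/-- **Step A** (item 84-P1): the index of the Eisenstein ideal from the lower bound
`Cong p n` and the upper bounds `Cong p (l ^ a) → l ^ a ∣ n`. -/
theorem card_eq_of_bounds
    (hLB : Cong p (eisensteinNumerator p))
    (hUB : ∀ l a : ℕ, l.Prime → 0 < a → Cong p (l ^ a) → l ^ a ∣ eisensteinNumerator p) :
    Nat.card (↥(heckeLatticeAlgebra p ∅) ⧸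
        Ideal.map ((latticeRestrictHom p ∅).toRingHom.comp (heckeEvalForms p 2))
          (eisensteinIdeal p)) =
      eisensteinNumerator p := by
  have hp : p.Prime := Fact.out
  have hn := eisensteinNumerator_pos p hp
  refine card_eq_of_forall_dvd_iff p hn fun m hm => ⟨fun hc => ?_, fun hd => hLB.of_dvd p hd⟩
  rw [← Nat.factorization_prime_le_iff_dvd hm.ne' hn.ne']
  intro l hl
  rcases Nat.eq_zero_or_pos (m.factorization l) with h0 | h0
  · rw [h0]
    exact Nat.zero_le _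
  · rw [← hl.pow_dvd_iff_le_factorization hn.ne']
    exact hUB l _ hl h0 (hc.of_dvd p (Nat.ordProj_dvd m l))

end main

end Fermat.Agent.S16
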