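import Mathlib

/-!
# S16 upper bound, algebra side (helper6): basic definitions

* `Vge ℓ c x` : `ℓ ^ c` divides the rational number `x` in `ℤ_(ℓ)`;
* `VS ℓ c F`  : all coefficients of the power series `F` are divisible by `ℓ ^ c`;
* `Up p`, `Vp p` : the operators `U_p`, `V_p` on `ℚ⟦X⟧`;
* `Sg k` : the series `∑ σ_k(n) q ^ n`, `E4s = 1 + 240 Sg 3`, `E6s = 1 - 504 Sg 5`;
* `WPairs p` : the interface to the analytic side: the sets `P k` of pairs `(F, F^W)` of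
  q-expansions of a form of weight `k` on `Γ₀(p)` and of its Fricke transform, with the closure
  properties, the trace relations (weights 2 and 4) and the two-cusp Sturm bound.
-/

set_option autoImplicit false
set_option linter.unusedSectionVars false

namespace Fermat.Agent.S16.UA

open PowerSeries

/-- `ℓ ^ c` divides `x` in `ℤ_(ℓ)`. -/
def Vge (ℓ : ℕ) (c : ℕ) (x : ℚ) : Prop := x = 0 ∨ (c : ℤ) ≤ padicValRat ℓ x

section Vge

variable {ℓ : ℕ}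

theorem Vge.zero (c : ℕ) : Vge ℓ c 0 := Or.inl rfl

theorem Vge.mono {c d : ℕ} (h : c ≤ d) {x : ℚ} (hx : Vge ℓ d x) : Vge ℓ c x := by
  rcases hx with rfl | hx
  · exact Vge.zero c
  · exact Or.inr (le_trans (by exact_mod_cast h) hx)

theorem Vge.neg {c : ℕ} {x : ℚ} (hx : Vge ℓ c x) : Vge ℓ c (-x) := by
  rcases hx with rfl | hx
  · simpa using Vge.zero (ℓ := ℓ) c
  · exact Or.inr (by rwa [padicValRat.neg])

theorem Vge.intCast (n : ℤ) : Vge ℓ 0 (n : ℚ) := by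
  right
  rw [padicValRat.of_int]
  exact_mod_cast Nat.zero_le _

theorem Vge.natCast (n : ℕ) : Vge ℓ 0 (n : ℚ) := by
  have := Vge.intCast (ℓ := ℓ) (n : ℤ)
  simpa using this

theorem Vge.one : Vge ℓ 0 (1 : ℚ) := by
  have := Vge.natCast (ℓ := ℓ) 1
  simpa using this

variable [hℓ : Fact ℓ.Prime]

theorem Vge.add {c : ℕ} {x y : ℚ} (hx : Vge ℓ c x) (hy : Vge ℓ c y) : Vge ℓ c (x + y) := by
  rcases hx with rfl | hx
  · simpa using hy
  rcases hy with rfl | hy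
  · rw [add_zero]; exact Or.inr hx
  by_cases h : x + y = 0
  · exact Or.inl h
  · exact Or.inr (le_trans (le_min hx hy) (padicValRat.min_le_padicValRat_add h))

theorem Vge.sub {c : ℕ} {x y : ℚ} (hx : Vge ℓ c x) (hy : Vge ℓ c y) : Vge ℓ c (x - y) := by
  rw [sub_eq_add_neg]
  exact hx.add hy.neg

theorem Vge.mul {c d : ℕ} {x y : ℚ} (hx : Vge ℓ c x) (hy : Vge ℓ d y) :
    Vge ℓ (c + d) (x * y) := by
  rcases hx with rfl | hx
  · simpa using Vge.zero (ℓ := ℓ) (c + d)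
  rcases hy with rfl | hy
  · simpa using Vge.zero (ℓ := ℓ) (c + d)
  by_cases hx0 : x = 0
  · subst hx0; simpa using Vge.zero (ℓ := ℓ) (c + d)
  by_cases hy0 : y = 0
  · subst hy0; simpa using Vge.zero (ℓ := ℓ) (c + d)
  right
  rw [padicValRat.mul hx0 hy0]
  push_cast
  exact add_le_add hx hy

theorem Vge.mul_left {c : ℕ} {x y : ℚ} (hx : Vge ℓ 0 x) (hy : Vge ℓ c y) : Vge ℓ c (x * y) := by
  have := hx.mul hy
  simpa using this

theorem Vge.mul_right {c : ℕ} {x y : ℚ} (hx : Vge ℓ c x) (hy : Vge ℓ 0 y) : Vge ℓ c (x * y) := by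
  have := hx.mul hy
  simpa using this

theorem Vge.sum {ι : Type*} {c : ℕ} (s : Finset ι) (f : ι → ℚ) (h : ∀ i ∈ s, Vge ℓ c (f i)) :
    Vge ℓ c (∑ i ∈ s, f i) := by
  classical
  induction s using Finset.induction_on with
  | empty => simpa using Vge.zero (ℓ := ℓ) c
  | insert a s ha ih =>
    rw [Finset.sum_insert ha]
    exact (h a (Finset.mem_insert_self a s)).add
      (ih fun i hi => h i (Finset.mem_insert_of_mem hi))

theorem Vge.pow {c : ℕ} {x : ℚ} (hx : Vge ℓ c x) (k : ℕ) : Vge ℓ (k * c) (x ^ k) := by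
  induction k with
  | zero => simpa using Vge.one (ℓ := ℓ)
  | succ k ih =>
    rw [pow_succ, Nat.succ_mul]
    exact ih.mul hx

/-- `ℓ ^ c` is divisible by `ℓ ^ c`. -/
theorem Vge.prime_pow (c : ℕ) : Vge ℓ c ((ℓ : ℚ) ^ c) := by
  right
  rw [padicValRat.pow, padicValRat.self hℓ.out.one_lt, mul_one]

theorem Vge.prime : Vge ℓ 1 (ℓ : ℚ) := by
  have := Vge.prime_pow (ℓ := ℓ) 1
  simpa using this

theorem Vge.prime_pow_mul {c d : ℕ} {x : ℚ} (hx : Vge ℓ d x) : Vge ℓ (c + d) ((ℓ : ℚ) ^ c * x) :=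
  (Vge.prime_pow c).mul hx

/-- division by `ℓ ^ c` -/
theorem Vge.div_prime_pow {c d : ℕ} {x : ℚ} (hx : Vge ℓ (c + d) x) :
    Vge ℓ d (x / (ℓ : ℚ) ^ c) := by
  rcases hx with rfl | hx
  · simpa using Vge.zero (ℓ := ℓ) d
  by_cases hx0 : x = 0
  · subst hx0; simpa using Vge.zero (ℓ := ℓ) d
  right
  have hℓ0 : (ℓ : ℚ) ^ c ≠ 0 := pow_ne_zero _ (by exact_mod_cast hℓ.out.ne_zero)
  rw [padicValRat.div hx0 hℓ0, padicValRat.pow, padicValRat.self hℓ.out.one_lt]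
  push_cast at hx ⊢
  linarith

/-- a rational number of valuation `0` -/
def IsU (ℓ : ℕ) (x : ℚ) : Prop := x ≠ 0 ∧ padicValRat ℓ x = 0

omit hℓ in
theorem IsU.ne_zero {x : ℚ} (hx : IsU ℓ x) : x ≠ 0 := hx.1

theorem IsU.vge {x : ℚ} (hx : IsU ℓ x) : Vge ℓ 0 x := Or.inr (by rw [hx.2]; simp)

theorem IsU.inv {x : ℚ} (hx : IsU ℓ x) : IsU ℓ x⁻¹ :=
  ⟨inv_ne_zero hx.1, by rw [padicValRat.inv, hx.2, neg_zero]⟩

theorem IsU.mul {x y : ℚ} (hx : IsU ℓ x) (hy : IsU ℓ y) : IsU ℓ (x * y) :=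
  ⟨mul_ne_zero hx.1 hy.1, by rw [padicValRat.mul hx.1 hy.1, hx.2, hy.2, add_zero]⟩

theorem IsU.pow {x : ℚ} (hx : IsU ℓ x) (k : ℕ) : IsU ℓ (x ^ k) :=
  ⟨pow_ne_zero _ hx.1, by rw [padicValRat.pow, hx.2, mul_zero]⟩

theorem IsU.neg {x : ℚ} (hx : IsU ℓ x) : IsU ℓ (-x) :=
  ⟨neg_ne_zero.mpr hx.1, by rw [padicValRat.neg, hx.2]⟩

theorem IsU.natCast {n : ℕ} (h : ¬ ℓ ∣ n) : IsU ℓ (n : ℚ) := by
  have hn : n ≠ 0 := fun h0 => h (h0 ▸ dvd_zero _)
  refine ⟨by exact_mod_cast hn, ?_⟩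
  rw [padicValRat.of_nat, padicValNat.eq_zero_of_not_dvd h]
  rfl

theorem IsU.not_vge_one {x : ℚ} (hx : IsU ℓ x) : ¬ Vge ℓ 1 x := by
  rintro (h | h)
  · exact hx.1 h
  · rw [hx.2] at h
    norm_num at h

theorem IsU.mul_vge_iff {c : ℕ} {x y : ℚ} (hx : IsU ℓ x) : Vge ℓ c (x * y) ↔ Vge ℓ c y := by
  constructor
  · intro h
    have := hx.inv.vge.mul_left h
    rwa [← mul_assoc, inv_mul_cancel₀ hx.1, one_mul] at this
  · intro h
    exact hx.vge.mul_left h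

/-- if `x` is not `ℓ`-integral then `1 / x` is divisible by `ℓ` -/
theorem vge_one_inv_of_not_vge_zero {x : ℚ} (hx : ¬ Vge ℓ 0 x) : Vge ℓ 1 x⁻¹ := by
  right
  rw [padicValRat.inv]
  have h1 : ¬ ((0 : ℕ) : ℤ) ≤ padicValRat ℓ x := fun h => hx (Or.inr h)
  push_cast at h1 ⊢
  omega

/-- if `ℓ ^ (c+1)` does not divide the nonzero `x` but ... : exact valuation data.  For a
nonzero `x` which is not divisible by `ℓ ^ c` (`c ≥ 1` steps below integrality are measured by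
`e`): `x⁻¹ = ℓ ^ e * u` with `e = - v(x)`. -/
theorem exists_inv_eq_of_not_vge_zero {x : ℚ} (hx : ¬ Vge ℓ 0 x) :
    ∃ (e : ℕ) (u : ℚ), 1 ≤ e ∧ IsU ℓ u ∧ x⁻¹ = (ℓ : ℚ) ^ e * u ∧
      padicValRat ℓ x = -(e : ℤ) := by
  have hx0 : x ≠ 0 := fun h => hx (Or.inl h)
  have h1 : padicValRat ℓ x < 0 := by
    by_contra h
    exact hx (Or.inr (by push_cast; omega))
  obtain ⟨e, he⟩ : ∃ e : ℕ, padicValRat ℓ x = -(e : ℤ) :=
    ⟨(-padicValRat ℓ x).toNat, by rw [Int.toNat_of_nonneg (by omega)]; ring⟩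
  have hℓ0 : (ℓ : ℚ) ≠ 0 := by exact_mod_cast hℓ.out.ne_zero
  have hℓe : (ℓ : ℚ) ^ e ≠ 0 := pow_ne_zero _ hℓ0
  refine ⟨e, x⁻¹ / (ℓ : ℚ) ^ e, by omega, ⟨div_ne_zero (inv_ne_zero hx0) hℓe, ?_⟩, ?_, he⟩
  · rw [padicValRat.div (inv_ne_zero hx0) hℓe, padicValRat.inv, padicValRat.pow,
      padicValRat.self hℓ.out.one_lt, he]
    ring
  · field_simp

end Vge

/-- all coefficients of `F` are divisible by `ℓ ^ c` -/
def VS (ℓ : ℕ) (c : ℕ) (F : PowerSeries ℚ) : Prop := ∀ n, Vge ℓ c (coeff n F)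

section VS

variable {ℓ : ℕ}

theorem VS.zero (c : ℕ) : VS ℓ c 0 := fun n => by simpa using Vge.zero (ℓ := ℓ) c

theorem VS.mono {c d : ℕ} (h : c ≤ d) {F : PowerSeries ℚ} (hF : VS ℓ d F) : VS ℓ c F :=
  fun n => (hF n).mono h

theorem VS.neg {c : ℕ} {F : PowerSeries ℚ} (hF : VS ℓ c F) : VS ℓ c (-F) :=
  fun n => by simpa using (hF n).neg

theorem VS.one : VS ℓ 0 (1 : PowerSeries ℚ) := fun n => by
  rw [coeff_one]
  split_ifs
  · exact Vge.one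
  · exact Vge.zero 0

variable [hℓ : Fact ℓ.Prime]

theorem VS.add {c : ℕ} {F G : PowerSeries ℚ} (hF : VS ℓ c F) (hG : VS ℓ c G) :
    VS ℓ c (F + G) := fun n => by simpa using (hF n).add (hG n)

theorem VS.sub {c : ℕ} {F G : PowerSeries ℚ} (hF : VS ℓ c F) (hG : VS ℓ c G) :
    VS ℓ c (F - G) := fun n => by simpa using (hF n).sub (hG n)

theorem VS.mul {c d : ℕ} {F G : PowerSeries ℚ} (hF : VS ℓ c F) (hG : VS ℓ d G) :
    VS ℓ (c + d) (F * G) := fun n => by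
  rw [coeff_mul]
  exact Vge.sum _ _ fun i _ => (hF i.1).mul (hG i.2)

theorem VS.mul_left {c : ℕ} {F G : PowerSeries ℚ} (hF : VS ℓ 0 F) (hG : VS ℓ c G) :
    VS ℓ c (F * G) := by
  have := hF.mul hG
  simpa using this

theorem VS.mul_right {c : ℕ} {F G : PowerSeries ℚ} (hF : VS ℓ c F) (hG : VS ℓ 0 G) :
    VS ℓ c (F * G) := by
  have := hF.mul hG
  simpa using this

theorem VS.smul {c d : ℕ} {x : ℚ} {F : PowerSeries ℚ} (hx : Vge ℓ c x) (hF : VS ℓ d F) :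
    VS ℓ (c + d) (x • F) := fun n => by
  rw [coeff_smul, smul_eq_mul]
  exact hx.mul (hF n)

theorem VS.smul_left {c : ℕ} {x : ℚ} {F : PowerSeries ℚ} (hx : Vge ℓ 0 x) (hF : VS ℓ c F) :
    VS ℓ c (x • F) := by
  have := VS.smul hx hF
  simpa using this

theorem VS.smul_right {c : ℕ} {x : ℚ} {F : PowerSeries ℚ} (hx : Vge ℓ c x) (hF : VS ℓ 0 F) :
    VS ℓ c (x • F) := by
  have := VS.smul hx hF
  simpa using this

theorem VS.pow {c : ℕ} {F : PowerSeries ℚ} (hF : VS ℓ c F) (k : ℕ) : VS ℓ (k * c) (F ^ k) := by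
  induction k with
  | zero => simpa using VS.one (ℓ := ℓ)
  | succ k ih =>
    rw [pow_succ, Nat.succ_mul]
    exact ih.mul hF

theorem VS.pow_zero {F : PowerSeries ℚ} (hF : VS ℓ 0 F) (k : ℕ) : VS ℓ 0 (F ^ k) := by
  have := hF.pow k
  simpa using this

end VS

/-- the operator `U_p` on power series -/
noncomputable def Up (p : ℕ) (F : PowerSeries ℚ) : PowerSeries ℚ :=
  PowerSeries.mk fun n => coeff (p * n) F

/-- the operator `V_p` on power series: `F(q) ↦ F(q^p)` -/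
noncomputable def Vp (p : ℕ) (F : PowerSeries ℚ) : PowerSeries ℚ :=
  PowerSeries.mk fun n => if p ∣ n then coeff (n / p) F else 0

@[simp] theorem coeff_Up (p n : ℕ) (F : PowerSeries ℚ) : coeff n (Up p F) = coeff (p * n) F := by
  simp [Up]

theorem coeff_Vp (p n : ℕ) (F : PowerSeries ℚ) :
    coeff n (Vp p F) = if p ∣ n then coeff (n / p) F else 0 := by
  simp [Vp]

theorem Up_add (p : ℕ) (F G : PowerSeries ℚ) : Up p (F + G) = Up p F + Up p G := by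
  ext n; simp

theorem Up_neg (p : ℕ) (F : PowerSeries ℚ) : Up p (-F) = -Up p F := by
  ext n; simp

theorem Up_sub (p : ℕ) (F G : PowerSeries ℚ) : Up p (F - G) = Up p F - Up p G := by
  ext n; simp

theorem Up_smul (p : ℕ) (x : ℚ) (F : PowerSeries ℚ) : Up p (x • F) = x • Up p F := by
  ext n; simp

theorem Up_C {p : ℕ} (hp : 0 < p) (x : ℚ) : Up p (C x) = C x := by
  ext n
  rw [coeff_Up, coeff_C, coeff_C]
  by_cases h : n = 0
  · simp [h]
  · have : p * n ≠ 0 := Nat.mul_ne_zero hp.ne' h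
    simp [h, this]

theorem Up_one {p : ℕ} (hp : 0 < p) : Up p 1 = 1 := by
  have := Up_C hp 1
  simpa using this

theorem VS.Up {ℓ c : ℕ} {F : PowerSeries ℚ} (hF : VS ℓ c F) (p : ℕ) : VS ℓ c (Up p F) :=
  fun n => by rw [coeff_Up]; exact hF _

theorem VS.Vp {ℓ c : ℕ} {F : PowerSeries ℚ} (hF : VS ℓ c F) (p : ℕ) : VS ℓ c (Vp p F) :=
  fun n => by
    rw [coeff_Vp]
    split_ifs
    · exact hF _
    · exact Vge.zero c

/-- the series `∑ σ_k(n) q ^ n` -/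
noncomputable def Sg (k : ℕ) : PowerSeries ℚ :=
  PowerSeries.mk fun n => (ArithmeticFunction.sigma k n : ℚ)

@[simp] theorem coeff_Sg (k n : ℕ) : coeff n (Sg k) = (ArithmeticFunction.sigma k n : ℚ) := by
  simp [Sg]

theorem VS.Sg (ℓ k : ℕ) : VS ℓ 0 (Sg k) := fun n => by
  rw [coeff_Sg]; exact Vge.natCast _

/-- the q-expansion of `E₄` -/
noncomputable def E4s : PowerSeries ℚ := 1 + (240 : ℚ) • Sg 3

/-- the q-expansion of `E₆` -/
noncomputable def E6s : PowerSeries ℚ := 1 - (504 : ℚ) • Sg 5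

/-- **The interface to the analytic side.**  `P k` is (a set containing) the set of pairs
`(F, F^W)` where `F` is the q-expansion of a modular form `f` of weight `k` on `Γ₀(p)` with
rational q-expansion and `F^W` is the q-expansion of `f^W(z) = p^(-k/2) z^(-k) f(-1/(pz))`. -/
structure WPairs (p : ℕ) where
  /-- the set of pairs of weight `k` -/
  P : ℕ → Set (PowerSeries ℚ × PowerSeries ℚ)
  add : ∀ (k : ℕ) (F F' G G' : PowerSeries ℚ),
    (F, F') ∈ P k → (G, G') ∈ P k → (F + G, F' + G') ∈ P k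
  smul : ∀ (k : ℕ) (c : ℚ) (F F' : PowerSeries ℚ), (F, F') ∈ P k → (c • F, c • F') ∈ P k
  mul : ∀ (k₁ k₂ : ℕ) (F F' G G' : PowerSeries ℚ),
    (F, F') ∈ P k₁ → (G, G') ∈ P k₂ → (F * G, F' * G') ∈ P (k₁ + k₂)
  symm : ∀ (k : ℕ) (F F' : PowerSeries ℚ), Even k → (F, F') ∈ P k → (F', F) ∈ P k
  e4 : (E4s, ((p : ℚ) ^ 2) • Vp p E4s) ∈ P 4
  e6 : (E6s, ((p : ℚ) ^ 3) • Vp p E6s) ∈ P 6
  /-- trace to level one, weight 2: `F^W = - U_p F` -/
  tr2 : ∀ (F F' : PowerSeries ℚ), (F, F') ∈ P 2 → F' = -Up p F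
  /-- trace to level one, weight 4 -/
  tr4 : ∀ (F F' : PowerSeries ℚ), (F, F') ∈ P 4 →
    F + (p : ℚ)⁻¹ • Up p F' = (coeff 0 F + (p : ℚ)⁻¹ * coeff 0 F') • E4s
  /-- the two-cusp Sturm bound modulo `ℓ ≠ p` -/
  twoCusp : ∀ (k ℓ : ℕ) (F F' : PowerSeries ℚ), ℓ.Prime → ℓ ≠ p → (F, F') ∈ P k →
    VS ℓ 0 F → VS ℓ 0 F' → ∀ a b : ℕ, (∀ n, n < a → Vge ℓ 1 (coeff n F)) →
      (∀ n, n < b → Vge ℓ 1 (coeff n F')) → k * (p + 1) < 12 * (a + b) →
      VS ℓ 1 F ∨ VS ℓ 1 F'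

end Fermat.Agent.S16.UA
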