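import Fermat.Agent.S16.WPair
import Fermat.Agent.S16.UpperAlgBasic

/-!
# S16: the entry lemma and `tr2` from the trace relation (C0) on `q`-coefficients

`TraceTwo p`: for every `f ∈ M_2(Γ₀(p))`, `a_n(f^W) = - a_{pn}(f)`.
-/

set_option autoImplicit false

open UpperHalfPlane ModularFormClass CongruenceSubgroup
open scoped MatrixGroups ModularForm

namespace Fermat.Agent.S16

/-- (C0) on `q`-coefficients: `f^W = - U_p f` for every `f ∈ M_2(Γ₀(p))`. -/
def TraceTwo (p : ℕ) : Prop :=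
  ∀ (f : ModularForm (Gamma0 p : Subgroup (GL (Fin 2) ℝ)) 2) (n : ℕ),
    qCoeff (wT p 2 f) n = - qCoeff f (p * n)

/-- The entry lemma: a form of weight `2` with rational `q`-expansion `F` gives the `W`-pair
`(F, -U_p F)`. -/
theorem isWPair_two_of_traceTwo {p : ℕ} (h : TraceTwo p)
    (f : ModularForm (Gamma0 p : Subgroup (GL (Fin 2) ℝ)) 2) (F : PowerSeries ℚ)
    (hF : ∀ n : ℕ, qCoeff f n = ((PowerSeries.coeff n F : ℚ) : ℂ)) :
    IsWPair p 2 F (-UA.Up p F) := by
  refine ⟨f, hF, fun n => ?_⟩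
  rw [h f n, hF (p * n)]
  simp [UA.Up]

/-- The field `tr2` of `WPairsInputs`. -/
theorem tr2_of_traceTwo {p : ℕ} (h : TraceTwo p) (F F' : PowerSeries ℚ)
    (hW : IsWPair p 2 F F') : F' = -UA.Up p F := by
  obtain ⟨f, hF, hF'⟩ := hW
  ext n
  have h1 := hF' n
  rw [h f n, hF (p * n)] at h1
  have h2 : ((-(PowerSeries.coeff (p * n) F) : ℚ) : ℂ) = ((PowerSeries.coeff n F' : ℚ) : ℂ) := by
    push_cast
    exact h1
  have h3 : -(PowerSeries.coeff (p * n) F) = PowerSeries.coeff n F' := by exact_mod_cast h2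
  rw [← h3]
  simp [UA.Up]

end Fermat.Agent.S16
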