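import Fermat.Agent.S16.WPair

/-!
# S16, piece 84-P13 (helper7): the Fricke involution `W` as a map of modular forms

* `frickeConjSL p γ c hc` : for `γ = [[a, b], [p c, d]] ∈ Γ₀(p)` the matrix
  `W⁻¹ γ W = [[d, -c], [-p b, a]]`;
* `conj_fricke_Gamma0` : `W⁻¹ Γ₀(p) W = Γ₀(p)` inside `GL (Fin 2) ℝ`;
* `wForm p k f : ModularForm (Gamma0 p) k` with `⇑(wForm p k f) = wT p k f`.
-/

set_option autoImplicit false

noncomputable section

open scoped MatrixGroups ModularForm Pointwise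
open UpperHalfPlane ModularFormClass Matrix.SpecialLinearGroup ConjAct

namespace Fermat.Agent.S16

/-- `W⁻¹ γ W` for `γ = [[a, b], [p c, d]]`. -/
def frickeConjSL (p : ℕ) (γ : SL(2, ℤ)) (c : ℤ) (hc : γ 1 0 = p * c) : SL(2, ℤ) :=
  ⟨!![γ 1 1, -c; -(p : ℤ) * γ 0 1, γ 0 0], by
    have h := γ.det_coe
    rw [Matrix.det_fin_two] at h
    rw [Matrix.det_fin_two_of]
    rw [hc] at h
    linear_combination h⟩

theorem frickeConjSL_mem (p : ℕ) (γ : SL(2, ℤ)) (c : ℤ) (hc : γ 1 0 = p * c) :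
    frickeConjSL p γ c hc ∈ CongruenceSubgroup.Gamma0 p := by
  rw [CongruenceSubgroup.Gamma0_mem]
  simp [frickeConjSL]

theorem mapGL_real_apply (γ : SL(2, ℤ)) (i j : Fin 2) :
    ((mapGL ℝ γ : GL (Fin 2) ℝ) : Matrix (Fin 2) (Fin 2) ℝ) i j = ((γ i j : ℤ) : ℝ) := by
  rw [mapGL_coe_matrix]
  simp

theorem fricke_mul_conj {p : ℕ} (hp : p ≠ 0) (γ : SL(2, ℤ)) (c : ℤ) (hc : γ 1 0 = p * c) :
    frickeMatrix p * mapGL ℝ (frickeConjSL p γ c hc) = mapGL ℝ γ * frickeMatrix p := by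
  apply Units.ext
  have hcR : ((γ 1 0 : ℤ) : ℝ) = (p : ℝ) * (c : ℝ) := by
    exact_mod_cast congrArg (Int.cast : ℤ → ℝ) hc
  ext i j
  simp only [Units.val_mul, Matrix.mul_apply, Fin.sum_univ_two, mapGL_real_apply,
    val_frickeMatrix hp]
  fin_cases i <;> fin_cases j <;>
    simp [frickeConjSL, hcR, mul_comm]

theorem conj_mul_fricke {p : ℕ} (hp : p ≠ 0) (γ : SL(2, ℤ)) (c : ℤ) (hc : γ 1 0 = p * c) :
    mapGL ℝ (frickeConjSL p γ c hc) * frickeMatrix p = frickeMatrix p * mapGL ℝ γ := by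
  apply Units.ext
  have hcR : ((γ 1 0 : ℤ) : ℝ) = (p : ℝ) * (c : ℝ) := by
    exact_mod_cast congrArg (Int.cast : ℤ → ℝ) hc
  ext i j
  simp only [Units.val_mul, Matrix.mul_apply, Fin.sum_univ_two, mapGL_real_apply,
    val_frickeMatrix hp]
  fin_cases i <;> fin_cases j <;>
    simp [frickeConjSL, hcR, mul_comm]

/-- `W⁻¹ Γ₀(p) W = Γ₀(p)` inside `GL (Fin 2) ℝ`. -/
theorem conj_fricke_Gamma0 {p : ℕ} (hp : p ≠ 0) :
    toConjAct (frickeMatrix p)⁻¹ • ((CongruenceSubgroup.Gamma0 p).map (mapGL ℝ)) =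
      (CongruenceSubgroup.Gamma0 p).map (mapGL ℝ) := by
  have key : ∀ γ ∈ CongruenceSubgroup.Gamma0 p, ∃ γ' ∈ CongruenceSubgroup.Gamma0 p,
      frickeMatrix p * mapGL ℝ γ' = mapGL ℝ γ * frickeMatrix p := by
    intro γ hγ
    rw [CongruenceSubgroup.Gamma0_mem, ZMod.intCast_zmod_eq_zero_iff_dvd] at hγ
    obtain ⟨c, hc⟩ := hγ
    exact ⟨frickeConjSL p γ c hc, frickeConjSL_mem p γ c hc, fricke_mul_conj hp γ c hc⟩
  ext x
  rw [Subgroup.mem_pointwise_smul_iff_inv_smul_mem, map_inv, inv_inv, ConjAct.toConjAct_smul]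
  simp only [Subgroup.mem_map]
  constructor
  · rintro ⟨γ, hγ, hx⟩
    obtain ⟨γ', hγ', h⟩ := key γ hγ
    refine ⟨γ', hγ', ?_⟩
    -- W x W⁻¹ = γ, so x = W⁻¹ γ W = γ'
    have : frickeMatrix p * x = mapGL ℝ γ * frickeMatrix p := by
      rw [hx]; group
    exact mul_left_cancel (a := frickeMatrix p) (h.trans this.symm)
  · rintro ⟨γ, hγ, rfl⟩
    rw [CongruenceSubgroup.Gamma0_mem, ZMod.intCast_zmod_eq_zero_iff_dvd] at hγ
    obtain ⟨c, hc⟩ := hγ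
    refine ⟨frickeConjSL p γ c hc, frickeConjSL_mem p γ c hc, ?_⟩
    rw [eq_mul_inv_iff_mul_eq]
    exact conj_mul_fricke hp γ c hc

theorem frickeMatrix_zero : frickeMatrix 0 = 1 := by simp [frickeMatrix]

/-- `W⁻¹ Γ₀(p) W = Γ₀(p)`, for every `p` (for `p = 0` the matrix `W` is the identity). -/
theorem conj_fricke_Gamma0' (p : ℕ) :
    ((CongruenceSubgroup.Gamma0 p : Subgroup SL(2, ℤ)) : Subgroup (GL (Fin 2) ℝ)) =
      toConjAct (frickeMatrix p)⁻¹ • ((CongruenceSubgroup.Gamma0 p : Subgroup SL(2, ℤ)) :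
        Subgroup (GL (Fin 2) ℝ)) := by
  rcases eq_or_ne p 0 with rfl | hp
  · rw [frickeMatrix_zero]; simp
  · exact (conj_fricke_Gamma0 hp).symm

/-- The Fricke involution as a map of modular forms: `wForm p k f = f^W`,
`f^W(z) = p^(-k/2) z^(-k) f(-1/(pz))` (for even `k`). -/
def wForm (p : ℕ) (k : ℤ) (f : ModularForm (CongruenceSubgroup.Gamma0 p) k) :
    ModularForm (CongruenceSubgroup.Gamma0 p) k :=
  ((p : ℂ) ^ (1 - k / 2)) •
    ModularForm.mcast rfl (ModularForm.translate f (frickeMatrix p)) (conj_fricke_Gamma0' p)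

theorem coe_wForm (p : ℕ) (k : ℤ) (f : ModularForm (CongruenceSubgroup.Gamma0 p) k) :
    ⇑(wForm p k f) = wT p k f := rfl

theorem wForm_apply (p : ℕ) (k : ℤ) (f : ModularForm (CongruenceSubgroup.Gamma0 p) k) (τ : ℍ) :
    wForm p k f τ = wT p k f τ := rfl

end Fermat.Agent.S16
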