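import Mathlib
import Fermat.Agent.S16.WForm

/-!
# S16, piece 84-P4 (helper1): the trace from `Γ₀(p)` to level one, explicitly

For `f ∈ M_k(Γ₀(p))` (`p` prime) the function
`trFun p k f = f + ∑_{x : ZMod p} f ∣[k] (S T^x)` is invariant under `SL(2, ℤ)`.
-/

set_option autoImplicit false

noncomputable section

open scoped MatrixGroups ModularForm
open UpperHalfPlane ModularFormClass CongruenceSubgroup Matrix.SpecialLinearGroup ModularGroup

namespace Fermat.Agent.S16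

variable {p : ℕ} {k : ℤ}

/-- invariance of a form on `Γ₀(p)` under `Γ₀(p)`, in `SL(2, ℤ)`-slash form. -/
theorem slash_of_mem_Gamma0 (f : ModularForm (Gamma0 p) k) {γ : SL(2, ℤ)} (hγ : γ ∈ Gamma0 p) :
    (f : ℍ → ℂ) ∣[k] γ = f :=
  SlashInvariantForm.slash_action_eqn f _ ⟨γ, hγ, rfl⟩

/-- `f ∣ (S T^j)`. -/
def aZ (f : ModularForm (Gamma0 p) k) (j : ℤ) : ℍ → ℂ := (f : ℍ → ℂ) ∣[k] (S * T ^ j)

theorem slash_mul_of_mem (f : ModularForm (Gamma0 p) k) {γ : SL(2, ℤ)} (hγ : γ ∈ Gamma0 p)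
    (g : SL(2, ℤ)) : (f : ℍ → ℂ) ∣[k] (γ * g) = (f : ℍ → ℂ) ∣[k] g := by
  rw [SlashAction.slash_mul, slash_of_mem_Gamma0 f hγ]

theorem S_T_zpow_S_inv_mem (m : ℤ) : S * T ^ ((p : ℤ) * m) * S⁻¹ ∈ Gamma0 p := by
  rw [Gamma0_mem]
  have : ((S * T ^ ((p : ℤ) * m) * S⁻¹ : SL(2, ℤ)) 1 0 : ℤ) = -((p : ℤ) * m) := by
    simp [coe_T_zpow, coe_S, Matrix.mul_apply, Fin.sum_univ_two, Matrix.SpecialLinearGroup.coe_inv,
      Matrix.adjugate_fin_two]
  rw [this]
  simp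

theorem aZ_add_mul (f : ModularForm (Gamma0 p) k) (j m : ℤ) :
    aZ f (j + (p : ℤ) * m) = aZ f j := by
  unfold aZ
  have : S * T ^ (j + (p : ℤ) * m) = (S * T ^ ((p : ℤ) * m) * S⁻¹) * (S * T ^ j) := by
    rw [add_comm, zpow_add]; group
  rw [this, slash_mul_of_mem f (S_T_zpow_S_inv_mem m)]

theorem aZ_slash_T (f : ModularForm (Gamma0 p) k) (j : ℤ) :
    aZ f j ∣[k] T = aZ f (j + 1) := by
  unfold aZ
  rw [← SlashAction.slash_mul, mul_assoc, zpow_add_one]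

theorem neg_one_mem_Gamma0 : (-1 : SL(2, ℤ)) ∈ Gamma0 p := by
  rw [Gamma0_mem]; simp

theorem aZ_zero_slash_S (f : ModularForm (Gamma0 p) k) : aZ f 0 ∣[k] S = f := by
  unfold aZ
  rw [← SlashAction.slash_mul, zpow_zero, mul_one]
  have : (S * S : SL(2, ℤ)) = -1 := by
    ext i j; fin_cases i <;> fin_cases j <;> simp [coe_S, Matrix.mul_apply, Fin.sum_univ_two]
  rw [this]
  exact slash_of_mem_Gamma0 f neg_one_mem_Gamma0

theorem slash_S_eq_aZ_zero (f : ModularForm (Gamma0 p) k) : (f : ℍ → ℂ) ∣[k] S = aZ f 0 := by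
  unfold aZ; rw [zpow_zero, mul_one]

theorem aZ_slash_S (f : ModularForm (Gamma0 p) k) {j j' : ℤ} (h : (p : ℤ) ∣ j * j' + 1) :
    aZ f j ∣[k] S = aZ f j' := by
  unfold aZ
  rw [← SlashAction.slash_mul]
  have hmem : S * T ^ j * S * (S * T ^ j')⁻¹ ∈ Gamma0 p := by
    rw [Gamma0_mem]
    have : ((S * T ^ j * S * (S * T ^ j')⁻¹ : SL(2, ℤ)) 1 0 : ℤ) = j * j' + 1 := by
      simp [coe_T_zpow, coe_S, Matrix.mul_apply, Fin.sum_univ_two,
        Matrix.SpecialLinearGroup.coe_inv, Matrix.adjugate_fin_two]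
    rw [this]
    exact (ZMod.intCast_zmod_eq_zero_iff_dvd _ _).mpr h
  have : S * T ^ j * S = (S * T ^ j * S * (S * T ^ j')⁻¹) * (S * T ^ j') := by group
  rw [this, slash_mul_of_mem f hmem]


section prime

variable [Fact p.Prime]

/-- `f ∣ (S T^x)` for `x : ZMod p`. -/
def aP (f : ModularForm (Gamma0 p) k) (x : ZMod p) : ℍ → ℂ := aZ f (x.val : ℤ)

theorem aP_intCast (f : ModularForm (Gamma0 p) k) (j : ℤ) : aP f (j : ZMod p) = aZ f j := by
  unfold aP
  have h : (p : ℤ) ∣ j - (((j : ZMod p)).val : ℤ) := by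
    rw [← ZMod.intCast_zmod_eq_zero_iff_dvd]
    simp
  obtain ⟨m, hm⟩ := h
  have : j = (((j : ZMod p)).val : ℤ) + (p : ℤ) * m := by linarith
  conv_rhs => rw [this]
  rw [aZ_add_mul]

theorem aP_slash_T (f : ModularForm (Gamma0 p) k) (x : ZMod p) :
    aP f x ∣[k] T = aP f (x + 1) := by
  obtain ⟨j, rfl⟩ := ZMod.intCast_surjective x
  rw [aP_intCast, aZ_slash_T, ← aP_intCast]
  push_cast
  rfl

theorem aP_zero_slash_S (f : ModularForm (Gamma0 p) k) : aP f 0 ∣[k] S = f := by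
  have : aP f 0 = aZ f 0 := by
    have := aP_intCast f 0
    simpa using this
  rw [this, aZ_zero_slash_S]

theorem slash_S_eq_aP_zero (f : ModularForm (Gamma0 p) k) : (f : ℍ → ℂ) ∣[k] S = aP f 0 := by
  have : aP f 0 = aZ f 0 := by
    have := aP_intCast f 0
    simpa using this
  rw [this, slash_S_eq_aZ_zero]

theorem aP_slash_S (f : ModularForm (Gamma0 p) k) {x : ZMod p} (hx : x ≠ 0) :
    aP f x ∣[k] S = aP f (-x⁻¹) := by
  obtain ⟨j, rfl⟩ := ZMod.intCast_surjective x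
  obtain ⟨j', hj'⟩ := ZMod.intCast_surjective (-((j : ZMod p))⁻¹)
  rw [← hj', aP_intCast, aP_intCast]
  apply aZ_slash_S
  rw [← ZMod.intCast_zmod_eq_zero_iff_dvd]
  push_cast
  rw [hj', mul_neg, mul_inv_cancel₀ hx]
  ring

/-- The trace of `f` to level one, as a function. -/
def trFun (f : ModularForm (Gamma0 p) k) : ℍ → ℂ := (f : ℍ → ℂ) + ∑ x : ZMod p, aP f x

theorem trFun_slash_T (f : ModularForm (Gamma0 p) k) : trFun f ∣[k] T = trFun f := by
  unfold trFun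
  rw [SlashAction.add_slash, SlashAction.sum_slash,
    slash_of_mem_Gamma0 f (by rw [Gamma0_mem]; simp [coe_T] : T ∈ Gamma0 p)]
  congr 1
  simp_rw [aP_slash_T]
  exact Equiv.sum_comp (Equiv.addRight (1 : ZMod p)) (aP f)

theorem trFun_slash_S (f : ModularForm (Gamma0 p) k) : trFun f ∣[k] S = trFun f := by
  unfold trFun
  rw [SlashAction.add_slash, SlashAction.sum_slash, slash_S_eq_aP_zero]
  have h1 : ∑ x : ZMod p, aP f x ∣[k] S =
      (f : ℍ → ℂ) + ∑ x ∈ Finset.univ.erase (0 : ZMod p), aP f (-x⁻¹) := by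
    rw [← Finset.add_sum_erase _ _ (Finset.mem_univ (0 : ZMod p)), aP_zero_slash_S]
    congr 1
    exact Finset.sum_congr rfl fun x hx => aP_slash_S f (Finset.ne_of_mem_erase hx)
  have h2 : ∑ x ∈ Finset.univ.erase (0 : ZMod p), aP f (-x⁻¹) =
      ∑ x ∈ Finset.univ.erase (0 : ZMod p), aP f x := by
    refine Finset.sum_nbij' (fun x => -x⁻¹) (fun x => -x⁻¹) ?_ ?_ ?_ ?_ ?_
    · intro x hx
      have := Finset.ne_of_mem_erase hx
      simp [this]
    · intro x hx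
      have := Finset.ne_of_mem_erase hx
      simp [this]
    · intro x hx; simp
    · intro x hx; simp
    · intro x hx; rfl
  rw [h1, h2, ← Finset.add_sum_erase _ _ (Finset.mem_univ (0 : ZMod p))]
  abel

theorem trFun_slash (f : ModularForm (Gamma0 p) k) (γ : SL(2, ℤ)) : trFun f ∣[k] γ = trFun f :=
  SlashInvariantForm.slash_action_generators_SL2Z (trFun_slash_S f) (trFun_slash_T f) γ

end prime

end Fermat.Agent.S16
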