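import Mathlib
import Fermat.Agent.S16.TraceInv
import Fermat.Prelude.Thm_UpperHalfPlane_qCoeff_heckeU
import Fermat.Prelude.Thm_CongruenceSubgroup_one_mem_strictPeriods_Gamma0

/-!
# S16, piece 84-P4 (helper1): (TR) the trace to level one

For `f ∈ M_k(Γ₀(p))`, `p` prime:
* `trForm f : ModularForm 𝒮ℒ k` with underlying function `trFun f = f + ∑_x f ∣ S T^x`;
* `sum_aP_eq : ∑_x f ∣ S T^x = p^(1 - k + k/2) • heckeU k p (wT p k f)`;
* `qCoeff_trFun : qCoeff (trFun f) n = qCoeff f n + p^(1 - k + k/2) * qCoeff (wT p k f) (n * p)`.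
-/

set_option autoImplicit false
set_option linter.unusedSectionVars false
set_option linter.style.haveILetI false

noncomputable section

open scoped MatrixGroups ModularForm Manifold
open UpperHalfPlane ModularFormClass CongruenceSubgroup Matrix.SpecialLinearGroup ModularGroup
open ModularForm

namespace Fermat.Agent.S16

variable {p : ℕ} [hp : Fact p.Prime] {k : ℤ}

theorem mdiff_aP (f : ModularForm (Gamma0 p) k) (x : ZMod p) : MDiff (aP f x) :=
  (ModularFormClass.holo f).slash k _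

theorem bdd_aP (f : ModularForm (Gamma0 p) k) (x : ZMod p) : IsBoundedAtImInfty (aP f x) := by
  haveI : NeZero p := ⟨hp.out.ne_zero⟩
  exact ModularFormClass.bdd_at_infty_slash f _

theorem mdiff_trFun (f : ModularForm (Gamma0 p) k) : MDiff (trFun f) := by
  unfold trFun
  exact (ModularFormClass.holo f).add (MDifferentiable.sum fun x _ => mdiff_aP f x)

theorem bdd_sum_aP (f : ModularForm (Gamma0 p) k) :
    IsBoundedAtImInfty (∑ x : ZMod p, aP f x) := by
  refine Finset.sum_induction (aP f) IsBoundedAtImInfty (fun a b ha hb => ?_) ?_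
    (fun x _ => bdd_aP f x)
  · exact Filter.BoundedAtFilter.add ha hb
  · exact zero_form_isBoundedAtImInfty

theorem bdd_trFun (f : ModularForm (Gamma0 p) k) : IsBoundedAtImInfty (trFun f) := by
  haveI : NeZero p := ⟨hp.out.ne_zero⟩
  unfold trFun
  exact Filter.BoundedAtFilter.add (ModularFormClass.bdd_at_infty f) (bdd_sum_aP f)

/-- The trace of `f` to level one, as a modular form. -/
def trForm (f : ModularForm (Gamma0 p) k) : ModularForm 𝒮ℒ k where
  toFun := trFun f
  slash_action_eq' := by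
    rintro _ ⟨γ, rfl⟩
    exact trFun_slash f γ
  holo' := mdiff_trFun f
  bdd_at_cusps' := by
    intro c hc
    rw [OnePoint.isBoundedAt_iff_forall_SL2Z hc]
    intro γ _
    rw [trFun_slash f γ]
    exact bdd_trFun f

@[simp] theorem coe_trForm (f : ModularForm (Gamma0 p) k) : ⇑(trForm f) = trFun f := rfl

/-! ### The relation with `heckeU` -/

omit hp in
/-- Slash by a positive scalar matrix. -/
theorem slash_scalar (u : ℝˣ) (hu : 0 < (u : ℝ)) (f : ℍ → ℂ) :
    f ∣[k] (Matrix.GeneralLinearGroup.scalar (Fin 2) u) = ((u : ℝ) : ℂ) ^ (k - 2) • f := by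
  ext τ
  have hdet : (Matrix.GeneralLinearGroup.scalar (Fin 2) u).det.val = (u : ℝ) ^ 2 := by
    simp [Matrix.GeneralLinearGroup.scalar, sq]
  have hσ : σ (Matrix.GeneralLinearGroup.scalar (Fin 2) u) = .refl ℝ ℂ := by
    rw [σ, if_pos]
    rw [hdet]; positivity
  have hu' : ((u : ℝ) : ℂ) ≠ 0 := by exact_mod_cast hu.ne'
  rw [ModularForm.slash_apply, hσ, hdet, glScalar_smul, denom_scalar]
  simp only [ContinuousAlgEquiv.refl_apply, Pi.smul_apply, smul_eq_mul]
  rw [abs_of_pos (by positivity)]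
  push_cast
  rw [mul_assoc, mul_comm, ← zpow_natCast, ← zpow_mul, ← zpow_add₀ hu']
  congr 2
  push_cast
  ring


omit hp in
theorem fricke_mul_heckeMatrix (hp0 : p ≠ 0) (j : ℕ) :
    frickeMatrix p * ModularForm.heckeMatrix p j =
      Matrix.GeneralLinearGroup.scalar (Fin 2)
        (Units.mk0 (p : ℝ) (by exact_mod_cast hp0)) * mapGL ℝ (S * T ^ (j : ℤ)) := by
  apply Matrix.GeneralLinearGroup.ext
  intro a b
  simp only [Matrix.GeneralLinearGroup.coe_mul, Matrix.mul_apply, Fin.sum_univ_two,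
    val_frickeMatrix hp0, ModularForm.val_heckeMatrix hp0, mapGL_real_apply,
    Matrix.SpecialLinearGroup.coe_mul, coe_T_zpow, coe_S]
  fin_cases a <;> fin_cases b <;>
    simp [Matrix.GeneralLinearGroup.scalar, Matrix.natCast_apply]

omit hp in
theorem wT_slash_heckeMatrix (hp0 : p ≠ 0) (f : ModularForm (Gamma0 p) k) (j : ℕ) :
    (wT p k f) ∣[k] ModularForm.heckeMatrix p j =
      ((p : ℂ) ^ (1 - k / 2) * (p : ℂ) ^ (k - 2)) • aZ f (j : ℤ) := by
  have hpos : (0 : ℝ) < ((Units.mk0 (p : ℝ) (by exact_mod_cast hp0) : ℝˣ) : ℝ) := by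
    simp only [Units.val_mk0]
    exact_mod_cast Nat.pos_of_ne_zero hp0
  have h1 : ∀ g : ℍ → ℂ, g ∣[k] (mapGL ℝ (S * T ^ (j : ℤ))) = g ∣[k] (S * T ^ (j : ℤ)) :=
    fun g => rfl
  unfold wT aZ
  rw [ModularForm.smul_slash, ModularForm.σ_heckeMatrix, ← SlashAction.slash_mul,
    fricke_mul_heckeMatrix hp0, SlashAction.slash_mul, slash_scalar _ hpos, h1,
    SL_smul_slash, smul_smul]
  simp

theorem sum_aP_eq_sum_range (f : ModularForm (Gamma0 p) k) :
    ∑ x : ZMod p, aP f x = ∑ j ∈ Finset.range p, aZ f (j : ℤ) := by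
  haveI : NeZero p := ⟨hp.out.ne_zero⟩
  refine Finset.sum_nbij' (fun x => x.val) (fun j => (j : ZMod p)) ?_ ?_ ?_ ?_ ?_
  · intro x _
    exact Finset.mem_range.mpr (ZMod.val_lt x)
  · intro j _
    exact Finset.mem_univ _
  · intro x _
    exact ZMod.natCast_zmod_val x
  · intro j hj
    exact ZMod.val_natCast_of_lt (Finset.mem_range.mp hj)
  · intro x _
    rfl

/-- `∑_x f ∣ S T^x = p^(1 - k + k/2) • U_p (f^W)`. -/
theorem sum_aP_eq (f : ModularForm (Gamma0 p) k) :
    ∑ x : ZMod p, aP f x =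
      ((p : ℂ) ^ (1 - k + k / 2)) • ModularForm.heckeU k p (wT p k f) := by
  have hp0 : p ≠ 0 := hp.out.ne_zero
  have hpC : (p : ℂ) ≠ 0 := by exact_mod_cast hp0
  rw [sum_aP_eq_sum_range, ModularForm.heckeU_def, Finset.smul_sum]
  refine Finset.sum_congr rfl fun j _ => ?_
  rw [wT_slash_heckeMatrix hp0, smul_smul, ← zpow_add₀ hpC, ← zpow_add₀ hpC]
  have : 1 - k + k / 2 + (1 - k / 2 + (k - 2)) = 0 := by ring
  rw [this, zpow_zero, one_smul]

theorem trFun_eq (f : ModularForm (Gamma0 p) k) :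
    trFun f = (f : ℍ → ℂ) + ((p : ℂ) ^ (1 - k + k / 2)) • ModularForm.heckeU k p (wT p k f) := by
  unfold trFun
  rw [sum_aP_eq]

end Fermat.Agent.S16
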