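import Fermat.Agent.S16.WPairKnown

/-!
# S16, piece 84-P13 (helper7): the known `W`-pairs coming from level one

* `restrictG0 p c` : a level one form as a form on `Γ₀(p)`;
* `isWPair_of_levelOne` : for a level one form `c` of even weight `k = 2 h` with rational
  q-expansion `C`, `(C, p ^ h • C(q^p))` is a `W`-pair of weight `k`;
* `isWPair_E4`, `isWPair_E6` : the pairs `(E₄, p² E₄(q^p))` and `(E₆, p³ E₆(q^p))`.
-/

set_option autoImplicit false

noncomputable section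

open scoped MatrixGroups ModularForm Pointwise
open UpperHalfPlane ModularFormClass Matrix.SpecialLinearGroup ConjAct ModularForm
  EisensteinSeries

namespace Fermat.Agent.S16

local notation "Γ₀(" p ")" => ((CongruenceSubgroup.Gamma0 p : Subgroup SL(2, ℤ)) :
  Subgroup (GL (Fin 2) ℝ))

theorem G0_le_SL (p : ℕ) : Γ₀(p) ≤ 𝒮ℒ := Subgroup.map_le_range _ _

/-- Restriction of a level one modular form to `Γ₀(p)`. -/
def restrictG0 (p : ℕ) {k : ℤ} (c : ModularForm 𝒮ℒ k) : ModularForm Γ₀(p) k where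
  toFun := c
  slash_action_eq' γ hγ := c.slash_action_eq' γ (G0_le_SL p hγ)
  holo' := c.holo'
  bdd_at_cusps' hc := c.bdd_at_cusps' (hc.mono (G0_le_SL p))

@[simp] theorem coe_restrictG0 (p : ℕ) {k : ℤ} (c : ModularForm 𝒮ℒ k) :
    ⇑(restrictG0 p c) = ⇑c := rfl

/-- `W = S * diag(p, 1)` -/
theorem frickeMatrix_eq_S_mul {p : ℕ} (hp : p ≠ 0) :
    frickeMatrix p = mapGL ℝ ModularGroup.S * heckeDiagMatrix p := by
  apply Units.ext
  ext i j
  simp only [Units.val_mul, Matrix.mul_apply, Fin.sum_univ_two, mapGL_real_apply,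
    val_frickeMatrix hp, val_heckeDiagMatrix hp]
  fin_cases i <;> fin_cases j <;> simp [ModularGroup.S]

theorem levelOne_slash_fricke {p : ℕ} (hp : p ≠ 0) {k : ℤ} (c : ModularForm 𝒮ℒ k) :
    (c : ℍ → ℂ) ∣[k] frickeMatrix p = (c : ℍ → ℂ) ∣[k] heckeDiagMatrix p := by
  rw [frickeMatrix_eq_S_mul hp, SlashAction.slash_mul]
  congr 1
  exact SlashInvariantFormClass.slash_action_eq c _ ⟨ModularGroup.S, rfl⟩

theorem wT_levelOne_apply {p : ℕ} (hp : p ≠ 0) {k : ℤ} (c : ModularForm 𝒮ℒ k) (τ : ℍ) :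
    wT p k c τ = (p : ℂ) ^ (1 - k / 2) * ((p : ℂ) ^ (k - 1) * c (heckeDiagMatrix p • τ)) := by
  unfold wT
  rw [levelOne_slash_fricke hp, Pi.smul_apply, smul_eq_mul, slash_heckeDiagMatrix_apply k hp]

/-- The q-expansion of `c^W` for a level one form `c`: `c^W = p ^ (k/2) c(q^p)`. -/
theorem qExpansion_wForm_levelOne {p : ℕ} (hp : p ≠ 0) {k : ℤ} (c : ModularForm 𝒮ℒ k) (n : ℕ) :
    (qExpansion 1 (wForm p k (restrictG0 p c))).coeff n =
      if p ∣ n then (p : ℂ) ^ (1 - k / 2) * ((p : ℂ) ^ (k - 1) * (qExpansion 1 c).coeff (n / p))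
      else 0 := by
  have hsum : ∀ τ : ℍ, HasSum (fun n : ℕ =>
      (if p ∣ n then (p : ℂ) ^ (1 - k / 2) * ((p : ℂ) ^ (k - 1) * (qExpansion 1 c).coeff (n / p))
        else 0) • Function.Periodic.qParam 1 τ ^ n) (wForm p k (restrictG0 p c) τ) := by
    intro τ
    have h := (P2MW.S_UpperHalfPlane_qCoeff_heckeT.M4cP1W2.hasSum_diag (f := c) hp
      (SlashInvariantFormClass.periodic_comp_ofComplex c one_mem_strictPeriods_SL)
      (ModularFormClass.holo c) (ModularFormClass.bdd_at_infty c) k τ).mul_left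
        ((p : ℂ) ^ (1 - k / 2))
    rw [wForm_apply, coe_restrictG0, wT_levelOne_apply hp]
    have hfun : (fun n : ℕ =>
      (if p ∣ n then (p : ℂ) ^ (1 - k / 2) * ((p : ℂ) ^ (k - 1) * (qExpansion 1 c).coeff (n / p))
        else 0) • Function.Periodic.qParam 1 τ ^ n) = fun i => (p : ℂ) ^ (1 - k / 2) *
        if p ∣ i then (p : ℂ) ^ (k - 1) * qCoeff (⇑c) (i / p) * Function.Periodic.qParam 1 ↑τ ^ i
        else 0 := by
      funext m
      split_ifs <;> simp [ModularFormClass.qCoeff, mul_assoc]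
    rw [hfun]
    exact h
  exact (ModularFormClass.qExpansion_coeff_unique one_pos (one_mem_strictPeriods_G0 p) hsum n).symm

/-- A level one form of weight `2 h` with rational q-expansion `C` gives the `W`-pair
`(C, p ^ h • C(q^p))`. -/
theorem isWPair_of_levelOne {p : ℕ} (hp : p ≠ 0) (h : ℕ) (c : ModularForm 𝒮ℒ (2 * (h : ℤ)))
    (C : PowerSeries ℚ) (hC : qExpansion 1 c = toC C) :
    IsWPair p (2 * (h : ℤ)) C (((p : ℚ) ^ h) • UA.Vp p C) := by
  rw [isWPair_iff]
  refine ⟨restrictG0 p c, by rw [coe_restrictG0]; exact hC, ?_⟩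
  ext n
  have hpC : (p : ℂ) ≠ 0 := by exact_mod_cast hp
  rw [qExpansion_wForm_levelOne hp, coeff_toC, PowerSeries.coeff_smul, UA.coeff_Vp, hC]
  have e : (p : ℂ) ^ (1 - 2 * (h : ℤ) / 2) * (p : ℂ) ^ (2 * (h : ℤ) - 1) = (p : ℂ) ^ h := by
    rw [← zpow_add₀ hpC, ← zpow_natCast]
    congr 1
    omega
  split_ifs with hd
  · rw [coeff_toC, ← mul_assoc, e, smul_eq_mul]
    push_cast
    rfl
  · simp

theorem qExpansion_E4 : qExpansion 1 E₄ = toC UA.E4s := by
  ext n
  rw [coeff_toC, E_qExpansion_coeff _ ⟨2, rfl⟩, show bernoulli 4 = -1 / 30 by decide +kernel]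
  simp only [UA.E4s, map_add, PowerSeries.coeff_one, PowerSeries.coeff_smul, UA.coeff_Sg,
    smul_eq_mul]
  split_ifs with h
  · subst h; simp
  · push_cast; norm_num

theorem qExpansion_E6 : qExpansion 1 E₆ = toC UA.E6s := by
  ext n
  rw [coeff_toC, E_qExpansion_coeff _ ⟨3, rfl⟩, show bernoulli 6 = 1 / 42 by decide +kernel]
  simp only [UA.E6s, map_sub, PowerSeries.coeff_one, PowerSeries.coeff_smul, UA.coeff_Sg,
    smul_eq_mul]
  split_ifs with h
  · subst h; simp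
  · push_cast; norm_num

/-- `(E₄, p² E₄(q^p))` is a `W`-pair of weight 4. -/
theorem isWPair_E4 {p : ℕ} (hp : p ≠ 0) :
    IsWPair p 4 UA.E4s (((p : ℚ) ^ 2) • UA.Vp p UA.E4s) := by
  have h := isWPair_of_levelOne hp 2
    (ModularForm.mcast (by norm_num : (4 : ℤ) = 2 * ((2 : ℕ) : ℤ)) E₄) UA.E4s
    (by rw [ModularForm.qExpansion_mcast]; exact qExpansion_E4)
  exact h.cast (by norm_num)

/-- `(E₆, p³ E₆(q^p))` is a `W`-pair of weight 6. -/
theorem isWPair_E6 {p : ℕ} (hp : p ≠ 0) :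
    IsWPair p 6 UA.E6s (((p : ℚ) ^ 3) • UA.Vp p UA.E6s) := by
  have h := isWPair_of_levelOne hp 3
    (ModularForm.mcast (by norm_num : (6 : ℤ) = 2 * ((3 : ℕ) : ℤ)) E₆) UA.E6s
    (by rw [ModularForm.qExpansion_mcast]; exact qExpansion_E6)
  exact h.cast (by norm_num)

end Fermat.Agent.S16
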