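import Mathlib
import Fermat.Agent.S16.TraceLevelOne
import Fermat.Agent.S16.WPairEis

/-!
# S16, piece 84-P4 (helper1): (TR2) and (TR4)

* `qCoeff_trFun`: `qCoeff (trFun f) n = qCoeff f n + p^(1 - k + k/2) * qCoeff (wT p k f) (n * p)`;
* `isWPair_tr2'` : `IsWPair p 2 F F' → F = -UA.Up p F'`   (the trace of weight 2 is zero);
* `isWPair_tr4`  : `IsWPair p 4 F F' →
     F + p⁻¹ • UA.Up p F' = (coeff 0 F + p⁻¹ * coeff 0 F') • UA.E4s`.
-/

set_option autoImplicit false
set_option linter.unusedSectionVars false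
set_option linter.style.haveILetI false

noncomputable section

open scoped MatrixGroups ModularForm Manifold
open UpperHalfPlane ModularFormClass CongruenceSubgroup Matrix.SpecialLinearGroup ModularGroup
open ModularForm

namespace Fermat.Agent.S16

variable {p : ℕ} [hp : Fact p.Prime] {k : ℤ}

theorem qCoeff_heckeU_wT (f : ModularForm (Gamma0 p) k) (n : ℕ) :
    qCoeff (ModularForm.heckeU k p (wT p k f)) n = qCoeff (wT p k f) (n * p) := by
  haveI : NeZero p := ⟨hp.out.ne_zero⟩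
  have hper : Function.Periodic ((wT p k f) ∘ UpperHalfPlane.ofComplex) 1 := by
    rw [← coe_wForm]
    exact_mod_cast SlashInvariantFormClass.periodic_comp_ofComplex (wForm p k f)
      (one_mem_strictPeriods_G0 p)
  have hhol : MDiff (wT p k f) := by
    rw [← coe_wForm]; exact ModularFormClass.holo (wForm p k f)
  have hbdd : IsBoundedAtImInfty (wT p k f) := by
    rw [← coe_wForm]; exact ModularFormClass.bdd_at_infty (wForm p k f)
  rw [UpperHalfPlane.qCoeff_heckeU hper hhol hbdd k hp.out.ne_zero n]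
  rfl

theorem qCoeff_trFun (f : ModularForm (Gamma0 p) k) (n : ℕ) :
    qCoeff (trFun f) n =
      qCoeff f n + (p : ℂ) ^ (1 - k + k / 2) * qCoeff (wT p k f) (n * p) := by
  haveI : NeZero p := ⟨hp.out.ne_zero⟩
  have hpC : (p : ℂ) ≠ 0 := by exact_mod_cast hp.out.ne_zero
  set c : ℂ := (p : ℂ) ^ (1 - k + k / 2) with hc
  have hc0 : c ≠ 0 := zpow_ne_zero _ hpC
  have hT : AnalyticAt ℂ (cuspFunction 1 (trFun f)) 0 := by
    rw [← coe_trForm]
    exact ModularFormClass.analyticAt_cuspFunction_zero (trForm f) one_pos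
      one_mem_strictPeriods_SL
  have hF : AnalyticAt ℂ (cuspFunction 1 (f : ℍ → ℂ)) 0 :=
    ModularFormClass.analyticAt_cuspFunction_zero f one_pos (one_mem_strictPeriods_G0 p)
  have hD : AnalyticAt ℂ (cuspFunction 1 (trFun f - (f : ℍ → ℂ))) 0 := by
    rw [cuspFunction_sub hT.continuousAt hF.continuousAt]
    exact hT.sub hF
  have hg : ModularForm.heckeU k p (wT p k f) = c⁻¹ • (trFun f - (f : ℍ → ℂ)) := by
    rw [trFun_eq, add_sub_cancel_left, smul_smul, inv_mul_cancel₀ hc0, one_smul]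
  have h1 := qCoeff_heckeU_wT f n
  rw [hg] at h1
  unfold qCoeff at h1 ⊢
  rw [qExpansion_smul hD, qExpansion_sub hT hF] at h1
  simp only [map_smul, map_sub, smul_eq_mul] at h1
  rw [← h1]
  field_simp
  ring


omit hp in
/-- (TR2): the trace of a weight 2 form to level one vanishes. -/
theorem isWPair_tr2' (hp' : p.Prime) {F F' : PowerSeries ℚ} (h : IsWPair p 2 F F') :
    F = -UA.Up p F' := by
  haveI : Fact p.Prime := ⟨hp'⟩
  obtain ⟨f, h1, h2⟩ := h
  have hz : trForm f = 0 :=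
    rank_zero_iff_forall_zero.mp ModularForm.levelOne_weight_two_rank_zero (trForm f)
  have hz' : trFun f = 0 := by
    rw [← coe_trForm, hz]; rfl
  ext n
  have h3 := qCoeff_trFun f n
  rw [hz', h1, h2] at h3
  have h4 : qCoeff (0 : ℍ → ℂ) n = 0 := by
    unfold qCoeff; rw [qExpansion_zero]; simp
  rw [h4] at h3
  have h5 : (1 : ℤ) - 2 + 2 / 2 = 0 := by norm_num
  rw [h5, zpow_zero, one_mul] at h3
  have h6 : ((PowerSeries.coeff n F + PowerSeries.coeff (n * p) F' : ℚ) : ℂ) = 0 := by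
    push_cast; exact h3.symm
  have h7 : PowerSeries.coeff n F + PowerSeries.coeff (n * p) F' = 0 := by exact_mod_cast h6
  rw [map_neg, UA.coeff_Up, mul_comm p n]
  linarith

omit hp in
/-- (TR4): the trace of a weight 4 form to level one is a multiple of `E₄`. -/
theorem isWPair_tr4 (hp' : p.Prime) {F F' : PowerSeries ℚ} (h : IsWPair p 4 F F') :
    F + (p : ℚ)⁻¹ • UA.Up p F' =
      (PowerSeries.coeff 0 F + (p : ℚ)⁻¹ * PowerSeries.coeff 0 F') • UA.E4s := by
  haveI : Fact p.Prime := ⟨hp'⟩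
  obtain ⟨f, h1, h2⟩ := h
  obtain ⟨c, hc⟩ : ∃ c : ℂ, c • E₄ = trForm f :=
    (finrank_eq_one_iff_of_nonzero' E₄ (EisensteinSeries.E_ne_zero _ ⟨2, rfl⟩)).mp
      (Module.rank_eq_one_iff_finrank_eq_one.mp ModularForm.levelOne_weight_four_rank_one) _
  have hE : ∀ n, qCoeff (trFun f) n = c * ((PowerSeries.coeff n UA.E4s : ℚ) : ℂ) := by
    intro n
    have : trFun f = c • (E₄ : ℍ → ℂ) := by
      rw [← coe_trForm, ← hc]; rfl
    rw [this]
    unfold qCoeff
    rw [ModularForm.qExpansion_smul one_pos one_mem_strictPeriods_SL, qExpansion_E4]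
    simp [coeff_toC]
  have h5 : (1 : ℤ) - 4 + 4 / 2 = -1 := by norm_num
  have key : ∀ n, ((PowerSeries.coeff n F : ℚ) : ℂ) +
      (p : ℂ)⁻¹ * ((PowerSeries.coeff (n * p) F' : ℚ) : ℂ) =
      c * ((PowerSeries.coeff n UA.E4s : ℚ) : ℂ) := by
    intro n
    have h3 := qCoeff_trFun f n
    rw [h1, h2, h5, zpow_neg_one, hE] at h3
    exact h3.symm
  have hE0 : PowerSeries.coeff 0 UA.E4s = 1 := by
    simp [UA.E4s, UA.Sg]
  have hc0 : c = ((PowerSeries.coeff 0 F + (p : ℚ)⁻¹ * PowerSeries.coeff 0 F' : ℚ) : ℂ) := by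
    have := key 0
    simp only [hE0, Rat.cast_one, mul_one, zero_mul] at this
    push_cast
    exact this.symm
  ext n
  have h6 := key n
  rw [hc0] at h6
  have h7 : PowerSeries.coeff n F + (p : ℚ)⁻¹ * PowerSeries.coeff (n * p) F' =
      (PowerSeries.coeff 0 F + (p : ℚ)⁻¹ * PowerSeries.coeff 0 F') *
        PowerSeries.coeff n UA.E4s := by
    apply (Rat.cast_injective (α := ℂ))
    push_cast
    push_cast at h6
    exact h6
  simp only [map_add, PowerSeries.coeff_smul, UA.coeff_Up, smul_eq_mul]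
  rw [mul_comm p n]
  exact h7

end Fermat.Agent.S16
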