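import Fermat.Agent.S16.WForm

/-!
# S16, piece (W2): the Fricke transform is an involution in even weight

`wT p k (wT p k f) = f` for even `k`, hence `IsWPair p k F F' → IsWPair p k F' F`.
-/

set_option autoImplicit false

noncomputable section

open scoped MatrixGroups ModularForm
open UpperHalfPlane ModularFormClass

namespace Fermat.Agent.S16

theorem σ_frickeMatrix {p : ℕ} (hp : p ≠ 0) : UpperHalfPlane.σ (frickeMatrix p) = .refl ℝ ℂ := by
  rw [UpperHalfPlane.σ, if_pos (det_frickeMatrix_pos hp)]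

theorem frickeMatrix_sq_val {p : ℕ} (hp : p ≠ 0) :
    ((frickeMatrix p * frickeMatrix p : GL (Fin 2) ℝ) : Matrix (Fin 2) (Fin 2) ℝ) =
      !![-(p : ℝ), 0; 0, -(p : ℝ)] := by
  rw [Units.val_mul, val_frickeMatrix hp]
  ext i j
  fin_cases i <;> fin_cases j <;> simp [Matrix.mul_apply, Fin.sum_univ_two]

/-- slash by `W * W = -p` in even weight `k` multiplies by `p ^ (k - 2)`. -/
theorem det_frickeMatrix_sq {p : ℕ} (hp : p ≠ 0) :
    ((frickeMatrix p * frickeMatrix p).det : ℝ) = (p : ℝ) ^ 2 := by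
  rw [map_mul, Units.val_mul, det_frickeMatrix hp]
  ring

theorem det_frickeMatrix_sq_pos {p : ℕ} (hp : p ≠ 0) :
    0 < ((frickeMatrix p * frickeMatrix p).det : ℝ) := by
  rw [det_frickeMatrix_sq hp]
  have : (0 : ℝ) < p := by exact_mod_cast Nat.pos_of_ne_zero hp
  positivity

theorem frickeMatrix_sq_smul {p : ℕ} (hp : p ≠ 0) (τ : ℍ) :
    (frickeMatrix p * frickeMatrix p) • τ = τ := by
  have hpC : (p : ℂ) ≠ 0 := by exact_mod_cast hp
  apply UpperHalfPlane.ext
  rw [UpperHalfPlane.coe_smul_of_det_pos (det_frickeMatrix_sq_pos hp)]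
  simp only [UpperHalfPlane.num, UpperHalfPlane.denom, frickeMatrix_sq_val hp]
  simp
  field_simp

theorem denom_frickeMatrix_sq {p : ℕ} (hp : p ≠ 0) (τ : ℍ) :
    UpperHalfPlane.denom (frickeMatrix p * frickeMatrix p) τ = -(p : ℂ) := by
  simp [UpperHalfPlane.denom, frickeMatrix_sq_val hp]

/-- slash by `W * W = -p` in even weight `k` multiplies by `p ^ (k - 2)`. -/
theorem slash_frickeMatrix_sq {p : ℕ} (hp : p ≠ 0) {k : ℤ} (hk : Even k) (f : ℍ → ℂ) :
    f ∣[k] (frickeMatrix p * frickeMatrix p) = ((p : ℂ) ^ (k - 2)) • f := by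
  have hpC : (p : ℂ) ≠ 0 := by exact_mod_cast hp
  ext τ
  rw [ModularForm.slash_apply, UpperHalfPlane.σ, if_pos (det_frickeMatrix_sq_pos hp),
    det_frickeMatrix_sq hp, frickeMatrix_sq_smul hp, denom_frickeMatrix_sq hp]
  simp only [ContinuousAlgEquiv.refl_apply, Pi.smul_apply, smul_eq_mul]
  have h1 : ((|(p : ℝ) ^ 2| : ℝ) : ℂ) = (p : ℂ) ^ (2 : ℤ) := by
    rw [abs_of_nonneg (by positivity)]
    push_cast
    norm_cast
  rw [h1, hk.neg.neg_zpow, ← zpow_mul, mul_assoc, ← zpow_add₀ hpC, mul_comm]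
  congr 2
  ring

/-- **(W2)** The Fricke transform is an involution in even weight. -/
theorem wT_wT {p : ℕ} (hp : p ≠ 0) {k : ℤ} (hk : Even k) (f : ℍ → ℂ) :
    wT p k (wT p k f) = f := by
  have hpC : (p : ℂ) ≠ 0 := by exact_mod_cast hp
  unfold wT
  rw [ModularForm.smul_slash, σ_frickeMatrix hp, ← SlashAction.slash_mul,
    slash_frickeMatrix_sq hp hk]
  simp only [ContinuousAlgEquiv.refl_apply]
  rw [smul_smul, smul_smul, ← zpow_add₀ hpC, ← zpow_add₀ hpC]
  obtain ⟨a, rfl⟩ := hk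
  have e : (a + a) / 2 = a := by omega
  rw [e]
  have : 1 - a + (1 - a) + (a + a - 2) = 0 := by ring
  rw [this, zpow_zero, one_smul]

theorem wForm_wForm {p : ℕ} (hp : p ≠ 0) {k : ℤ} (hk : Even k)
    (f : ModularForm (CongruenceSubgroup.Gamma0 p) k) : wForm p k (wForm p k f) = f := by
  apply ModularForm.ext
  intro τ
  rw [wForm_apply, coe_wForm, wT_wT hp hk]

/-- **(W2)** symmetry of `W`-pairs in even weight. -/
theorem IsWPair.symm {p : ℕ} (hp : p ≠ 0) {k : ℤ} (hk : Even k) {F F' : PowerSeries ℚ}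
    (h : IsWPair p k F F') : IsWPair p k F' F := by
  obtain ⟨f, hf, hf'⟩ := h
  refine ⟨wForm p k f, fun n => ?_, fun n => ?_⟩
  · rw [coe_wForm]
    exact hf' n
  · rw [coe_wForm, wT_wT hp hk]
    exact hf n

end Fermat.Agent.S16
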