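import Fermat.Agent.S16.WForm
import Fermat.Agent.S16.UpperAlgBasic
import Fermat.Prelude.Sol.S_UpperHalfPlane_qCoeff_heckeT
import Fermat.Prelude.Thm_CongruenceSubgroup_one_mem_strictPeriods_Gamma0

/-!
# S16, piece 84-P13 (helper7): closure properties of `W`-pairs and the known pairs

* `isWPair_iff` : `IsWPair` in terms of `qExpansion` of the forms `f` and `wForm p k f`;
* `IsWPair.zero`, `IsWPair.add`, `IsWPair.neg`, `IsWPair.sub`, `IsWPair.smul`, `IsWPair.mul`;
* `IsWPair.eq_zero_of_odd` : in odd weight every pair is `(0, 0)`;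
* `isWPair_of_levelOne` : a level one form `c` with rational q-expansion `C` gives the pair
  `(C, p^(k/2) C(q^p))`;
* `isWPair_E4`, `isWPair_E6`.
-/

set_option autoImplicit false

noncomputable section

open scoped MatrixGroups ModularForm Pointwise
open UpperHalfPlane ModularFormClass Matrix.SpecialLinearGroup ConjAct ModularForm

namespace Fermat.Agent.S16

local notation "Γ₀(" p ")" => ((CongruenceSubgroup.Gamma0 p : Subgroup SL(2, ℤ)) :
  Subgroup (GL (Fin 2) ℝ))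

theorem one_mem_strictPeriods_G0 (p : ℕ) : (1 : ℝ) ∈ (Γ₀(p)).strictPeriods :=
  CongruenceSubgroup.one_mem_strictPeriods_Gamma0 p

/-- The coefficientwise embedding `ℚ⟦X⟧ → ℂ⟦X⟧`. -/
def toC (F : PowerSeries ℚ) : PowerSeries ℂ := F.map (algebraMap ℚ ℂ)

@[simp] theorem coeff_toC (F : PowerSeries ℚ) (n : ℕ) :
    PowerSeries.coeff n (toC F) = ((PowerSeries.coeff n F : ℚ) : ℂ) := by
  simp [toC]

theorem toC_add (F G : PowerSeries ℚ) : toC (F + G) = toC F + toC G := by
  simp [toC]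

theorem toC_mul (F G : PowerSeries ℚ) : toC (F * G) = toC F * toC G := by
  simp [toC]

theorem toC_zero : toC 0 = 0 := by simp [toC]

theorem toC_smul (c : ℚ) (F : PowerSeries ℚ) : toC (c • F) = (c : ℂ) • toC F := by
  ext n; simp [toC]

theorem toC_neg (F : PowerSeries ℚ) : toC (-F) = -toC F := by
  simp [toC]

theorem toC_injective : Function.Injective toC := by
  intro F G h
  ext n
  have := congrArg (PowerSeries.coeff n) h
  simpa using this

/-- `IsWPair` in terms of the q-expansions of `f` and of the modular form `wForm p k f`. -/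
theorem isWPair_iff (p : ℕ) (k : ℤ) (F F' : PowerSeries ℚ) :
    IsWPair p k F F' ↔ ∃ f : ModularForm Γ₀(p) k,
      qExpansion 1 f = toC F ∧ qExpansion 1 (wForm p k f) = toC F' := by
  constructor
  · rintro ⟨f, h1, h2⟩
    refine ⟨f, ?_, ?_⟩
    · ext n; rw [coeff_toC]; exact h1 n
    · ext n; rw [coeff_toC, coe_wForm]; exact h2 n
  · rintro ⟨f, h1, h2⟩
    refine ⟨f, fun n => ?_, fun n => ?_⟩
    · have := congrArg (PowerSeries.coeff n) h1
      rwa [coeff_toC] at this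
    · have := congrArg (PowerSeries.coeff n) h2
      rwa [coeff_toC, coe_wForm] at this

theorem wT_zero (p : ℕ) (k : ℤ) : wT p k 0 = 0 := by
  simp [wT]

theorem wT_add (p : ℕ) (k : ℤ) (f g : ℍ → ℂ) : wT p k (f + g) = wT p k f + wT p k g := by
  simp [wT, SlashAction.add_slash]

theorem wForm_add (p : ℕ) (k : ℤ) (f g : ModularForm Γ₀(p) k) :
    wForm p k (f + g) = wForm p k f + wForm p k g := by
  apply ModularForm.ext
  intro τ
  rw [wForm_apply, add_apply, wForm_apply, wForm_apply, FunLike.coe_add, wT_add]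
  rfl

theorem wT_smul (p : ℕ) (k : ℤ) (c : ℂ) (f : ℍ → ℂ) (hp : p ≠ 0) :
    wT p k (c • f) = c • wT p k f := by
  unfold wT
  rw [ModularForm.smul_slash, UpperHalfPlane.σ, if_pos (det_frickeMatrix_pos hp)]
  simp only [ContinuousAlgEquiv.refl_apply]
  rw [smul_comm]

theorem wForm_smul (p : ℕ) (k : ℤ) (c : ℂ) (f : ModularForm Γ₀(p) k) (hp : p ≠ 0) :
    wForm p k (c • f) = c • wForm p k f := by
  apply ModularForm.ext
  intro τ
  rw [wForm_apply, smul_apply, wForm_apply, FunLike.coe_smul, wT_smul _ _ _ _ hp]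
  rfl

theorem wT_mul (p : ℕ) (hp : p ≠ 0) {k₁ k₂ : ℤ} (hk₁ : Even k₁) (hk₂ : Even k₂)
    (f g : ℍ → ℂ) : wT p (k₁ + k₂) (f * g) = wT p k₁ f * wT p k₂ g := by
  obtain ⟨a, rfl⟩ := hk₁
  obtain ⟨b, rfl⟩ := hk₂
  have hpC : (p : ℂ) ≠ 0 := by exact_mod_cast hp
  unfold wT
  rw [ModularForm.mul_slash, det_frickeMatrix hp]
  ext τ
  simp only [Pi.smul_apply, Pi.mul_apply, smul_eq_mul, Nat.abs_cast, Complex.real_smul,
    Complex.ofReal_natCast]
  have e1 : (a + a + (b + b)) / 2 = a + b := by omega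
  have e2 : (a + a) / 2 = a := by omega
  have e3 : (b + b) / 2 = b := by omega
  rw [e1, e2, e3]
  have : (p : ℂ) ^ (1 - (a + b)) * (p : ℂ) = (p : ℂ) ^ (1 - a) * (p : ℂ) ^ (1 - b) := by
    rw [← zpow_add_one₀ hpC, ← zpow_add₀ hpC]
    congr 1
    ring
  linear_combination ((f ∣[a + a] frickeMatrix p) τ * (g ∣[b + b] frickeMatrix p) τ) * this

theorem wForm_mul (p : ℕ) (hp : p ≠ 0) {k₁ k₂ : ℤ} (hk₁ : Even k₁) (hk₂ : Even k₂)
    (f : ModularForm Γ₀(p) k₁) (g : ModularForm Γ₀(p) k₂) :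
    wForm p (k₁ + k₂) (f.mul g) = (wForm p k₁ f).mul (wForm p k₂ g) := by
  apply ModularForm.ext
  intro τ
  rw [wForm_apply, ModularForm.coe_mul, wT_mul p hp hk₁ hk₂]
  rfl

theorem wForm_zero (p : ℕ) (k : ℤ) : wForm p k (0 : ModularForm Γ₀(p) k) = 0 := by
  apply ModularForm.ext
  intro τ
  rw [wForm_apply, FunLike.coe_zero, wT_zero]

namespace IsWPair

variable {p : ℕ} {k k₁ k₂ : ℤ} {F F' G G' : PowerSeries ℚ}

theorem zero : IsWPair p k 0 0 := by
  rw [isWPair_iff]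
  exact ⟨0, by simp [toC_zero, qExpansion_zero], by
    rw [wForm_zero]; simp [toC_zero, qExpansion_zero]⟩

theorem add (h₁ : IsWPair p k F F') (h₂ : IsWPair p k G G') : IsWPair p k (F + G) (F' + G') := by
  rw [isWPair_iff] at h₁ h₂ ⊢
  obtain ⟨f, hf, hf'⟩ := h₁
  obtain ⟨g, hg, hg'⟩ := h₂
  refine ⟨f + g, ?_, ?_⟩
  · rw [FunLike.coe_add, ModularForm.qExpansion_add one_pos (one_mem_strictPeriods_G0 p), hf, hg,
      toC_add]
  · rw [wForm_add, FunLike.coe_add,
      ModularForm.qExpansion_add one_pos (one_mem_strictPeriods_G0 p), hf', hg', toC_add]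

theorem smul (hp : p ≠ 0) (c : ℚ) (h : IsWPair p k F F') : IsWPair p k (c • F) (c • F') := by
  rw [isWPair_iff] at h ⊢
  obtain ⟨f, hf, hf'⟩ := h
  refine ⟨(c : ℂ) • f, ?_, ?_⟩
  · rw [FunLike.coe_smul, ModularForm.qExpansion_smul one_pos (one_mem_strictPeriods_G0 p), hf,
      toC_smul]
  · rw [wForm_smul _ _ _ _ hp, FunLike.coe_smul,
      ModularForm.qExpansion_smul one_pos (one_mem_strictPeriods_G0 p), hf', toC_smul]

theorem neg (hp : p ≠ 0) (h : IsWPair p k F F') : IsWPair p k (-F) (-F') := by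
  have := h.smul hp (-1)
  simpa using this

theorem sub (hp : p ≠ 0) (h₁ : IsWPair p k F F') (h₂ : IsWPair p k G G') :
    IsWPair p k (F - G) (F' - G') := by
  rw [sub_eq_add_neg, sub_eq_add_neg]
  exact h₁.add (h₂.neg hp)

theorem mul (hp : p ≠ 0) (hk₁ : Even k₁) (hk₂ : Even k₂) (h₁ : IsWPair p k₁ F F')
    (h₂ : IsWPair p k₂ G G') : IsWPair p (k₁ + k₂) (F * G) (F' * G') := by
  rw [isWPair_iff] at h₁ h₂ ⊢
  obtain ⟨f, hf, hf'⟩ := h₁
  obtain ⟨g, hg, hg'⟩ := h₂
  refine ⟨f.mul g, ?_, ?_⟩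
  · rw [ModularForm.qExpansion_mul one_pos (one_mem_strictPeriods_G0 p), hf, hg, toC_mul]
  · rw [wForm_mul p hp hk₁ hk₂,
      ModularForm.qExpansion_mul one_pos (one_mem_strictPeriods_G0 p), hf', hg', toC_mul]

theorem neg_one_mem_G0 (p : ℕ) : (-1 : GL (Fin 2) ℝ) ∈ Γ₀(p) := by
  refine ⟨-1, ?_, ?_⟩
  · rw [SetLike.mem_coe, CongruenceSubgroup.Gamma0_mem]
    simp
  · apply Units.ext
    ext i j
    rw [mapGL_real_apply]
    fin_cases i <;> fin_cases j <;> simp

/-- in odd weight every `W`-pair is `(0, 0)` (because `-1 ∈ Γ₀(p)`) -/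
theorem eq_zero_of_odd (hk : Odd k) (h : IsWPair p k F F') : F = 0 ∧ F' = 0 := by
  rw [isWPair_iff] at h
  obtain ⟨f, hf, hf'⟩ := h
  have hf0 : f = 0 := ModularForm.eq_zero_of_neg_one_mem (neg_one_mem_G0 p) hk f
  have hw0 : wForm p k f = 0 := ModularForm.eq_zero_of_neg_one_mem (neg_one_mem_G0 p) hk _
  rw [hf0] at hf
  rw [hw0] at hf'
  constructor
  · apply toC_injective
    rw [← hf, toC_zero]; simp [qExpansion_zero]
  · apply toC_injective
    rw [← hf', toC_zero]; simp [qExpansion_zero]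

/-- `mul` without parity hypotheses (in odd weight all pairs are zero) -/
theorem mul' (hp : p ≠ 0) (h₁ : IsWPair p k₁ F F') (h₂ : IsWPair p k₂ G G') :
    IsWPair p (k₁ + k₂) (F * G) (F' * G') := by
  rcases Int.even_or_odd k₁ with hk₁ | hk₁
  · rcases Int.even_or_odd k₂ with hk₂ | hk₂
    · exact mul hp hk₁ hk₂ h₁ h₂
    · obtain ⟨rfl, rfl⟩ := eq_zero_of_odd hk₂ h₂
      simpa using zero
  · obtain ⟨rfl, rfl⟩ := eq_zero_of_odd hk₁ h₁
    simpa using zero

/-- change of the weight along an equality -/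
theorem cast {k' : ℤ} (hk : k = k') (h : IsWPair p k F F') : IsWPair p k' F F' := hk ▸ h

end IsWPair

end Fermat.Agent.S16
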