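import Fermat.Agent.S16.UpperAlgBasic
import Fermat.Agent.S16.WPairKnown
import Fermat.Agent.S16.WPairEis

/-!
# S16: the analytic instance of helper6's interface `UA.WPairs p` (assembly, helper3)

`wP p k` is the set of pairs `(F, F')` with `IsWPair p k F F'`.  `wPairsOf` builds `UA.WPairs p` from
the closure properties (helper7, `WPairKnown`, `WPairEis`) and from the four analytic inputs
`symm` (W2), `tr2` (C0), `tr4` (TR) and `twoCusp` (2CS), packaged in `WPairsInputs p`.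
-/

set_option autoImplicit false

namespace Fermat.Agent.S16

open PowerSeries

/-- the set of `W`-pairs of weight `k` and level `p` -/
def wP (p : ℕ) (k : ℕ) : Set (PowerSeries ℚ × PowerSeries ℚ) :=
  {x | IsWPair p (k : ℤ) x.1 x.2}

theorem mem_wP {p k : ℕ} {F F' : PowerSeries ℚ} : (F, F') ∈ wP p k ↔ IsWPair p (k : ℤ) F F' :=
  Iff.rfl

/-- the four analytic inputs that are not closure properties -/
structure WPairsInputs (p : ℕ) : Prop where
  /-- (W2) `(f^W)^W = f` for even weight -/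
  symm : ∀ (k : ℕ) (F F' : PowerSeries ℚ), Even k → IsWPair p (k : ℤ) F F' →
    IsWPair p (k : ℤ) F' F
  /-- (C0) trace to level one, weight 2 -/
  tr2 : ∀ (F F' : PowerSeries ℚ), IsWPair p 2 F F' → F' = -UA.Up p F
  /-- (TR) trace to level one, weight 4 -/
  tr4 : ∀ (F F' : PowerSeries ℚ), IsWPair p 4 F F' →
    F + (p : ℚ)⁻¹ • UA.Up p F' = (coeff 0 F + (p : ℚ)⁻¹ * coeff 0 F') • UA.E4s
  /-- (2CS) the two-cusp Sturm bound -/
  twoCusp : ∀ (k ℓ : ℕ) (F F' : PowerSeries ℚ), ℓ.Prime → ℓ ≠ p → IsWPair p (k : ℤ) F F' →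
    UA.VS ℓ 0 F → UA.VS ℓ 0 F' → ∀ a b : ℕ, (∀ n, n < a → UA.Vge ℓ 1 (coeff n F)) →
      (∀ n, n < b → UA.Vge ℓ 1 (coeff n F')) → k * (p + 1) < 12 * (a + b) →
      UA.VS ℓ 1 F ∨ UA.VS ℓ 1 F'

/-- **The instance of the interface**, from the analytic inputs. -/
def wPairsOf (p : ℕ) (hp : p ≠ 0) (h : WPairsInputs p) : UA.WPairs p where
  P := wP p
  add k F F' G G' h₁ h₂ := IsWPair.add (k := (k : ℤ)) h₁ h₂
  smul k c F F' h₁ := IsWPair.smul (k := (k : ℤ)) hp c h₁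
  mul k₁ k₂ F F' G G' h₁ h₂ := by
    have := IsWPair.mul' (k₁ := (k₁ : ℤ)) (k₂ := (k₂ : ℤ)) hp h₁ h₂
    exact this.cast (by push_cast; rfl)
  symm k F F' hk h₁ := h.symm k F F' hk h₁
  e4 := (isWPair_E4 hp).cast (by norm_num)
  e6 := (isWPair_E6 hp).cast (by norm_num)
  tr2 F F' h₁ := h.tr2 F F' (IsWPair.cast (by norm_num) h₁)
  tr4 F F' h₁ := h.tr4 F F' (IsWPair.cast (by norm_num) h₁)
  twoCusp k ℓ F F' hℓ hℓp h₁ := h.twoCusp k ℓ F F' hℓ hℓp h₁

@[simp] theorem wPairsOf_P (p : ℕ) (hp : p ≠ 0) (h : WPairsInputs p) :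
    (wPairsOf p hp h).P = wP p := rfl

end Fermat.Agent.S16
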