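import Mathlib
import Fermat.Agent.S16.TraceTR
import Fermat.Agent.S16.WPairSymm
import Fermat.Agent.S16.Entry
import Fermat.Agent.S16.WPairsInst

/-!
# S16, piece 84-P4 (helper1): the trace inputs in the shapes of the consumers

* `traceTwo hp : TraceTwo p`                      (helper4's `Entry.lean`)
* `inputs_symm`, `inputs_tr2`, `inputs_tr4`       (the fields of helper3's `WPairsInputs p`)
* `wPairsInputs_of_twoCusp` : `WPairsInputs p` from the two-cusp bound alone.
-/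

set_option autoImplicit false
set_option linter.style.haveILetI false

noncomputable section

open scoped MatrixGroups ModularForm
open UpperHalfPlane ModularFormClass CongruenceSubgroup PowerSeries

namespace Fermat.Agent.S16

variable {p : ℕ}

/-- (C0): `f^W = -U_p f` on `q`-coefficients, for every `f ∈ M_2(Γ₀(p))`. -/
theorem traceTwo (hp : p.Prime) : TraceTwo p := by
  intro f n
  haveI : Fact p.Prime := ⟨hp⟩
  have hz : trForm (wForm p 2 f) = 0 :=
    rank_zero_iff_forall_zero.mp ModularForm.levelOne_weight_two_rank_zero _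
  have hz' : trFun (wForm p 2 f) = 0 := by
    rw [← coe_trForm, hz]; rfl
  have h4 : ∀ m, qCoeff (0 : ℍ → ℂ) m = 0 := by
    intro m; unfold qCoeff; rw [qExpansion_zero]; simp
  have hww : wT p 2 (wT p 2 (f : ℍ → ℂ)) = f := wT_wT hp.ne_zero (k := 2) ⟨1, rfl⟩ f
  have h3' := qCoeff_trFun (wForm p 2 f) n
  rw [hz', h4, coe_wForm, hww] at h3'
  have h5 : (1 : ℤ) - 2 + 2 / 2 = 0 := by norm_num
  rw [h5, zpow_zero, one_mul] at h3'
  rw [mul_comm p n]
  linear_combination -h3'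

theorem inputs_symm (hp : p ≠ 0) (k : ℕ) (F F' : PowerSeries ℚ) (hk : Even k)
    (h : IsWPair p (k : ℤ) F F') : IsWPair p (k : ℤ) F' F :=
  IsWPair.symm hp (by exact_mod_cast hk) h

theorem inputs_tr2 (hp : p.Prime) (F F' : PowerSeries ℚ) (h : IsWPair p 2 F F') :
    F' = -UA.Up p F :=
  isWPair_tr2' hp (IsWPair.symm hp.ne_zero ⟨1, rfl⟩ h)

theorem inputs_tr4 (hp : p.Prime) (F F' : PowerSeries ℚ) (h : IsWPair p 4 F F') :
    F + (p : ℚ)⁻¹ • UA.Up p F' = (coeff 0 F + (p : ℚ)⁻¹ * coeff 0 F') • UA.E4s :=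
  isWPair_tr4 hp h

/-- All the analytic inputs, from the two-cusp bound. -/
theorem wPairsInputs_of_twoCusp (hp : p.Prime)
    (h2 : ∀ (k ℓ : ℕ) (F F' : PowerSeries ℚ), ℓ.Prime → ℓ ≠ p → IsWPair p (k : ℤ) F F' →
      UA.VS ℓ 0 F → UA.VS ℓ 0 F' → ∀ a b : ℕ, (∀ n, n < a → UA.Vge ℓ 1 (coeff n F)) →
        (∀ n, n < b → UA.Vge ℓ 1 (coeff n F')) → k * (p + 1) < 12 * (a + b) →
        UA.VS ℓ 1 F ∨ UA.VS ℓ 1 F') : WPairsInputs p where
  symm := inputs_symm hp.ne_zero
  tr2 := inputs_tr2 hp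
  tr4 := inputs_tr4 hp
  twoCusp := h2

end Fermat.Agent.S16
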