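import Mathlib
import Fermat.Agent.S28.NormPolyRed
import Fermat.Agent.S28.KeyLemma
import Fermat.Agent.S28.JConj

/-!
# S16 (Eisenstein index): the cusp-sum bound

For a `Γ₀(N)`-invariant modular function `φ` (holomorphic on the upper half plane, i.e. an element
of `RN N` fixed by `Γ₀(N)`), all of whose `SL₂(ℤ)`-conjugates have expansions with coefficients in
a valuation ring `A ⊂ ℚ̄` and with NONZERO reduction, the orders of the reduced expansions of the
conjugates (one for each coset in `SL₂(ℤ)/Γ₀(N)`) add up to at most `0`.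

This is the characteristic `ℓ` form of "a function without poles on the open modular curve has
nonpositive total order at the cusps"; it is the common source of the Sturm-type bounds (L1) and
(2CS) of the S16 route notes.  Proof: the norm `∏ᵢ φ̂ᵢ` is a polynomial in `j̄(t^N)`
(`exists_prodPoly_red`), and a nonzero polynomial in a series with a pole has order `≤ 0`.
-/

set_option autoImplicit false
set_option linter.unusedSectionVars false

open scoped MatrixGroups

namespace Fermat.Agent.S16

open Fermat.Agent.FF Fermat.Agent.S28 ModularCurve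

section Laurent

variable {k : Type*} [Field k]

/-- a nonzero polynomial in a Laurent series with a pole has order `natDegree * order` -/
theorem order_evJ_eq {jb : LaurentSeries k} (hjb : jb.order < 0) {p : Polynomial k}
    (hp : p ≠ 0) : (Key.evJ jb p).order = (p.natDegree : ℤ) * jb.order := by
  have hjb0 : jb ≠ 0 := by
    rintro rfl
    simp at hjb
  have hev : Key.evJ jb p = ∑ i ∈ Finset.range (p.natDegree + 1),
      HahnSeries.C (p.coeff i) * jb ^ i := by
    conv_lhs => rw [Polynomial.as_sum_range_C_mul_X_pow p]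
    rw [map_sum]
    refine Finset.sum_congr rfl fun i _ => ?_
    rw [map_mul, map_pow, Key.evJ_C, Key.evJ_X]
  have hpow : ∀ i : ℕ, (jb ^ i).order = (i : ℤ) * jb.order := fun i => by
    rw [HahnSeries.order_pow]
    simp
  have hcoeff : (Key.evJ jb p).coeff ((p.natDegree : ℤ) * jb.order) ≠ 0 := by
    rw [hev, HahnSeries.coeff_sum, Finset.sum_eq_single p.natDegree]
    · rw [HahnSeries.C_mul_eq_smul, HahnSeries.coeff_smul, smul_eq_mul]
      refine mul_ne_zero (Polynomial.leadingCoeff_ne_zero.mpr hp) ?_
      rw [← hpow]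
      exact fun h => pow_ne_zero _ hjb0 (HahnSeries.coeff_order_eq_zero.mp h)
    · intro i hi hne
      rw [HahnSeries.C_mul_eq_smul, HahnSeries.coeff_smul, smul_eq_mul]
      refine mul_eq_zero_of_right _ (HahnSeries.coeff_eq_zero_of_lt_order ?_)
      rw [hpow]
      have hi' : i < p.natDegree := lt_of_le_of_ne
        (Nat.lt_succ_iff.mp (Finset.mem_range.mp hi)) hne
      have : (i : ℤ) < p.natDegree := by exact_mod_cast hi'
      nlinarith
    · intro h
      exact absurd (Finset.mem_range.mpr (Nat.lt_succ_self _)) h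
  have hne : Key.evJ jb p ≠ 0 := fun h => by
    rw [h] at hcoeff
    exact hcoeff rfl
  apply le_antisymm
  · exact HahnSeries.order_le_of_coeff_ne_zero hcoeff
  · by_contra hlt
    rw [not_le] at hlt
    apply hne
    apply HahnSeries.coeff_order_eq_zero.mp
    generalize hd : (Key.evJ jb p).order = d at hlt
    rw [hev, HahnSeries.coeff_sum]
    refine Finset.sum_eq_zero fun i hi => ?_
    rw [HahnSeries.C_mul_eq_smul, HahnSeries.coeff_smul, smul_eq_mul]
    refine mul_eq_zero_of_right _ (HahnSeries.coeff_eq_zero_of_lt_order ?_)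
    rw [hpow]
    have hi' : (i : ℤ) ≤ p.natDegree := by
      exact_mod_cast Nat.lt_succ_iff.mp (Finset.mem_range.mp hi)
    have h5 : (p.natDegree : ℤ) * jb.order ≤ (i : ℤ) * jb.order := by nlinarith
    exact lt_of_lt_of_le hlt h5

theorem order_evJ_le_zero {jb : LaurentSeries k} (hjb : jb.order < 0) {p : Polynomial k}
    (hp : p ≠ 0) : (Key.evJ jb p).order ≤ 0 := by
  rw [order_evJ_eq hjb hp]
  have : (0 : ℤ) ≤ p.natDegree := Int.natCast_nonneg _
  nlinarith

/-- the constant coefficient of `∏ (T - u i)` -/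
theorem coeff_zero_prod_X_sub_C_cusp {ι : Type*} [Fintype ι] {R : Type*} [CommRing R]
    (u : ι → R) :
    (∏ i : ι, (Polynomial.X - Polynomial.C (u i))).coeff 0 =
      (-1) ^ Fintype.card ι * ∏ i : ι, u i := by
  rw [Polynomial.coeff_zero_eq_eval_zero, Polynomial.eval_prod]
  simp only [Polynomial.eval_sub, Polynomial.eval_X, Polynomial.eval_C, zero_sub,
    Finset.prod_neg, Finset.card_univ]

/-- abstract cusp-sum bound: if `∏ (T - u i)` has coefficients in `k[jb]`, `jb` has a pole and
all `u i` are nonzero, then the orders of the `u i` add up to at most `0`. -/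
theorem sum_order_le_zero_of_prodPoly {ι : Type*} [Fintype ι] {jb : LaurentSeries k}
    (hjb : jb.order < 0) (u : ι → LaurentSeries k) (hu : ∀ i, u i ≠ 0)
    (P : Polynomial (Polynomial k))
    (hP : P.map (Key.evJ jb) = ∏ i : ι, (Polynomial.X - Polynomial.C (u i))) :
    ∑ i : ι, (u i).order ≤ 0 := by
  have h1 : Key.evJ jb (P.coeff 0) = (-1) ^ Fintype.card ι * ∏ i : ι, u i := by
    rw [← Polynomial.coeff_map, hP, coeff_zero_prod_X_sub_C_cusp]
  have hprod : ∏ i : ι, u i ≠ 0 := Finset.prod_ne_zero_iff.mpr (fun i _ => hu i)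
  have hunit : ((-1 : LaurentSeries k) ^ Fintype.card ι) ≠ 0 := pow_ne_zero _ (by simp)
  have hP0 : P.coeff 0 ≠ 0 := by
    intro h
    rw [h, map_zero] at h1
    exact mul_ne_zero hunit hprod h1.symm
  have h2 := order_evJ_le_zero hjb hP0
  have h3 : ((-1 : LaurentSeries k) ^ Fintype.card ι).order = 0 := by
    rw [HahnSeries.order_pow]
    have : (-1 : LaurentSeries k).order = 0 := by
      rw [show (-1 : LaurentSeries k) = HahnSeries.C (-1 : k) by simp]
      exact HahnSeries.order_C
    rw [this, smul_zero]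
  rw [h1, HahnSeries.order_mul hunit hprod, h3, zero_add,
    Key.order_prod_eq_sum _ _ (fun i _ => hu i)] at h2
  exact h2

end Laurent

section Modular

variable (N : ℕ) [NeZero N] [Fintype (X N)] (A : ValuationSubring Kbar)

theorem order_jqNModC_neg (k : Type*) [Field k] : (jqNModC k N).order < 0 := by
  have h : (jqNModC k N).order = (N : ℤ) * (jqModC k).order := order_qExpand N (jqModC k)
  rw [h, order_jqModC']
  have hN : (0 : ℤ) < N := by exact_mod_cast Nat.pos_of_ne_zero (NeZero.ne N)
  omega

/-- **CUSP-SUM BOUND.**  `φ` a `Γ₀(N)`-invariant element of `RN N` all of whose conjugates have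
`A`-integral expansions with nonzero reduction: the orders of the reductions of the conjugates,
one for each coset of `Γ₀(N)` in `SL₂(ℤ)`, add up to at most `0`. -/
theorem sum_order_red_conj_le_zero' {φ : RN N} (hφ : IsInv0 N φ)
    (hint : ∀ γ : SL(2, ℤ), expInf N (compSL N γ φ) ∈ intSeries A)
    (hne : ∀ γ : SL(2, ℤ), redS A ⟨expInf N (compSL N γ φ), hint γ⟩ ≠ 0)
    (g : X N → SL(2, ℤ)) (hg : ∀ i, (QuotientGroup.mk (g i) : X N) = i) :
    ∑ i : X N, (redS A ⟨expInf N (compSL N (g i)⁻¹ φ), hint _⟩).order ≤ 0 := by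
  obtain ⟨P, hP⟩ := exists_prodPoly_red N A hφ hint g hg
  exact sum_order_le_zero_of_prodPoly (order_jqNModC_neg N _) _ (fun i => hne _) P hP

theorem sum_order_red_conj_le_zero {φ : RN N} (hφ : IsInv0 N φ)
    (hint : ∀ γ : SL(2, ℤ), expInf N (compSL N γ φ) ∈ intSeries A)
    (hne : ∀ γ : SL(2, ℤ), redS A ⟨expInf N (compSL N γ φ), hint γ⟩ ≠ 0) :
    ∑ i : X N, (redS A ⟨expInf N (compSL N (Quotient.out i)⁻¹ φ), hint _⟩).order ≤ 0 :=
  sum_order_red_conj_le_zero' N A hφ hint hne (fun i => Quotient.out i)
    (fun i => QuotientGroup.out_eq' i)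

end Modular

end Fermat.Agent.S16
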