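import Mathlib
import Fermat.Agent.S16.CuspSum
import Fermat.Agent.S28.CoreTypes

/-!
# S16 (Eisenstein index): the two cusps of prime level

`PrimeCusp p φ xI xO`: `φ` is a holomorphic `Γ₀(p)`-invariant function on the upper half plane with
expansions `xI` (of `φ`) and `xO` (of `φ ∘ S`) in `t = exp (2πiτ/p)`, coefficients in `ℚ̄`.

* `PrimeCusp.toRN`: `φ` as an element of `RN p`, with the expansions of all its conjugates
  (`xI` for the trivial coset, a twist `xO(ζ t)`, `ζ ^ p = 1`, for the `p` other cosets);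
* `PrimeCusp.order_add_mul_order_le_zero`: the two-cusp form of the cusp-sum bound,
  `ord (xI mod 𝔪) + p * ord (xO mod 𝔪) ≤ 0`.
-/

set_option autoImplicit false
set_option linter.unusedSectionVars false

open UpperHalfPlane hiding I
open Complex Function
open scoped MatrixGroups Manifold Modular Real

namespace Fermat.Agent.S16

open Fermat.Agent.FF Fermat.Agent.S28 ModularCurve

/-- the inverse of `S T^i` -/
def invST (i : ℤ) : SL(2, ℤ) := ⟨!![i, 1; -1, 0], by simp [Matrix.det_fin_two]⟩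

theorem invST_coe (i : ℤ) : (invST i : Matrix (Fin 2) (Fin 2) ℤ) = !![i, 1; -1, 0] := rfl

theorem invST_mul (i : ℤ) : invST i * (ModularGroup.S * ModularGroup.T ^ i) = 1 := by
  ext a b
  simp only [Matrix.SpecialLinearGroup.coe_mul, invST_coe, ModularGroup.coe_T_zpow,
    ModularGroup.coe_S, Matrix.SpecialLinearGroup.coe_one]
  fin_cases a <;> fin_cases b <;> simp [Matrix.mul_apply, Fin.sum_univ_two]

theorem mul_invST_apply (γ : SL(2, ℤ)) (i : ℤ) :
    ((γ * invST i) 1 0 : ℤ) = γ 1 0 * i - γ 1 1 := by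
  simp only [Matrix.SpecialLinearGroup.coe_mul, invST_coe, Matrix.mul_apply, Fin.sum_univ_two]
  simp
  ring

/-- coset decomposition at prime level: `SL₂(ℤ) = Γ₀(p) ∪ ⋃ᵢ Γ₀(p) S Tⁱ` -/
theorem exists_eq_mul_S_T_zpow (p : ℕ) [Fact p.Prime] (γ : SL(2, ℤ))
    (hγ : γ ∉ CongruenceSubgroup.Gamma0 p) :
    ∃ γ0 ∈ CongruenceSubgroup.Gamma0 p, ∃ i : ℤ,
      γ = γ0 * (ModularGroup.S * ModularGroup.T ^ i) := by
  rw [CongruenceSubgroup.Gamma0_mem] at hγ
  obtain ⟨i, hi⟩ := ZMod.intCast_surjective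
    ((((γ 1 1 : ℤ) : ZMod p)) * (((γ 1 0 : ℤ) : ZMod p))⁻¹)
  refine ⟨γ * invST i, ?_, i, ?_⟩
  · rw [CongruenceSubgroup.Gamma0_mem, mul_invST_apply]
    push_cast
    rw [hi, mul_comm ((γ 1 1 : ℤ) : ZMod p), ← mul_assoc, mul_inv_cancel₀ hγ, one_mul, sub_self]
  · rw [mul_assoc, invST_mul, mul_one]

/-- a holomorphic `Γ₀(p)`-invariant function with its expansions at the two cusps, in the
parameter `t = exp (2πiτ/p)` -/
structure PrimeCusp (p : ℕ) (φ : ℍ → ℂ) (xI xO : LaurentSeries Kbar) : Prop where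
  mdiff : MDiff φ
  inv : ∀ γ ∈ CongruenceSubgroup.Gamma0 p, ∀ τ : ℍ, φ (γ • τ) = φ τ
  expI : IsExpK p xI φ
  expO : IsExpK p xO (fun τ => φ (ModularGroup.S • τ))

section twist

/-- `exp (2πi b/p)` -/
noncomputable def zetaP (p : ℕ) (b : ℤ) : ℂ := cexp (2 * π * I * b / ((p : ℂ) * ((1 : ℕ) : ℂ)))

theorem zetaP_pow (p : ℕ) [NeZero p] (b : ℤ) : zetaP p b ^ p = 1 := by
  have hp : (p : ℂ) ≠ 0 := by exact_mod_cast NeZero.ne p
  rw [zetaP, ← Complex.exp_nat_mul]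
  have : (p : ℂ) * (2 * π * I * b / ((p : ℂ) * ((1 : ℕ) : ℂ))) = b * (2 * π * I) := by
    push_cast
    field_simp
  rw [this]
  exact Complex.exp_int_mul_two_pi_mul_I b

theorem coe_T_zpow_smul (i : ℤ) (τ : ℍ) :
    (((ModularGroup.T ^ i • τ : ℍ)) : ℂ) = (((1 : ℕ) : ℂ) * τ + i) / ((1 : ℕ) : ℂ) := by
  rw [UpperHalfPlane.modular_T_zpow_smul]
  simp [UpperHalfPlane.coe_vadd]
  ring

end twist

namespace PrimeCusp

variable {p : ℕ} [Fact p.Prime] {φ : ℍ → ℂ} {xI xO : LaurentSeries Kbar}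

theorem isExpK_of_mem (h : PrimeCusp p φ xI xO) {γ : SL(2, ℤ)}
    (hγ : γ ∈ CongruenceSubgroup.Gamma0 p) : IsExpK p xI (fun τ => φ (γ • τ)) :=
  h.expI.congr (fun τ => (h.inv γ hγ τ).symm)

theorem isExpK_of_not_mem (h : PrimeCusp p φ xI xO) {γ : SL(2, ℤ)}
    (hγ : γ ∉ CongruenceSubgroup.Gamma0 p) :
    ∃ ζ : Kbar, ζ ^ p = 1 ∧ IsExpK p (dmul (fun n => ζ ^ n) xO) (fun τ => φ (γ • τ)) := by
  have hp : 0 < p := Nat.pos_of_ne_zero (NeZero.ne p)
  obtain ⟨γ0, hγ0, i, rfl⟩ := exists_eq_mul_S_T_zpow p γ hγ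
  obtain ⟨ζ, hζ⟩ := exists_preimage_of_pow_eq_one iotaK p hp (zetaP p i) (zetaP_pow p i)
  have hζp : ζ ^ p = 1 := by
    apply iotaK_injective
    rw [map_pow, hζ, zetaP_pow, map_one]
  refine ⟨ζ, hζp, ?_⟩
  have h1 := IsExp.comp_affine h.expO 1 1 i (fun τ => ModularGroup.T ^ i • τ)
    (fun τ => coe_T_zpow_smul i τ)
  rw [ModularCurve.qExpand_one_apply, mul_one] at h1
  show IsExp p (iotaL _) _
  have h2 : iotaL (dmul (fun n => ζ ^ n) xO) =
      dmul (fun n => zetaP p i ^ n) (iotaL xO) := by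
    rw [iotaL, coeffMap_dmul]
    congr 1
    funext n
    rw [map_zpow₀, hζ]
  rw [h2]
  refine h1.congr (fun τ => ?_)
  show φ (ModularGroup.S • (ModularGroup.T ^ i • τ)) = φ ((γ0 * (ModularGroup.S * ModularGroup.T ^ i)) • τ)
  rw [mul_smul, mul_smul, h.inv γ0 hγ0]

/-- `φ` as an element of `RN p` -/
noncomputable def toRN (h : PrimeCusp p φ xI xO) : RN p :=
  ⟨φ, h.mdiff, fun γ => by
    by_cases hγ : γ ∈ CongruenceSubgroup.Gamma0 p
    · exact ⟨xI, h.isExpK_of_mem hγ⟩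
    · obtain ⟨ζ, -, hζ⟩ := h.isExpK_of_not_mem hγ
      exact ⟨_, hζ⟩⟩

@[simp] theorem toRN_apply (h : PrimeCusp p φ xI xO) (τ : ℍ) :
    ((h.toRN : RN p) : ℍ → ℂ) τ = φ τ := rfl

theorem isInv0_toRN (h : PrimeCusp p φ xI xO) : IsInv0 p h.toRN := by
  intro γ hγ
  apply RN.ext
  intro τ
  exact h.inv γ hγ τ

theorem expInf_compSL_of_mem (h : PrimeCusp p φ xI xO) {γ : SL(2, ℤ)}
    (hγ : γ ∈ CongruenceSubgroup.Gamma0 p) :
    expInf p (compSL p γ h.toRN) = xI :=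
  expInf_eq (h.isExpK_of_mem hγ)

theorem expInf_compSL_of_not_mem (h : PrimeCusp p φ xI xO) {γ : SL(2, ℤ)}
    (hγ : γ ∉ CongruenceSubgroup.Gamma0 p) :
    ∃ ζ : Kbar, ζ ^ p = 1 ∧ expInf p (compSL p γ h.toRN) = dmul (fun n => ζ ^ n) xO := by
  obtain ⟨ζ, hζ, hx⟩ := h.isExpK_of_not_mem hγ
  exact ⟨ζ, hζ, expInf_eq hx⟩

end PrimeCusp

section reduction

open scoped Classical in
/-- the order of the reduction of an `A`-integral series (`0` for the other series) -/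
noncomputable def rord (A : ValuationSubring Kbar) (x : LaurentSeries Kbar) : ℤ :=
  if hx : x ∈ intSeries A then (redS A ⟨x, hx⟩).order else 0

theorem rord_eq (A : ValuationSubring Kbar) {x : LaurentSeries Kbar} (hx : x ∈ intSeries A) :
    rord A x = (redS A ⟨x, hx⟩).order := by
  rw [rord, dif_pos hx]

variable {A : ValuationSubring Kbar}

theorem zpow_mem_valSub {ζ : Kbar} {d : ℕ} (hd : 0 < d) (hζ : ζ ^ d = 1) (n : ℤ) : ζ ^ n ∈ A := by
  have h1 : ζ ∈ A.toSubring := mem_of_pow_eq_one A hd.ne' hζ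
  exact zpow_mem_of_mem h1 (inv_mem_of_pow_eq_one h1 hd hζ) n

theorem val_zpow_eq_one {ζ : Kbar} {d : ℕ} (hd : 0 < d) (hζ : ζ ^ d = 1) (n : ℤ) :
    A.valuation (ζ ^ n) = 1 := by
  rw [map_zpow₀, val_eq_one_of_pow_eq_one A hd.ne' hζ, one_zpow]

theorem dmul_zeta_mem {ζ : Kbar} {d : ℕ} (hd : 0 < d) (hζ : ζ ^ d = 1)
    {x : LaurentSeries Kbar} (hx : x ∈ intSeries A) :
    dmul (fun n => ζ ^ n) x ∈ intSeries A := by
  rw [mem_intSeries_iff] at hx ⊢
  intro n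
  rw [dmul_coeff]
  exact A.mul_mem _ _ (zpow_mem_valSub hd hζ n) (hx n)

theorem redS_dmul_zeta_coeff_eq_zero_iff {ζ : Kbar} {d : ℕ} (hd : 0 < d) (hζ : ζ ^ d = 1)
    {x : LaurentSeries Kbar} (hx : x ∈ intSeries A) (n : ℤ) :
    (redS A ⟨dmul (fun n => ζ ^ n) x, dmul_zeta_mem hd hζ hx⟩).coeff n = 0 ↔
      (redS A ⟨x, hx⟩).coeff n = 0 := by
  rw [redS_coeff_eq_zero_iff, redS_coeff_eq_zero_iff]
  show A.valuation ((dmul (fun n => ζ ^ n) x).coeff n) < 1 ↔ A.valuation (x.coeff n) < 1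
  rw [dmul_coeff, map_mul, val_zpow_eq_one hd hζ, one_mul]

theorem redS_dmul_zeta_eq_zero_iff {ζ : Kbar} {d : ℕ} (hd : 0 < d) (hζ : ζ ^ d = 1)
    {x : LaurentSeries Kbar} (hx : x ∈ intSeries A) :
    redS A ⟨dmul (fun n => ζ ^ n) x, dmul_zeta_mem hd hζ hx⟩ = 0 ↔ redS A ⟨x, hx⟩ = 0 := by
  constructor
  · intro h
    ext n
    rw [HahnSeries.coeff_zero, ← redS_dmul_zeta_coeff_eq_zero_iff hd hζ hx, h,
      HahnSeries.coeff_zero]
  · intro h
    ext n
    rw [HahnSeries.coeff_zero, redS_dmul_zeta_coeff_eq_zero_iff hd hζ hx, h,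
      HahnSeries.coeff_zero]

theorem order_eq_of_coeff_eq_zero_iff {k : Type*} [Field k] {x y : LaurentSeries k}
    (h : ∀ n, x.coeff n = 0 ↔ y.coeff n = 0) : x.order = y.order := by
  by_cases hx : x = 0
  · have hy : y = 0 := by
      ext n
      rw [HahnSeries.coeff_zero, ← h, hx, HahnSeries.coeff_zero]
    rw [hx, hy]
  · have hy : y ≠ 0 := by
      intro hy
      apply hx
      ext n
      rw [HahnSeries.coeff_zero, h, hy, HahnSeries.coeff_zero]
    apply le_antisymm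
    · exact HahnSeries.order_le_of_coeff_ne_zero
        (fun h0 => HahnSeries.coeff_order_eq_zero.not.mpr hy ((h _).mp h0))
    · exact HahnSeries.order_le_of_coeff_ne_zero
        (fun h0 => HahnSeries.coeff_order_eq_zero.not.mpr hx ((h _).mpr h0))

theorem rord_dmul_zeta {ζ : Kbar} {d : ℕ} (hd : 0 < d) (hζ : ζ ^ d = 1)
    {x : LaurentSeries Kbar} (hx : x ∈ intSeries A) :
    rord A (dmul (fun n => ζ ^ n) x) = rord A x := by
  rw [rord_eq A (dmul_zeta_mem hd hζ hx), rord_eq A hx]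
  exact order_eq_of_coeff_eq_zero_iff (redS_dmul_zeta_coeff_eq_zero_iff hd hζ hx)

end reduction

namespace PrimeCusp

variable {p : ℕ} [Fact p.Prime] {φ : ℍ → ℂ} {A : ValuationSubring Kbar}
  {xI xO : LaurentSeries Kbar}

theorem expInf_mem (h : PrimeCusp p φ xI xO) (hI : xI ∈ intSeries A) (hO : xO ∈ intSeries A)
    (γ : SL(2, ℤ)) : expInf p (compSL p γ h.toRN) ∈ intSeries A := by
  have hp : 0 < p := Nat.pos_of_ne_zero (NeZero.ne p)
  by_cases hγ : γ ∈ CongruenceSubgroup.Gamma0 p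
  · rw [h.expInf_compSL_of_mem hγ]
    exact hI
  · obtain ⟨ζ, hζ, hx⟩ := h.expInf_compSL_of_not_mem hγ
    rw [hx]
    exact dmul_zeta_mem hp hζ hO

theorem redS_expInf_ne_zero (h : PrimeCusp p φ xI xO) (hI : xI ∈ intSeries A)
    (hO : xO ∈ intSeries A) (hIne : redS A ⟨xI, hI⟩ ≠ 0) (hOne : redS A ⟨xO, hO⟩ ≠ 0)
    (γ : SL(2, ℤ)) :
    redS A ⟨expInf p (compSL p γ h.toRN), h.expInf_mem hI hO γ⟩ ≠ 0 := by
  have hp : 0 < p := Nat.pos_of_ne_zero (NeZero.ne p)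
  by_cases hγ : γ ∈ CongruenceSubgroup.Gamma0 p
  · have h1 := h.expInf_compSL_of_mem hγ
    intro h0
    apply hIne
    rw [← h0]
    congr 1
    exact Subtype.ext h1.symm
  · obtain ⟨ζ, hζ, hx⟩ := h.expInf_compSL_of_not_mem hγ
    intro h0
    apply hOne
    rw [← redS_dmul_zeta_eq_zero_iff hp hζ hO, ← h0]
    congr 1
    exact Subtype.ext hx.symm

theorem rord_expInf_of_mem (h : PrimeCusp p φ xI xO) {γ : SL(2, ℤ)}
    (hγ : γ ∈ CongruenceSubgroup.Gamma0 p) :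
    rord A (expInf p (compSL p γ h.toRN)) = rord A xI := by
  rw [h.expInf_compSL_of_mem hγ]

theorem rord_expInf_of_not_mem (h : PrimeCusp p φ xI xO) (hO : xO ∈ intSeries A) {γ : SL(2, ℤ)}
    (hγ : γ ∉ CongruenceSubgroup.Gamma0 p) :
    rord A (expInf p (compSL p γ h.toRN)) = rord A xO := by
  have hp : 0 < p := Nat.pos_of_ne_zero (NeZero.ne p)
  obtain ⟨ζ, hζ, hx⟩ := h.expInf_compSL_of_not_mem hγ
  rw [hx, rord_dmul_zeta hp hζ hO]

/-- **the two-cusp bound**: `ord (xI mod 𝔪) + p * ord (xO mod 𝔪) ≤ 0` -/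
theorem order_add_mul_order_le_zero (h : PrimeCusp p φ xI xO) (hI : xI ∈ intSeries A)
    (hO : xO ∈ intSeries A) (hIne : redS A ⟨xI, hI⟩ ≠ 0) (hOne : redS A ⟨xO, hO⟩ ≠ 0) :
    (redS A ⟨xI, hI⟩).order + (p : ℤ) * (redS A ⟨xO, hO⟩).order ≤ 0 := by
  classical
  have hp : (p : ℕ).Prime := Fact.out
  have key := sum_order_red_conj_le_zero' p A h.isInv0_toRN (h.expInf_mem hI hO)
    (h.redS_expInf_ne_zero hI hO hIne hOne) (fun i => (cosetRep p i)⁻¹)
    (fun i => mk_inv_cosetRep p i)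
  have h1 : ∀ i : X p, (redS A ⟨expInf p (compSL p ((cosetRep p i)⁻¹)⁻¹ h.toRN),
      h.expInf_mem hI hO _⟩).order =
      if i = ((1 : SL(2, ℤ)) : X p) then rord A xI else rord A xO := by
    intro i
    rw [← rord_eq A (h.expInf_mem hI hO _), inv_inv]
    split_ifs with hi
    · exact h.rord_expInf_of_mem ((cosetRep_mem_iff p i).mpr hi)
    · exact h.rord_expInf_of_not_mem hO (fun hmem => hi ((cosetRep_mem_iff p i).mp hmem))
  rw [Finset.sum_congr rfl (fun i _ => h1 i)] at key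
  rw [Finset.sum_ite, Finset.sum_const, Finset.sum_const, Finset.filter_eq' ] at key
  simp only [Finset.mem_univ, if_true, Finset.card_singleton, one_smul] at key
  have hcard : (Finset.univ.filter (fun i : X p => ¬ i = ((1 : SL(2, ℤ)) : X p))).card = p := by
    rw [Finset.filter_not, Finset.filter_eq']
    simp only [Finset.mem_univ, if_true]
    rw [Finset.card_sdiff_of_subset (Finset.subset_univ _), Finset.card_univ, card_X_eq',
      Finset.card_singleton]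
    have := dedekindPsi_mul_of_not_dvd 1 p one_ne_zero hp (by
      intro h1
      exact hp.one_lt.ne' (Nat.dvd_one.mp h1))
    rw [one_mul, ModularCurve.dedekindPsi_one, mul_one] at this
    rw [this]
    omega
  rw [hcard, rord_eq A hI, rord_eq A hO, nsmul_eq_mul] at key
  exact key

end PrimeCusp

end Fermat.Agent.S16
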