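import Mathlib
import Fermat.Agent.S16.PrimeCusp
import Fermat.Agent.FF.DictQ

/-!
# S16, piece 84-P14 (analytic half): the weight zero function `f ^ 12 / Δ ^ k`

`f` a holomorphic function on the upper half plane of weight `k = 2h` for `Γ₀(p)`, with
`q`-expansion `F` and with `q`-expansion `F'` of its Fricke transform
`f^W(τ) = p^(-h) τ^(-2h) f(-1/(pτ))`, `F F' : ℚ⟦q⟧`.  Then `φ = f ^ 12 / Δ ^ (2h)` is a
`PrimeCusp` datum with expansions (in `t = q^(1/p)`)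
`xInf = F(t^p)^12 / Δ(t^p)^(2h)` and `xZero = p^(-12h) F'(t)^12 / Δ(t^p)^(2h)`.
-/

set_option autoImplicit false
set_option linter.unusedSectionVars false

open UpperHalfPlane hiding I
open Complex Function
open scoped MatrixGroups Manifold Modular Real

namespace Fermat.Agent.S16

open Fermat.Agent.FF Fermat.Agent.S28 ModularCurve

local notation "Δ" => ModularForm.discriminant

/-- a rational power series as a Laurent series over `K` -/
noncomputable def serK (K : Type*) [Field K] [Algebra ℚ K] (F : PowerSeries ℚ) :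
    LaurentSeries K :=
  coeffEmb K (F : LaurentSeries ℚ)

theorem serK_coeff_natCast (K : Type*) [Field K] [Algebra ℚ K] (F : PowerSeries ℚ) (n : ℕ) :
    (serK K F).coeff (n : ℤ) = algebraMap ℚ K (PowerSeries.coeff n F) := by
  rw [serK, coeffEmb_coeff, PowerSeries.coeff_coe, if_neg (by omega), Int.natAbs_natCast]

theorem serK_coeff_of_neg (K : Type*) [Field K] [Algebra ℚ K] (F : PowerSeries ℚ) {n : ℤ}
    (hn : n < 0) : (serK K F).coeff n = 0 := by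
  rw [serK, coeffEmb_coeff, PowerSeries.coeff_coe, if_pos hn, map_zero]

theorem iotaL_serK (F : PowerSeries ℚ) : iotaL (serK Kbar F) = serK ℂ F :=
  iotaL_coeffEmb _

/-- the point `τ / p` -/
noncomputable def divH (p : ℕ) [NeZero p] (τ : ℍ) : ℍ :=
  ⟨(τ : ℂ) / p, by
    have hp : (0 : ℝ) < p := by exact_mod_cast Nat.pos_of_ne_zero (NeZero.ne p)
    have : ((τ : ℂ) / (p : ℂ)).im = τ.im / p := by
      rw [show (p : ℂ) = ((p : ℝ) : ℂ) by simp, Complex.div_ofReal_im]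
      rfl
    rw [this]
    exact div_pos τ.im_pos hp⟩

@[simp] theorem coe_divH (p : ℕ) [NeZero p] (τ : ℍ) : ((divH p τ : ℍ) : ℂ) = (τ : ℂ) / p := rfl

theorem scaleH_divH (p : ℕ) [NeZero p] (τ : ℍ) : scaleH p (divH p τ) = τ := by
  apply UpperHalfPlane.ext
  have hp : (p : ℂ) ≠ 0 := by exact_mod_cast NeZero.ne p
  rw [coe_scaleH, coe_divH]
  field_simp

/-- the Fricke transform `p^(-h) τ^(-2h) f(-1/(pτ))` of a function of weight `2h` -/
noncomputable def frickeFun (p : ℕ) [NeZero p] (h : ℕ) (f : ℍ → ℂ) (τ : ℍ) : ℂ :=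
  ((p : ℂ) ^ h)⁻¹ * ((τ : ℂ) ^ (2 * h))⁻¹ * f (ModularGroup.S • scaleH p τ)

/-- the weight zero function `f ^ 12 / Δ ^ (2h)` -/
noncomputable def phiFun (h : ℕ) (f : ℍ → ℂ) (τ : ℍ) : ℂ := f τ ^ 12 * ((Δ τ)⁻¹) ^ (2 * h)

/-- the expansion of `phiFun` at `∞` in `t = q^(1/p)` -/
noncomputable def xInf (p : ℕ) [NeZero p] (h : ℕ) (F : PowerSeries ℚ) : LaurentSeries Kbar :=
  qExpand Kbar p (serK Kbar F ^ 12 * DeltaInvSer Kbar ^ (2 * h))

/-- the expansion of `phiFun ∘ S` in `t = q^(1/p)` -/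
noncomputable def xZero (p : ℕ) [NeZero p] (h : ℕ) (F' : PowerSeries ℚ) : LaurentSeries Kbar :=
  HahnSeries.C ((((p : Kbar))⁻¹) ^ (12 * h)) *
    (serK Kbar F' ^ 12 * qExpand Kbar p (DeltaInvSer Kbar) ^ (2 * h))

theorem mdiff_discriminant_inv : MDiff (fun τ : ℍ => (Δ τ)⁻¹) := by
  have h2 := UpperHalfPlane.mdifferentiable_iff.mp mdiff_discriminant
  rw [UpperHalfPlane.mdifferentiable_iff]
  have : ((fun τ : ℍ => (Δ τ)⁻¹) ∘ ofComplex) = fun z => (((Δ : ℍ → ℂ) ∘ ofComplex) z)⁻¹ := rfl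
  rw [this]
  exact h2.inv (fun z _ => ModularForm.discriminant_ne_zero _)

section main

variable (p : ℕ) [Fact p.Prime] (h : ℕ) {f : ℍ → ℂ} {F F' : PowerSeries ℚ}

theorem mdiff_phiFun (hmd : MDiff f) : MDiff (phiFun h f) := by
  have h1 : MDiff (fun τ : ℍ => f τ ^ 12) := hmd.pow 12
  have h2 : MDiff (fun τ : ℍ => ((Δ τ)⁻¹) ^ (2 * h)) := mdiff_discriminant_inv.pow (2 * h)
  exact h1.mul h2

theorem phiFun_smul
    (hsl : ∀ γ ∈ CongruenceSubgroup.Gamma0 p, ∀ τ : ℍ,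
      f (γ • τ) = denom (Matrix.SpecialLinearGroup.mapGL ℝ γ) τ ^ (2 * h) * f τ)
    (γ : SL(2, ℤ)) (hγ : γ ∈ CongruenceSubgroup.Gamma0 p) (τ : ℍ) :
    phiFun h f (γ • τ) = phiFun h f τ := by
  have hd : denom (Matrix.SpecialLinearGroup.mapGL ℝ γ) τ ≠ 0 := denom_ne_zero _ τ
  have hΔ : Δ τ ≠ 0 := ModularForm.discriminant_ne_zero τ
  rw [phiFun, phiFun, hsl γ hγ τ, discriminant_smul γ τ]
  have h12 : denom (Matrix.SpecialLinearGroup.mapGL ℝ γ) τ ^ (12 : ℤ) =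
      denom (Matrix.SpecialLinearGroup.mapGL ℝ γ) τ ^ 12 := zpow_ofNat _ 12
  rw [h12]
  generalize denom (Matrix.SpecialLinearGroup.mapGL ℝ γ) τ = d at hd
  generalize Δ τ = D at hΔ
  generalize f τ = y
  rw [mul_pow, mul_inv, mul_pow, inv_pow, ← pow_mul, ← pow_mul]
  have h24 : d ^ (2 * h * 12) * (d ^ (12 * (2 * h)))⁻¹ = 1 := by
    rw [mul_comm 12 (2 * h)]
    exact mul_inv_cancel₀ (pow_ne_zero _ hd)
  calc d ^ (2 * h * 12) * y ^ 12 * ((d ^ (12 * (2 * h)))⁻¹ * D⁻¹ ^ (2 * h))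
      = (d ^ (2 * h * 12) * (d ^ (12 * (2 * h)))⁻¹) * (y ^ 12 * D⁻¹ ^ (2 * h)) := by ring
    _ = y ^ 12 * D⁻¹ ^ (2 * h) := by rw [h24, one_mul]

theorem isExpK_phiFun (hF : IsExp 1 (serK ℂ F) f) : IsExpK p (xInf p h F) (phiFun h f) := by
  have h1 : IsExp 1 (serK ℂ F ^ 12 * DeltaInvSer ℂ ^ (2 * h)) (phiFun h f) :=
    (hF.pow 12).mul (isExp_discriminant_inv.pow (2 * h))
  have h2 := h1.change_level p
  rw [one_mul] at h2
  show IsExp p (iotaL (xInf p h F)) _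
  have h3 : iotaL (xInf p h F) =
      qExpand ℂ p (serK ℂ F ^ 12 * DeltaInvSer ℂ ^ (2 * h)) := by
    rw [xInf, iotaL, coeffMap_qExpand, map_mul, map_pow, map_pow, coeffMap_DeltaInvSer]
    rw [← iotaL, iotaL_serK]
  rw [h3]
  exact h2

theorem phiFun_S (τ : ℍ) :
    phiFun h f (ModularGroup.S • τ) =
      (((p : ℂ))⁻¹) ^ (12 * h) *
        (frickeFun p h f (divH p τ) ^ 12 * ((Δ τ)⁻¹) ^ (2 * h)) := by
  have hp : (p : ℂ) ≠ 0 := by exact_mod_cast NeZero.ne p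
  have hτ : (τ : ℂ) ≠ 0 := ne_zero τ
  have hΔ : Δ τ ≠ 0 := ModularForm.discriminant_ne_zero τ
  have h1 := discriminant_smul ModularGroup.S τ
  have hden : denom (Matrix.SpecialLinearGroup.mapGL ℝ ModularGroup.S) τ = τ :=
    ModularGroup.denom_S τ
  rw [hden] at h1
  have h12 : (τ : ℂ) ^ (12 : ℤ) = (τ : ℂ) ^ 12 := zpow_ofNat _ 12
  rw [h12] at h1
  rw [phiFun, frickeFun, scaleH_divH, coe_divH, h1]
  generalize Δ τ = D at hΔ
  generalize f (ModularGroup.S • τ) = y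
  generalize (τ : ℂ) = z at hτ
  generalize (p : ℂ) = P at hp
  have e1 : ((z / P) ^ (2 * h))⁻¹ = P ^ (2 * h) * (z ^ (2 * h))⁻¹ := by
    rw [div_pow, inv_div, div_eq_mul_inv]
  have e2 : ((P ^ h)⁻¹ * (P ^ (2 * h) * (z ^ (2 * h))⁻¹) * y) ^ 12 =
      P ^ (12 * h) * ((z ^ (2 * h))⁻¹) ^ 12 * y ^ 12 := by
    have : (P ^ h)⁻¹ * P ^ (2 * h) = P ^ h := by
      rw [two_mul, pow_add, ← mul_assoc, inv_mul_cancel₀ (pow_ne_zero _ hp), one_mul]
    rw [← mul_assoc, this, mul_pow, mul_pow, ← pow_mul, mul_comm h 12]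
  have e3 : ((z ^ 12 * D)⁻¹) ^ (2 * h) = ((z ^ (2 * h))⁻¹) ^ 12 * D⁻¹ ^ (2 * h) := by
    rw [mul_inv, mul_pow, inv_pow, inv_pow, inv_pow, ← pow_mul, ← pow_mul, mul_comm 12 (2 * h)]
  have e4 : P⁻¹ ^ (12 * h) * P ^ (12 * h) = 1 := by
    rw [← mul_pow, inv_mul_cancel₀ hp, one_pow]
  rw [e1, e2, e3]
  calc y ^ 12 * (((z ^ (2 * h))⁻¹) ^ 12 * D⁻¹ ^ (2 * h))
      = 1 * (y ^ 12 * (((z ^ (2 * h))⁻¹) ^ 12 * D⁻¹ ^ (2 * h))) := by rw [one_mul]
    _ = P⁻¹ ^ (12 * h) * (P ^ (12 * h) * ((z ^ (2 * h))⁻¹) ^ 12 * y ^ 12 * D⁻¹ ^ (2 * h)) := by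
        rw [← e4]; ring

theorem isExp_comp_divH (q : ℕ) [NeZero q] {x : LaurentSeries ℂ} {g : ℍ → ℂ}
    (hg : IsExp 1 x g) : IsExp q x (fun τ => g (divH q τ)) := by
  have hcoe : ∀ τ : ℍ, ((divH q τ : ℍ) : ℂ) = (((1 : ℕ) : ℂ) * τ + ((0 : ℤ) : ℂ)) / (q : ℂ) := by
    intro τ
    rw [coe_divH, Nat.cast_one, one_mul, Int.cast_zero, add_zero]
  have h1 := IsExp.comp_affine hg 1 q 0 (divH q) hcoe
  have e0 : (1 : ℕ) * q = q := one_mul q
  rw [e0, ModularCurve.qExpand_one_apply] at h1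
  have h1' : dmul (fun n : ℤ => cexp (2 * π * I * ((0 : ℤ) : ℂ) / (((1 : ℕ) : ℂ) * q)) ^ n)
      x = x := by
    ext n
    rw [dmul_coeff, Int.cast_zero, mul_zero, zero_div, Complex.exp_zero, one_zpow, one_mul]
  rw [h1'] at h1
  exact h1

theorem isExp_discriminant_inv_level (q : ℕ) [NeZero q] :
    IsExp q (qExpand ℂ q (DeltaInvSer ℂ)) (fun τ => (Δ τ)⁻¹) := by
  have h2 := (isExp_discriminant_inv).change_level q
  have e0 : (1 : ℕ) * q = q := one_mul q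
  rw [e0] at h2
  exact h2

theorem iotaL_xZero (F' : PowerSeries ℚ) : iotaL (xZero p h F') =
    HahnSeries.C ((((p : ℂ))⁻¹) ^ (12 * h)) *
      (serK ℂ F' ^ 12 * qExpand ℂ p (DeltaInvSer ℂ) ^ (2 * h)) := by
  have e1 : iotaL (HahnSeries.C ((((p : Kbar))⁻¹) ^ (12 * h))) =
      HahnSeries.C ((((p : ℂ))⁻¹) ^ (12 * h)) := by
    rw [iotaL_C, map_pow, map_inv₀, map_natCast]
  have e2 : iotaL (qExpand Kbar p (DeltaInvSer Kbar)) = qExpand ℂ p (DeltaInvSer ℂ) := by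
    rw [iotaL, coeffMap_qExpand, coeffMap_DeltaInvSer]
  have e3 : iotaL (serK Kbar F' ^ 12 * qExpand Kbar p (DeltaInvSer Kbar) ^ (2 * h)) =
      serK ℂ F' ^ 12 * qExpand ℂ p (DeltaInvSer ℂ) ^ (2 * h) := by
    rw [map_mul, map_pow, map_pow, iotaL_serK, e2]
  rw [xZero, map_mul, e1, e3]

theorem isExpK_phiFun_S (hF' : IsExp 1 (serK ℂ F') (frickeFun p h f)) :
    IsExpK p (xZero p h F') (fun τ => phiFun h f (ModularGroup.S • τ)) := by
  have h1 : IsExp p (serK ℂ F') (fun τ => frickeFun p h f (divH p τ)) := isExp_comp_divH p hF'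
  have h2 : IsExp p (qExpand ℂ p (DeltaInvSer ℂ)) (fun τ => (Δ τ)⁻¹) :=
    isExp_discriminant_inv_level p
  have h1' : IsExp p (serK ℂ F' ^ 12) (fun τ => frickeFun p h f (divH p τ) ^ 12) := h1.pow 12
  have h2' : IsExp p (qExpand ℂ p (DeltaInvSer ℂ) ^ (2 * h)) (fun τ => ((Δ τ)⁻¹) ^ (2 * h)) :=
    h2.pow (2 * h)
  have h3 : IsExp p (serK ℂ F' ^ 12 * qExpand ℂ p (DeltaInvSer ℂ) ^ (2 * h))
      (fun τ => frickeFun p h f (divH p τ) ^ 12 * ((Δ τ)⁻¹) ^ (2 * h)) := h1'.mul h2'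
  have h4 : IsExp p (HahnSeries.C ((((p : ℂ))⁻¹) ^ (12 * h)) *
      (serK ℂ F' ^ 12 * qExpand ℂ p (DeltaInvSer ℂ) ^ (2 * h)))
      (fun τ => (((p : ℂ))⁻¹) ^ (12 * h) *
        (frickeFun p h f (divH p τ) ^ 12 * ((Δ τ)⁻¹) ^ (2 * h))) :=
    IsExp.const_mul _ h3
  have h5 : IsExp p (iotaL (xZero p h F')) (fun τ => phiFun h f (ModularGroup.S • τ)) := by
    rw [iotaL_xZero]
    refine IsExp.congr h4 ?_
    intro τ
    exact (phiFun_S p h τ).symm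
  exact h5

/-- **the `PrimeCusp` datum of a form of weight `2h` with its Fricke transform** -/
theorem primeCusp_phiFun (hmd : MDiff f)
    (hsl : ∀ γ ∈ CongruenceSubgroup.Gamma0 p, ∀ τ : ℍ,
      f (γ • τ) = denom (Matrix.SpecialLinearGroup.mapGL ℝ γ) τ ^ (2 * h) * f τ)
    (hF : IsExp 1 (serK ℂ F) f) (hF' : IsExp 1 (serK ℂ F') (frickeFun p h f)) :
    PrimeCusp p (phiFun h f) (xInf p h F) (xZero p h F') where
  mdiff := mdiff_phiFun h hmd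
  inv := phiFun_smul p h hsl
  expI := isExpK_phiFun p h hF
  expO := isExpK_phiFun_S p h hF'

end main

end Fermat.Agent.S16
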