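import Mathlib
import Fermat.Agent.S16.UpperAlgBasic
import Fermat.Agent.S28.RedBasic

/-!
# S16, piece 84-P14 (arithmetic half, part 1): `ℓ`-adic valuation on `ℚ` and a place of `ℚ̄` over `ℓ`

`A` a valuation subring of `ℚ̄` over the prime `ℓ`.  For `x : ℚ`:
`UA.Vge ℓ 0 x → x ∈ A`, and for such `x`: `A.valuation x < 1 ↔ UA.Vge ℓ 1 x`.
-/

set_option autoImplicit false
set_option linter.unusedSectionVars false

namespace Fermat.Agent.S16

open Fermat.Agent.S28 UA

local notation "Qbar" => AlgebraicClosure ℚ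

section rat

variable {ℓ : ℕ} [hℓ : Fact ℓ.Prime]

theorem not_dvd_den_of_vge {x : ℚ} (hx : Vge ℓ 0 x) : ¬ ℓ ∣ x.den := by
  rcases hx with rfl | hx
  · simp [hℓ.out.one_lt.ne']
  · intro hd
    have hnum : ¬ (ℓ : ℤ) ∣ x.num := by
      intro hn
      have h1 : ℓ ∣ x.num.natAbs := Int.natCast_dvd.mp hn
      have h2 : ℓ ∣ Nat.gcd x.num.natAbs x.den := Nat.dvd_gcd h1 hd
      rw [x.reduced] at h2
      exact hℓ.out.one_lt.ne' (Nat.dvd_one.mp h2)
    have h3 : padicValInt ℓ x.num = 0 := padicValInt.eq_zero_of_not_dvd hnum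
    have h4 : 1 ≤ padicValNat ℓ x.den := one_le_padicValNat_of_dvd x.den_nz hd
    have h5 : padicValRat ℓ x = (padicValInt ℓ x.num : ℤ) - (padicValNat ℓ x.den : ℤ) := rfl
    rw [h5, h3] at hx
    omega

theorem dvd_num_of_vge_one {x : ℚ} (hx : Vge ℓ 1 x) : (ℓ : ℤ) ∣ x.num := by
  rcases hx with rfl | hx
  · simp
  · by_contra hn
    have h3 : padicValInt ℓ x.num = 0 := padicValInt.eq_zero_of_not_dvd hn
    have h5 : padicValRat ℓ x = (padicValInt ℓ x.num : ℤ) - (padicValNat ℓ x.den : ℤ) := rfl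
    rw [h5, h3] at hx
    omega

theorem vge_one_of_dvd_num {x : ℚ} (hx : Vge ℓ 0 x) (hn : (ℓ : ℤ) ∣ x.num) : Vge ℓ 1 x := by
  by_cases hx0 : x = 0
  · exact Or.inl hx0
  right
  have hd := not_dvd_den_of_vge hx
  have hnum0 : x.num ≠ 0 := Rat.num_ne_zero.mpr hx0
  have h4 : padicValNat ℓ x.den = 0 := padicValNat.eq_zero_of_not_dvd hd
  have h3 : 1 ≤ padicValInt ℓ x.num := by
    rw [padicValInt]
    exact one_le_padicValNat_of_dvd (Int.natAbs_ne_zero.mpr hnum0) (Int.natCast_dvd.mp hn)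
  have h5 : padicValRat ℓ x = (padicValInt ℓ x.num : ℤ) - (padicValNat ℓ x.den : ℤ) := rfl
  rw [h5, h4]
  omega

end rat

section val

variable {ℓ : ℕ} [hℓ : Fact ℓ.Prime] (A : ValuationSubring Qbar) (hA : A.LiesOverPrime ℓ)

include hA

theorem algebraMap_eq_num_div_den (x : ℚ) :
    algebraMap ℚ Qbar x = (x.num : Qbar) * ((x.den : Qbar))⁻¹ := by
  conv_lhs => rw [← Rat.num_div_den x]
  rw [map_div₀, div_eq_mul_inv]
  simp

theorem algebraMap_mem_of_vge {x : ℚ} (hx : Vge ℓ 0 x) : algebraMap ℚ Qbar x ∈ A := by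
  rw [algebraMap_eq_num_div_den A hA]
  exact A.mul_mem _ _ (intCast_mem A x.num) (inv_natCast_mem A hℓ.out hA (not_dvd_den_of_vge hx))

theorem valuation_algebraMap_eq {x : ℚ} (hx : Vge ℓ 0 x) :
    A.valuation (algebraMap ℚ Qbar x) = A.valuation ((x.num : ℤ) : Qbar) := by
  rw [algebraMap_eq_num_div_den A hA, map_mul,
    val_inv_natCast_eq_one A hℓ.out hA (not_dvd_den_of_vge hx), mul_one]

theorem valuation_lt_one_iff_vge {x : ℚ} (hx : Vge ℓ 0 x) :
    A.valuation (algebraMap ℚ Qbar x) < 1 ↔ Vge ℓ 1 x := by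
  rw [valuation_algebraMap_eq A hA hx]
  constructor
  · intro h
    apply vge_one_of_dvd_num hx
    by_contra hn
    have := (S05.valuation_intCast_eq_one_iff A hℓ.out hA).mpr hn
    rw [this] at h
    exact lt_irrefl _ h
  · intro h
    exact S05.valuation_intCast_lt_one A hA (dvd_num_of_vge_one h)

end val

end Fermat.Agent.S16
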