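import Mathlib
import Fermat.Agent.S16.TwoCuspAn
import Fermat.Agent.S16.TwoCuspVal
import Fermat.Agent.Lib.FrobeniusExists

/-!
# S16, piece 84-P14 (arithmetic half, part 2): the two-cusp bound for raw data

`two_cusp_raw`: for a holomorphic `f` of weight `2h` on `Γ₀(p)` with `ℓ`-integral `q`-expansions
`F` of `f` and `F'` of its Fricke transform (`ℓ ≠ p`), such that `ℓ` divides the coefficients of
`F` below `a` and those of `F'` below `b`, and `2h (p + 1) < 12 (a + b)`: one of the two series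
is divisible by `ℓ`.
-/

set_option autoImplicit false
set_option linter.unusedSectionVars false

open UpperHalfPlane hiding I
open Complex Function
open scoped MatrixGroups Manifold Modular Real

namespace Fermat.Agent.S16

open Fermat.Agent.FF Fermat.Agent.S28 ModularCurve UA

section order

variable {k : Type*} [Field k]

theorem le_order_of_forall_coeff_eq_zero {x : LaurentSeries k} (hx : x ≠ 0) {N : ℤ}
    (h : ∀ n < N, x.coeff n = 0) : N ≤ x.order := by
  by_contra hlt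
  rw [not_le] at hlt
  exact hx (HahnSeries.coeff_order_eq_zero.mp (h _ hlt))

theorem order_pow_eq (x : LaurentSeries k) (n : ℕ) : (x ^ n).order = (n : ℤ) * x.order := by
  rw [HahnSeries.order_pow]
  simp

end order

section red

variable {ℓ : ℕ} [hℓ : Fact ℓ.Prime] (A : ValuationSubring Kbar) (hA : A.LiesOverPrime ℓ)

include hA

theorem serK_mem {F : PowerSeries ℚ} (hF : VS ℓ 0 F) : serK Kbar F ∈ intSeries A := by
  rw [mem_intSeries_iff]
  intro n
  rcases lt_or_ge n 0 with hn | hn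
  · rw [serK_coeff_of_neg Kbar F hn]
    exact A.zero_mem
  · obtain ⟨m, rfl⟩ := Int.eq_ofNat_of_zero_le hn
    rw [serK_coeff_natCast]
    exact algebraMap_mem_of_vge A hA (hF m)

theorem redS_serK_coeff_eq_zero_iff {F : PowerSeries ℚ} (hF : VS ℓ 0 F) (m : ℕ) :
    (redS A ⟨serK Kbar F, serK_mem A hA hF⟩).coeff (m : ℤ) = 0 ↔
      Vge ℓ 1 (PowerSeries.coeff m F) := by
  rw [redS_coeff_eq_zero_iff]
  show A.valuation ((serK Kbar F).coeff (m : ℤ)) < 1 ↔ _
  rw [serK_coeff_natCast]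
  exact valuation_lt_one_iff_vge A hA (hF m)

theorem redS_serK_coeff_of_neg {F : PowerSeries ℚ} (hF : VS ℓ 0 F) {n : ℤ} (hn : n < 0) :
    (redS A ⟨serK Kbar F, serK_mem A hA hF⟩).coeff n = 0 := by
  rw [redS_coeff_eq_zero_iff]
  show A.valuation ((serK Kbar F).coeff n) < 1
  rw [serK_coeff_of_neg Kbar F hn, map_zero]
  exact zero_lt_one

theorem vs_one_of_redS_serK_eq_zero {F : PowerSeries ℚ} (hF : VS ℓ 0 F)
    (h0 : redS A ⟨serK Kbar F, serK_mem A hA hF⟩ = 0) : VS ℓ 1 F := by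
  intro m
  rw [← redS_serK_coeff_eq_zero_iff A hA hF, h0, HahnSeries.coeff_zero]

theorem le_order_redS_serK {F : PowerSeries ℚ} (hF : VS ℓ 0 F)
    (hne : redS A ⟨serK Kbar F, serK_mem A hA hF⟩ ≠ 0) {a : ℕ}
    (ha : ∀ n, n < a → Vge ℓ 1 (PowerSeries.coeff n F)) :
    (a : ℤ) ≤ (redS A ⟨serK Kbar F, serK_mem A hA hF⟩).order := by
  apply le_order_of_forall_coeff_eq_zero hne
  intro n hn
  rcases lt_or_ge n 0 with hn0 | hn0
  · exact redS_serK_coeff_of_neg A hA hF hn0
  · obtain ⟨m, rfl⟩ := Int.eq_ofNat_of_zero_le hn0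
    rw [redS_serK_coeff_eq_zero_iff A hA hF]
    exact ha m (by exact_mod_cast hn)

omit hA hℓ in
theorem DeltaInvSer_mem : DeltaInvSer Kbar ∈ intSeries A :=
  (mem_intSeries_iff A).mpr (DeltaInvSer_mem_coeffSubring A.toSubring)

omit hA hℓ in
theorem redS_DeltaInvSer :
    redS A ⟨DeltaInvSer Kbar, DeltaInvSer_mem A⟩ = DeltaInvSer (IsLocalRing.ResidueField A) := by
  have h0 : DeltaInvSer Kbar = coeffMap A.subtype (DeltaInvSer A) :=
    (coeffMap_DeltaInvSer A A.subtype).symm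
  rw [redS_eq_of_eq A _ (DeltaInvSer A) h0, coeffMap_DeltaInvSer]

variable {p : ℕ} [Fact p.Prime] (h : ℕ)

omit hA hℓ in
theorem xInf_mem {F : PowerSeries ℚ} (hFm : serK Kbar F ∈ intSeries A) :
    xInf p h F ∈ intSeries A :=
  qExpand_mem A p ((intSeries A).mul_mem ((intSeries A).pow_mem hFm 12)
    ((intSeries A).pow_mem (DeltaInvSer_mem A) (2 * h)))

omit hA hℓ in
theorem redS_xInf {F : PowerSeries ℚ} (hFm : serK Kbar F ∈ intSeries A) :
    redS A ⟨xInf p h F, xInf_mem A h hFm⟩ =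
      qExpand (IsLocalRing.ResidueField A) p
        (redS A ⟨serK Kbar F, hFm⟩ ^ 12 *
          DeltaInvSer (IsLocalRing.ResidueField A) ^ (2 * h)) := by
  have h1 := redS_qExpand A p ((intSeries A).mul_mem ((intSeries A).pow_mem hFm 12)
    ((intSeries A).pow_mem (DeltaInvSer_mem A) (2 * h)))
  have h2 : redS A (⟨serK Kbar F ^ 12 * DeltaInvSer Kbar ^ (2 * h),
      (intSeries A).mul_mem ((intSeries A).pow_mem hFm 12)
        ((intSeries A).pow_mem (DeltaInvSer_mem A) (2 * h))⟩ : intSeries A) =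
      redS A ⟨serK Kbar F, hFm⟩ ^ 12 *
        DeltaInvSer (IsLocalRing.ResidueField A) ^ (2 * h) :=
    calc redS A (⟨serK Kbar F ^ 12 * DeltaInvSer Kbar ^ (2 * h), _⟩ : intSeries A)
        = redS A ((⟨serK Kbar F, hFm⟩ : intSeries A) ^ 12 *
            (⟨DeltaInvSer Kbar, DeltaInvSer_mem A⟩ : intSeries A) ^ (2 * h)) := rfl
      _ = redS A ⟨serK Kbar F, hFm⟩ ^ 12 *
            redS A ⟨DeltaInvSer Kbar, DeltaInvSer_mem A⟩ ^ (2 * h) := by
          rw [map_mul, map_pow, map_pow]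
      _ = _ := by rw [redS_DeltaInvSer]
  exact h1.trans (congrArg _ h2)

theorem const_mem (hℓp : ℓ ≠ p) : (((p : Kbar))⁻¹) ^ (12 * h) ∈ A := by
  have hp : (p : ℕ).Prime := Fact.out
  have hd : ¬ ℓ ∣ p := fun hd => hℓp ((Nat.prime_dvd_prime_iff_eq hℓ.out hp).mp hd)
  exact A.pow_mem (inv_natCast_mem A hℓ.out hA hd) _

theorem val_const (hℓp : ℓ ≠ p) : A.valuation ((((p : Kbar))⁻¹) ^ (12 * h)) = 1 := by
  have hp : (p : ℕ).Prime := Fact.out
  have hd : ¬ ℓ ∣ p := fun hd => hℓp ((Nat.prime_dvd_prime_iff_eq hℓ.out hp).mp hd)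
  rw [map_pow, val_inv_natCast_eq_one A hℓ.out hA hd, one_pow]

theorem xZero_mem (hℓp : ℓ ≠ p) {F' : PowerSeries ℚ} (hFm : serK Kbar F' ∈ intSeries A) :
    xZero p h F' ∈ intSeries A :=
  (intSeries A).mul_mem (single_mem_intSeries A (const_mem A hA h hℓp) 0)
    ((intSeries A).mul_mem ((intSeries A).pow_mem hFm 12)
      ((intSeries A).pow_mem (qExpand_mem A p (DeltaInvSer_mem A)) (2 * h)))

theorem redS_xZero (hℓp : ℓ ≠ p) {F' : PowerSeries ℚ} (hFm : serK Kbar F' ∈ intSeries A) :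
    redS A ⟨xZero p h F', xZero_mem A hA h hℓp hFm⟩ =
      HahnSeries.single 0 (IsLocalRing.residue A ⟨_, const_mem A hA h hℓp⟩) *
        (redS A ⟨serK Kbar F', hFm⟩ ^ 12 *
          qExpand (IsLocalRing.ResidueField A) p
            (DeltaInvSer (IsLocalRing.ResidueField A)) ^ (2 * h)) := by
  calc redS A ⟨xZero p h F', xZero_mem A hA h hℓp hFm⟩
      = redS A ((⟨HahnSeries.single 0 ((((p : Kbar))⁻¹) ^ (12 * h)),
          single_mem_intSeries A (const_mem A hA h hℓp) 0⟩ : intSeries A) *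
        ((⟨serK Kbar F', hFm⟩ : intSeries A) ^ 12 *
          (⟨qExpand Kbar p (DeltaInvSer Kbar), qExpand_mem A p (DeltaInvSer_mem A)⟩ :
            intSeries A) ^ (2 * h))) := rfl
    _ = redS A ⟨HahnSeries.single 0 ((((p : Kbar))⁻¹) ^ (12 * h)),
          single_mem_intSeries A (const_mem A hA h hℓp) 0⟩ *
        (redS A ⟨serK Kbar F', hFm⟩ ^ 12 *
          redS A ⟨qExpand Kbar p (DeltaInvSer Kbar), qExpand_mem A p (DeltaInvSer_mem A)⟩ ^
            (2 * h)) := by
        rw [map_mul (redS A), map_mul (redS A), map_pow (redS A), map_pow (redS A)]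
    _ = _ := by
        rw [redS_single A (const_mem A hA h hℓp) 0, redS_qExpand A p (DeltaInvSer_mem A),
          redS_DeltaInvSer]

end red

section raw

variable {ℓ : ℕ} [hℓ : Fact ℓ.Prime] {p : ℕ} [hp : Fact p.Prime]

/-- **(2CS) for raw data**: the two-cusp Sturm bound modulo `ℓ ≠ p` for a holomorphic function
of weight `2h` on `Γ₀(p)` with `ℓ`-integral expansions `F` (of `f`) and `F'` (of its Fricke
transform). -/
theorem two_cusp_raw (hℓp : ℓ ≠ p) (h : ℕ) {f : ℍ → ℂ} {F F' : PowerSeries ℚ}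
    (hmd : MDiff f)
    (hsl : ∀ γ ∈ CongruenceSubgroup.Gamma0 p, ∀ τ : ℍ,
      f (γ • τ) = denom (Matrix.SpecialLinearGroup.mapGL ℝ γ) τ ^ (2 * h) * f τ)
    (hF : IsExp 1 (serK ℂ F) f) (hF' : IsExp 1 (serK ℂ F') (frickeFun p h f))
    (hint : VS ℓ 0 F) (hint' : VS ℓ 0 F') (a b : ℕ)
    (ha : ∀ n, n < a → Vge ℓ 1 (PowerSeries.coeff n F))
    (hb : ∀ n, n < b → Vge ℓ 1 (PowerSeries.coeff n F'))
    (hlt : 2 * h * (p + 1) < 12 * (a + b)) : VS ℓ 1 F ∨ VS ℓ 1 F' := by
  obtain ⟨A, hA⟩ := Fermat.Agent.FrobLib.exists_liesOverPrime ℓ hℓ.out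
  by_contra hcon
  rw [not_or] at hcon
  have hFm := serK_mem A hA hint
  have hF'm := serK_mem A hA hint'
  have hne : redS A ⟨serK Kbar F, hFm⟩ ≠ 0 :=
    fun h0 => hcon.1 (vs_one_of_redS_serK_eq_zero A hA hint h0)
  have hne' : redS A ⟨serK Kbar F', hF'm⟩ ≠ 0 :=
    fun h0 => hcon.2 (vs_one_of_redS_serK_eq_zero A hA hint' h0)
  have hoa := le_order_redS_serK A hA hint hne ha
  have hob := le_order_redS_serK A hA hint' hne' hb
  have hPC := primeCusp_phiFun p h hmd hsl hF hF'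
  have e1 := redS_xInf (p := p) A h hFm
  have e2 := redS_xZero (p := p) A hA h hℓp hF'm
  have hD : DeltaInvSer (IsLocalRing.ResidueField A) ≠ 0 := DeltaInvSer_ne_zero
  have hDo : (DeltaInvSer (IsLocalRing.ResidueField A)).order = -1 := order_DeltaInvSer
  have hqD : qExpand (IsLocalRing.ResidueField A) p (DeltaInvSer (IsLocalRing.ResidueField A)) ≠ 0 :=
    qExpand_ne_zero p hD
  have hqDo : (qExpand (IsLocalRing.ResidueField A) p
      (DeltaInvSer (IsLocalRing.ResidueField A))).order = (p : ℤ) * (-1) := by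
    rw [order_qExpand, hDo]
  have hr : IsLocalRing.residue A ⟨_, const_mem (p := p) A hA h hℓp⟩ ≠ 0 := by
    intro h0
    have hmem := (IsLocalRing.residue_eq_zero_iff _).mp h0
    have h1 := (ValuationSubring.valuation_lt_one_iff A _).mp hmem
    rw [val_const A hA h hℓp] at h1
    exact lt_irrefl _ h1
  have hc : (HahnSeries.single (0 : ℤ) (IsLocalRing.residue A
      ⟨_, const_mem (p := p) A hA h hℓp⟩) : LaurentSeries (IsLocalRing.ResidueField A)) ≠ 0 :=
    HahnSeries.single_ne_zero hr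
  have hco : (HahnSeries.single (0 : ℤ) (IsLocalRing.residue A
      ⟨_, const_mem (p := p) A hA h hℓp⟩) : LaurentSeries (IsLocalRing.ResidueField A)).order
      = 0 := HahnSeries.order_single hr
  have n1 : redS A ⟨xInf p h F, xInf_mem A h hFm⟩ ≠ 0 := by
    rw [e1]
    exact qExpand_ne_zero p (mul_ne_zero (pow_ne_zero _ hne) (pow_ne_zero _ hD))
  have o1 : (redS A ⟨xInf p h F, xInf_mem A h hFm⟩).order =
      (p : ℤ) * (12 * (redS A ⟨serK Kbar F, hFm⟩).order + (2 * h : ℕ) * (-1)) := by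
    rw [e1, order_qExpand, HahnSeries.order_mul (pow_ne_zero _ hne) (pow_ne_zero _ hD),
      order_pow_eq, order_pow_eq, hDo]
    norm_cast
  have n2 : redS A ⟨xZero p h F', xZero_mem A hA h hℓp hF'm⟩ ≠ 0 := by
    rw [e2]
    exact mul_ne_zero hc (mul_ne_zero (pow_ne_zero _ hne') (pow_ne_zero _ hqD))
  have o2 : (redS A ⟨xZero p h F', xZero_mem A hA h hℓp hF'm⟩).order =
      12 * (redS A ⟨serK Kbar F', hF'm⟩).order + (2 * h : ℕ) * ((p : ℤ) * (-1)) := by
    rw [e2, HahnSeries.order_mul hc (mul_ne_zero (pow_ne_zero _ hne') (pow_ne_zero _ hqD)),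
      HahnSeries.order_mul (pow_ne_zero _ hne') (pow_ne_zero _ hqD), order_pow_eq, order_pow_eq,
      hqDo, hco, zero_add]
    norm_cast
  have key := hPC.order_add_mul_order_le_zero (A := A) (xInf_mem A h hFm)
    (xZero_mem A hA h hℓp hF'm) n1 n2
  rw [o1, o2] at key
  have hp0 : (0 : ℤ) < p := by exact_mod_cast hp.out.pos
  have hlt' : (2 * (h : ℤ) * ((p : ℤ) + 1)) < 12 * ((a : ℤ) + (b : ℤ)) := by exact_mod_cast hlt
  push_cast at key
  have key2 : (p : ℤ) * ((12 * (redS A ⟨serK Kbar F, hFm⟩).order - 2 * h) +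
      (12 * (redS A ⟨serK Kbar F', hF'm⟩).order - 2 * h * p)) ≤ 0 := by
    linarith
  have key3 : (12 * (redS A ⟨serK Kbar F, hFm⟩).order - 2 * h) +
      (12 * (redS A ⟨serK Kbar F', hF'm⟩).order - 2 * h * p) ≤ 0 := by
    by_contra hpos
    rw [not_le] at hpos
    exact absurd key2 (not_le.mpr (mul_pos hp0 hpos))
  linarith

end raw

end Fermat.Agent.S16
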