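import Mathlib
import Fermat.Agent.S16.TwoCuspRed
import Fermat.Agent.S16.WPairEis

/-!
# S16, piece 84-P14: the two-cusp Sturm bound for `W`-pairs

`isWPair_twoCusp` is, verbatim, the field `twoCusp` of `UA.WPairs p` for
`P k = {(F, F') | IsWPair p k F F'}`.
-/

set_option autoImplicit false
set_option linter.unusedSectionVars false

open UpperHalfPlane hiding I
open Complex Function ModularForm
open scoped MatrixGroups Manifold Modular Real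

namespace Fermat.Agent.S16

open Fermat.Agent.FF Fermat.Agent.S28 ModularCurve UA

/-- the Laurent series of `toC F` is `serK ℂ F` -/
theorem coe_toC_eq_serK (F : PowerSeries ℚ) :
    ((toC F : PowerSeries ℂ) : LaurentSeries ℂ) = serK ℂ F := by
  ext n
  rcases lt_or_ge n 0 with hn | hn
  · rw [serK_coeff_of_neg ℂ F hn, PowerSeries.coeff_coe, if_pos hn]
  · obtain ⟨m, rfl⟩ := Int.eq_ofNat_of_zero_le hn
    rw [serK_coeff_natCast, PowerSeries.coeff_coe, if_neg (by omega), Int.natAbs_natCast,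
      coeff_toC]
    rfl

/-- the `q`-expansion of a modular form of level `Γ₀(p)` as a Laurent expansion -/
theorem isExp_of_qExpansion_eq {p : ℕ} [NeZero p] {k : ℤ}
    (f : ModularForm (CongruenceSubgroup.Gamma0 p) k) {F : PowerSeries ℚ}
    (hF : qExpansion 1 f = toC F) : IsExp 1 (serK ℂ F) f := by
  rw [← coe_toC_eq_serK, ← hF]
  apply isExp_of_hasSum_nat
  intro τ
  have := ModularForm.hasSum_qExpansion (f := f) one_pos
    (CongruenceSubgroup.one_mem_strictPeriods_Gamma0 p) τ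
  refine this.congr_fun ?_
  intro m
  simp [uPar]

theorem scaleH_eq_heckeDiagMatrix_smul (p : ℕ) [NeZero p] (τ : ℍ) :
    heckeDiagMatrix p • τ = scaleH p τ := by
  apply UpperHalfPlane.ext
  rw [coe_heckeDiagMatrix_smul (NeZero.ne p), coe_scaleH]

/-- the `W`-transform of weight `2h`, pointwise -/
theorem wT_eq_frickeFun (p : ℕ) [NeZero p] (h : ℕ) (f : ℍ → ℂ) (τ : ℍ) :
    wT p (((2 * h : ℕ) : ℤ)) f τ = frickeFun p h f τ := by
  have hp : p ≠ 0 := NeZero.ne p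
  have hpC : (p : ℂ) ≠ 0 := by exact_mod_cast hp
  have hτ : (τ : ℂ) ≠ 0 := ne_zero τ
  have hS : ∀ z : ℍ, (f ∣[((2 * h : ℕ) : ℤ)] (Matrix.SpecialLinearGroup.mapGL ℝ ModularGroup.S)) z
      = f (ModularGroup.S • z) * denom ModularGroup.S z ^ (-(((2 * h : ℕ) : ℤ))) :=
    fun z => ModularForm.SL_slash_apply (f := f) (k := ((2 * h : ℕ) : ℤ)) ModularGroup.S z
  unfold wT
  rw [Pi.smul_apply, smul_eq_mul, frickeMatrix_eq_S_mul hp, SlashAction.slash_mul,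
    slash_heckeDiagMatrix_apply _ hp, hS,
    scaleH_eq_heckeDiagMatrix_smul, ModularGroup.denom_S, coe_scaleH, frickeFun]
  generalize f (ModularGroup.S • scaleH p τ) = y
  have e1 : ((2 * h : ℕ) : ℤ) / 2 = (h : ℤ) := by
    push_cast
    omega
  rw [e1]
  have e2 : (p : ℂ) ^ (1 - (h : ℤ)) * (p : ℂ) ^ (((2 * h : ℕ) : ℤ) - 1) = (p : ℂ) ^ h := by
    rw [← zpow_add₀ hpC, ← zpow_natCast]
    congr 1
    push_cast
    ring
  have e3 : ((p : ℂ) * (τ : ℂ)) ^ (-((2 * h : ℕ) : ℤ)) =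
      (((p : ℂ) ^ h)⁻¹) ^ 2 * ((τ : ℂ) ^ (2 * h))⁻¹ := by
    rw [zpow_neg, zpow_natCast, mul_pow, mul_inv, pow_mul', inv_pow]
  rw [e3]
  calc (p : ℂ) ^ (1 - (h : ℤ)) * ((p : ℂ) ^ (((2 * h : ℕ) : ℤ) - 1) *
        (y * ((((p : ℂ) ^ h)⁻¹) ^ 2 * ((τ : ℂ) ^ (2 * h))⁻¹)))
      = ((p : ℂ) ^ (1 - (h : ℤ)) * (p : ℂ) ^ (((2 * h : ℕ) : ℤ) - 1)) *
          ((((p : ℂ) ^ h)⁻¹) ^ 2 * ((τ : ℂ) ^ (2 * h))⁻¹ * y) := by ring
    _ = (p : ℂ) ^ h * ((((p : ℂ) ^ h)⁻¹) ^ 2 * ((τ : ℂ) ^ (2 * h))⁻¹ * y) := by rw [e2]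
    _ = ((p : ℂ) ^ h * ((p : ℂ) ^ h)⁻¹) * (((p : ℂ) ^ h)⁻¹ * ((τ : ℂ) ^ (2 * h))⁻¹ * y) := by
        ring
    _ = ((p : ℂ) ^ h)⁻¹ * ((τ : ℂ) ^ (2 * h))⁻¹ * y := by
        rw [mul_inv_cancel₀ (pow_ne_zero _ hpC), one_mul]

/-- **84-P14: the two-cusp Sturm bound for `W`-pairs** (the field `twoCusp` of `UA.WPairs p`). -/
theorem isWPair_twoCusp {p : ℕ} (hp : p.Prime) (k ℓ : ℕ) (F F' : PowerSeries ℚ) (hℓ : ℓ.Prime)
    (hℓp : ℓ ≠ p) (hW : IsWPair p (k : ℤ) F F') (hF : VS ℓ 0 F) (hF' : VS ℓ 0 F') (a b : ℕ)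
    (ha : ∀ n, n < a → Vge ℓ 1 (PowerSeries.coeff n F))
    (hb : ∀ n, n < b → Vge ℓ 1 (PowerSeries.coeff n F'))
    (hlt : k * (p + 1) < 12 * (a + b)) : VS ℓ 1 F ∨ VS ℓ 1 F' := by
  have : Fact p.Prime := ⟨hp⟩
  have : Fact ℓ.Prime := ⟨hℓ⟩
  rcases Nat.even_or_odd k with hk | hk
  · obtain ⟨h, rfl⟩ := hk
    have hk2 : h + h = 2 * h := (two_mul h).symm
    rw [hk2] at hW hlt
    rw [isWPair_iff] at hW
    obtain ⟨f, hf, hf'⟩ := hW
    have hmd : MDiff (f : ℍ → ℂ) := ModularFormClass.holo f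
    have hsl : ∀ γ ∈ CongruenceSubgroup.Gamma0 p, ∀ τ : ℍ,
        f (γ • τ) = denom (Matrix.SpecialLinearGroup.mapGL ℝ γ) τ ^ (2 * h) * f τ := by
      intro γ hγ τ
      have hγ' : (Matrix.SpecialLinearGroup.mapGL ℝ γ) ∈
          ((CongruenceSubgroup.Gamma0 p : Subgroup SL(2, ℤ)) : Subgroup (GL (Fin 2) ℝ)) :=
        ⟨γ, hγ, rfl⟩
      have := SlashInvariantForm.slash_action_eqn'' f hγ' τ
      rw [zpow_natCast] at this
      exact this
    have h1 : IsExp 1 (serK ℂ F) f := isExp_of_qExpansion_eq f hf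
    have h2 : IsExp 1 (serK ℂ F') (frickeFun p h f) := by
      have := isExp_of_qExpansion_eq (wForm p ((2 * h : ℕ) : ℤ) f) hf'
      refine this.congr ?_
      intro τ
      rw [wForm_apply, wT_eq_frickeFun]
    exact two_cusp_raw hℓp h hmd hsl h1 h2 hF hF' a b ha hb hlt
  · have hk' : Odd (k : ℤ) := by exact_mod_cast hk
    obtain ⟨h0, -⟩ := IsWPair.eq_zero_of_odd hk' hW
    left
    rw [h0]
    exact VS.zero 1

end Fermat.Agent.S16
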