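import Fermat.Agent.S20
import Fermat.Agent.Lib.CuspFormFinDim
import Fermat.Agent.S16.Defs
import Fermat.Prelude.Def_ModularCurve_ModularUnit

/-!
# S16 (helper7): the small primes `p = 2, 3, 5`

For `p ∈ {2, 3, 5}` the genus formula gives `S₂(Γ₀(p)) = 0` (S20), hence `Cong p M` forces
`M = 1` (look at the coefficient of `q`), and the upper bound of Step A holds trivially.
-/

set_option autoImplicit false
set_option linter.style.haveILetI false
set_option linter.unusedVariables false

open ModularCurve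

namespace Fermat.Agent.S16

theorem dedekindPsi_of_prime {p : ℕ} (hp : p.Prime) : dedekindPsi p = p + 1 := by
  rw [dedekindPsi, hp.divisors, Finset.filter_insert, if_pos squarefree_one,
    Finset.filter_singleton, if_pos hp.squarefree, Finset.sum_insert
      (by simp only [Finset.mem_singleton]; exact hp.one_lt.ne),
    Finset.sum_singleton, Nat.div_one, Nat.div_self hp.pos]

theorem genusFormula_two : genusFormula 2 = 0 := by
  have h1 : dedekindPsi 2 = 3 := dedekindPsi_of_prime Nat.prime_two
  have h2 : nuTwo 2 = 1 := by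
    rw [nuTwo, Nat.card_eq_fintype_card]; decide
  have h3 : nuThree 2 = 0 := by
    rw [nuThree, Nat.card_eq_fintype_card]; decide
  have h4 : cuspCount 2 = 2 := by decide
  rw [genusFormula, h1, h2, h3, h4]
  norm_num

theorem genusFormula_three : genusFormula 3 = 0 := by
  have h1 : dedekindPsi 3 = 4 := dedekindPsi_of_prime Nat.prime_three
  have h2 : nuTwo 3 = 0 := by
    rw [nuTwo, Nat.card_eq_fintype_card]; decide
  have h3 : nuThree 3 = 1 := by
    rw [nuThree, Nat.card_eq_fintype_card]; decide
  have h4 : cuspCount 3 = 2 := by decide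
  rw [genusFormula, h1, h2, h3, h4]
  norm_num

theorem genusFormula_five : genusFormula 5 = 0 := by
  have h1 : dedekindPsi 5 = 6 := dedekindPsi_of_prime Nat.prime_five
  have h2 : nuTwo 5 = 2 := by
    rw [nuTwo, Nat.card_eq_fintype_card]; decide
  have h3 : nuThree 5 = 0 := by
    rw [nuThree, Nat.card_eq_fintype_card]; decide
  have h4 : cuspCount 5 = 2 := by decide
  rw [genusFormula, h1, h2, h3, h4]
  norm_num

/-- For `p ∈ {2, 3, 5}` there is no nonzero cusp form of weight 2 on `Γ₀(p)`. -/
theorem cuspForm_eq_zero_of_small {p : ℕ} (hp : p = 2 ∨ p = 3 ∨ p = 5)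
    (f : CuspForm (CongruenceSubgroup.Gamma0 p) 2) : f = 0 := by
  have hp0 : p ≠ 0 := by rcases hp with rfl | rfl | rfl <;> norm_num
  have : NeZero p := ⟨hp0⟩
  have hg : genusFormula p = 0 := by
    rcases hp with rfl | rfl | rfl
    · exact genusFormula_two
    · exact genusFormula_three
    · exact genusFormula_five
  have h := Fermat.Agent.S20.result p
  rw [hg] at h
  have h0 : Module.finrank ℂ (CuspForm (CongruenceSubgroup.Gamma0 p) 2) = 0 := by
    exact_mod_cast h
  haveI : FiniteDimensional ℂ (CuspForm (CongruenceSubgroup.Gamma0 p) 2) :=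
    Fermat.Agent.Lib.CuspFormFinDim.finiteDimensional p 2
  haveI := Module.finrank_zero_iff.mp h0
  exact Subsingleton.elim f 0

/-- For `p ∈ {2, 3, 5}`, `Cong p M` forces `M = 1`. -/
theorem eq_one_of_cong_of_small {p : ℕ} (hp : p = 2 ∨ p = 3 ∨ p = 5) {M : ℕ} (h : Cong p M) :
    M = 1 := by
  have hpp : p.Prime := by rcases hp with rfl | rfl | rfl <;> norm_num
  obtain ⟨f, hf⟩ := h
  obtain ⟨a, ha, hdvd⟩ := hf 1 one_pos
  rw [cuspForm_eq_zero_of_small hp f] at ha
  have h0 : ModularFormClass.qCoeff (⇑(0 : CuspForm (CongruenceSubgroup.Gamma0 p) 2)) 1 = 0 := by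
    simp [ModularFormClass.qCoeff, UpperHalfPlane.qExpansion_zero]
  rw [h0] at ha
  have ha0 : a = 0 := by exact_mod_cast ha.symm
  rw [ha0, eisCoeff_one hpp, zero_sub, dvd_neg] at hdvd
  have := Int.natCast_dvd_natCast.mp (by simpa using hdvd : ((M : ℕ) : ℤ) ∣ ((1 : ℕ) : ℤ))
  exact Nat.dvd_one.mp this

/-- The upper bound of Step A for the small primes `p ≤ 5`. -/
theorem upper_of_small {p : ℕ} (hpp : p.Prime) (hp : p ≤ 5) (l a : ℕ) (hl : l.Prime)
    (ha : 0 < a) (h : Cong p (l ^ a)) : l ^ a ∣ eisensteinNumerator p := by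
  have hp' : p = 2 ∨ p = 3 ∨ p = 5 := by
    have h2 := hpp.two_le
    interval_cases p
    · exact Or.inl rfl
    · exact Or.inr (Or.inl rfl)
    · exact absurd hpp (by norm_num)
    · exact Or.inr (Or.inr rfl)
  rw [eq_one_of_cong_of_small hp' h]
  exact one_dvd _

end Fermat.Agent.S16

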