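import Fermat.Agent.S16.UpperMain
import Fermat.Agent.S16.UpperSmall
import Fermat.Agent.S16.TraceInputs
import Fermat.Agent.S16.TwoCusp

/-!
# S16: the upper bound, assembled

`Cong p (l ^ a) → l ^ a ∣ eisensteinNumerator p` for every prime `p`.
-/

set_option autoImplicit false

namespace Fermat.Agent.S16

/-- the analytic inputs of the upper bound -/
theorem wPairsInputs (p : ℕ) (hp : p.Prime) : WPairsInputs p :=
  wPairsInputs_of_twoCusp hp (fun k ℓ F F' hℓ hℓp hW hF hF' a b ha hb hlt =>
    isWPair_twoCusp hp k ℓ F F' hℓ hℓp hW hF hF' a b ha hb hlt)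

/-- **Upper bound** for the Eisenstein congruence modulus. -/
theorem upper_bound (p : ℕ) [Fact p.Prime] (l a : ℕ) (hl : l.Prime) (ha : 0 < a)
    (hc : Cong p (l ^ a)) : l ^ a ∣ ModularCurve.eisensteinNumerator p := by
  by_cases hp5 : 5 < p
  · exact dvd_of_cong_of_inputs p hp5 (wPairsInputs p Fact.out) (traceTwo Fact.out) (l ^ a)
      (pow_pos hl.pos a) hc
  · exact upper_of_small Fact.out (by omega) l a hl ha hc

end Fermat.Agent.S16
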