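import Mathlib
import Fermat.Statements.S16
import Fermat.Agent.S23.DeltaN

/-!
# S16, piece 84-P3: the Eisenstein series of weight 2 and level `Γ₀(p)`

`eisP p = (p E₂(pz) - E₂(z)) / 24`, a modular form of weight 2 on `Γ₀(p)` whose `q`-expansion is
`(p - 1)/24 + ∑_{n ≥ 1} σ'(n) qⁿ`, `σ'(n)` = sum of the divisors of `n` prime to `p`.
-/

set_option autoImplicit false

open UpperHalfPlane ModularForm CongruenceSubgroup SlashInvariantForm Filter Topology
open scoped MatrixGroups ModularForm Manifold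

namespace Fermat.Agent.S16

noncomputable section

open EisensteinSeries

/-- `E2 ∣[2] γ` for `γ ∈ SL(2, ℤ)` seen in `GL(2, ℝ)`. -/
theorem E2_slash_mapGL (γ : SL(2, ℤ)) :
    E2 ∣[(2 : ℤ)] (Matrix.SpecialLinearGroup.mapGL ℝ γ) =
      E2 - (1 / (2 * riemannZeta 2)) • D2 γ := by
  have := E2_slash_action γ
  rwa [ModularForm.SL_slash] at this

/-- The correction term `D2 γ` is bounded at `i∞`. -/
theorem isBoundedAtImInfty_D2 (γ : SL(2, ℤ)) : IsBoundedAtImInfty (D2 γ) := by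
  rw [UpperHalfPlane.isBoundedAtImInfty_iff]
  refine ⟨2 * Real.pi, 1, fun z hz => ?_⟩
  unfold D2
  by_cases hc : γ 1 0 = 0
  · simp [hc]; positivity
  · have hc' : (0 : ℝ) < |((γ 1 0 : ℤ) : ℝ)| := abs_pos.mpr (by exact_mod_cast hc)
    have hden : |((γ 1 0 : ℤ) : ℝ)| * z.im ≤ ‖denom γ z‖ := by
      have him : (denom γ z).im = (γ 1 0 : ℝ) * z.im := by
        simp [denom]
      calc |((γ 1 0 : ℤ) : ℝ)| * z.im = |(denom γ z).im| := by
            rw [him, abs_mul, abs_of_pos z.im_pos]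
        _ ≤ ‖denom γ z‖ := Complex.abs_im_le_norm _
    have hpos : 0 < ‖denom γ z‖ := lt_of_lt_of_le (mul_pos hc' z.im_pos) hden
    rw [norm_div, div_le_iff₀ hpos]
    have : ‖2 * (Real.pi : ℂ) * Complex.I * ((γ 1 0 : ℤ) : ℂ)‖ = 2 * Real.pi * |((γ 1 0 : ℤ) : ℝ)| := by
      simp [abs_of_pos Real.pi_pos]
    rw [this]
    calc 2 * Real.pi * |((γ 1 0 : ℤ) : ℝ)| ≤ 2 * Real.pi * (|((γ 1 0 : ℤ) : ℝ)| * z.im) := by
          have : |((γ 1 0 : ℤ) : ℝ)| ≤ |((γ 1 0 : ℤ) : ℝ)| * z.im :=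
            le_mul_of_one_le_right hc'.le hz
          have hpi := Real.pi_pos
          nlinarith
      _ ≤ 2 * Real.pi * ‖denom γ z‖ := by
          have hpi := Real.pi_pos
          nlinarith

variable (p : ℕ) [NeZero p]

/-- The function `E2 ∣[2] diag(p, 1) - E2`, i.e. `z ↦ p E₂(pz) - E₂(z)`. -/
def eisPAux : ℍ → ℂ := E2 ∣[(2 : ℤ)] heckeDiagMatrix p - E2

theorem entries_of_heckeDiag_comm (γ γ' : SL(2, ℤ))
    (h : heckeDiagMatrix p * Matrix.SpecialLinearGroup.mapGL ℝ γ =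
      Matrix.SpecialLinearGroup.mapGL ℝ γ' * heckeDiagMatrix p) :
    ((γ 1 0 : ℤ) : ℂ) = (γ' 1 0 : ℤ) * (p : ℂ) ∧ ((γ 1 1 : ℤ) : ℂ) = (γ' 1 1 : ℤ) := by
  have hp : p ≠ 0 := NeZero.ne p
  have h10 := congrArg (fun M : GL (Fin 2) ℝ => (M : Matrix (Fin 2) (Fin 2) ℝ) 1 0) h
  have h11 := congrArg (fun M : GL (Fin 2) ℝ => (M : Matrix (Fin 2) (Fin 2) ℝ) 1 1) h
  simp [Matrix.mul_apply, Fin.sum_univ_two, val_heckeDiagMatrix hp] at h10 h11
  constructor
  · have : ((γ 1 0 : ℤ) : ℝ) = (γ' 1 0 : ℤ) * (p : ℝ) := h10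
    exact_mod_cast this
  · exact_mod_cast h11

theorem D2_slash_heckeDiag (γ γ' : SL(2, ℤ))
    (h : heckeDiagMatrix p * Matrix.SpecialLinearGroup.mapGL ℝ γ =
      Matrix.SpecialLinearGroup.mapGL ℝ γ' * heckeDiagMatrix p) :
    (D2 γ') ∣[(2 : ℤ)] heckeDiagMatrix p = D2 γ := by
  have hp : p ≠ 0 := NeZero.ne p
  obtain ⟨h10, h11⟩ := entries_of_heckeDiag_comm p γ γ' h
  ext z
  rw [slash_heckeDiagMatrix_apply 2 hp]
  unfold D2
  have hd' : denom γ' ((heckeDiagMatrix p • z : ℍ) : ℂ) =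
      (γ' 1 0 : ℤ) * ((p : ℂ) * z) + (γ' 1 1 : ℤ) := by
    rw [← coe_heckeDiagMatrix_smul hp z]
    simp [denom]
  have hd : denom γ z = (γ 1 0 : ℤ) * (z : ℂ) + (γ 1 1 : ℤ) := by
    simp [denom]
  rw [hd', hd, h10, h11]
  norm_num
  ring

/-- `p E₂(pz) - E₂(z)` is invariant under `Γ₀(p)` in weight 2. -/
theorem eisPAux_slash (γ : SL(2, ℤ)) (hγ : γ ∈ Gamma0 p) :
    eisPAux p ∣[(2 : ℤ)] (Matrix.SpecialLinearGroup.mapGL ℝ γ) = eisPAux p := by
  have hc : (p : ℤ) ∣ γ 1 0 := (ZMod.intCast_zmod_eq_zero_iff_dvd _ _).mp (Gamma0_mem.mp hγ)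
  obtain ⟨e, he⟩ := hc
  obtain ⟨g', -, hmul⟩ :=
    P2MW.S_ModularForm_heckeT_slash_eq_self_of_mem_Gamma0.ModularForm.HeckeSlashInvariance.heckeDiagMatrix_mul_of_eq'
      (NeZero.ne p) γ e he
  unfold eisPAux
  rw [sub_eq_add_neg, SlashAction.add_slash, SlashAction.neg_slash, ← SlashAction.slash_mul, hmul,
    SlashAction.slash_mul, E2_slash_mapGL, E2_slash_mapGL, sub_eq_add_neg (E2),
    SlashAction.add_slash, SlashAction.neg_slash, ModularForm.smul_slash, σ_heckeDiagMatrix,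
    D2_slash_heckeDiag p γ g' hmul]
  simp only [ContinuousAlgEquiv.refl_apply]
  abel

omit [NeZero p] in
theorem mdiff_eisPAux : MDiff (eisPAux p) :=
  (E2_mdifferentiable.slash 2 _).sub E2_mdifferentiable

theorem isBoundedAtImInfty_E2_slash_mapGL (γ : SL(2, ℤ)) :
    IsBoundedAtImInfty (E2 ∣[(2 : ℤ)] (Matrix.SpecialLinearGroup.mapGL ℝ γ)) := by
  rw [E2_slash_mapGL]
  exact isBoundedAtImInfty_E2.sub ((isBoundedAtImInfty_D2 γ).const_smul_left _)

theorem isBoundedAtImInfty_eisPAux_slash (γ : SL(2, ℤ)) :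
    IsBoundedAtImInfty (eisPAux p ∣[(2 : ℤ)] (Matrix.SpecialLinearGroup.mapGL ℝ γ)) := by
  obtain ⟨δ, g, m, B, hg, hm, hgm, hdvd, hdec⟩ := Fermat.Agent.S23.exists_hnf_decomposition p γ
  unfold eisPAux
  rw [sub_eq_add_neg, SlashAction.add_slash, SlashAction.neg_slash, ← SlashAction.slash_mul, hdec,
    SlashAction.slash_mul, ← sub_eq_add_neg]
  have h1 : IsBoundedAtImInfty ((E2 ∣[(2 : ℤ)] (Matrix.SpecialLinearGroup.mapGL ℝ δ)) ∣[(2 : ℤ)]
      upperTriangularGL (g : ℝ) (B : ℝ) (m : ℝ)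
        (mul_pos (Int.cast_pos.mpr hg) (Int.cast_pos.mpr hm)).ne') :=
    (isBoundedAtImInfty_E2_slash_mapGL δ).slash 2 (by simp [upperTriangularGL])
  exact h1.sub (isBoundedAtImInfty_E2_slash_mapGL γ)

/-- `p E₂(pz) - E₂(z)` as a modular form of weight 2 on `Γ₀(p)`. -/
def eisPAuxForm : ModularForm (Gamma0 p : Subgroup (GL (Fin 2) ℝ)) 2 where
  toFun := eisPAux p
  slash_action_eq' := by
    rintro _ ⟨γ, hγ, rfl⟩
    exact eisPAux_slash p γ hγ
  holo' := mdiff_eisPAux p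
  bdd_at_cusps' {c} hc := by
    have hc' : IsCusp c 𝒮ℒ := hc.mono (Subgroup.map_le_range _ _)
    rw [OnePoint.isBoundedAt_iff_forall_SL2Z hc']
    intro γ _
    rw [ModularForm.SL_slash]
    exact isBoundedAtImInfty_eisPAux_slash p γ

/-- The Eisenstein series `(p E₂(pz) - E₂(z)) / 24` of weight 2 on `Γ₀(p)`. -/
def eisP : ModularForm (Gamma0 p : Subgroup (GL (Fin 2) ℝ)) 2 :=
  (1 / 24 : ℂ) • eisPAuxForm p

theorem coe_eisPAuxForm : (⇑(eisPAuxForm p) : ℍ → ℂ) = eisPAux p := rfl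

theorem eisP_apply (τ : ℍ) :
    eisP p τ = (1 / 24 : ℂ) * ((p : ℂ) * E2 (heckeDiagMatrix p • τ) - E2 τ) := by
  have hp : p ≠ 0 := NeZero.ne p
  change (1 / 24 : ℂ) • (eisPAux p τ) = _
  unfold eisPAux
  rw [Pi.sub_apply, slash_heckeDiagMatrix_apply 2 hp]
  norm_num

/-- The `q`-expansion coefficients of `E2`. -/
def e2Coeff (m : ℕ) : ℂ := if m = 0 then 1 else -24 * (ArithmeticFunction.sigma 1 m : ℂ)

theorem hasSum_E2_qParam (τ : ℍ) :
    HasSum (fun m : ℕ => e2Coeff m • Function.Periodic.qParam 1 (τ : ℂ) ^ m) (E2 τ) := by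
  have h := hasSum_qExpansion_E2 (z := τ)
  simpa only [Function.Periodic.qParam, Complex.ofReal_one, div_one, e2Coeff] using h

theorem hasSum_E2_diag (τ : ℍ) :
    HasSum (fun n : ℕ => (if p ∣ n then e2Coeff (n / p) else 0) •
      Function.Periodic.qParam 1 (τ : ℂ) ^ n) (E2 (heckeDiagMatrix p • τ)) := by
  have hp : p ≠ 0 := NeZero.ne p
  have hD := hasSum_E2_qParam (heckeDiagMatrix p • τ)
  rw [P2MW.S_UpperHalfPlane_qCoeff_heckeT.M4cP1W2.qParam_heckeDiagMatrix_smul hp τ] at hD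
  have hinj : Function.Injective (fun l : ℕ ↦ l * p) := mul_left_injective₀ hp
  refine (hinj.hasSum_iff (fun m hm => by
    simp [P2MW.S_UpperHalfPlane_qCoeff_heckeT.M4cP1W2.not_dvd_of_not_mem_range hm])).mp ?_
  convert hD using 1
  funext l
  simp only [Function.comp_apply, if_pos (dvd_mul_left p l),
    Nat.mul_div_cancel _ (Nat.pos_of_ne_zero hp), smul_eq_mul]
  rw [← pow_mul, mul_comm l p]

/-- The coefficients of the `q`-expansion of `eisP p`. -/
def eisPCoeff (n : ℕ) : ℂ :=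
  (1 / 24 : ℂ) * ((p : ℂ) * (if p ∣ n then e2Coeff (n / p) else 0) - e2Coeff n)

theorem hasSum_eisP (τ : ℍ) :
    HasSum (fun n : ℕ => eisPCoeff p n • Function.Periodic.qParam 1 (τ : ℂ) ^ n) (eisP p τ) := by
  rw [eisP_apply]
  have h1 := ((hasSum_E2_diag p τ).mul_left (p : ℂ)).sub (hasSum_E2_qParam τ)
  have h2 := h1.mul_left (1 / 24 : ℂ)
  have h3 : (fun n : ℕ => eisPCoeff p n • Function.Periodic.qParam 1 (τ : ℂ) ^ n) =
      fun i : ℕ => 1 / 24 *
        (↑p * (if p ∣ i then e2Coeff (i / p) else 0) • Function.Periodic.qParam 1 ↑τ ^ i -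
          e2Coeff i • Function.Periodic.qParam 1 ↑τ ^ i) := by
    funext n
    simp only [eisPCoeff, smul_eq_mul]
    ring
  rw [h3]
  exact h2

theorem qExpansion_eisP_coeff (n : ℕ) :
    (qExpansion 1 (eisP p)).coeff n = eisPCoeff p n :=
  (ModularFormClass.qExpansion_coeff_unique one_pos (Fermat.Agent.S23.gamma0_strictPeriods p)
    (hasSum_eisP p) n).symm

/-- `σ'(n)`: the sum of the divisors of `n` which are not divisible by `p`. -/
def sigmaPrime (p n : ℕ) : ℕ := ∑ d ∈ n.divisors.filter (fun d => ¬ p ∣ d), d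

omit [NeZero p] in
theorem sum_divisors_filter_dvd (hp : p ≠ 0) (n : ℕ) (hn : n ≠ 0) :
    ∑ d ∈ n.divisors.filter (fun d => p ∣ d), d =
      if p ∣ n then p * ArithmeticFunction.sigma 1 (n / p) else 0 := by
  split_ifs with h
  · rw [ArithmeticFunction.sigma_one_apply, Finset.mul_sum]
    obtain ⟨m, rfl⟩ := h
    have hm : m ≠ 0 := fun h0 => hn (by simp [h0])
    rw [Nat.mul_div_cancel_left _ (Nat.pos_of_ne_zero hp)]
    symm
    refine Finset.sum_nbij' (fun d => p * d) (fun d => d / p) ?_ ?_ ?_ ?_ ?_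
    · intro d hd
      rw [Nat.mem_divisors] at hd
      simp only [Finset.mem_filter, Nat.mem_divisors]
      exact ⟨⟨Nat.mul_dvd_mul_left p hd.1, hn⟩, dvd_mul_right p d⟩
    · intro d hd
      simp only [Finset.mem_filter, Nat.mem_divisors] at hd
      obtain ⟨⟨hd1, -⟩, e, rfl⟩ := hd
      rw [Nat.mul_div_cancel_left _ (Nat.pos_of_ne_zero hp), Nat.mem_divisors]
      exact ⟨(Nat.mul_dvd_mul_iff_left (Nat.pos_of_ne_zero hp)).mp hd1, hm⟩
    · intro d _
      exact Nat.mul_div_cancel_left _ (Nat.pos_of_ne_zero hp)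
    · intro d hd
      simp only [Finset.mem_filter, Nat.mem_divisors] at hd
      obtain ⟨-, e, rfl⟩ := hd
      rw [Nat.mul_div_cancel_left _ (Nat.pos_of_ne_zero hp)]
    · intro d _
      rfl
  · apply Finset.sum_eq_zero
    intro d hd
    simp only [Finset.mem_filter, Nat.mem_divisors] at hd
    exact absurd (hd.2.trans hd.1.1) h

omit [NeZero p] in
/-- `σ(n) = σ'(n) + p σ(n/p)` (the last term only if `p ∣ n`). -/
theorem sigma_eq_sigmaPrime_add (hp : p ≠ 0) (n : ℕ) (hn : n ≠ 0) :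
    ArithmeticFunction.sigma 1 n =
      sigmaPrime p n + if p ∣ n then p * ArithmeticFunction.sigma 1 (n / p) else 0 := by
  rw [← sum_divisors_filter_dvd p hp n hn, sigmaPrime, ArithmeticFunction.sigma_one_apply,
    add_comm]
  exact (Finset.sum_filter_add_sum_filter_not _ _ _).symm

theorem eisPCoeff_zero : eisPCoeff p 0 = ((p : ℂ) - 1) / 24 := by
  have hp : p ≠ 0 := NeZero.ne p
  simp [eisPCoeff, e2Coeff]
  ring

theorem eisPCoeff_pos (n : ℕ) (hn : n ≠ 0) : eisPCoeff p n = (sigmaPrime p n : ℂ) := by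
  have hp : p ≠ 0 := NeZero.ne p
  have h := sigma_eq_sigmaPrime_add p hp n hn
  have h' : ((ArithmeticFunction.sigma 1 n : ℕ) : ℂ) =
      (sigmaPrime p n : ℂ) +
        ((if p ∣ n then p * ArithmeticFunction.sigma 1 (n / p) else 0 : ℕ) : ℂ) := by
    exact_mod_cast congrArg (Nat.cast : ℕ → ℂ) h
  unfold eisPCoeff
  by_cases hpn : p ∣ n
  · have hnp : n / p ≠ 0 := by
      obtain ⟨m, rfl⟩ := hpn
      rw [Nat.mul_div_cancel_left _ (Nat.pos_of_ne_zero hp)]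
      exact fun h0 => hn (by simp [h0])
    rw [if_pos hpn] at h' ⊢
    simp only [e2Coeff, if_neg hn, if_neg hnp]
    rw [h']
    push_cast
    ring
  · rw [if_neg hpn] at h' ⊢
    simp only [e2Coeff, if_neg hn]
    rw [h']
    push_cast
    ring

/-- **84-P3.** The `q`-expansion of `eisP p` is `(p - 1)/24 + ∑_{n ≥ 1} σ'(n) qⁿ`. -/
theorem qCoeff_eisP (n : ℕ) :
    ModularFormClass.qCoeff (eisP p) n =
      if n = 0 then ((p : ℂ) - 1) / 24 else (sigmaPrime p n : ℂ) := by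
  unfold ModularFormClass.qCoeff
  rw [qExpansion_eisP_coeff]
  split_ifs with h
  · rw [h, eisPCoeff_zero]
  · exact eisPCoeff_pos p n h

end

end Fermat.Agent.S16
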