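import Fermat.Agent.S16.HeckeHomT
import Fermat.Prelude.Def_ModularCurve_PeriodHomPair
import Fermat.Prelude.Def_CuspForm_HeckeEvalForms

/-!
# S16, piece 84-P11 (Z): the module statement

If the period pairing `periodHomPair N` intertwines the Hecke operators on cusp forms with the
operators `tau` on `Hom(Γ₀(N), ℂ)` (piece Y) and its range is the space of parabolic
homomorphisms (S21), then every Hecke polynomial `P` which acts as zero on `S₂(Γ₀(N))` kills,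
through its Eisenstein value, every character `χ : Γ₀(N) → ℤ/n` which is an Eisenstein
eigenvector for the `tau` and lifts to a parabolic homomorphism with values in `ℤ`.

No evaluation of `P` at the (a priori non commuting) operators `tau` is used: the induction on
`P` carries an integral parabolic homomorphism along.
-/

set_option autoImplicit false
set_option linter.style.haveILetI false
set_option linter.unusedSectionVars false

open scoped MatrixGroups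
open CongruenceSubgroup ModularCurve ModularCurve.Period

namespace Fermat.Agent.S16

/-- The statement of piece Y: the period pairing intertwines the Hecke operators. -/
def PeriodHeckeStatement (N : ℕ) [NeZero N] : Prop :=
  (∀ (ℓ : ℕ) [Fact ℓ.Prime] (hℓ : ℓ.Prime) (hℓN : ¬ ℓ ∣ N)
      (w : CuspForm (Gamma0 N) 2 × CuspForm (Gamma0 N) 2),
      periodHomPair N (CuspForm.heckeTLin 2 hℓ hℓN w.1, CuspForm.heckeTLin 2 hℓ hℓN w.2) =
        heckeHomT N ℓ hℓN (periodHomPair N w)) ∧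
  (∀ (q : ℕ) [NeZero q] (_hq : q.Prime) (hqN : q ∣ N)
      (w : CuspForm (Gamma0 N) 2 × CuspForm (Gamma0 N) 2),
      periodHomPair N (CuspForm.heckeULin 2 hqN w.1, CuspForm.heckeULin 2 hqN w.2) =
        heckeHomU N q hqN (periodHomPair N w))

section

variable (N : ℕ) [NeZero N]

/-- The action of a Hecke polynomial on cusp forms. -/
noncomputable def evForms (P : HeckeAlg) : Module.End ℂ (CuspForm (Gamma0 N) 2) :=
  (CuspForm.heckeEvalForms N 2 P : CuspForm.heckeAlgebra N 2 ∅).1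

theorem evForms_C (a : ℤ) (f : CuspForm (Gamma0 N) 2) :
    evForms N (MvPolynomial.C a) f = (a : ℂ) • f := by
  unfold evForms
  rw [CuspForm.heckeEvalForms_C]
  simp only [Subalgebra.coe_algebraMap, Module.algebraMap_end_apply]
  exact (Int.cast_smul_eq_zsmul ℂ a f).symm

theorem evForms_add (P Q : HeckeAlg) (f : CuspForm (Gamma0 N) 2) :
    evForms N (P + Q) f = evForms N P f + evForms N Q f := by
  unfold evForms
  rw [map_add]
  rfl

theorem evForms_mul (P Q : HeckeAlg) (f : CuspForm (Gamma0 N) 2) :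
    evForms N (P * Q) f = evForms N P (evForms N Q f) := by
  unfold evForms
  rw [map_mul]
  rfl

theorem evForms_X_of_not_dvd (ℓ : Nat.Primes) (h : ¬ (ℓ : ℕ) ∣ N) :
    evForms N (MvPolynomial.X ℓ) = CuspForm.heckeTLin 2 ℓ.2 h := by
  unfold evForms
  have := CuspForm.heckeEvalForms_heckeGen_of_not_dvd (N := N) (k := 2) h
  rw [ModularCurve.heckeGen] at this
  rw [this]
  rfl

theorem evForms_X_of_dvd (ℓ : Nat.Primes) (h : (ℓ : ℕ) ∣ N) :
    evForms N (MvPolynomial.X ℓ) = CuspForm.heckeULin 2 h := by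
  unfold evForms
  have := CuspForm.heckeEvalForms_heckeGen_of_dvd (N := N) (k := 2) h
  rw [ModularCurve.heckeGen] at this
  rw [this]
  rfl

theorem evForms_eq_zero {P : HeckeAlg} (hP : CuspForm.heckeEvalForms N 2 P = 0) :
    evForms N P = 0 := by
  unfold evForms
  rw [hP]
  rfl

end

section tau

variable (N : ℕ) [NeZero N] {A : Type*} [AddCommGroup A]

/-- The operator `tau_ℓ` on `Hom(Γ₀(N), A)` for every prime `ℓ` (`U`-type if `ℓ ∣ N`). -/
noncomputable def tauP (ℓ : Nat.Primes) :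
    (Additive (Gamma0 N) →+ A) →+ (Additive (Gamma0 N) →+ A) :=
  haveI : Fact (ℓ : ℕ).Prime := ⟨ℓ.2⟩
  haveI : NeZero (ℓ : ℕ) := ⟨ℓ.2.ne_zero⟩
  if h : (ℓ : ℕ) ∣ N then heckeHomU N ℓ h else heckeHomT N ℓ h

theorem tauP_of_dvd (ℓ : Nat.Primes) (h : (ℓ : ℕ) ∣ N) :
    (tauP N ℓ : (Additive (Gamma0 N) →+ A) →+ (Additive (Gamma0 N) →+ A)) =
      haveI : NeZero (ℓ : ℕ) := ⟨ℓ.2.ne_zero⟩
      heckeHomU N ℓ h := by
  unfold tauP
  rw [dif_pos h]

theorem tauP_of_not_dvd (ℓ : Nat.Primes) (h : ¬ (ℓ : ℕ) ∣ N) :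
    (tauP N ℓ : (Additive (Gamma0 N) →+ A) →+ (Additive (Gamma0 N) →+ A)) =
      haveI : Fact (ℓ : ℕ).Prime := ⟨ℓ.2⟩
      heckeHomT N ℓ h := by
  unfold tauP
  rw [dif_neg h]

theorem tauP_comp {B : Type*} [AddCommGroup B] (ℓ : Nat.Primes) (φ : A →+ B)
    (ψ : Additive (Gamma0 N) →+ A) : tauP N ℓ (φ.comp ψ) = φ.comp (tauP N ℓ ψ) := by
  haveI : Fact (ℓ : ℕ).Prime := ⟨ℓ.2⟩
  haveI : NeZero (ℓ : ℕ) := ⟨ℓ.2.ne_zero⟩
  by_cases h : (ℓ : ℕ) ∣ N
  · rw [tauP_of_dvd N ℓ h, tauP_of_dvd N ℓ h]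
    exact heckeHomU_comp _ h φ ψ
  · rw [tauP_of_not_dvd N ℓ h, tauP_of_not_dvd N ℓ h]
    exact heckeHomT_comp _ h φ ψ

theorem tauP_isParabolicHom [IsAddTorsionFree A] (ℓ : Nat.Primes)
    (ψ : Additive (Gamma0 N) →+ A) (hψ : IsParabolicHom (Gamma0 N) ψ) :
    IsParabolicHom (Gamma0 N) (tauP N ℓ ψ) := by
  haveI : Fact (ℓ : ℕ).Prime := ⟨ℓ.2⟩
  haveI : NeZero (ℓ : ℕ) := ⟨ℓ.2.ne_zero⟩
  by_cases h : (ℓ : ℕ) ∣ N
  · rw [tauP_of_dvd N ℓ h]
    exact heckeHomU_isParabolicHom _ h ψ hψ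
  · rw [tauP_of_not_dvd N ℓ h]
    exact heckeHomT_isParabolicHom _ h ψ hψ

theorem periodHomPair_evForms_X (hY : PeriodHeckeStatement N) (ℓ : Nat.Primes)
    (w : CuspForm (Gamma0 N) 2 × CuspForm (Gamma0 N) 2) :
    periodHomPair N (evForms N (MvPolynomial.X ℓ) w.1, evForms N (MvPolynomial.X ℓ) w.2) =
      tauP N ℓ (periodHomPair N w) := by
  haveI : Fact (ℓ : ℕ).Prime := ⟨ℓ.2⟩
  haveI : NeZero (ℓ : ℕ) := ⟨ℓ.2.ne_zero⟩
  by_cases h : (ℓ : ℕ) ∣ N
  · rw [tauP_of_dvd N ℓ h, evForms_X_of_dvd N ℓ h]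
    exact hY.2 ℓ ℓ.2 h w
  · rw [tauP_of_not_dvd N ℓ h, evForms_X_of_not_dvd N ℓ h]
    exact hY.1 ℓ ℓ.2 h w

theorem tauP_eis {n : ℕ} (χ : Additive (Gamma0 N) →+ ZMod n)
    (hT : ∀ (ℓ : ℕ) [Fact ℓ.Prime] (hℓN : ¬ ℓ ∣ N), heckeHomT N ℓ hℓN χ = (ℓ + 1) • χ)
    (hU : ∀ (q : ℕ) [Fact q.Prime] (hqN : q ∣ N),
      haveI : NeZero q := ⟨(Fact.out : q.Prime).ne_zero⟩
      heckeHomU N q hqN χ = χ) (ℓ : Nat.Primes) :
    tauP N ℓ χ = (eisensteinSystem N ℓ) • χ := by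
  haveI : Fact (ℓ : ℕ).Prime := ⟨ℓ.2⟩
  haveI : NeZero (ℓ : ℕ) := ⟨ℓ.2.ne_zero⟩
  by_cases h : (ℓ : ℕ) ∣ N
  · rw [tauP_of_dvd N ℓ h, eisensteinSystem_of_dvd h, one_smul]
    exact hU ℓ h
  · rw [tauP_of_not_dvd N ℓ h, eisensteinSystem_of_not_dvd h, hT ℓ h]
    rw [← natCast_zsmul]
    congr 1
    push_cast
    ring

end tau

section induction

variable (N : ℕ) [NeZero N] (n : ℕ)

/-- complexification of an integral homomorphism -/
noncomputable def cplxHom (ψ : Additive (Gamma0 N) →+ ℤ) : Additive (Gamma0 N) →+ ℂ :=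
  (Int.castAddHom ℂ).comp ψ

/-- reduction modulo `n` of an integral homomorphism -/
noncomputable def redHom (ψ : Additive (Gamma0 N) →+ ℤ) : Additive (Gamma0 N) →+ ZMod n :=
  (Int.castAddHom (ZMod n)).comp ψ

theorem cplxHom_injective : Function.Injective (cplxHom N) := by
  intro ψ ψ' h
  refine AddMonoidHom.ext fun γ => ?_
  have := DFunLike.congr_fun h γ
  simpa [cplxHom] using this

/-- The induction predicate. -/
def GoodPoly (χ : Additive (Gamma0 N) →+ ZMod n) (P : HeckeAlg) : Prop :=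
  ∀ ψ : Additive (Gamma0 N) →+ ℤ, IsParabolicHom (Gamma0 N) ψ →
    ∃ ψ' : Additive (Gamma0 N) →+ ℤ, IsParabolicHom (Gamma0 N) ψ' ∧
      (∀ w : CuspForm (Gamma0 N) 2 × CuspForm (Gamma0 N) 2,
        periodHomPair N w = cplxHom N ψ →
          periodHomPair N (evForms N P w.1, evForms N P w.2) = cplxHom N ψ') ∧
      (∀ k : ℤ, redHom N n ψ = k • χ →
        redHom N n ψ' = (MvPolynomial.aeval (eisensteinSystem N) P * k) • χ)

theorem goodPoly_C (χ : Additive (Gamma0 N) →+ ZMod n) (a : ℤ) :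
    GoodPoly N n χ (MvPolynomial.C a) := by
  intro ψ hψ
  refine ⟨a • ψ, ?_, ?_, ?_⟩
  · intro γ hγ
    show a • ψ (Additive.ofMul γ) = 0
    rw [hψ γ hγ, smul_zero]
  · intro w hw
    have h1 : ((evForms N (MvPolynomial.C a) w.1, evForms N (MvPolynomial.C a) w.2) :
        CuspForm (Gamma0 N) 2 × CuspForm (Gamma0 N) 2) = (a : ℂ) • w := by
      rw [evForms_C, evForms_C]
      rfl
    rw [h1, map_smul, hw]
    refine AddMonoidHom.ext fun γ => ?_
    simp [cplxHom]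
  · intro k hk
    have : redHom N n (a • ψ) = a • redHom N n ψ := by
      refine AddMonoidHom.ext fun γ => ?_
      simp [redHom]
    rw [this, hk, MvPolynomial.aeval_C, smul_smul]
    rfl

theorem goodPoly_add (χ : Additive (Gamma0 N) →+ ZMod n) {P Q : HeckeAlg}
    (hP : GoodPoly N n χ P) (hQ : GoodPoly N n χ Q) : GoodPoly N n χ (P + Q) := by
  intro ψ hψ
  obtain ⟨ψ₁, hpar₁, ha₁, hb₁⟩ := hP ψ hψ
  obtain ⟨ψ₂, hpar₂, ha₂, hb₂⟩ := hQ ψ hψ
  refine ⟨ψ₁ + ψ₂, ?_, ?_, ?_⟩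
  · intro γ hγ
    show ψ₁ (Additive.ofMul γ) + ψ₂ (Additive.ofMul γ) = 0
    rw [hpar₁ γ hγ, hpar₂ γ hγ, add_zero]
  · intro w hw
    have h1 : ((evForms N (P + Q) w.1, evForms N (P + Q) w.2) :
        CuspForm (Gamma0 N) 2 × CuspForm (Gamma0 N) 2) =
        (evForms N P w.1, evForms N P w.2) + (evForms N Q w.1, evForms N Q w.2) := by
      rw [evForms_add, evForms_add]
      rfl
    rw [h1, map_add, ha₁ w hw, ha₂ w hw]
    refine AddMonoidHom.ext fun γ => ?_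
    simp [cplxHom]
  · intro k hk
    have : redHom N n (ψ₁ + ψ₂) = redHom N n ψ₁ + redHom N n ψ₂ := by
      refine AddMonoidHom.ext fun γ => ?_
      simp [redHom]
    rw [this, hb₁ k hk, hb₂ k hk, map_add, add_mul, add_smul]

theorem goodPoly_mul_X (hY : PeriodHeckeStatement N) (χ : Additive (Gamma0 N) →+ ZMod n)
    (hT : ∀ (ℓ : ℕ) [Fact ℓ.Prime] (hℓN : ¬ ℓ ∣ N), heckeHomT N ℓ hℓN χ = (ℓ + 1) • χ)
    (hU : ∀ (q : ℕ) [Fact q.Prime] (hqN : q ∣ N),
      haveI : NeZero q := ⟨(Fact.out : q.Prime).ne_zero⟩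
      heckeHomU N q hqN χ = χ)
    {P : HeckeAlg} (ℓ : Nat.Primes) (hP : GoodPoly N n χ P) :
    GoodPoly N n χ (P * MvPolynomial.X ℓ) := by
  intro ψ hψ
  obtain ⟨ψ', hpar', ha', hb'⟩ := hP (tauP N ℓ ψ) (tauP_isParabolicHom N ℓ ψ hψ)
  refine ⟨ψ', hpar', ?_, ?_⟩
  · intro w hw
    have h1 : periodHomPair N
        (evForms N (MvPolynomial.X ℓ) w.1, evForms N (MvPolynomial.X ℓ) w.2) =
        cplxHom N (tauP N ℓ ψ) := by
      rw [periodHomPair_evForms_X N hY ℓ w, hw]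
      exact tauP_comp N ℓ (Int.castAddHom ℂ) ψ
    have h2 := ha' _ h1
    rw [evForms_mul, evForms_mul]
    exact h2
  · intro k hk
    have h1 : redHom N n (tauP N ℓ ψ) = (eisensteinSystem N ℓ * k) • χ := by
      have e1 : redHom N n (tauP N ℓ ψ) = tauP N ℓ (redHom N n ψ) :=
        (tauP_comp N ℓ (Int.castAddHom (ZMod n)) ψ).symm
      rw [e1, hk, map_zsmul, tauP_eis N χ hT hU ℓ, smul_smul, mul_comm]
    rw [hb' _ h1, map_mul, MvPolynomial.aeval_X, mul_assoc]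

theorem goodPoly_all (hY : PeriodHeckeStatement N) (χ : Additive (Gamma0 N) →+ ZMod n)
    (hT : ∀ (ℓ : ℕ) [Fact ℓ.Prime] (hℓN : ¬ ℓ ∣ N), heckeHomT N ℓ hℓN χ = (ℓ + 1) • χ)
    (hU : ∀ (q : ℕ) [Fact q.Prime] (hqN : q ∣ N),
      haveI : NeZero q := ⟨(Fact.out : q.Prime).ne_zero⟩
      heckeHomU N q hqN χ = χ)
    (P : HeckeAlg) : GoodPoly N n χ P := by
  induction P using MvPolynomial.induction_on with
  | C a => exact goodPoly_C N n χ a
  | add P Q hP hQ => exact goodPoly_add N n χ hP hQ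
  | mul_X P ℓ hP => exact goodPoly_mul_X N n hY χ hT hU ℓ hP

/-- **Piece Z (module statement).**  From the intertwining (Y) and the range of the period
pairing (S21). -/
theorem aeval_eis_mul_eq_zero_of (hY : PeriodHeckeStatement N)
    (hrange : LinearMap.range (periodHomPair N) = parabolicHoms ℂ (Gamma0 N) ℂ)
    (χ : Additive (Gamma0 N) →+ ZMod n) (ψ : Additive (Gamma0 N) →+ ℤ)
    (hpar : IsParabolicHom (Gamma0 N) ψ)
    (hlift : ∀ γ : Gamma0 N, ((ψ (Additive.ofMul γ) : ℤ) : ZMod n) = χ (Additive.ofMul γ))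
    (hT : ∀ (ℓ : ℕ) [Fact ℓ.Prime] (hℓN : ¬ ℓ ∣ N), heckeHomT N ℓ hℓN χ = (ℓ + 1) • χ)
    (hU : ∀ (q : ℕ) [Fact q.Prime] (hqN : q ∣ N),
      haveI : NeZero q := ⟨(Fact.out : q.Prime).ne_zero⟩
      heckeHomU N q hqN χ = χ)
    (P : MvPolynomial Nat.Primes ℤ) (hP : CuspForm.heckeEvalForms N 2 P = 0)
    (γ : Gamma0 N) :
    ((MvPolynomial.aeval (ModularCurve.eisensteinSystem N) P : ℤ) : ZMod n) *
      χ (Additive.ofMul γ) = 0 := by
  obtain ⟨ψ', -, ha, hb⟩ := goodPoly_all N n hY χ hT hU P ψ hpar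
  -- a preimage of the complexification of `ψ`
  have hmem : cplxHom N ψ ∈ LinearMap.range (periodHomPair N) := by
    rw [hrange, mem_parabolicHoms_iff]
    intro δ hδ
    show ((ψ (Additive.ofMul δ) : ℤ) : ℂ) = 0
    rw [hpar δ hδ, Int.cast_zero]
  obtain ⟨w, hw⟩ := hmem
  have h1 := ha w hw
  rw [evForms_eq_zero N hP] at h1
  have h2 : cplxHom N ψ' = 0 := by
    rw [← h1]
    exact map_zero _
  have h3 : ψ' = 0 := by
    apply cplxHom_injective N
    rw [h2]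
    refine AddMonoidHom.ext fun δ => ?_
    simp [cplxHom]
  have hred : redHom N n ψ = (1 : ℤ) • χ := by
    rw [one_smul]
    refine AddMonoidHom.ext fun δ' => ?_
    obtain ⟨δ, rfl⟩ : ∃ δ : Gamma0 N, Additive.ofMul δ = δ' := ⟨Additive.toMul δ', rfl⟩
    exact hlift δ
  have h4 := hb 1 hred
  rw [h3, mul_one] at h4
  have h5 := DFunLike.congr_fun h4 (Additive.ofMul γ)
  have h6 : (redHom N n (0 : Additive (Gamma0 N) →+ ℤ)) (Additive.ofMul γ) = 0 := by
    simp [redHom]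
  rw [h6] at h5
  have h7 : ((MvPolynomial.aeval (eisensteinSystem N) P : ℤ) • χ) (Additive.ofMul γ) =
      ((MvPolynomial.aeval (eisensteinSystem N) P : ℤ) : ZMod n) * χ (Additive.ofMul γ) := by
    rw [AddMonoidHom.smul_apply, zsmul_eq_mul]
  rw [← h7]
  exact h5.symm

end induction

end Fermat.Agent.S16
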