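import Mathlib
import Fermat.Prelude.Def_ModularCurve_PeriodMap
import Fermat.Prelude.Def_ModularCurve_ModularUnit

/-!
# S16, piece 84-P11c: the Shimura character of `Γ₀(p)`

`shimuraChar p : Additive (Gamma0 p) →+ ZMod (eisensteinNumerator p)` is the composite
`Γ₀(p) → (ℤ/p)ˣ ≃ ℤ/(p-1) → ℤ/n`, `γ ↦ log (lower right entry of γ mod p)`.
It is onto and kills every `γ` whose lower right entry `d` satisfies `d ^ 12 = 1` in `ZMod p`,
in particular the parabolic elements (`trace ^ 2 = 4`), the elliptic elements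
(`trace ^ 2 ∈ {0, 1}`), `-1`, and every element of finite order.
-/

set_option autoImplicit false

open scoped MatrixGroups
open CongruenceSubgroup ModularCurve

namespace Fermat.Agent.S16

/-! ### Arithmetic in `ZMod` -/

/-- If `k * y = 0` in `ZMod N` then `N / gcd N k` divides `y.val`. -/
theorem zmod_dvd_val_of_mul_eq_zero {N : ℕ} [NeZero N] (k : ℕ) (y : ZMod N)
    (h : (k : ZMod N) * y = 0) : N / Nat.gcd N k ∣ y.val := by
  have hN : 0 < N := Nat.pos_of_ne_zero (NeZero.ne N)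
  set g := Nat.gcd N k with hg
  have hgpos : 0 < g := Nat.gcd_pos_of_pos_left _ hN
  obtain ⟨n, hn⟩ : g ∣ N := Nat.gcd_dvd_left N k
  obtain ⟨t, ht⟩ : g ∣ k := Nat.gcd_dvd_right N k
  have hcop : Nat.Coprime n t := by
    have := Nat.coprime_div_gcd_div_gcd (m := N) (n := k) hgpos
    rw [← hg] at this
    rwa [hn, ht, Nat.mul_div_cancel_left _ hgpos, Nat.mul_div_cancel_left _ hgpos] at this
  have hNn : N / g = n := by rw [hn, Nat.mul_div_cancel_left _ hgpos]
  have h1 : ((k * y.val : ℕ) : ZMod N) = 0 := by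
    rw [Nat.cast_mul, ZMod.natCast_zmod_val]; exact h
  rw [ZMod.natCast_eq_zero_iff] at h1
  have h2 : n ∣ t * y.val := by
    have : g * n ∣ g * (t * y.val) := by
      rw [← hn, ← mul_assoc, ← ht]; exact h1
    exact (Nat.mul_dvd_mul_iff_left hgpos).mp this
  rw [hNn]
  exact hcop.dvd_of_dvd_mul_left h2

/-- If `k * y = 0` in `ZMod N` and `n ∣ N / gcd N k`, then the image of `y` in `ZMod n` is zero. -/
theorem zmod_cast_eq_zero_of_mul_eq_zero {N : ℕ} [NeZero N] (k : ℕ) (y : ZMod N)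
    (h : (k : ZMod N) * y = 0) {n : ℕ} (hn : n ∣ N) (hnk : n ∣ N / Nat.gcd N k) :
    ZMod.castHom hn (ZMod n) y = 0 := by
  have h3 : n ∣ y.val := hnk.trans (zmod_dvd_val_of_mul_eq_zero k y h)
  rw [ZMod.castHom_apply]
  have h4 : (ZMod.cast y : ZMod n) = ((y.val : ℕ) : ZMod n) := by
    rw [ZMod.natCast_val]
  rw [h4, ZMod.natCast_eq_zero_iff]
  exact h3

/-! ### The logarithm on a finite cyclic group -/

section Cyclic

variable {G : Type*} [Group G]

/-- A surjective homomorphism from a finite cyclic group `G` onto `ZMod n`, for `n ∣ |G|`. -/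
noncomputable def cyclicLog (hG : IsCyclic G) {n : ℕ} (hn : n ∣ Nat.card G) :
    Additive G →+ ZMod n :=
  (ZMod.castHom hn (ZMod n)).toAddMonoidHom.comp
    (MonoidHom.toAdditiveLeft (zmodCyclicMulEquiv hG).symm.toMonoidHom)

theorem cyclicLog_surjective (hG : IsCyclic G) {n : ℕ} (hn : n ∣ Nat.card G) :
    Function.Surjective (cyclicLog hG hn) := by
  intro x
  obtain ⟨y, hy⟩ := ZMod.castHom_surjective hn x
  refine ⟨Additive.ofMul ((zmodCyclicMulEquiv hG) (Multiplicative.ofAdd y)), ?_⟩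
  simp only [cyclicLog, AddMonoidHom.coe_comp, Function.comp_apply]
  change (ZMod.castHom hn (ZMod n)) (Multiplicative.toAdd
    ((zmodCyclicMulEquiv hG).symm ((zmodCyclicMulEquiv hG) (Multiplicative.ofAdd y)))) = x
  rw [MulEquiv.symm_apply_apply]
  exact hy

/-- `cyclicLog` onto `ZMod n` kills every `u` with `u ^ k = 1`, if `n ∣ |G| / gcd |G| k`. -/
theorem cyclicLog_eq_zero_of_pow_eq_one [Finite G] (hG : IsCyclic G) {n : ℕ} (hn : n ∣ Nat.card G)
    (k : ℕ) (hnk : n ∣ Nat.card G / Nat.gcd (Nat.card G) k) (u : G) (hu : u ^ k = 1) :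
    cyclicLog hG hn (Additive.ofMul u) = 0 := by
  have : NeZero (Nat.card G) := ⟨Nat.card_pos.ne'⟩
  set y : ZMod (Nat.card G) := Multiplicative.toAdd ((zmodCyclicMulEquiv hG).symm u) with hy
  have h1 : (k : ZMod (Nat.card G)) * y = 0 := by
    have h2 : ((zmodCyclicMulEquiv hG).symm u) ^ k = 1 := by
      rw [← map_pow, hu, map_one]
    have h3 : Multiplicative.toAdd (((zmodCyclicMulEquiv hG).symm u) ^ k) = 0 := by
      rw [h2]; rfl
    rw [toAdd_pow] at h3
    rw [← nsmul_eq_mul]; exact h3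
  have h5 := zmod_cast_eq_zero_of_mul_eq_zero k y h1 hn hnk
  simpa [cyclicLog, hy] using h5

end Cyclic

/-! ### The character -/

variable (p : ℕ) [Fact p.Prime]

/-- The lower right entry mod `p`, as a homomorphism `Γ₀(p) → (ℤ/p)ˣ`. -/
noncomputable def gamma0Units : Gamma0 p →* (ZMod p)ˣ := (Gamma0Map p).toHomUnits

@[simp] theorem coe_gamma0Units (γ : Gamma0 p) :
    ((gamma0Units p γ : (ZMod p)ˣ) : ZMod p) = (((γ : SL(2, ℤ)) 1 1 : ℤ) : ZMod p) := rfl

theorem card_units_zmod : Nat.card (ZMod p)ˣ = p - 1 := by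
  rw [Nat.card_eq_fintype_card, ZMod.card_units]

theorem eisensteinNumerator_dvd_card :
    eisensteinNumerator p ∣ Nat.card (ZMod p)ˣ := by
  rw [card_units_zmod]; exact eisensteinNumerator_dvd p

/-- The Shimura character `Γ₀(p) → ℤ/n`, `n = (p-1)/gcd(p-1,12)`. -/
noncomputable def shimuraChar : Additive (Gamma0 p) →+ ZMod (eisensteinNumerator p) :=
  (cyclicLog (G := (ZMod p)ˣ) inferInstance (eisensteinNumerator_dvd_card p)).comp
    (MonoidHom.toAdditive (gamma0Units p))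

theorem shimuraChar_apply (γ : Gamma0 p) :
    shimuraChar p (Additive.ofMul γ) =
      cyclicLog (G := (ZMod p)ˣ) inferInstance (eisensteinNumerator_dvd_card p)
        (Additive.ofMul (gamma0Units p γ)) := rfl

/-- `Γ₀(p) → (ℤ/p)ˣ` is onto. -/
theorem gamma0Units_surjective : Function.Surjective (gamma0Units p) := by
  intro u
  have hp : p.Prime := Fact.out
  -- a representative `d` of `u`, coprime to `p`
  set d : ℕ := (u : ZMod p).val with hd
  have hdu : ((d : ℕ) : ZMod p) = (u : ZMod p) := ZMod.natCast_zmod_val _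
  have hcop : IsCoprime (d : ℤ) (p : ℤ) := by
    rw [Int.isCoprime_iff_gcd_eq_one, Int.gcd_natCast_natCast]
    have hnd : ¬ p ∣ d := by
      rw [← ZMod.natCast_eq_zero_iff, hdu]
      exact u.ne_zero
    exact (Nat.Coprime.symm ((Nat.Prime.coprime_iff_not_dvd hp).mpr hnd))
  obtain ⟨a, b, hab⟩ := hcop
  -- `a * d + b * p = 1`; matrix `[[a, -b], [p, d]]`
  let M : SL(2, ℤ) := ⟨!![a, -b; (p : ℤ), (d : ℤ)], by
    rw [Matrix.det_fin_two_of]; linarith⟩
  have hM : M ∈ Gamma0 p := by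
    rw [Gamma0_mem]
    simp [M]
  refine ⟨⟨M, hM⟩, ?_⟩
  apply Units.ext
  rw [coe_gamma0Units]
  simp [M, hdu]

theorem shimuraChar_surjective : Function.Surjective (shimuraChar p) := by
  intro x
  obtain ⟨u, hu⟩ := cyclicLog_surjective (G := (ZMod p)ˣ) inferInstance
    (eisensteinNumerator_dvd_card p) x
  obtain ⟨γ, hγ⟩ := gamma0Units_surjective p (Additive.toMul u)
  refine ⟨Additive.ofMul γ, ?_⟩
  rw [shimuraChar_apply, hγ]
  exact hu

/-- The Shimura character kills every `γ` whose lower right entry `d` satisfies `d ^ 12 = 1`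
in `ZMod p`. -/
theorem shimuraChar_eq_zero_of_pow_twelve (γ : Gamma0 p)
    (h : ((((γ : SL(2, ℤ)) 1 1 : ℤ) : ZMod p)) ^ 12 = 1) :
    shimuraChar p (Additive.ofMul γ) = 0 := by
  rw [shimuraChar_apply]
  apply cyclicLog_eq_zero_of_pow_eq_one _ _ 12
  · rw [card_units_zmod]
    exact dvd_of_eq rfl
  · apply Units.ext
    rw [Units.val_pow_eq_pow_val, coe_gamma0Units]
    exact h

/-- In `ZMod p`, for `γ ∈ Γ₀(p)`: `a * d = 1`. -/
theorem gamma0_entries_mul (γ : Gamma0 p) :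
    ((((γ : SL(2, ℤ)) 0 0 : ℤ) : ZMod p)) * ((((γ : SL(2, ℤ)) 1 1 : ℤ) : ZMod p)) = 1 := by
  have hdet := Matrix.SpecialLinearGroup.det_coe (γ : SL(2, ℤ))
  rw [Matrix.det_fin_two] at hdet
  have hc : ((((γ : SL(2, ℤ)) 1 0 : ℤ) : ZMod p)) = 0 := Gamma0_mem.mp γ.2
  have := congrArg (fun x : ℤ => (x : ZMod p)) hdet
  simp only [Int.cast_sub, Int.cast_mul, Int.cast_one] at this
  rw [hc, mul_zero, sub_zero] at this
  exact this

/-- The lower right entry `d` of `γ ∈ Γ₀(p)` satisfies `d ^ 2 - t d + 1 = 0` mod `p`, `t` the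
trace. -/
theorem gamma0_entry_quadratic (γ : Gamma0 p) :
    ((((γ : SL(2, ℤ)) 1 1 : ℤ) : ZMod p)) ^ 2 -
      ((((γ : SL(2, ℤ)) : Matrix (Fin 2) (Fin 2) ℤ).trace : ℤ) : ZMod p) *
        ((((γ : SL(2, ℤ)) 1 1 : ℤ) : ZMod p)) + 1 = 0 := by
  have h := gamma0_entries_mul p γ
  rw [Matrix.trace_fin_two]
  push_cast
  linear_combination (-1 : ZMod p) * h

/-- The Shimura character kills the elements of trace `t` with `t ^ 2 ∈ {0, 1, 4}`, i.e. the
parabolic elements, `± 1`, and the elliptic elements. -/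
theorem shimuraChar_eq_zero_of_trace (γ : Gamma0 p)
    (h : (((γ : SL(2, ℤ)) : Matrix (Fin 2) (Fin 2) ℤ).trace ^ 2 = 4) ∨
      (((γ : SL(2, ℤ)) : Matrix (Fin 2) (Fin 2) ℤ).trace ^ 2 = 1) ∨
      (((γ : SL(2, ℤ)) : Matrix (Fin 2) (Fin 2) ℤ).trace = 0)) :
    shimuraChar p (Additive.ofMul γ) = 0 := by
  apply shimuraChar_eq_zero_of_pow_twelve
  have hq := gamma0_entry_quadratic p γ
  set d : ZMod p := ((((γ : SL(2, ℤ)) 1 1 : ℤ) : ZMod p)) with hd
  set t : ZMod p := ((((γ : SL(2, ℤ)) : Matrix (Fin 2) (Fin 2) ℤ).trace : ℤ) : ZMod p) with ht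
  have hp : p.Prime := Fact.out
  rcases h with h | h | h
  · -- `t ^ 2 = 4`: `(2 d - t) ^ 2 = 0`
    have ht2 : t ^ 2 = 4 := by
      rw [ht, ← Int.cast_pow, h]; norm_num
    have h1 : (2 * d - t) ^ 2 = 0 := by linear_combination 4 * hq + ht2
    have h2 : 2 * d = t := by
      have := pow_eq_zero_iff (two_ne_zero) |>.mp h1
      linear_combination this
    -- `d ^ 2 = t d - 1 = 2 d ^ 2 - 1`, so `d ^ 2 = 1`
    have h3 : d ^ 2 = 1 := by linear_combination (-1 : ZMod p) * hq + d * h2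
    calc d ^ 12 = (d ^ 2) ^ 6 := by ring
      _ = 1 := by rw [h3, one_pow]
  · have ht2 : t ^ 2 = 1 := by
      rw [ht, ← Int.cast_pow, h]; norm_num
    -- `d ^ 3 = - t`, `d ^ 6 = t ^ 2 = 1`
    have h3 : d ^ 3 = - t := by linear_combination (d + t) * hq + d * ht2
    calc d ^ 12 = (d ^ 3) ^ 4 := by ring
      _ = (t ^ 2) ^ 2 := by rw [h3]; ring
      _ = 1 := by rw [ht2, one_pow]
  · have ht0 : t = 0 := by rw [ht, h]; norm_num
    have h2 : d ^ 2 = -1 := by linear_combination hq + d * ht0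
    calc d ^ 12 = (d ^ 2) ^ 6 := by ring
      _ = 1 := by rw [h2]; norm_num

/-- The Shimura character is a parabolic homomorphism. -/
theorem shimuraChar_isParabolicHom :
    ModularCurve.Period.IsParabolicHom (Gamma0 p) (shimuraChar p) := by
  intro γ hγ
  exact shimuraChar_eq_zero_of_trace p γ (Or.inl hγ)

/-- The Shimura character kills the elements of finite order (their order divides `12`). -/
theorem shimuraChar_eq_zero_of_pow_eq_one (γ : Gamma0 p) (h : γ ^ 12 = 1) :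
    shimuraChar p (Additive.ofMul γ) = 0 := by
  apply shimuraChar_eq_zero_of_pow_twelve
  have h1 : (gamma0Units p γ) ^ 12 = 1 := by rw [← map_pow, h, map_one]
  have h2 := congrArg (fun u : (ZMod p)ˣ => (u : ZMod p)) h1
  simpa using h2

/-- The hypothesis of the lift `exists_parabolic_lift` (84-P11 (d)): the Shimura character kills
every element of trace `t` with `t ^ 2 ≤ 4`. -/
theorem shimuraChar_eq_zero_of_trace_sq_le (γ : Gamma0 p)
    (h : (((γ : SL(2, ℤ)) : Matrix (Fin 2) (Fin 2) ℤ).trace ^ 2 ≤ 4)) :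
    shimuraChar p (Additive.ofMul γ) = 0 := by
  apply shimuraChar_eq_zero_of_trace
  generalize ((γ : SL(2, ℤ)) : Matrix (Fin 2) (Fin 2) ℤ).trace = t at h ⊢
  have h1 : -2 ≤ t := by nlinarith
  have h2 : t ≤ 2 := by nlinarith
  interval_cases t <;> simp

/-- There is `γ ∈ Γ₀(p)` with `chi(γ) = 1`. -/
theorem exists_shimuraChar_eq_one : ∃ γ : Gamma0 p, shimuraChar p (Additive.ofMul γ) = 1 := by
  obtain ⟨γ, hγ⟩ := shimuraChar_surjective p 1
  exact ⟨Additive.toMul γ, hγ⟩

end Fermat.Agent.S16
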