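import Fermat.Agent.S16.StepA
import Fermat.Agent.S23

/-!
# S16, Step A, adapter for the lower bound

`Cong p m` holds iff `m` divides the Eisenstein value of every Hecke polynomial which is zero in
the Hecke algebra of `S_2(Γ₀(p))`.
-/

set_option autoImplicit false

open ModularCurve CuspForm CongruenceSubgroup

namespace Fermat.Agent.S16

variable (p : ℕ) [Fact p.Prime]

theorem phi_eq_zero_iff_eval (P : HeckeAlg) : phi p P = 0 ↔ heckeEvalForms p 2 P = 0 := by
  have hbij := latticeRestrictHom_bijective p (∅ : Set ℕ) (Fermat.Agent.S23.result p)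
  constructor
  · intro h
    apply hbij.1
    rw [map_zero]
    exact h
  · intro h
    show (latticeRestrictHom p ∅) (heckeEvalForms p 2 P) = 0
    rw [h, map_zero]

/-- `Cong p m` in terms of the Hecke algebra of `S_2(Γ₀(p))`: `m` divides the Eisenstein value
of every Hecke polynomial which acts as zero on the cusp forms. -/
theorem cong_iff_forall_eval_dvd (m : ℕ) :
    Cong p m ↔ ∀ P : HeckeAlg, heckeEvalForms p 2 P = 0 →
      (m : ℤ) ∣ MvPolynomial.aeval (eisensteinSystem p) P :=
  ⟨fun h P hP => dvd_of_cong p h ((phi_eq_zero_iff_eval p P).mpr hP),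
    fun h => cong_of_dvd p fun P hP => h P ((phi_eq_zero_iff_eval p P).mp hP)⟩

/-- The same with the action on cusp forms spelled out. -/
theorem cong_iff_forall_act_dvd (m : ℕ) :
    Cong p m ↔ ∀ P : HeckeAlg, (∀ f : CuspForm (Gamma0 p) 2, act p P f = 0) →
      (m : ℤ) ∣ MvPolynomial.aeval (eisensteinSystem p) P := by
  rw [cong_iff_forall_eval_dvd]
  refine forall_congr' fun P => ?_
  have : heckeEvalForms p 2 P = 0 ↔ ∀ f : CuspForm (Gamma0 p) 2, act p P f = 0 := by
    constructor
    · intro h f
      unfold act
      rw [h]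
      rfl
    · intro h
      apply Subtype.ext
      exact LinearMap.ext h
  rw [this]

end Fermat.Agent.S16
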