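import Fermat.Agent.S16.UpperAlgTools

/-!
# S16 upper bound, algebra side (helper6): `ℓ = 3`, `p ≡ 2 mod 3`

`no_cong_one_nine` : for `p ≡ 2 mod 3` there is no weight 2 form `G ≡ 1 mod 9` on `Γ₀(p)`
(`F = (G³ - E₆)/9 - k' E₆`, `k' = (1 + p³)/9`, weight 6, two-cusp bound).
-/

set_option autoImplicit false
set_option linter.unusedSectionVars false
set_option linter.unusedVariables false

namespace Fermat.Agent.S16.UA

open PowerSeries

variable {p : ℕ}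

theorem IsU.intCast {ℓ : ℕ} [hℓ : Fact ℓ.Prime] {n : ℤ} (h : ¬ (ℓ : ℤ) ∣ n) : IsU ℓ (n : ℚ) := by
  have hn : n ≠ 0 := fun h0 => h (h0 ▸ dvd_zero _)
  refine ⟨by exact_mod_cast hn, ?_⟩
  rw [padicValRat.of_int, padicValInt.eq_zero_of_not_dvd h]
  rfl

/-- division of a series by `ℓ ^ c` -/
theorem VS.inv_pow_smul {ℓ : ℕ} [hℓ : Fact ℓ.Prime] {c d : ℕ} {F : PowerSeries ℚ}
    (hF : VS ℓ (c + d) F) : VS ℓ d ((((ℓ : ℚ) ^ c)⁻¹) • F) := fun n => by
  rw [coeff_smul, smul_eq_mul, mul_comm, ← div_eq_mul_inv]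
  exact (hF n).div_prime_pow

/-- `G ≡ 1 mod 9` implies `G³ ≡ 1 mod 27` -/
theorem vs_cube_sub_one_three {G : PowerSeries ℚ} [Fact (Nat.Prime 3)] (h : VS 3 2 (G - 1)) :
    VS 3 3 (G * G * G - 1) := by
  have h3 : Vge 3 1 (3 : ℚ) := by
    have := Vge.prime (ℓ := 3)
    simpa using this
  have e : G * G * G - 1 = (G - 1) * ((3 : ℚ) • 1 + (3 : ℚ) • (G - 1) + (G - 1) * (G - 1)) := by
    rw [smul_eq_C_mul, smul_eq_C_mul]
    have : (C (3 : ℚ) : PowerSeries ℚ) = 3 := map_ofNat (C (R := ℚ)) 3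
    rw [this]; ring
  rw [e]
  have a1 : VS 3 1 ((3 : ℚ) • (1 : PowerSeries ℚ)) := VS.smul_right h3 VS.one
  have a2 : VS 3 1 ((3 : ℚ) • (G - 1)) := VS.smul_right h3 (h.mono (Nat.zero_le 2))
  have a3 : VS 3 1 ((G - 1) * (G - 1)) :=
    (h.mul h).mono (by norm_num)
  exact h.mul ((a1.add a2).add a3)

/-- `p ≡ 2 mod 3`: there is no weight 2 form `G ≡ 1 mod 9` on `Γ₀(p)`. -/
theorem no_cong_one_nine (hp : p.Prime) (hp3 : p % 3 = 2) (W : WPairs p)
    {G G' : PowerSeries ℚ} (hG : (G, G') ∈ W.P 2) (h1 : VS 3 2 (G - 1)) : False := by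
  have h3prime : Fact (Nat.Prime 3) := ⟨by norm_num⟩
  have hp0 : 0 < p := hp.pos
  have hp1 : 1 < p := hp.one_lt
  have h3p : (3 : ℕ) ≠ p := by
    rintro rfl
    norm_num at hp3
  have hG' : G' = -Up p G := W.tr2 _ _ hG
  have hpU : IsU 3 (p : ℚ) := IsU.natCast fun h =>
    h3p ((Nat.prime_dvd_prime_iff_eq h3prime.out hp).mp h)
  -- the integer `k' = (1 + p^3) / 9`
  obtain ⟨m, hm⟩ : ∃ m : ℕ, p = 3 * m + 2 := ⟨p / 3, by omega⟩
  set z : ℤ := 3 * (m : ℤ) ^ 3 + 6 * (m : ℤ) ^ 2 + 4 * m + 1 with hz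
  set k' : ℚ := (z : ℚ) with hk'
  have hk : 9 * k' = 1 + (p : ℚ) ^ 3 := by
    rw [hk', hz, hm]; push_cast; ring
  have hk'int : Vge 3 0 k' := Vge.intCast z
  have hunit : IsU 3 (56 + 504 * k') := by
    have : ¬ ((3 : ℕ) : ℤ) ∣ (56 + 504 * z) := by
      intro h
      have : (3 : ℤ) ∣ 56 + 504 * z := by exact_mod_cast h
      omega
    have := IsU.intCast (ℓ := 3) this
    rw [hk']
    exact_mod_cast this
  have hGint : VS 3 0 G := h1.of_sub_one
  have hU1 : VS 3 2 (Up p G - 1) := vs_Up_sub_one hp0 h1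
  have hUint : VS 3 0 (Up p G) := hGint.Up p
  set U := Up p G with hU
  have e3 : G' * G' * G' = -(U * U * U) := by rw [hG']; ring
  have hninth : ((1 : ℚ) / 9) = (((3 : ℕ) : ℚ) ^ 2)⁻¹ := by norm_num
  have hc1 : VS 3 1 (((1 : ℚ) / 9) • (G * G * G - 1)) := by
    rw [hninth]
    exact VS.inv_pow_smul (vs_cube_sub_one_three h1)
  have hc1' : VS 3 1 (((1 : ℚ) / 9) • (U * U * U - 1)) := by
    rw [hninth]
    exact VS.inv_pow_smul (vs_cube_sub_one_three hU1)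
  -- the pair
  have hpair : (((1 : ℚ) / 9) • (G * G * G - E6s) - k' • E6s,
      ((1 : ℚ) / 9) • (G' * G' * G' - ((p : ℚ) ^ 3) • Vp p E6s)
        - k' • (((p : ℚ) ^ 3) • Vp p E6s)) ∈ W.P 6 := by
    have h4 : (G * G * G, G' * G' * G') ∈ W.P 6 := W.mul 4 2 _ _ _ _ (W.mul 2 2 _ _ _ _ hG hG) hG
    exact W.sub (W.smul 6 _ _ _ (W.sub h4 W.e6)) (W.smul 6 k' _ _ W.e6)
  have hFeq : ((1 : ℚ) / 9) • (G * G * G - E6s) - k' • E6s
      = ((1 : ℚ) / 9) • (G * G * G - 1) + (56 + 504 * k') • Sg 5 - k' • 1 := by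
    rw [E6s]
    ext n
    simp only [map_sub, map_add, coeff_smul, smul_eq_mul]
    ring
  have hF'eq : ((1 : ℚ) / 9) • (G' * G' * G' - ((p : ℚ) ^ 3) • Vp p E6s)
        - k' • (((p : ℚ) ^ 3) • Vp p E6s)
      = -(((1 : ℚ) / 9) • (U * U * U - 1)) - (k' * (1 + (p : ℚ) ^ 3)) • 1
        + ((56 + 504 * k') * (p : ℚ) ^ 3) • Vp p (Sg 5) := by
    rw [e3, Vp_E6s hp0]
    ext n
    simp only [map_sub, map_add, map_neg, coeff_smul, smul_eq_mul]
    linear_combination ((coeff n (1 : PowerSeries ℚ)) / 9) * hk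
  have hkk : Vge 3 1 (k' * (1 + (p : ℚ) ^ 3)) := by
    rw [← hk]
    have h9 : Vge 3 1 (9 : ℚ) := by
      have := (Vge.prime_pow (ℓ := 3) 2).mono (show 1 ≤ 2 by norm_num)
      norm_num at this
      exact this
    exact hk'int.mul_left (h9.mul_right hk'int)
  have hFint : VS 3 0 (((1 : ℚ) / 9) • (G * G * G - E6s) - k' • E6s) := by
    rw [hFeq]
    refine ((hc1.mono (Nat.zero_le 1)).add (VS.smul_left hunit.vge (VS.Sg 3 5))).sub
      (VS.smul_left hk'int VS.one)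
  have hF'int : VS 3 0 (((1 : ℚ) / 9) • (G' * G' * G' - ((p : ℚ) ^ 3) • Vp p E6s)
        - k' • (((p : ℚ) ^ 3) • Vp p E6s)) := by
    rw [hF'eq]
    refine (((hc1'.mono (Nat.zero_le 1)).neg).sub
      (VS.smul_left (hkk.mono (Nat.zero_le 1)) VS.one)).add
      (VS.smul_left (hunit.mul (hpU.pow 3)).vge ((VS.Sg 3 5).Vp p))
  refine W.contra h3prime.out h3p hpair hFint hF'int 0 p
    (fun n hn => absurd hn (Nat.not_lt_zero n)) ?_ (by omega) ⟨1, ?_⟩ ⟨p, ?_⟩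
  · intro n hn
    rw [hF'eq]
    simp only [map_sub, map_add, map_neg, coeff_smul, smul_eq_mul,
      coeff_Vp_of_lt hn (coeff_zero_Sg 5), mul_zero, add_zero]
    refine ((hc1' n).neg).sub ?_
    have : Vge 3 0 (coeff n (1 : PowerSeries ℚ)) := VS.one n
    exact hkk.mul_right this
  · rw [hFeq]
    intro h
    have h2 : Vge 3 1 (coeff 1 (((1 : ℚ) / 9) • (G * G * G - 1))) := hc1 1
    have h3 : coeff 1 (((1 : ℚ) / 9) • (G * G * G - 1) + (56 + 504 * k') • Sg 5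
        - k' • (1 : PowerSeries ℚ))
        = coeff 1 (((1 : ℚ) / 9) • (G * G * G - 1)) + (56 + 504 * k') := by
      simp only [map_sub, map_add, coeff_smul (a := k'), coeff_smul (a := 56 + 504 * k'),
        coeff_one_Sg, coeff_one, smul_eq_mul]
      simp
    rw [h3] at h
    have h4 := h.sub h2
    rw [add_sub_cancel_left] at h4
    exact hunit.not_vge_one h4
  · rw [hF'eq]
    intro h
    have h2 : Vge 3 1 (coeff p (-(((1 : ℚ) / 9) • (U * U * U - 1)))) := hc1'.neg p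
    have h3 : coeff p (-(((1 : ℚ) / 9) • (U * U * U - 1)) - (k' * (1 + (p : ℚ) ^ 3)) • 1
        + ((56 + 504 * k') * (p : ℚ) ^ 3) • Vp p (Sg 5))
        = coeff p (-(((1 : ℚ) / 9) • (U * U * U - 1))) + (56 + 504 * k') * (p : ℚ) ^ 3 := by
      simp only [map_sub, map_add, coeff_smul (a := k' * (1 + (p : ℚ) ^ 3)),
        coeff_smul (a := (56 + 504 * k') * (p : ℚ) ^ 3),
        coeff_Vp_self hp0, coeff_one_Sg, coeff_one, smul_eq_mul, if_neg hp0.ne']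
      ring
    rw [h3] at h
    have h4 := h.sub h2
    rw [add_sub_cancel_left] at h4
    exact (hunit.mul (hpU.pow 3)).not_vge_one h4

end Fermat.Agent.S16.UA
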