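import Fermat.Agent.S16.UpperAlgTools

/-!
# S16 upper bound, algebra side (helper6): the parity lemma

For power series `h`, `w` with integer coefficients, `U_p w = h`, `p` odd:
`p (h²)_n + (w²)_(pn)` is even; it is divisible by `8` if all coefficients of `h`, `w` are even.
-/

set_option autoImplicit false
set_option linter.unusedSectionVars false
set_option linter.unusedVariables false

namespace Fermat.Agent.S16.UA

open PowerSeries

/-- all coefficients are integers -/
def IsZ (F : PowerSeries ℚ) : Prop := ∀ n, ∃ z : ℤ, coeff n F = z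

theorem IsZ.vs {F : PowerSeries ℚ} (hF : IsZ F) (ℓ : ℕ) : VS ℓ 0 F := fun n => by
  obtain ⟨z, hz⟩ := hF n
  rw [hz]
  exact Vge.intCast z

theorem IsZ.Up {F : PowerSeries ℚ} (hF : IsZ F) (p : ℕ) : IsZ (Up p F) := fun n => by
  rw [coeff_Up]
  exact hF _

/-- squares modulo 2 -/
theorem coeff_mul_self_zmod_two (H : PowerSeries (ZMod 2)) (n : ℕ) :
    coeff n (H * H) = if 2 ∣ n then coeff (n / 2) H else 0 := by
  have h := MvPowerSeries.map_frobenius_expand (σ := Unit) (R := ZMod 2) 2 (two_ne_zero) (f := H)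
  have h2 : H * H
      = PowerSeries.map (frobenius (ZMod 2) 2) (PowerSeries.expand 2 two_ne_zero H) := by
    rw [← pow_two]; exact h.symm
  rw [h2, coeff_map, coeff_expand]
  split_ifs
  · rw [ZMod.frobenius_zmod]; rfl
  · simp

/-- the parity lemma, integer form -/
theorem parity_int {p : ℕ} (hp : p % 2 = 1) (hZ wZ : ℕ → ℤ) (hU : ∀ m, wZ (p * m) = hZ m)
    (n : ℕ) :
    (2 : ℤ) ∣ (p : ℤ) * (∑ x ∈ Finset.HasAntidiagonal.antidiagonal n, hZ x.1 * hZ x.2)
      + ∑ x ∈ Finset.HasAntidiagonal.antidiagonal (p * n), wZ x.1 * wZ x.2 := by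
  refine (ZMod.intCast_zmod_eq_zero_iff_dvd _ 2).mp ?_
  set H : PowerSeries (ZMod 2) := PowerSeries.mk fun i => (hZ i : ZMod 2) with hH
  set Wz : PowerSeries (ZMod 2) := PowerSeries.mk fun i => (wZ i : ZMod 2) with hW
  have e1 : ((∑ x ∈ Finset.HasAntidiagonal.antidiagonal n, hZ x.1 * hZ x.2 : ℤ) : ZMod 2) = coeff n (H * H) := by
    rw [coeff_mul]
    push_cast
    simp [hH]
  have e2 : ((∑ x ∈ Finset.HasAntidiagonal.antidiagonal (p * n), wZ x.1 * wZ x.2 : ℤ) : ZMod 2)
      = coeff (p * n) (Wz * Wz) := by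
    rw [coeff_mul]
    push_cast
    simp [hW]
  have hp1 : ((p : ℤ) : ZMod 2) = 1 := by
    have : ((p : ℕ) : ZMod 2) = ((p % 2 : ℕ) : ZMod 2) := by
      rw [ZMod.natCast_mod]
    rw [Int.cast_natCast, this, hp]
    simp
  rw [Int.cast_add, Int.cast_mul, e1, e2, hp1, one_mul, coeff_mul_self_zmod_two,
    coeff_mul_self_zmod_two]
  have hdvd : 2 ∣ p * n ↔ 2 ∣ n := by
    constructor
    · intro h
      rcases (Nat.Prime.dvd_mul Nat.prime_two).mp h with h | h
      · omega
      · exact h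
    · intro h
      exact Dvd.dvd.mul_left h p
  by_cases h2 : 2 ∣ n
  · rw [if_pos h2, if_pos (hdvd.mpr h2)]
    obtain ⟨m, rfl⟩ := h2
    have e3 : p * (2 * m) / 2 = p * m := by
      rw [show p * (2 * m) = 2 * (p * m) by ring, Nat.mul_div_cancel_left _ (by norm_num)]
    have e4 : 2 * m / 2 = m := Nat.mul_div_cancel_left _ (by norm_num)
    rw [e3, e4, hH, hW, coeff_mk, coeff_mk, hU]
    exact CharTwo.add_self_eq_zero _
  · rw [if_neg h2, if_neg (fun h => h2 (hdvd.mp h))]
    simp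

/-- the parity lemma for rational power series with integer coefficients -/
theorem parity_one {p : ℕ} (hp : p % 2 = 1) {h w : PowerSeries ℚ} (hh : IsZ h) (hw : IsZ w)
    (hU : Up p w = h) (n : ℕ) :
    Vge 2 1 ((p : ℚ) * coeff n (h * h) + coeff (p * n) (w * w)) := by
  have : Fact (Nat.Prime 2) := ⟨Nat.prime_two⟩
  choose hZ hhZ using hh
  choose wZ hwZ using hw
  have hUZ : ∀ m, wZ (p * m) = hZ m := by
    intro m
    have := congrArg (coeff m) hU
    rw [coeff_Up, hwZ, hhZ] at this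
    exact_mod_cast this
  obtain ⟨k, hk⟩ := parity_int hp hZ wZ hUZ n
  have e : (p : ℚ) * coeff n (h * h) + coeff (p * n) (w * w) = (2 : ℚ) * (k : ℚ) := by
    rw [coeff_mul, coeff_mul]
    simp only [hhZ, hwZ]
    have := congrArg (fun z : ℤ => (z : ℚ)) hk
    push_cast at this
    exact this
  rw [e]
  have h2 : Vge 2 1 (2 : ℚ) := by
    have := Vge.prime (ℓ := 2)
    simpa using this
  exact h2.mul_right (Vge.intCast k)

/-- an integer which is divisible by 2 in `ℤ_(2)` is even -/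
theorem even_of_vge {z : ℤ} (h : Vge 2 1 (z : ℚ)) : (2 : ℤ) ∣ z := by
  have : Fact (Nat.Prime 2) := ⟨Nat.prime_two⟩
  rcases h with h | h
  · have : z = 0 := by exact_mod_cast h
    rw [this]; exact dvd_zero _
  · rw [padicValRat.of_int] at h
    have h1 : 1 ≤ padicValInt 2 z := by exact_mod_cast h
    by_contra hnd
    have h2 : ¬ ((2 : ℕ) : ℤ) ∣ z := by exact_mod_cast hnd
    rw [padicValInt.eq_zero_of_not_dvd h2] at h1
    exact absurd h1 (by norm_num)

/-- halving a series with even integer coefficients -/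
theorem IsZ.half {F : PowerSeries ℚ} (hF : IsZ F) (h2 : VS 2 1 F) :
    IsZ (((1 : ℚ) / 2) • F) := fun n => by
  obtain ⟨z, hz⟩ := hF n
  have h := h2 n
  rw [hz] at h
  obtain ⟨k, hk⟩ := even_of_vge h
  refine ⟨k, ?_⟩
  rw [coeff_smul, hz, hk, smul_eq_mul]
  push_cast
  ring

/-- the improved parity lemma: if all coefficients of `h`, `w` are even, `8` divides -/
theorem parity_three {p : ℕ} (hp : p % 2 = 1) {h w : PowerSeries ℚ} (hh : IsZ h) (hw : IsZ w)
    (hU : Up p w = h) (hh2 : VS 2 1 h) (hw2 : VS 2 1 w) (n : ℕ) :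
    Vge 2 3 ((p : ℚ) * coeff n (h * h) + coeff (p * n) (w * w)) := by
  have : Fact (Nat.Prime 2) := ⟨Nat.prime_two⟩
  have hU' : Up p (((1 : ℚ) / 2) • w) = ((1 : ℚ) / 2) • h := by rw [Up_smul, hU]
  have key := parity_one hp (hh.half hh2) (hw.half hw2) hU' n
  have e : (p : ℚ) * coeff n (h * h) + coeff (p * n) (w * w)
      = (2 : ℚ) ^ 2 * ((p : ℚ) * coeff n ((((1 : ℚ) / 2) • h) * (((1 : ℚ) / 2) • h))
        + coeff (p * n) ((((1 : ℚ) / 2) • w) * (((1 : ℚ) / 2) • w))) := by
    rw [smul_mul_smul_comm, smul_mul_smul_comm, coeff_smul, coeff_smul, smul_eq_mul, smul_eq_mul]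
    ring
  rw [e]
  have h4 : Vge 2 2 ((2 : ℚ) ^ 2) := by
    have := Vge.prime_pow (ℓ := 2) 2
    simpa using this
  exact h4.mul key

end Fermat.Agent.S16.UA
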