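import Fermat.Agent.S16.UpperAlgStar
import Fermat.Agent.S16.UpperAlgParity
import Fermat.Agent.S16.UpperAlgNine

/-!
# S16 upper bound, algebra side (helper6): the cases settled by the trace identity `(*)`

For `(g, g') ∈ P 2` with integral higher coefficients and constant term `a`:
* `vge_of_star` : `ℓ ∤ 240 (p+1)` (e.g. `ℓ = p ≥ 7`): `a` is `ℓ`-integral;
* `vge_three_of_star` : `p ≡ 1 mod 3`: `a` is `3`-integral;
* `vge_two_of_star` : `p ≡ 1 mod 4`: `2 a` is `2`-integral.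
-/

set_option autoImplicit false
set_option linter.unusedSectionVars false
set_option linter.unusedVariables false

namespace Fermat.Agent.S16.UA

open PowerSeries

variable {p : ℕ}

/-- `g - a` has integer coefficients -/
theorem isZ_sub_C {g : PowerSeries ℚ} (hint : ∀ n, 1 ≤ n → ∃ z : ℤ, coeff n g = z) :
    IsZ (g - C (coeff 0 g)) := fun n => by
  rcases Nat.eq_zero_or_pos n with rfl | hn
  · exact ⟨0, by simp⟩
  · obtain ⟨z, hz⟩ := hint n hn
    refine ⟨z, ?_⟩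
    rw [map_sub, coeff_C, if_neg hn.ne', sub_zero, hz]

/-- `U_p g - a` has integer coefficients -/
theorem isZ_Up_sub_C (hp : 0 < p) {g : PowerSeries ℚ}
    (hint : ∀ n, 1 ≤ n → ∃ z : ℤ, coeff n g = z) :
    IsZ (Up p g - C (coeff 0 g)) := fun n => by
  rcases Nat.eq_zero_or_pos n with rfl | hn
  · exact ⟨0, by rw [map_sub, coeff_zero_Up, coeff_C, if_pos rfl, sub_self, Int.cast_zero]⟩
  · obtain ⟨z, hz⟩ := hint (p * n) (Nat.mul_pos hp hn)
    refine ⟨z, ?_⟩
    rw [map_sub, coeff_C, if_neg hn.ne', sub_zero, coeff_Up, hz]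

theorem Up_sub_C_eq (hp : 0 < p) (W : WPairs p) {g g' : PowerSeries ℚ} (hg : (g, g') ∈ W.P 2) :
    Up p (Up p g - C (coeff 0 g)) = g - C (coeff 0 g) := by
  rw [Up_sub, Up_Up_of_mem W hg, Up_C hp]

/-- the data of the identity `(*)` for `g` and for `U_p g`, divided by `2 (p+1) a²` -/
theorem star_K (hp : p.Prime) (W : WPairs p) {g g' : PowerSeries ℚ} (hg : (g, g') ∈ W.P 2)
    (ha : coeff 0 g ≠ 0) (n : ℕ) :
    (coeff 0 g)⁻¹ * coeff n (g - C (coeff 0 g))
      + ((p : ℚ) * coeff n ((g - C (coeff 0 g)) * (g - C (coeff 0 g)))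
          + coeff (p * n) ((Up p g - C (coeff 0 g)) * (Up p g - C (coeff 0 g))))
        * ((coeff 0 g)⁻¹ * (coeff 0 g)⁻¹) * (2 * ((p : ℚ) + 1))⁻¹
      = 120 * (ArithmeticFunction.sigma 3 n : ℚ) := by
  have h := star_identity hp W hg n
  have hp1 : (2 * ((p : ℚ) + 1)) ≠ 0 := by positivity
  field_simp
  linear_combination h

/-- the same for `U_p g` -/
theorem star_K' (hp : p.Prime) (W : WPairs p) {g g' : PowerSeries ℚ} (hg : (g, g') ∈ W.P 2)
    (ha : coeff 0 g ≠ 0) (n : ℕ) :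
    (coeff 0 g)⁻¹ * coeff n (Up p g - C (coeff 0 g))
      + ((p : ℚ) * coeff n ((Up p g - C (coeff 0 g)) * (Up p g - C (coeff 0 g)))
          + coeff (p * n) ((g - C (coeff 0 g)) * (g - C (coeff 0 g))))
        * ((coeff 0 g)⁻¹ * (coeff 0 g)⁻¹) * (2 * ((p : ℚ) + 1))⁻¹
      = 120 * (ArithmeticFunction.sigma 3 n : ℚ) := by
  have h := star_K hp W (Up_mem W hg) (by rwa [coeff_zero_Up]) n
  rwa [coeff_zero_Up, Up_Up_of_mem W hg] at h

theorem sigma_three_prime (hp : p.Prime) :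
    (ArithmeticFunction.sigma 3 p : ℚ) = 1 + (p : ℚ) ^ 3 := by
  rw [ArithmeticFunction.sigma_apply, hp.divisors]
  rw [Finset.sum_pair hp.one_lt.ne]
  push_cast
  ring

/-- the combined identity: `(X'_p - X_1) b² / (2 (p+1)) = 120 p³` -/
theorem star_comb (hp : p.Prime) (W : WPairs p) {g g' : PowerSeries ℚ} (hg : (g, g') ∈ W.P 2)
    (ha : coeff 0 g ≠ 0) :
    (((p : ℚ) * coeff p ((Up p g - C (coeff 0 g)) * (Up p g - C (coeff 0 g)))
          + coeff (p * p) ((g - C (coeff 0 g)) * (g - C (coeff 0 g))))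
        - ((p : ℚ) * coeff 1 ((g - C (coeff 0 g)) * (g - C (coeff 0 g)))
          + coeff (p * 1) ((Up p g - C (coeff 0 g)) * (Up p g - C (coeff 0 g)))))
        * ((coeff 0 g)⁻¹ * (coeff 0 g)⁻¹) * (2 * ((p : ℚ) + 1))⁻¹
      = 120 * (p : ℚ) ^ 3 := by
  have h1 := star_K hp W hg ha 1
  have h2 := star_K' hp W hg ha p
  have e : coeff p (Up p g - C (coeff 0 g)) = coeff 1 (g - C (coeff 0 g)) := by
    have := congrArg (coeff 1) (Up_sub_C_eq hp.pos W hg)
    rwa [coeff_Up, mul_one] at this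
  rw [e, sigma_three_prime hp] at h2
  have e1 : (ArithmeticFunction.sigma 3 1 : ℚ) = 1 := by simp
  rw [e1] at h1
  linear_combination h2 - h1

section valuations

variable {ℓ : ℕ} [hℓ : Fact ℓ.Prime]

/-- the quantity `X_n` is `ℓ`-integral -/
theorem vge_X {h w : PowerSeries ℚ} (hh : IsZ h) (hw : IsZ w) (n m : ℕ) :
    Vge ℓ 0 ((p : ℚ) * coeff n (h * h) + coeff m (w * w)) :=
  ((Vge.natCast p).mul_left (((hh.vs ℓ).mul_left (hh.vs ℓ)) n)).add
    (((hw.vs ℓ).mul_left (hw.vs ℓ)) m)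

/-- `ℓ ∤ 240 (p + 1)`: the constant term is `ℓ`-integral. -/
theorem vge_of_star (hp : p.Prime) (W : WPairs p) (hℓ1 : ¬ ℓ ∣ 240) (hℓ2 : ¬ ℓ ∣ (p + 1))
    {g g' : PowerSeries ℚ} (hg : (g, g') ∈ W.P 2)
    (hint : ∀ n, 1 ≤ n → ∃ z : ℤ, coeff n g = z) : Vge ℓ 0 (coeff 0 g) := by
  by_contra hcon
  have ha : coeff 0 g ≠ 0 := fun h => hcon (Or.inl h)
  have hb : Vge ℓ 1 (coeff 0 g)⁻¹ := vge_one_inv_of_not_vge_zero hcon
  have hh := isZ_sub_C hint
  have hw := isZ_Up_sub_C hp.pos hint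
  have hK := star_K hp W hg ha 1
  have h120 : IsU ℓ (120 : ℚ) := by
    have : ¬ ℓ ∣ 120 := fun h => hℓ1 (h.trans (by norm_num))
    have := IsU.natCast (ℓ := ℓ) this
    simpa using this
  have h2 : IsU ℓ (2 : ℚ) := by
    have : ¬ ℓ ∣ 2 := fun h => hℓ1 (h.trans (by norm_num))
    have := IsU.natCast (ℓ := ℓ) this
    simpa using this
  have hp1 : IsU ℓ ((p : ℚ) + 1) := by
    have := IsU.natCast (ℓ := ℓ) hℓ2
    simpa using this
  have hu : IsU ℓ ((2 * ((p : ℚ) + 1))⁻¹) := (h2.mul hp1).inv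
  have hL : Vge ℓ 1 ((coeff 0 g)⁻¹ * coeff 1 (g - C (coeff 0 g))
      + ((p : ℚ) * coeff 1 ((g - C (coeff 0 g)) * (g - C (coeff 0 g)))
          + coeff (p * 1) ((Up p g - C (coeff 0 g)) * (Up p g - C (coeff 0 g))))
        * ((coeff 0 g)⁻¹ * (coeff 0 g)⁻¹) * (2 * ((p : ℚ) + 1))⁻¹) := by
    refine (hb.mul_right (hh.vs ℓ 1)).add ?_
    have := ((vge_X (ℓ := ℓ) (p := p) hh hw 1 (p * 1)).mul_left (hb.mul hb)).mul_right hu.vge
    exact this.mono (by norm_num)
  rw [hK] at hL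
  have e1 : (ArithmeticFunction.sigma 3 1 : ℚ) = 1 := by simp
  rw [e1, mul_one] at hL
  exact h120.not_vge_one hL

end valuations

/-- `p ≡ 1 mod 3`: the constant term is `3`-integral. -/
theorem vge_three_of_star (hp : p.Prime) (hp3 : p % 3 = 1) (W : WPairs p)
    {g g' : PowerSeries ℚ} (hg : (g, g') ∈ W.P 2)
    (hint : ∀ n, 1 ≤ n → ∃ z : ℤ, coeff n g = z) : Vge 3 0 (coeff 0 g) := by
  have h3prime : Fact (Nat.Prime 3) := ⟨by norm_num⟩
  by_contra hcon
  have ha : coeff 0 g ≠ 0 := fun h => hcon (Or.inl h)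
  have hb : Vge 3 1 (coeff 0 g)⁻¹ := vge_one_inv_of_not_vge_zero hcon
  have hh := isZ_sub_C hint
  have hw := isZ_Up_sub_C hp.pos hint
  have hC := star_comb hp W hg ha
  have hpU : IsU 3 (p : ℚ) := IsU.natCast (fun h => by omega)
  have hu : IsU 3 ((2 * ((p : ℚ) + 1))⁻¹) := by
    have : IsU 3 ((2 * (p + 1) : ℕ) : ℚ) := IsU.natCast (fun h => by omega)
    push_cast at this
    exact this.inv
  have hL : Vge 3 2 ((((p : ℚ) * coeff p ((Up p g - C (coeff 0 g)) * (Up p g - C (coeff 0 g)))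
          + coeff (p * p) ((g - C (coeff 0 g)) * (g - C (coeff 0 g))))
        - ((p : ℚ) * coeff 1 ((g - C (coeff 0 g)) * (g - C (coeff 0 g)))
          + coeff (p * 1) ((Up p g - C (coeff 0 g)) * (Up p g - C (coeff 0 g)))))
        * ((coeff 0 g)⁻¹ * (coeff 0 g)⁻¹) * (2 * ((p : ℚ) + 1))⁻¹) := by
    have h1 := (vge_X (ℓ := 3) (p := p) hw hh p (p * p)).sub
      (vge_X (ℓ := 3) (p := p) hh hw 1 (p * 1))
    have := (h1.mul_left (hb.mul hb)).mul_right hu.vge
    exact this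
  rw [hC] at hL
  -- `120 p³ = 3 * (40 p³)` and `40 p³` is a unit
  have h40 : IsU 3 (40 * (p : ℚ) ^ 3) := by
    have : IsU 3 ((40 : ℕ) : ℚ) := IsU.natCast (by norm_num)
    push_cast at this
    exact this.mul (hpU.pow 3)
  have e : 120 * (p : ℚ) ^ 3 = (40 * (p : ℚ) ^ 3) * ((3 : ℕ) : ℚ) ^ 1 := by push_cast; ring
  have h5 : Vge 3 1 ((120 * (p : ℚ) ^ 3) / ((3 : ℕ) : ℚ) ^ 1) :=
    Vge.div_prime_pow (c := 1) (d := 1) hL
  rw [e, mul_div_assoc, div_self (by norm_num), mul_one] at h5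
  exact h40.not_vge_one h5

/-- an integer which is not even is a `2`-adic unit -/
theorem isU_of_not_vge {z : ℤ} (h : ¬ Vge 2 1 (z : ℚ)) : IsU 2 (z : ℚ) := by
  have : Fact (Nat.Prime 2) := ⟨Nat.prime_two⟩
  refine IsU.intCast fun hd => h ?_
  obtain ⟨k, hk⟩ := hd
  rw [hk]
  push_cast
  have h2 : Vge 2 1 (2 : ℚ) := by
    have := Vge.prime (ℓ := 2)
    simpa using this
  exact h2.mul_right (Vge.intCast k)

/-- `p ≡ 1 mod 4`: twice the constant term is `2`-integral. -/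
theorem vge_two_of_star (hp : p.Prime) (hp4 : p % 4 = 1) (W : WPairs p)
    {g g' : PowerSeries ℚ} (hg : (g, g') ∈ W.P 2)
    (hint : ∀ n, 1 ≤ n → ∃ z : ℤ, coeff n g = z) : Vge 2 0 (2 * coeff 0 g) := by
  have h2prime : Fact (Nat.Prime 2) := ⟨Nat.prime_two⟩
  by_contra hcon
  have ha : coeff 0 g ≠ 0 := fun h => hcon (Or.inl (by rw [h, mul_zero]))
  have h2 : Vge 2 1 (2 : ℚ) := by
    have := Vge.prime (ℓ := 2)
    simpa using this
  -- `b = a⁻¹` is divisible by `4`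
  have hb : Vge 2 2 (coeff 0 g)⁻¹ := by
    have h1 : Vge 2 1 (2 * coeff 0 g)⁻¹ := vge_one_inv_of_not_vge_zero hcon
    have := h2.mul h1
    rwa [mul_inv, ← mul_assoc, mul_inv_cancel₀ (by norm_num), one_mul] at this
  have hh := isZ_sub_C hint
  have hw := isZ_Up_sub_C hp.pos hint
  have hUw := Up_sub_C_eq hp.pos W hg
  have hUh : Up p (g - C (coeff 0 g)) = Up p g - C (coeff 0 g) := by rw [Up_sub, Up_C hp.pos]
  have hp2 : p % 2 = 1 := by omega
  have hC := star_comb hp W hg ha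
  have hpU : IsU 2 (p : ℚ) := IsU.natCast (fun h => by omega)
  -- `2 (p + 1) = 4 w` with `w` odd
  obtain ⟨m, hm⟩ : ∃ m : ℕ, p = 4 * m + 1 := ⟨p / 4, by omega⟩
  have hw' : IsU 2 ((2 * m + 1 : ℕ) : ℚ) := IsU.natCast (fun h => by omega)
  have e2p : (2 * ((p : ℚ) + 1))⁻¹ = ((2 * m + 1 : ℕ) : ℚ)⁻¹ * (((2 : ℕ) : ℚ) ^ 2)⁻¹ := by
    rw [hm]; push_cast
    rw [← mul_inv]
    congr 1
    ring
  -- general step: a bound `Vge 2 (c + 2)` for the numerator gives `Vge 2 c`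
  have step : ∀ (c : ℕ) (x : ℚ), Vge 2 (2 + c) x → Vge 2 c (x * (2 * ((p : ℚ) + 1))⁻¹) := by
    intro c x hx
    rw [e2p, ← mul_assoc, mul_comm x, mul_assoc, ← div_eq_mul_inv]
    exact hw'.inv.vge.mul_left (Vge.div_prime_pow hx)
  -- the contradiction from a good bound
  have final : Vge 2 4 (120 * (p : ℚ) ^ 3) → False := by
    intro h
    have h15 : IsU 2 (15 * (p : ℚ) ^ 3) := by
      have : IsU 2 ((15 : ℕ) : ℚ) := IsU.natCast (by norm_num)
      push_cast at this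
      exact this.mul (hpU.pow 3)
    have e : 120 * (p : ℚ) ^ 3 = (15 * (p : ℚ) ^ 3) * ((2 : ℕ) : ℚ) ^ 3 := by push_cast; ring
    have h5 : Vge 2 1 ((120 * (p : ℚ) ^ 3) / ((2 : ℕ) : ℚ) ^ 3) :=
      Vge.div_prime_pow (c := 3) (d := 1) h
    rw [e, mul_div_assoc, div_self (by norm_num), mul_one] at h5
    exact h15.not_vge_one h5
  by_cases hb3 : Vge 2 3 (coeff 0 g)⁻¹
  · -- `b` divisible by `8`
    apply final
    rw [← hC]
    have h1 := (parity_one hp2 hw hh hUh p).sub (parity_one hp2 hh hw hUw 1)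
    exact step 4 _ ((h1.mul (hb3.mul hb3)).mono (by norm_num))
  · -- `b` exactly divisible by `4`: first `h` and `w` are even
    have h120 : ∀ n : ℕ, Vge 2 3 (120 * (ArithmeticFunction.sigma 3 n : ℚ)) := by
      intro n
      have h8 : Vge 2 3 (((2 : ℕ) : ℚ) ^ 3) := Vge.prime_pow (ℓ := 2) 3
      have e : (120 : ℚ) * (ArithmeticFunction.sigma 3 n : ℚ)
          = ((2 : ℕ) : ℚ) ^ 3 * ((15 * ArithmeticFunction.sigma 3 n : ℕ) : ℚ) := by
        push_cast; ring
      rw [e]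
      exact h8.mul_right (Vge.natCast _)
    have hheven : VS 2 1 (g - C (coeff 0 g)) := by
      intro n
      by_contra hodd
      obtain ⟨z, hz⟩ := hh n
      rw [hz] at hodd
      have hu := isU_of_not_vge hodd
      have hK := star_K hp W hg ha n
      have h1 := step 3 _ (((parity_one hp2 hh hw hUw n).mul (hb.mul hb)).mono (by norm_num))
      have h2 : Vge 2 3 ((coeff 0 g)⁻¹ * coeff n (g - C (coeff 0 g))) := by
        have := (h120 n).sub h1
        rw [← hK] at this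
        rwa [mul_assoc, add_sub_cancel_right] at this
      rw [hz, mul_comm, hu.mul_vge_iff] at h2
      exact hb3 h2
    have hweven : VS 2 1 (Up p g - C (coeff 0 g)) := by
      intro n
      by_contra hodd
      obtain ⟨z, hz⟩ := hw n
      rw [hz] at hodd
      have hu := isU_of_not_vge hodd
      have hK := star_K' hp W hg ha n
      have h1 := step 3 _ (((parity_one hp2 hw hh hUh n).mul (hb.mul hb)).mono (by norm_num))
      have h2 : Vge 2 3 ((coeff 0 g)⁻¹ * coeff n (Up p g - C (coeff 0 g))) := by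
        have := (h120 n).sub h1
        rw [← hK] at this
        rwa [mul_assoc, add_sub_cancel_right] at this
      rw [hz, mul_comm, hu.mul_vge_iff] at h2
      exact hb3 h2
    apply final
    rw [← hC]
    have h1 := (parity_three hp2 hw hh hUh hweven hheven p).sub
      (parity_three hp2 hh hw hUw hheven hweven 1)
    exact step 4 _ ((h1.mul (hb.mul hb)).mono (by norm_num))

end Fermat.Agent.S16.UA
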