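import Mathlib

/-!
# S16 (item 84), case `l = 2`, `p ≡ 3 mod 4`: the formal identity (theta-free route)

`Xi X = 27 X^4 - 18 E4 X^2 - 8 E6 X - E4^2` with `E4 = 1 + 240 a`, `E6 = 1 - 504 b`, `12 t = 5 a + 7 b`.
For `X = 1 + 8 g` and for `X = 5 + 8 g` one has `Xi X = 256 (t + a^2) + 512 Z` with an explicit polynomial `Z`.
(See `NOTES/routes/S16_helper3_l2_no_theta.md`.)
-/

namespace Fermat.Agent.S16

/-- The polynomial `Z` of the formal identity for `X = 1 + 8 g`. -/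
def xiZOne {R : Type*} [CommRing R] (g a b t : R) : R :=
  g + 18 * g ^ 2 + 108 * g ^ 3 + 216 * g ^ 4 - 135 * a * g - 540 * a * g ^ 2 + 63 * b * g
    + 13 * t - 15 * a - 113 * a ^ 2

/-- The polynomial `Z` of the formal identity for `X = 5 + 8 g`. -/
def xiZFive {R : Type*} [CommRing R] (g a b t : R) : R :=
  32 + 208 * g + 63 * g * b - 675 * g * a + 504 * g ^ 2 - 540 * g ^ 2 * a + 540 * g ^ 3
    + 216 * g ^ 4 + 67 * t - 240 * a - 113 * a ^ 2

/-- The weight 8 polynomial `Xi(X; E4, E6) = 27 X^4 - 18 E4 X^2 - 8 E6 X - E4^2`. -/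
def xiPoly {R : Type*} [CommRing R] (X E4 E6 : R) : R :=
  27 * X ^ 4 - 18 * E4 * X ^ 2 - 8 * E6 * X - E4 ^ 2

/-- `Xi` is isobaric of weight 8 (weights 2, 4, 6 for `X`, `E4`, `E6`). -/
theorem xiPoly_smul {R : Type*} [CommRing R] (c X E4 E6 : R) :
    xiPoly (c * X) (c ^ 2 * E4) (c ^ 3 * E6) = c ^ 4 * xiPoly X E4 E6 := by
  unfold xiPoly; ring

/-- Formal identity, `X = 1 + 8 g`. -/
theorem xi_formal_one {R : Type*} [CommRing R] (g a b t : R) (ht : 12 * t = 5 * a + 7 * b) :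
    xiPoly (1 + 8 * g) (1 + 240 * a) (1 - 504 * b) = 256 * (t + a ^ 2) + 512 * xiZOne g a b t := by
  unfold xiPoly xiZOne
  linear_combination (-576 : R) * ht

/-- Formal identity, `X = 5 + 8 g`. -/
theorem xi_formal_five {R : Type*} [CommRing R] (g a b t : R) (ht : 12 * t = 5 * a + 7 * b) :
    xiPoly (5 + 8 * g) (1 + 240 * a) (1 - 504 * b) = 256 * (t + a ^ 2) + 512 * xiZFive g a b t := by
  unfold xiPoly xiZFive
  linear_combination (-2880 : R) * ht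

/-- `12 ∣ 5 d^3 + 7 d^5` for every integer `d`. -/
theorem twelve_dvd_five_cube_add_seven_pow_five (d : ℤ) : (12 : ℤ) ∣ 5 * d ^ 3 + 7 * d ^ 5 := by
  have h : ∀ x : ZMod 12, 5 * x ^ 3 + 7 * x ^ 5 = 0 := by decide
  have := h (d : ZMod 12)
  have h2 : ((5 * d ^ 3 + 7 * d ^ 5 : ℤ) : ZMod 12) = 0 := by push_cast; exact this
  exact (ZMod.intCast_zmod_eq_zero_iff_dvd _ 12).mp h2

/-- `12 ∣ 5 σ₃(n) + 7 σ₅(n)`. -/
theorem twelve_dvd_five_sigma_three_add_seven_sigma_five (n : ℕ) :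
    (12 : ℤ) ∣ 5 * (ArithmeticFunction.sigma 3 n : ℤ) + 7 * (ArithmeticFunction.sigma 5 n : ℤ) := by
  rw [ArithmeticFunction.sigma_apply, ArithmeticFunction.sigma_apply]
  push_cast
  rw [Finset.mul_sum, Finset.mul_sum, ← Finset.sum_add_distrib]
  exact Finset.dvd_sum fun d _ => twelve_dvd_five_cube_add_seven_pow_five d

/-- The integral coefficients `t_n = (5 σ₃(n) + 7 σ₅(n)) / 12` of the series `t`. -/
def tCoeff (n : ℕ) : ℤ :=
  (5 * (ArithmeticFunction.sigma 3 n : ℤ) + 7 * (ArithmeticFunction.sigma 5 n : ℤ)) / 12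

theorem twelve_mul_tCoeff (n : ℕ) :
    12 * tCoeff n = 5 * (ArithmeticFunction.sigma 3 n : ℤ) + 7 * (ArithmeticFunction.sigma 5 n : ℤ) :=
  Int.mul_ediv_cancel' (twelve_dvd_five_sigma_three_add_seven_sigma_five n)

theorem tCoeff_zero : tCoeff 0 = 0 := by
  simp [tCoeff]

theorem tCoeff_one : tCoeff 1 = 1 := by
  simp [tCoeff]

end Fermat.Agent.S16
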