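import Fermat.Agent.S16.UpperAlgTools
import Fermat.Agent.S16.XiFormal

/-!
# S16 upper bound, `ℓ = 2`, `p ≡ 3 mod 4` (helper3): the theta-free argument against helper6's interface

`xi_case` : for a prime `p ≡ 3 mod 4` there is no pair `(G, G') ∈ W.P 2` with `G ≡ 1 mod 8`.
(`Xi(G) / 256` is a pair of weight 8 with reductions `q + …` and `q^p + …` modulo 2, against the two-cusp
bound `8 (p + 1) < 12 (1 + p)`.)  See `NOTES/routes/S16_helper3_l2_no_theta.md`.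
-/

set_option autoImplicit false

namespace Fermat.Agent.S16.UA

open PowerSeries

/-! ### numerals and constants -/

theorem ofNat_eq_C (n : ℕ) [n.AtLeastTwo] : (OfNat.ofNat n : PowerSeries ℚ) = C (OfNat.ofNat n : ℚ) :=
  (map_ofNat (C (R := ℚ)) n).symm

theorem VS.C {ℓ c : ℕ} {x : ℚ} (hx : Vge ℓ c x) : VS ℓ c (C x : PowerSeries ℚ) := fun n => by
  rw [coeff_C]
  split_ifs
  · exact hx
  · exact Vge.zero c

theorem VS.ofNat {ℓ : ℕ} (n : ℕ) [n.AtLeastTwo] : VS ℓ 0 (OfNat.ofNat n : PowerSeries ℚ) := by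
  rw [ofNat_eq_C]
  refine VS.C ?_
  have h : (OfNat.ofNat n : ℚ) = ((OfNat.ofNat n : ℕ) : ℚ) := Nat.cast_ofNat.symm
  rw [h]
  exact Vge.natCast _

/-! ### the series `t` -/

/-- the series `t = ∑ t_n q^n`, `12 t = 5 ∑ σ₃ q^n + 7 ∑ σ₅ q^n` -/
noncomputable def Ts : PowerSeries ℚ := PowerSeries.mk fun n => (tCoeff n : ℚ)

@[simp] theorem coeff_Ts (n : ℕ) : coeff n Ts = (tCoeff n : ℚ) := by simp [Ts]

theorem VS.Ts (ℓ : ℕ) : VS ℓ 0 Ts := fun n => by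
  rw [coeff_Ts]; exact Vge.intCast _

theorem twelve_mul_Ts : (12 : PowerSeries ℚ) * Ts = 5 * Sg 3 + 7 * Sg 5 := by
  ext n
  rw [ofNat_eq_C 12, ofNat_eq_C 5, ofNat_eq_C 7, map_add, coeff_C_mul, coeff_C_mul, coeff_C_mul,
    coeff_Ts, coeff_Sg, coeff_Sg]
  have := twelve_mul_tCoeff n
  have h2 : (12 : ℚ) * (tCoeff n : ℚ) = 5 * ((ArithmeticFunction.sigma 3 n : ℕ) : ℚ)
      + 7 * ((ArithmeticFunction.sigma 5 n : ℕ) : ℚ) := by exact_mod_cast this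
  exact h2

theorem E4s_eq : E4s = 1 + 240 * Sg 3 := by
  rw [E4s, smul_eq_C_mul, ofNat_eq_C 240]

theorem E6s_eq : E6s = 1 - 504 * Sg 5 := by
  rw [E6s, smul_eq_C_mul, ofNat_eq_C 504]

/-! ### `V_p` is a ring homomorphism -/

theorem Vp_ofNat_mul (p : ℕ) (n : ℕ) [n.AtLeastTwo] (F : PowerSeries ℚ) :
    Vp p (OfNat.ofNat n * F) = OfNat.ofNat n * Vp p F := by
  rw [ofNat_eq_C, ← smul_eq_C_mul, Vp_smul, smul_eq_C_mul]

theorem Vp_E4s_mul {p : ℕ} (hp : 0 < p) : Vp p E4s = 1 + 240 * Vp p (Sg 3) := by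
  rw [E4s_eq, Vp_add, Vp_one hp, Vp_ofNat_mul]

theorem Vp_E6s_mul {p : ℕ} (hp : 0 < p) : Vp p E6s = 1 - 504 * Vp p (Sg 5) := by
  rw [E6s_eq, Vp_sub, Vp_one hp, Vp_ofNat_mul]

theorem twelve_mul_Vp_Ts (p : ℕ) :
    (12 : PowerSeries ℚ) * Vp p Ts = 5 * Vp p (Sg 3) + 7 * Vp p (Sg 5) := by
  rw [← Vp_ofNat_mul, twelve_mul_Ts, Vp_add, Vp_ofNat_mul, Vp_ofNat_mul]

theorem Up_ofNat_mul (p : ℕ) (n : ℕ) [n.AtLeastTwo] (F : PowerSeries ℚ) :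
    Up p (OfNat.ofNat n * F) = OfNat.ofNat n * Up p F := by
  rw [ofNat_eq_C, ← smul_eq_C_mul, Up_smul, smul_eq_C_mul]

/-! ### the pair `Xi` -/

/-- closure of the pairs under the weight 8 polynomial `Xi`. -/
theorem WPairs.xi_mem {p : ℕ} (W : WPairs p) {A A' B B' D D' : PowerSeries ℚ}
    (hA : (A, A') ∈ W.P 2) (hB : (B, B') ∈ W.P 4) (hD : (D, D') ∈ W.P 6) :
    (xiPoly A B D, xiPoly A' B' D') ∈ W.P 8 := by
  have hA2 : (A * A, A' * A') ∈ W.P 4 := W.mul 2 2 _ _ _ _ hA hA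
  have hA4 : (A * A * (A * A), A' * A' * (A' * A')) ∈ W.P 8 := W.mul 4 4 _ _ _ _ hA2 hA2
  have hBA : (B * (A * A), B' * (A' * A')) ∈ W.P 8 := W.mul 4 4 _ _ _ _ hB hA2
  have hDA : (D * A, D' * A') ∈ W.P 8 := W.mul 6 2 _ _ _ _ hD hA
  have hBB : (B * B, B' * B') ∈ W.P 8 := W.mul 4 4 _ _ _ _ hB hB
  have h1 := W.smul 8 27 _ _ hA4
  have h2 := W.smul 8 (-18) _ _ hBA
  have h3 := W.smul 8 (-8) _ _ hDA
  have h4 := W.smul 8 (-1) _ _ hBB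
  have h := W.add 8 _ _ _ _ (W.add 8 _ _ _ _ (W.add 8 _ _ _ _ h1 h2) h3) h4
  have e : ∀ X Y Z : PowerSeries ℚ, xiPoly X Y Z =
      (27 : ℚ) • (X * X * (X * X)) + (-18 : ℚ) • (Y * (X * X)) + (-8 : ℚ) • (Z * X)
        + (-1 : ℚ) • (Y * Y) := by
    intro X Y Z
    unfold xiPoly
    simp only [smul_eq_C_mul, map_neg, map_ofNat, map_one]
    ring
  rw [e A B D, e A' B' D']
  exact h

/-! ### integrality of the remainders -/

section Integrality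

variable {ℓ : ℕ} [hℓ : Fact ℓ.Prime]

theorem VS.xiZOne {g a b t : PowerSeries ℚ} (hg : VS ℓ 0 g) (ha : VS ℓ 0 a) (hb : VS ℓ 0 b)
    (ht : VS ℓ 0 t) : VS ℓ 0 (xiZOne g a b t) := by
  unfold Fermat.Agent.S16.xiZOne
  repeat' first
    | exact VS.ofNat _
    | assumption
    | apply VS.add
    | apply VS.sub
    | apply VS.pow_zero
    | apply VS.mul_left

theorem VS.xiZFive {g a b t : PowerSeries ℚ} (hg : VS ℓ 0 g) (ha : VS ℓ 0 a) (hb : VS ℓ 0 b)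
    (ht : VS ℓ 0 t) : VS ℓ 0 (xiZFive g a b t) := by
  unfold Fermat.Agent.S16.xiZFive
  repeat' first
    | exact VS.ofNat _
    | assumption
    | apply VS.add
    | apply VS.sub
    | apply VS.pow_zero
    | apply VS.mul_left

end Integrality

/-! ### the leading part `S_m = V_m t + (V_m a)^2 = q^m + …` -/

theorem coeff_sq_of_le {m n : ℕ} (hm : 0 < m) {A : PowerSeries ℚ} (hA : ∀ i, i < m → coeff i A = 0)
    (hn : n ≤ m) : coeff n (A ^ 2) = 0 := by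
  rw [pow_two, coeff_mul]
  refine Finset.sum_eq_zero fun ij hij => ?_
  have hsum : ij.1 + ij.2 = n := Finset.HasAntidiagonal.mem_antidiagonal.mp hij
  by_cases h1 : ij.1 < m
  · rw [hA _ h1, zero_mul]
  · have h2 : ij.2 < m := by omega
    rw [hA _ h2, mul_zero]

theorem tCoeff_zero_cast : coeff 0 Ts = 0 := by simp [tCoeff_zero]

/-- the leading part -/
noncomputable def lead (m : ℕ) : PowerSeries ℚ := Vp m Ts + Vp m (Sg 3) ^ 2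

theorem coeff_lead_of_lt {m n : ℕ} (hn : n < m) : coeff n (lead m) = 0 := by
  have hm : 0 < m := by omega
  rw [lead, map_add, coeff_Vp_of_lt hn tCoeff_zero_cast,
    coeff_sq_of_le hm (fun i hi => coeff_Vp_of_lt hi (coeff_zero_Sg 3)) hn.le, add_zero]

theorem coeff_lead_self {m : ℕ} (hm : 0 < m) : coeff m (lead m) = 1 := by
  rw [lead, map_add, coeff_Vp_self hm,
    coeff_sq_of_le hm (fun i hi => coeff_Vp_of_lt hi (coeff_zero_Sg 3)) le_rfl, add_zero, coeff_Ts,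
    tCoeff_one]
  simp

theorem VS.lead (ℓ : ℕ) [Fact ℓ.Prime] (m : ℕ) : VS ℓ 0 (lead m) :=
  VS.add (VS.Vp (VS.Ts ℓ) m) (VS.pow_zero (VS.Vp (VS.Sg ℓ 3) m) 2)

/-! ### the core computation modulo 2 -/

theorem vge_two_mul {x : ℚ} (hx : Vge 2 0 x) : Vge 2 1 (2 * x) := by
  have : Fact (Nat.Prime 2) := ⟨Nat.prime_two⟩
  have := Vge.prime_pow_mul (ℓ := 2) (c := 1) (d := 0) hx
  simpa using this

theorem not_vge_one_add_two_mul {x : ℚ} (hx : Vge 2 0 x) : ¬ Vge 2 1 (1 + 2 * x) := by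
  have : Fact (Nat.Prime 2) := ⟨Nat.prime_two⟩
  intro h
  have h1 : Vge 2 1 (1 : ℚ) := by
    have := h.sub (vge_two_mul hx)
    simpa using this
  have hu : IsU 2 (1 : ℚ) := by
    have := IsU.natCast (ℓ := 2) (n := 1) (by decide)
    simpa using this
  exact hu.not_vge_one h1

/-- The core: for `c₀ ∈ {1, 5}` and a 2-integral `g`, the series
`F = Xi(c₀ + 8 g; V_m E4, V_m E6) / 256` is 2-integral, `≡ 0` modulo `(2, q^m)` and its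
`q^m`-coefficient is odd. -/
theorem xi_core {m : ℕ} (hm : 0 < m) {c₀ g : PowerSeries ℚ} (hc : c₀ = 1 ∨ c₀ = 5)
    (hg : VS 2 0 g) :
    VS 2 0 ((256 : ℚ)⁻¹ • xiPoly (c₀ + 8 * g) (Vp m E4s) (Vp m E6s)) ∧
    (∀ n, n < m → Vge 2 1 (coeff n ((256 : ℚ)⁻¹ • xiPoly (c₀ + 8 * g) (Vp m E4s) (Vp m E6s)))) ∧
    ¬ Vge 2 1 (coeff m ((256 : ℚ)⁻¹ • xiPoly (c₀ + 8 * g) (Vp m E4s) (Vp m E6s))) := by
  have : Fact (Nat.Prime 2) := ⟨Nat.prime_two⟩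
  obtain ⟨Z, hZ, hX⟩ : ∃ Z : PowerSeries ℚ, VS 2 0 Z ∧
      xiPoly (c₀ + 8 * g) (Vp m E4s) (Vp m E6s) = 256 * lead m + 512 * Z := by
    rcases hc with rfl | rfl
    · refine ⟨xiZOne g (Vp m (Sg 3)) (Vp m (Sg 5)) (Vp m Ts),
        VS.xiZOne hg (VS.Vp (VS.Sg 2 3) m) (VS.Vp (VS.Sg 2 5) m) (VS.Vp (VS.Ts 2) m), ?_⟩
      rw [Vp_E4s_mul hm, Vp_E6s_mul hm, lead]
      exact xi_formal_one g _ _ _ (twelve_mul_Vp_Ts m)
    · refine ⟨xiZFive g (Vp m (Sg 3)) (Vp m (Sg 5)) (Vp m Ts),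
        VS.xiZFive hg (VS.Vp (VS.Sg 2 3) m) (VS.Vp (VS.Sg 2 5) m) (VS.Vp (VS.Ts 2) m), ?_⟩
      rw [Vp_E4s_mul hm, Vp_E6s_mul hm, lead]
      exact xi_formal_five g _ _ _ (twelve_mul_Vp_Ts m)
  have hF : (256 : ℚ)⁻¹ • xiPoly (c₀ + 8 * g) (Vp m E4s) (Vp m E6s) = lead m + 2 * Z := by
    rw [hX]
    ext n
    rw [coeff_smul, map_add, map_add, ofNat_eq_C 256, ofNat_eq_C 512, ofNat_eq_C 2, coeff_C_mul,
      coeff_C_mul, coeff_C_mul, smul_eq_mul]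
    ring
  rw [hF]
  have hc2 : ∀ n, coeff n (lead m + 2 * Z) = coeff n (lead m) + 2 * coeff n Z := fun n => by
    rw [map_add, ofNat_eq_C 2, coeff_C_mul]
  refine ⟨VS.add (VS.lead 2 m) (VS.mul_left (VS.ofNat 2) hZ), fun n hn => ?_, ?_⟩
  · rw [hc2, coeff_lead_of_lt hn, zero_add]
    exact vge_two_mul (hZ n)
  · rw [hc2, coeff_lead_self hm]
    exact not_vge_one_add_two_mul (hZ m)

theorem Vp_one_eq (F : PowerSeries ℚ) : Vp 1 F = F := by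
  ext n
  rw [coeff_Vp, if_pos (one_dvd n), Nat.div_one]

/-- the constant `c₀ ∈ {1, 5}` with `-1/p ≡ c₀ mod 8` for `p ≡ 3 mod 4`. -/
theorem exists_c0 {p : ℕ} (h4 : p % 4 = 3) :
    ∃ (c₀ : ℚ) (s : ℚ), (c₀ = 1 ∨ c₀ = 5) ∧ Vge 2 0 s ∧ c₀ + 8 * s = -(p : ℚ)⁻¹ := by
  have : Fact (Nat.Prime 2) := ⟨Nat.prime_two⟩
  have hodd : ¬ 2 ∣ p := by omega
  have hpq : (p : ℚ) ≠ 0 := by
    have : p ≠ 0 := by omega
    exact_mod_cast this
  have hu : Vge 2 0 ((p : ℚ)⁻¹) := (IsU.natCast (ℓ := 2) hodd).inv.vge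
  have h8 : p % 8 = 7 ∨ p % 8 = 3 := by omega
  rcases h8 with h | h
  · obtain ⟨m, hm⟩ : ∃ m : ℕ, p + 1 = 8 * m := ⟨(p + 1) / 8, by omega⟩
    refine ⟨1, -((m : ℚ) * (p : ℚ)⁻¹), Or.inl rfl, (Vge.mul_left (Vge.natCast m) hu).neg, ?_⟩
    have hm' : (p : ℚ) + 1 = 8 * m := by exact_mod_cast hm
    field_simp
    linear_combination hm'
  · obtain ⟨m, hm⟩ : ∃ m : ℕ, 5 * p + 1 = 8 * m := ⟨(5 * p + 1) / 8, by omega⟩
    refine ⟨5, -((m : ℚ) * (p : ℚ)⁻¹), Or.inr rfl, (Vge.mul_left (Vge.natCast m) hu).neg, ?_⟩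
    have hm' : 5 * (p : ℚ) + 1 = 8 * m := by exact_mod_cast hm
    field_simp
    linear_combination hm'

/-- **`ℓ = 2`, `p ≡ 3 mod 4`**: there is no form of weight 2 on `Γ₀(p)` with 2-integral q-expansion
`≡ 1 mod 8`. -/
theorem xi_case {p : ℕ} (hp : p.Prime) (h4 : p % 4 = 3) (W : WPairs p) {G G' : PowerSeries ℚ}
    (hG : (G, G') ∈ W.P 2) (h1 : VS 2 3 (G - 1)) : False := by
  have h2 : Fact (Nat.Prime 2) := ⟨Nat.prime_two⟩
  have hp0 : 0 < p := hp.pos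
  have hpq : (p : ℚ) ≠ 0 := by exact_mod_cast hp.ne_zero
  have hodd : ¬ 2 ∣ p := by omega
  have h2p : 2 ≠ p := by rintro rfl; omega
  have hup : IsU 2 (p : ℚ) := IsU.natCast (ℓ := 2) hodd
  -- `G = 1 + 8 g`
  obtain ⟨g, hg, hGg⟩ : ∃ g : PowerSeries ℚ, VS 2 0 g ∧ G = 1 + 8 * g := by
    refine ⟨(8 : ℚ)⁻¹ • (G - 1), fun n => ?_, ?_⟩
    · rw [coeff_smul, smul_eq_mul]
      have := Vge.div_prime_pow (ℓ := 2) (c := 3) (d := 0) (h1 n)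
      have e : coeff n (G - 1) / ((2 : ℕ) : ℚ) ^ 3 = (8 : ℚ)⁻¹ * coeff n (G - 1) := by
        push_cast; ring
      rwa [e] at this
    · ext n
      rw [map_add, ofNat_eq_C 8, coeff_C_mul, coeff_smul, smul_eq_mul, map_sub]
      ring
  -- the pair `Xi / 256`
  have hG' : G' = -Up p G := W.tr2 _ _ hG
  have hF := W.smul 8 (256 : ℚ)⁻¹ _ _ (W.xi_mem hG W.e4 W.e6)
  -- the cusp `∞`
  have hinf := xi_core (m := 1) one_pos (c₀ := 1) (g := g) (Or.inl rfl) hg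
  rw [Vp_one_eq, Vp_one_eq, ← hGg] at hinf
  obtain ⟨hF0, hFa, hFne⟩ := hinf
  -- the cusp `0`
  obtain ⟨c₀q, s, hc₀, hs, hcs⟩ := exists_c0 h4
  have hg' : VS 2 0 (C s - (p : ℚ)⁻¹ • Up p g) :=
    VS.sub (VS.C hs) (VS.smul_left hup.inv.vge (VS.Up hg p))
  have hc₀' : (C c₀q : PowerSeries ℚ) = 1 ∨ (C c₀q : PowerSeries ℚ) = 5 := by
    rcases hc₀ with rfl | rfl
    · exact Or.inl (map_one _)
    · exact Or.inr (ofNat_eq_C 5).symm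
  have hzero := xi_core (m := p) hp0 (c₀ := C c₀q) (g := C s - (p : ℚ)⁻¹ • Up p g) hc₀' hg'
  have hUG : Up p G = 1 + 8 * Up p g := by
    rw [hGg, Up_add, Up_one hp0, Up_ofNat_mul]
  have hc : G' = C (p : ℚ) * (C c₀q + 8 * (C s - (p : ℚ)⁻¹ • Up p g)) := by
    have hC : (C c₀q : PowerSeries ℚ) + 8 * C s = -C ((p : ℚ)⁻¹) := by
      rw [ofNat_eq_C 8, ← map_mul, ← map_add, hcs, map_neg]
    have hP : (C (p : ℚ) : PowerSeries ℚ) * C ((p : ℚ)⁻¹) = 1 := by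
      rw [← map_mul, mul_inv_cancel₀ hpq, map_one]
    rw [hG', hUG, smul_eq_C_mul]
    linear_combination (-(C (p : ℚ)) : PowerSeries ℚ) * hC + (1 + 8 * Up p g) * hP
  have hX' : (256 : ℚ)⁻¹ • xiPoly G' (((p : ℚ) ^ 2) • Vp p E4s) (((p : ℚ) ^ 3) • Vp p E6s) =
      ((p : ℚ) ^ 4) • ((256 : ℚ)⁻¹ •
        xiPoly (C c₀q + 8 * (C s - (p : ℚ)⁻¹ • Up p g)) (Vp p E4s) (Vp p E6s)) := by
    rw [hc, smul_eq_C_mul (a := (p : ℚ) ^ 2), smul_eq_C_mul (a := (p : ℚ) ^ 3), map_pow, map_pow,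
      xiPoly_smul, smul_comm, smul_eq_C_mul (a := (p : ℚ) ^ 4), map_pow]
  rw [hX'] at hF
  obtain ⟨hZ0, hZb, hZne⟩ := hzero
  have hp4 : IsU 2 ((p : ℚ) ^ 4) := hup.pow 4
  refine W.contra Nat.prime_two h2p hF hF0 (VS.smul_left hp4.vge hZ0) 1 p hFa (fun n hn => ?_)
    (by omega) ⟨1, hFne⟩ ⟨p, ?_⟩
  · rw [coeff_smul, smul_eq_mul]
    exact Vge.mul_left hp4.vge (hZb n hn)
  · rw [coeff_smul, smul_eq_mul, hp4.mul_vge_iff]
    exact hZne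

end Fermat.Agent.S16.UA
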