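import Fermat.Agent.S16.UpperAlgCusp
import Fermat.Agent.S16.UpperAlgStarCases
import Fermat.Agent.S16.UpperAlgXi

/-!
# S16 upper bound, algebra side (helper6): the final statement

`upper` : for a prime `p > 5` and the interface `W : WPairs p`, every pair `(g, g') ∈ W.P 2`
whose coefficients `a_n(g)`, `n ≥ 1`, are integers has constant term in `(gcd(p-1,12)/24) ℤ`.
-/

set_option autoImplicit false
set_option linter.unusedSectionVars false
set_option linter.unusedVariables false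
set_option linter.style.haveILetI false

namespace Fermat.Agent.S16.UA

open PowerSeries

/-- a rational number which is `ℓ`-integral for every prime `ℓ` is an integer -/
theorem exists_int_of_forall_vge (x : ℚ) (h : ∀ ℓ : ℕ, ℓ.Prime → Vge ℓ 0 x) :
    ∃ z : ℤ, x = z := by
  have hden : x.den = 1 := by
    by_contra hne
    obtain ⟨ℓ, hℓ, hdvd⟩ := Nat.exists_prime_and_dvd hne
    have : Fact ℓ.Prime := ⟨hℓ⟩
    rcases h ℓ hℓ with h0 | h0
    · rw [h0] at hne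
      exact hne rfl
    · have hnum : ¬ (ℓ : ℤ) ∣ x.num := by
        intro hn
        have h1 : ℓ ∣ x.num.natAbs := Int.natCast_dvd.mp hn
        have h2 := Nat.dvd_gcd h1 hdvd
        have h3 : x.num.natAbs.gcd x.den = 1 := x.reduced
        rw [h3] at h2
        exact hℓ.one_lt.ne' (Nat.dvd_one.mp h2)
      have e : padicValRat ℓ x = (padicValInt ℓ x.num : ℤ) - (padicValNat ℓ x.den : ℤ) := rfl
      have h4 : 1 ≤ padicValNat ℓ x.den :=
        one_le_padicValNat_of_dvd x.den_nz hdvd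
      have h5 : padicValRat ℓ x < 0 := by
        rw [e, padicValInt.eq_zero_of_not_dvd hnum]
        have : (1 : ℤ) ≤ (padicValNat ℓ x.den : ℤ) := by exact_mod_cast h4
        simp only [Nat.cast_zero, zero_sub]
        omega
      have h6 : (0 : ℤ) ≤ padicValRat ℓ x := by exact_mod_cast h0
      omega
  exact ⟨x.num, by
    conv_lhs => rw [← Rat.num_div_den x, hden]
    simp⟩

variable {p : ℕ}

/-- the reduction: if there is no `G ≡ 1 mod ℓ^(c+1)`, then `ℓ^c a` is `ℓ`-integral -/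
theorem vge_of_no_cong {ℓ : ℕ} [hℓ : Fact ℓ.Prime] (W : WPairs p) (c : ℕ)
    (hno : ∀ G G' : PowerSeries ℚ, (G, G') ∈ W.P 2 → VS ℓ (c + 1) (G - 1) → False)
    {g g' : PowerSeries ℚ} (hg : (g, g') ∈ W.P 2)
    (hint : ∀ n, 1 ≤ n → ∃ z : ℤ, coeff n g = z) :
    Vge ℓ 0 ((ℓ : ℚ) ^ c * coeff 0 g) := by
  by_contra hcon
  have hℓ0 : (ℓ : ℚ) ^ c ≠ 0 := pow_ne_zero _ (by exact_mod_cast hℓ.out.ne_zero)
  have ha : coeff 0 g ≠ 0 := fun h => hcon (Or.inl (by rw [h, mul_zero]))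
  have hb : Vge ℓ (c + 1) (coeff 0 g)⁻¹ := by
    have h1 : Vge ℓ 1 ((ℓ : ℚ) ^ c * coeff 0 g)⁻¹ := vge_one_inv_of_not_vge_zero hcon
    have := (Vge.prime_pow (ℓ := ℓ) c).mul h1
    rwa [mul_inv, ← mul_assoc, mul_inv_cancel₀ hℓ0, one_mul] at this
  refine hno ((coeff 0 g)⁻¹ • g) ((coeff 0 g)⁻¹ • g') (W.smul 2 _ _ _ hg) ?_
  have e : (coeff 0 g)⁻¹ • g - 1 = (coeff 0 g)⁻¹ • (g - C (coeff 0 g)) := by
    rw [smul_sub, smul_eq_C_mul (C (coeff 0 g)), ← map_mul, inv_mul_cancel₀ ha, map_one]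
  rw [e]
  exact VS.smul_right hb ((isZ_sub_C hint).vs ℓ)

theorem not_dvd_of_prime_gt {ℓ n : ℕ} (hℓ : ℓ.Prime) (hn : 0 < n)
    (h : ∀ q : ℕ, q.Prime → q ∣ n → q ≠ ℓ) : ¬ ℓ ∣ n := fun hd => h ℓ hℓ hd rfl

/-- primes dividing `240` -/
theorem prime_dvd_240 {ℓ : ℕ} (hℓ : ℓ.Prime) (h : ℓ ∣ 240) : ℓ = 2 ∨ ℓ = 3 ∨ ℓ = 5 := by
  have e : (240 : ℕ) = 2 ^ 4 * 3 * 5 := by norm_num
  rw [e] at h
  rcases (Nat.Prime.dvd_mul hℓ).mp h with h | h
  · rcases (Nat.Prime.dvd_mul hℓ).mp h with h | h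
    · left
      exact (Nat.prime_dvd_prime_iff_eq hℓ Nat.prime_two).mp (hℓ.dvd_of_dvd_pow h)
    · right; left
      exact (Nat.prime_dvd_prime_iff_eq hℓ Nat.prime_three).mp h
  · right; right
    exact (Nat.prime_dvd_prime_iff_eq hℓ Nat.prime_five).mp h

/-- **The upper bound, algebra side.** -/
theorem upper (p : ℕ) [hpF : Fact p.Prime] (hp : 5 < p) (W : WPairs p) (g g' : PowerSeries ℚ)
    (hg : (g, g') ∈ W.P 2) (hint : ∀ n, 1 ≤ n → ∃ z : ℤ, coeff n g = z) :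
    ∃ z : ℤ, coeff 0 g = (Nat.gcd (p - 1) 12 : ℚ) / 24 * z := by
  have hpp : p.Prime := hpF.out
  set a : ℚ := coeff 0 g with ha
  have h2p : ¬ 2 ∣ p := fun h => by
    have := (Nat.prime_dvd_prime_iff_eq Nat.prime_two hpp).mp h
    omega
  have h3p : ¬ 3 ∣ p := fun h => by
    have := (Nat.prime_dvd_prime_iff_eq Nat.prime_three hpp).mp h
    omega
  have h5p : ¬ 5 ∣ p := fun h => by
    have := (Nat.prime_dvd_prime_iff_eq Nat.prime_five hpp).mp h
    omega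
  -- (A) primes `ℓ ≠ 2, 3`
  have hA : ∀ ℓ : ℕ, ℓ.Prime → ℓ ≠ 2 → ℓ ≠ 3 → Vge ℓ 0 a := by
    intro ℓ hℓ hℓ2 hℓ3
    have : Fact ℓ.Prime := ⟨hℓ⟩
    by_cases hℓp : ℓ = p
    · subst hℓp
      refine vge_of_star hpp W ?_ ?_ hg hint
      · intro h
        rcases prime_dvd_240 hpp h with h | h | h <;> omega
      · intro h
        have := (Nat.dvd_add_right (dvd_refl ℓ)).mp h
        exact hpp.one_lt.ne' (Nat.dvd_one.mp this)
    · by_cases h240 : ℓ ∣ 240
      · have h5 : ℓ = 5 := by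
          rcases prime_dvd_240 hℓ h240 with h | h | h
          · exact absurd h hℓ2
          · exact absurd h hℓ3
          · exact h
        subst h5
        have := vge_of_no_cong W 0 (fun G G' hG h1 =>
          no_cong_one_e6 hpp W hℓp (by norm_num) hG h1) hg hint
        rwa [pow_zero, one_mul] at this
      · have := vge_of_no_cong W 0 (fun G G' hG h1 =>
          no_cong_one_e4 hpp W hℓp h240 hG h1) hg hint
        rwa [pow_zero, one_mul] at this
  -- (B) the prime 3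
  have hB1 : p % 3 = 1 → Vge 3 0 a := fun h => vge_three_of_star hpp h W hg hint
  have hB2 : p % 3 = 2 → Vge 3 0 (3 * a) := fun h => by
    have : Fact (Nat.Prime 3) := ⟨Nat.prime_three⟩
    have := vge_of_no_cong (ℓ := 3) W 1 (fun G G' hG h1 =>
      no_cong_one_nine hpp h W hG h1) hg hint
    rwa [pow_one, Nat.cast_ofNat] at this
  -- (C) the prime 2
  have hC1 : p % 4 = 1 → Vge 2 0 (2 * a) := fun h => vge_two_of_star hpp h W hg hint
  have hC2 : p % 4 = 3 → Vge 2 0 (4 * a) := fun h => by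
    have : Fact (Nat.Prime 2) := ⟨Nat.prime_two⟩
    have := vge_of_no_cong (ℓ := 2) W 2 (fun G G' hG h1 =>
      xi_case hpp h W hG h1) hg hint
    have e : (((2 : ℕ) : ℚ)) ^ 2 = 4 := by norm_num
    rwa [e] at this
  -- the gcd
  have hgcd : Nat.gcd (p - 1) 12 = Nat.gcd ((p - 1) % 12) 12 := by
    rw [Nat.gcd_comm, Nat.gcd_rec]
  have hmod : p % 12 = 1 ∨ p % 12 = 5 ∨ p % 12 = 7 ∨ p % 12 = 11 := by
    have h2 : p % 2 = 1 := by omega
    have h3 : p % 3 ≠ 0 := fun h => h3p (Nat.dvd_of_mod_eq_zero h)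
    omega
  -- integrality of `x = 24 a / d` at every prime
  have key : ∀ (d : ℕ) (c : ℚ), Nat.gcd (p - 1) 12 = d → (24 : ℚ) / d = c →
      (∀ ℓ : ℕ, ℓ.Prime → Vge ℓ 0 (c * a)) →
      ∃ z : ℤ, a = (Nat.gcd (p - 1) 12 : ℚ) / 24 * z := by
    intro d c hd hc hall
    obtain ⟨z, hz⟩ := exists_int_of_forall_vge (c * a) hall
    refine ⟨z, ?_⟩
    have hd0 : (d : ℚ) ≠ 0 := by
      rw [← hd]
      exact_mod_cast (Nat.gcd_pos_of_pos_right _ (by norm_num : 0 < 12)).ne'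
    rw [hd, ← hz, ← hc]
    field_simp
  have int_mul : ∀ (ℓ : ℕ) [Fact ℓ.Prime] (n : ℕ) (x : ℚ), Vge ℓ 0 x → Vge ℓ 0 ((n : ℚ) * x) :=
    fun ℓ _ n x hx => (Vge.natCast n).mul_left hx
  have split : ∀ ℓ : ℕ, ℓ.Prime → ℓ = 2 ∨ ℓ = 3 ∨ (ℓ ≠ 2 ∧ ℓ ≠ 3) := by
    intro ℓ _
    by_cases h2 : ℓ = 2
    · exact Or.inl h2
    · by_cases h3 : ℓ = 3
      · exact Or.inr (Or.inl h3)
      · exact Or.inr (Or.inr ⟨h2, h3⟩)
  have f2 : Fact (Nat.Prime 2) := ⟨Nat.prime_two⟩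
  have f3 : Fact (Nat.Prime 3) := ⟨Nat.prime_three⟩
  rcases hmod with h12 | h12 | h12 | h12
  · -- p = 1 mod 12, d = 12, x = 2 a
    have hd : Nat.gcd (p - 1) 12 = 12 := by
      rw [hgcd, show (p - 1) % 12 = 0 by omega]; rfl
    refine key 12 2 hd (by norm_num) fun ℓ hℓ => ?_
    have : Fact ℓ.Prime := ⟨hℓ⟩
    rcases split ℓ hℓ with rfl | rfl | ⟨h2, h3⟩
    · exact hC1 (by omega)
    · have := int_mul 3 2 a (hB1 (by omega))
      simpa using this
    · have := int_mul ℓ 2 a (hA ℓ hℓ h2 h3)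
      simpa using this
  · -- p = 5 mod 12, d = 4, x = 6 a
    have hd : Nat.gcd (p - 1) 12 = 4 := by
      rw [hgcd, show (p - 1) % 12 = 4 by omega]; rfl
    refine key 4 6 hd (by norm_num) fun ℓ hℓ => ?_
    have : Fact ℓ.Prime := ⟨hℓ⟩
    rcases split ℓ hℓ with rfl | rfl | ⟨h2, h3⟩
    · have := int_mul 2 3 (2 * a) (hC1 (by omega))
      have e : ((3 : ℕ) : ℚ) * (2 * a) = 6 * a := by push_cast; ring
      rwa [e] at this
    · have := int_mul 3 2 (3 * a) (hB2 (by omega))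
      have e : ((2 : ℕ) : ℚ) * (3 * a) = 6 * a := by push_cast; ring
      rwa [e] at this
    · have := int_mul ℓ 6 a (hA ℓ hℓ h2 h3)
      simpa using this
  · -- p = 7 mod 12, d = 6, x = 4 a
    have hd : Nat.gcd (p - 1) 12 = 6 := by
      rw [hgcd, show (p - 1) % 12 = 6 by omega]; rfl
    refine key 6 4 hd (by norm_num) fun ℓ hℓ => ?_
    have : Fact ℓ.Prime := ⟨hℓ⟩
    rcases split ℓ hℓ with rfl | rfl | ⟨h2, h3⟩
    · exact hC2 (by omega)
    · have := int_mul 3 4 a (hB1 (by omega))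
      simpa using this
    · have := int_mul ℓ 4 a (hA ℓ hℓ h2 h3)
      simpa using this
  · -- p = 11 mod 12, d = 2, x = 12 a
    have hd : Nat.gcd (p - 1) 12 = 2 := by
      rw [hgcd, show (p - 1) % 12 = 10 by omega]; rfl
    refine key 2 12 hd (by norm_num) fun ℓ hℓ => ?_
    have : Fact ℓ.Prime := ⟨hℓ⟩
    rcases split ℓ hℓ with rfl | rfl | ⟨h2, h3⟩
    · have := int_mul 2 3 (4 * a) (hC2 (by omega))
      have e : ((3 : ℕ) : ℚ) * (4 * a) = 12 * a := by push_cast; ring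
      rwa [e] at this
    · have := int_mul 3 4 (3 * a) (hB2 (by omega))
      have e : ((4 : ℕ) : ℚ) * (3 * a) = 12 * a := by push_cast; ring
      rwa [e] at this
    · have := int_mul ℓ 12 a (hA ℓ hℓ h2 h3)
      simpa using this

end Fermat.Agent.S16.UA
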