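import Fermat.Agent.S16.UpperAlgTools

/-!
# S16 upper bound, algebra side (helper6): the cases settled by the two-cusp bound

* `no_cong_one_e4` : `ℓ ∤ 240 p`: no `G` with `G ≡ 1 mod ℓ`   (`F = G² - p⁻² E₄`, weight 4);
* `no_cong_one_e6` : `ℓ ∤ 504 p`: no `G` with `G ≡ 1 mod ℓ`   (`F = G³ + p⁻³ E₆`, weight 6);
* `no_cong_one_nine` : `p ≡ 2 mod 3`: no `G` with `G ≡ 1 mod 9`
  (`F = (G³ - E₆)/9 - k' E₆`, `k' = (1 + p³)/9`, weight 6).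
-/

set_option autoImplicit false
set_option linter.unusedSectionVars false
set_option linter.unusedVariables false

namespace Fermat.Agent.S16.UA

open PowerSeries

variable {p : ℕ}

theorem isU_prime_of_ne {ℓ : ℕ} [hℓ : Fact ℓ.Prime] (hp : p.Prime) (hℓp : ℓ ≠ p) :
    IsU ℓ (p : ℚ) :=
  IsU.natCast fun h => hℓp ((Nat.prime_dvd_prime_iff_eq hℓ.out hp).mp h)

/-- `ℓ ∤ 240 p`: there is no weight 2 form `G ≡ 1 mod ℓ` on `Γ₀(p)`. -/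
theorem no_cong_one_e4 (hp : p.Prime) (W : WPairs p) {ℓ : ℕ} [hℓ : Fact ℓ.Prime]
    (hℓp : ℓ ≠ p) (hℓ240 : ¬ ℓ ∣ 240) {G G' : PowerSeries ℚ} (hG : (G, G') ∈ W.P 2)
    (h1 : VS ℓ 1 (G - 1)) : False := by
  have hp0 : 0 < p := hp.pos
  have hG' : G' = -Up p G := W.tr2 _ _ hG
  have hpU : IsU ℓ (p : ℚ) := isU_prime_of_ne hp hℓp
  have hcU : IsU ℓ (((p : ℚ) ^ 2)⁻¹) := (hpU.pow 2).inv
  have h240 : IsU ℓ (240 : ℚ) := by
    have := IsU.natCast (ℓ := ℓ) hℓ240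
    simpa using this
  have hGint : VS ℓ 0 G := h1.of_sub_one
  have hU1 : VS ℓ 1 (Up p G - 1) := vs_Up_sub_one hp0 h1
  have hUint : VS ℓ 0 (Up p G) := hGint.Up p
  -- the pair
  have hpair : (G * G - ((p : ℚ) ^ 2)⁻¹ • E4s, G' * G' - Vp p E4s) ∈ W.P 4 := by
    have h4 : (G * G, G' * G') ∈ W.P 4 := W.mul 2 2 _ _ _ _ hG hG
    have h5 := W.smul 4 (((p : ℚ) ^ 2)⁻¹) _ _ W.e4
    have h6 := W.sub h4 h5
    have e : ((p : ℚ) ^ 2)⁻¹ • ((p : ℚ) ^ 2 • Vp p E4s) = Vp p E4s := by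
      rw [smul_smul, inv_mul_cancel₀ (pow_ne_zero _ hpU.ne_zero), one_smul]
    rwa [e] at h6
  have hF'eq : G' * G' - Vp p E4s = (Up p G * Up p G - 1) - (240 : ℚ) • Vp p (Sg 3) := by
    rw [hG', Vp_E4s hp0]; ring
  have hFeq : G * G - ((p : ℚ) ^ 2)⁻¹ • E4s
      = (G * G - 1) + (1 - ((p : ℚ) ^ 2)⁻¹) • 1 - (((p : ℚ) ^ 2)⁻¹ * 240) • Sg 3 := by
    rw [E4s, smul_add, sub_smul, one_smul, mul_smul]; ring
  have hsq' : VS ℓ 1 (Up p G * Up p G - 1) := hU1.sq_sub_one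
  have hsq : VS ℓ 1 (G * G - 1) := h1.sq_sub_one
  refine W.contra hℓ.out hℓp hpair ?_ ?_ 0 p (fun n hn => absurd hn (Nat.not_lt_zero n)) ?_
    (by omega) ⟨1, ?_⟩ ⟨p, ?_⟩
  · exact (hGint.mul_left hGint).sub (VS.smul_left hcU.vge (vs_E4s ℓ))
  · rw [hG']
    exact (hUint.neg.mul_left hUint.neg).sub ((vs_E4s ℓ).Vp p)
  · intro n hn
    rw [hF'eq, map_sub, coeff_smul, coeff_Vp_of_lt hn (coeff_zero_Sg 3), smul_zero, sub_zero]
    exact hsq' n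
  · rw [hFeq]
    intro h
    have h2 : Vge ℓ 1 (coeff 1 (G * G - 1)) := hsq 1
    have h3 : coeff 1 ((G * G - 1) + (1 - ((p : ℚ) ^ 2)⁻¹) • (1 : PowerSeries ℚ)
        - (((p : ℚ) ^ 2)⁻¹ * 240) • Sg 3) = coeff 1 (G * G - 1) - ((p : ℚ) ^ 2)⁻¹ * 240 := by
      simp only [map_sub, map_add, coeff_smul, coeff_one_Sg, coeff_one, smul_eq_mul]
      simp
    rw [h3] at h
    have h4 := h2.sub h
    rw [sub_sub_cancel] at h4
    exact (hcU.mul h240).not_vge_one h4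
  · rw [hF'eq]
    intro h
    have h2 : Vge ℓ 1 (coeff p (Up p G * Up p G - 1)) := hsq' p
    rw [map_sub, coeff_smul, coeff_Vp_self hp0, coeff_one_Sg, smul_eq_mul, mul_one] at h
    have h4 := h2.sub h
    rw [sub_sub_cancel] at h4
    exact h240.not_vge_one h4

/-- `ℓ ∤ 504 p`: there is no weight 2 form `G ≡ 1 mod ℓ` on `Γ₀(p)`. -/
theorem no_cong_one_e6 (hp : p.Prime) (W : WPairs p) {ℓ : ℕ} [hℓ : Fact ℓ.Prime]
    (hℓp : ℓ ≠ p) (hℓ504 : ¬ ℓ ∣ 504) {G G' : PowerSeries ℚ} (hG : (G, G') ∈ W.P 2)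
    (h1 : VS ℓ 1 (G - 1)) : False := by
  have hp0 : 0 < p := hp.pos
  have hp1 : 1 < p := hp.one_lt
  have hG' : G' = -Up p G := W.tr2 _ _ hG
  have hpU : IsU ℓ (p : ℚ) := isU_prime_of_ne hp hℓp
  have hcU : IsU ℓ (((p : ℚ) ^ 3)⁻¹) := (hpU.pow 3).inv
  have h504 : IsU ℓ (504 : ℚ) := by
    have := IsU.natCast (ℓ := ℓ) hℓ504
    simpa using this
  have hGint : VS ℓ 0 G := h1.of_sub_one
  have hU1 : VS ℓ 1 (Up p G - 1) := vs_Up_sub_one hp0 h1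
  have hUint : VS ℓ 0 (Up p G) := hGint.Up p
  -- the pair
  have hpair : (G * G * G + ((p : ℚ) ^ 3)⁻¹ • E6s, G' * G' * G' + Vp p E6s) ∈ W.P 6 := by
    have h4 : (G * G * G, G' * G' * G') ∈ W.P 6 := W.mul 4 2 _ _ _ _ (W.mul 2 2 _ _ _ _ hG hG) hG
    have h5 := W.smul 6 (((p : ℚ) ^ 3)⁻¹) _ _ W.e6
    have h6 := W.add 6 _ _ _ _ h4 h5
    have e : ((p : ℚ) ^ 3)⁻¹ • ((p : ℚ) ^ 3 • Vp p E6s) = Vp p E6s := by
      rw [smul_smul, inv_mul_cancel₀ (pow_ne_zero _ hpU.ne_zero), one_smul]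
    rwa [e] at h6
  have hF'eq : G' * G' * G' + Vp p E6s
      = -(Up p G * Up p G * Up p G - 1) - (504 : ℚ) • Vp p (Sg 5) := by
    rw [hG', Vp_E6s hp0]; ring
  have hFeq : G * G * G + ((p : ℚ) ^ 3)⁻¹ • E6s
      = (G * G * G - 1) + (1 + ((p : ℚ) ^ 3)⁻¹) • 1 - (((p : ℚ) ^ 3)⁻¹ * 504) • Sg 5 := by
    rw [E6s, smul_sub, add_smul, one_smul, mul_smul]; ring
  have hcu' : VS ℓ 1 (Up p G * Up p G * Up p G - 1) := hU1.cube_sub_one
  have hcu : VS ℓ 1 (G * G * G - 1) := h1.cube_sub_one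
  refine W.contra hℓ.out hℓp hpair ?_ ?_ 0 p (fun n hn => absurd hn (Nat.not_lt_zero n)) ?_
    (by omega) ⟨1, ?_⟩ ⟨p, ?_⟩
  · exact ((hGint.mul_left hGint).mul_left hGint).add (VS.smul_left hcU.vge (vs_E6s ℓ))
  · rw [hG']
    exact ((hUint.neg.mul_left hUint.neg).mul_left hUint.neg).add ((vs_E6s ℓ).Vp p)
  · intro n hn
    rw [hF'eq, map_sub, coeff_smul, coeff_Vp_of_lt hn (coeff_zero_Sg 5), smul_zero, sub_zero]
    exact (hcu'.neg) n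
  · rw [hFeq]
    intro h
    have h2 : Vge ℓ 1 (coeff 1 (G * G * G - 1)) := hcu 1
    have h3 : coeff 1 ((G * G * G - 1) + (1 + ((p : ℚ) ^ 3)⁻¹) • (1 : PowerSeries ℚ)
        - (((p : ℚ) ^ 3)⁻¹ * 504) • Sg 5)
        = coeff 1 (G * G * G - 1) - ((p : ℚ) ^ 3)⁻¹ * 504 := by
      simp only [map_sub, map_add, coeff_smul, coeff_one_Sg, coeff_one, smul_eq_mul]
      simp
    rw [h3] at h
    have h4 := h2.sub h
    rw [sub_sub_cancel] at h4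
    exact (hcU.mul h504).not_vge_one h4
  · rw [hF'eq]
    intro h
    have h2 : Vge ℓ 1 (coeff p (-(Up p G * Up p G * Up p G - 1))) := hcu'.neg p
    rw [map_sub, coeff_smul, coeff_Vp_self hp0, coeff_one_Sg, smul_eq_mul, mul_one] at h
    have h4 := h2.sub h
    rw [sub_sub_cancel] at h4
    exact h504.not_vge_one h4

end Fermat.Agent.S16.UA
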