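import Fermat.Agent.S16.UpperAlgTools

/-!
# S16 upper bound, algebra side (helper6): the trace identity `(*)` in weight 4

For a pair `(g, g') ∈ P 2` with constant term `a`, `h = g - a`, `hu = U_p g - a`:
`U_p hu = h` and for all `n`
`2 (p+1) a h_n + p (h²)_n + (hu²)_(pn) = 240 (p+1) a² σ₃(n)`.
-/

set_option autoImplicit false
set_option linter.unusedSectionVars false
set_option linter.unusedVariables false

namespace Fermat.Agent.S16.UA

open PowerSeries

variable {p : ℕ}

/-- `U_p² = 1` on weight 2 forms -/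
theorem Up_Up_of_mem (W : WPairs p) {g g' : PowerSeries ℚ} (hg : (g, g') ∈ W.P 2) :
    Up p (Up p g) = g := by
  have h1 : g' = -Up p g := W.tr2 _ _ hg
  have h2 : g = -Up p g' := W.tr2 _ _ (W.symm 2 _ _ (by decide) hg)
  rw [h1, Up_neg, neg_neg] at h2
  exact h2.symm

/-- the pair `(U_p g, -g)` -/
theorem Up_mem (W : WPairs p) {g g' : PowerSeries ℚ} (hg : (g, g') ∈ W.P 2) :
    (Up p g, -g) ∈ W.P 2 := by
  have h1 : g' = -Up p g := W.tr2 _ _ hg
  have h2 := W.neg (W.symm 2 _ _ (by decide) hg)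
  rwa [h1, neg_neg] at h2

theorem coeff_zero_Up (g : PowerSeries ℚ) : coeff 0 (Up p g) = coeff 0 g := by
  rw [coeff_Up, mul_zero]

/-- the trace identity `(*)`, coefficientwise -/
theorem star_identity (hp : p.Prime) (W : WPairs p) {g g' : PowerSeries ℚ}
    (hg : (g, g') ∈ W.P 2) (n : ℕ) :
    2 * ((p : ℚ) + 1) * coeff 0 g * coeff n (g - C (coeff 0 g))
      + (p : ℚ) * coeff n ((g - C (coeff 0 g)) * (g - C (coeff 0 g)))
      + coeff (p * n) ((Up p g - C (coeff 0 g)) * (Up p g - C (coeff 0 g)))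
      = 240 * ((p : ℚ) + 1) * (coeff 0 g) ^ 2 * (ArithmeticFunction.sigma 3 n : ℚ) := by
  have hp0 : 0 < p := hp.pos
  have hpq : (p : ℚ) ≠ 0 := by exact_mod_cast hp0.ne'
  set a : ℚ := coeff 0 g with ha
  set u : PowerSeries ℚ := Up p g with hu
  have h1 : g' = -u := W.tr2 _ _ hg
  have hUU : Up p u = g := Up_Up_of_mem W hg
  have h4 : (g * g, g' * g') ∈ W.P 4 := W.mul 2 2 _ _ _ _ hg hg
  have htr := W.tr4 _ _ h4
  have e1 : g' * g' = u * u := by rw [h1]; ring
  rw [e1] at htr
  have hc0 : coeff 0 (g * g) = a * a := by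
    rw [coeff_zero_eq_constantCoeff, map_mul, ← coeff_zero_eq_constantCoeff, ← ha]
  have hc0' : coeff 0 (u * u) = a * a := by
    rw [coeff_zero_eq_constantCoeff, map_mul, ← coeff_zero_eq_constantCoeff, hu, coeff_zero_Up,
      ← ha]
  rw [hc0, hc0'] at htr
  have htn := congrArg (coeff n) htr
  rw [map_add, coeff_smul, coeff_smul, coeff_Up, smul_eq_mul, smul_eq_mul, E4s, map_add,
    coeff_smul, coeff_Sg, smul_eq_mul] at htn
  -- expand the squares
  set h : PowerSeries ℚ := g - C a with hh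
  set w : PowerSeries ℚ := u - C a with hw
  have eg : g * g = C (a * a) + C (2 * a) * h + h * h := by
    rw [hh, map_mul, map_mul]
    have : (C (2 : ℚ) : PowerSeries ℚ) = 2 := map_ofNat (C (R := ℚ)) 2
    rw [this]; ring
  have eu : u * u = C (a * a) + C (2 * a) * w + w * w := by
    rw [hw, map_mul, map_mul]
    have : (C (2 : ℚ) : PowerSeries ℚ) = 2 := map_ofNat (C (R := ℚ)) 2
    rw [this]; ring
  have hwn : coeff (p * n) w = coeff n h := by
    rw [hw, hh, map_sub, map_sub, ← coeff_Up, hUU, coeff_C, coeff_C]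
    by_cases hn : n = 0
    · simp [hn]
    · have : p * n ≠ 0 := Nat.mul_ne_zero hp0.ne' hn
      simp [hn, this]
  rw [eg, eu] at htn
  simp only [map_add, coeff_C_mul, hwn, coeff_C, coeff_one] at htn
  by_cases hn : n = 0
  · subst hn
    have h0 : coeff 0 h = 0 := by rw [hh, map_sub, coeff_C]; simp [ha]
    have h00 : coeff 0 (h * h) = 0 := by
      rw [coeff_zero_eq_constantCoeff, map_mul, ← coeff_zero_eq_constantCoeff, h0, mul_zero]
    have hw0 : coeff 0 w = 0 := by
      rw [hw, map_sub, coeff_C, hu, coeff_zero_Up]; simp [ha]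
    have hw00 : coeff (p * 0) (w * w) = 0 := by
      rw [mul_zero, coeff_zero_eq_constantCoeff, map_mul, ← coeff_zero_eq_constantCoeff, hw0,
        mul_zero]
    rw [h0, h00, hw00]
    simp
  · have hpn : p * n ≠ 0 := Nat.mul_ne_zero hp0.ne' hn
    simp only [hn, hpn, if_false] at htn
    field_simp at htn
    linear_combination htn

end Fermat.Agent.S16.UA
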