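import Fermat.Agent.S16.UpperAlgBasic

/-!
# S16 upper bound, algebra side (helper6): tools

`Vp` is Mathlib's `PowerSeries.expand` (hence multiplicative), coefficients of `Vp`, pairs
`WPairs.sub`, the generic contradiction from the two-cusp bound.
-/

set_option autoImplicit false
set_option linter.unusedSectionVars false

namespace Fermat.Agent.S16.UA

open PowerSeries

theorem Vp_eq_expand {p : ℕ} (hp : p ≠ 0) (F : PowerSeries ℚ) : Vp p F = expand p hp F := by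
  ext n
  rw [coeff_Vp, coeff_expand]

theorem Vp_one {p : ℕ} (hp : 0 < p) : Vp p 1 = 1 := by
  rw [Vp_eq_expand hp.ne', map_one]

theorem Vp_mul {p : ℕ} (hp : 0 < p) (F G : PowerSeries ℚ) : Vp p (F * G) = Vp p F * Vp p G := by
  rw [Vp_eq_expand hp.ne', Vp_eq_expand hp.ne', Vp_eq_expand hp.ne', map_mul]

theorem Vp_add (p : ℕ) (F G : PowerSeries ℚ) : Vp p (F + G) = Vp p F + Vp p G := by
  ext n
  simp only [coeff_Vp, map_add]
  split_ifs <;> simp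

theorem Vp_sub (p : ℕ) (F G : PowerSeries ℚ) : Vp p (F - G) = Vp p F - Vp p G := by
  ext n
  simp only [coeff_Vp, map_sub]
  split_ifs <;> simp

theorem Vp_smul (p : ℕ) (x : ℚ) (F : PowerSeries ℚ) : Vp p (x • F) = x • Vp p F := by
  ext n
  simp only [coeff_Vp, coeff_smul, smul_eq_mul]
  split_ifs <;> simp

theorem coeff_Vp_zero (p : ℕ) (F : PowerSeries ℚ) : coeff 0 (Vp p F) = coeff 0 F := by
  rw [coeff_Vp]
  simp

theorem coeff_Vp_self {p : ℕ} (hp : 0 < p) (F : PowerSeries ℚ) :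
    coeff p (Vp p F) = coeff 1 F := by
  rw [coeff_Vp, if_pos dvd_rfl, Nat.div_self hp]

/-- if `F` has no constant term, `V_p F` has order at least `p` -/
theorem coeff_Vp_of_lt {p n : ℕ} (hn : n < p) {F : PowerSeries ℚ} (hF : coeff 0 F = 0) :
    coeff n (Vp p F) = 0 := by
  rw [coeff_Vp]
  split_ifs with h
  · have : n = 0 := Nat.eq_zero_of_dvd_of_lt h hn
    subst this
    simpa using hF
  · rfl

theorem coeff_zero_Sg (k : ℕ) : coeff 0 (Sg k) = 0 := by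
  rw [coeff_Sg]
  simp

theorem coeff_one_Sg (k : ℕ) : coeff 1 (Sg k) = 1 := by
  rw [coeff_Sg]
  simp

theorem Vp_E4s {p : ℕ} (hp : 0 < p) : Vp p E4s = 1 + (240 : ℚ) • Vp p (Sg 3) := by
  rw [E4s, Vp_add, Vp_one hp, Vp_smul]

theorem Vp_E6s {p : ℕ} (hp : 0 < p) : Vp p E6s = 1 - (504 : ℚ) • Vp p (Sg 5) := by
  rw [E6s, Vp_sub, Vp_one hp, Vp_smul]

theorem vge_ofNat (ℓ n : ℕ) [n.AtLeastTwo] : Vge ℓ 0 (OfNat.ofNat n : ℚ) := by
  have h := Vge.natCast (ℓ := ℓ) n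
  rwa [← Nat.cast_ofNat (R := ℚ) (n := n)]

theorem vs_E4s (ℓ : ℕ) [Fact ℓ.Prime] : VS ℓ 0 E4s :=
  VS.one.add (VS.smul_left (vge_ofNat ℓ 240) (VS.Sg ℓ 3))

theorem vs_E6s (ℓ : ℕ) [Fact ℓ.Prime] : VS ℓ 0 E6s :=
  VS.one.sub (VS.smul_left (vge_ofNat ℓ 504) (VS.Sg ℓ 5))

theorem VS.of_sub_one {ℓ c : ℕ} [Fact ℓ.Prime] {G : PowerSeries ℚ} (h : VS ℓ c (G - 1)) :
    VS ℓ 0 G := by
  have := (h.mono (Nat.zero_le c)).add (VS.one (ℓ := ℓ))
  simpa using this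

theorem vs_Up_sub_one {ℓ c p : ℕ} (hp : 0 < p) {G : PowerSeries ℚ} (h : VS ℓ c (G - 1)) :
    VS ℓ c (Up p G - 1) := by
  have := h.Up p
  rwa [Up_sub, Up_one hp] at this

/-- `G ≡ 1 mod ℓ^c` implies `G^2 ≡ 1 mod ℓ^c` -/
theorem VS.sq_sub_one {ℓ c : ℕ} [Fact ℓ.Prime] {G : PowerSeries ℚ} (h : VS ℓ c (G - 1)) :
    VS ℓ c (G * G - 1) := by
  have h0 : VS ℓ 0 (G + 1) := h.of_sub_one.add VS.one
  have := h.mul_right h0
  have e : (G - 1) * (G + 1) = G * G - 1 := by ring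
  rwa [e] at this

/-- `G ≡ 1 mod ℓ^c` implies `G^3 ≡ 1 mod ℓ^c` -/
theorem VS.cube_sub_one {ℓ c : ℕ} [Fact ℓ.Prime] {G : PowerSeries ℚ} (h : VS ℓ c (G - 1)) :
    VS ℓ c (G * G * G - 1) := by
  have hG := h.of_sub_one
  have h0 : VS ℓ 0 (G * G + G + 1) := ((hG.mul_left hG).add hG).add VS.one
  have := h.mul_right h0
  have e : (G - 1) * (G * G + G + 1) = G * G * G - 1 := by ring
  rwa [e] at this

variable {p : ℕ}

theorem WPairs.neg (W : WPairs p) {k : ℕ} {F F' : PowerSeries ℚ} (h : (F, F') ∈ W.P k) :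
    (-F, -F') ∈ W.P k := by
  have := W.smul k (-1) _ _ h
  simpa using this

theorem WPairs.sub (W : WPairs p) {k : ℕ} {F F' G G' : PowerSeries ℚ} (h1 : (F, F') ∈ W.P k)
    (h2 : (G, G') ∈ W.P k) : (F - G, F' - G') ∈ W.P k := by
  have := W.add k _ _ _ _ h1 (W.neg h2)
  simpa [sub_eq_add_neg] using this

/-- the generic contradiction: a pair whose reductions are both nonzero and vanish to orders
`a`, `b` with `12 (a + b) > k (p + 1)` does not exist. -/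
theorem WPairs.contra (W : WPairs p) {k ℓ : ℕ} (hℓ : ℓ.Prime) (hℓp : ℓ ≠ p)
    {F F' : PowerSeries ℚ} (hpair : (F, F') ∈ W.P k) (hF : VS ℓ 0 F) (hF' : VS ℓ 0 F')
    (a b : ℕ) (ha : ∀ n, n < a → Vge ℓ 1 (coeff n F)) (hb : ∀ n, n < b → Vge ℓ 1 (coeff n F'))
    (hk : k * (p + 1) < 12 * (a + b)) (hne : ∃ n, ¬ Vge ℓ 1 (coeff n F))
    (hne' : ∃ n, ¬ Vge ℓ 1 (coeff n F')) : False := by
  rcases W.twoCusp k ℓ F F' hℓ hℓp hpair hF hF' a b ha hb hk with h | h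
  · obtain ⟨n, hn⟩ := hne
    exact hn (h n)
  · obtain ⟨n, hn⟩ := hne'
    exact hn (h n)

end Fermat.Agent.S16.UA
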