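import Fermat.Agent.S16.Defs
import Fermat.Agent.S16.EisP
import Fermat.Agent.S16.UpperAlgBasic

/-!
# S16: the upper bound in the form `Cong p M → M ∣ eisensteinNumerator p`

From the constant term bound (`ConstTermBound p`: a form of weight `2` on `Γ₀(p)` whose
`q`-expansion is rational and integral away from the constant term has its constant term in
`gcd(p - 1, 12)/24 · ℤ`) applied to `(E - f)/M`, `E = eisP p`.
-/

set_option autoImplicit false

open UpperHalfPlane ModularForm CongruenceSubgroup ModularFormClass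
open scoped MatrixGroups ModularForm

namespace Fermat.Agent.S16

/-- `eisCoeff p n` is the sum of the divisors of `n` prime to `p`. -/
theorem eisCoeff_eq_sigmaPrime (p n : ℕ) (hp : p ≠ 0) (hn : n ≠ 0) :
    eisCoeff p n = (sigmaPrime p n : ℤ) := by
  unfold eisCoeff
  have h := sigma_eq_sigmaPrime_add p hp n hn
  have h' : ((ArithmeticFunction.sigma 1 n : ℕ) : ℤ) =
      (sigmaPrime p n : ℤ) +
        ((if p ∣ n then p * ArithmeticFunction.sigma 1 (n / p) else 0 : ℕ) : ℤ) := by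
    exact_mod_cast congrArg (Nat.cast : ℕ → ℤ) h
  rw [h']
  split_ifs <;> push_cast <;> ring

/-- The constant term bound: the conclusion of the upper bound algebra for modular forms. -/
def ConstTermBound (p : ℕ) : Prop :=
  ∀ (f : ModularForm (Gamma0 p : Subgroup (GL (Fin 2) ℝ)) 2) (F : PowerSeries ℚ),
    (∀ n : ℕ, qCoeff f n = ((PowerSeries.coeff n F : ℚ) : ℂ)) →
    (∀ n : ℕ, 1 ≤ n → ∃ z : ℤ, PowerSeries.coeff n F = (z : ℚ)) →
    ∃ z : ℤ, PowerSeries.coeff 0 F = (Nat.gcd (p - 1) 12 : ℚ) / 24 * z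

/-- `ConstTermBound` from the algebraic upper bound and the entry lemma. -/
theorem constTermBound_of_wPairs (p : ℕ) (W : UA.WPairs p)
    (entry : ∀ (f : ModularForm (Gamma0 p : Subgroup (GL (Fin 2) ℝ)) 2) (F : PowerSeries ℚ),
      (∀ n : ℕ, qCoeff f n = ((PowerSeries.coeff n F : ℚ) : ℂ)) → (F, -UA.Up p F) ∈ W.P 2)
    (upper : ∀ g g' : PowerSeries ℚ, (g, g') ∈ W.P 2 →
      (∀ n : ℕ, 1 ≤ n → ∃ z : ℤ, PowerSeries.coeff n g = (z : ℚ)) →
      ∃ z : ℤ, PowerSeries.coeff 0 g = (Nat.gcd (p - 1) 12 : ℚ) / 24 * z) :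
    ConstTermBound p :=
  fun f F hF hint => upper F _ (entry f F hF) hint

theorem one_mem_strictPeriods_Gamma0' (p : ℕ) :
    (1 : ℝ) ∈ ((Gamma0 p : Subgroup (GL (Fin 2) ℝ))).strictPeriods :=
  Fermat.Agent.S23.gamma0_strictPeriods p

theorem qCoeff_smul_sub (p : ℕ) (c : ℂ) (f g : ModularForm (Gamma0 p : Subgroup (GL (Fin 2) ℝ)) 2)
    (n : ℕ) : qCoeff (c • (f - g)) n = c * (qCoeff f n - qCoeff g n) := by
  unfold qCoeff
  have e1 : qExpansion 1 (c • (⇑f - ⇑g)) = c • qExpansion 1 (⇑f - ⇑g) :=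
    ModularForm.qExpansion_smul one_pos (one_mem_strictPeriods_Gamma0' p) c (f - g)
  have e2 : qExpansion 1 (⇑f - ⇑g) = qExpansion 1 ⇑f - qExpansion 1 ⇑g :=
    ModularForm.qExpansion_sub one_pos (one_mem_strictPeriods_Gamma0' p) f g
  rw [e1, e2]
  simp

/-- **Upper bound in `Cong` form.** -/
theorem dvd_of_cong_of_constTermBound (p : ℕ) [Fact p.Prime] (h : ConstTermBound p) (M : ℕ)
    (hM : 0 < M) (hc : Cong p M) : M ∣ ModularCurve.eisensteinNumerator p := by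
  have hp : p.Prime := Fact.out
  have : NeZero p := ⟨hp.ne_zero⟩
  obtain ⟨f, hf⟩ := hc
  -- the integers a_k, z_k
  have hz : ∀ k : ℕ, ∃ z : ℤ, 0 < k → qCoeff ⇑f k = ((eisCoeff p k - (M : ℤ) * z : ℤ) : ℂ) := by
    intro k
    rcases Nat.eq_zero_or_pos k with h0 | h0
    · exact ⟨0, fun hk => absurd hk (by omega)⟩
    · obtain ⟨a, ha, d, hd⟩ := hf k h0
      refine ⟨-d, fun _ => ?_⟩
      rw [ha]
      congr 1
      linear_combination hd
  choose z hz using hz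
  let F : PowerSeries ℚ :=
    PowerSeries.mk fun n => if n = 0 then ((p : ℚ) - 1) / 24 / M else (z n : ℚ)
  let g : ModularForm (Gamma0 p : Subgroup (GL (Fin 2) ℝ)) 2 :=
    ((M : ℂ)⁻¹) • (eisP p - ModularFormClass.modularForm f)
  have hMC : (M : ℂ) ≠ 0 := Nat.cast_ne_zero.mpr hM.ne'
  have hMQ : (M : ℚ) ≠ 0 := Nat.cast_ne_zero.mpr hM.ne'
  have hg : ∀ n : ℕ, qCoeff g n = ((PowerSeries.coeff n F : ℚ) : ℂ) := by
    intro n
    have h1 : qCoeff g n = (M : ℂ)⁻¹ * (qCoeff (eisP p) n -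
        qCoeff (ModularFormClass.modularForm f :
          ModularForm (Gamma0 p : Subgroup (GL (Fin 2) ℝ)) 2) n) :=
      qCoeff_smul_sub p _ _ _ n
    have h2 : qCoeff (ModularFormClass.modularForm f :
        ModularForm (Gamma0 p : Subgroup (GL (Fin 2) ℝ)) 2) n = qCoeff ⇑f n := rfl
    rw [h1, h2, qCoeff_eisP, PowerSeries.coeff_mk]
    rcases Nat.eq_zero_or_pos n with h0 | h0
    · subst h0
      have hf0 : qCoeff ⇑f 0 = 0 :=
        CuspFormClass.qExpansion_coeff_zero f one_pos (one_mem_strictPeriods_Gamma0' p)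
      rw [if_pos rfl, if_pos rfl, hf0, sub_zero]
      push_cast
      field_simp
    · rw [if_neg h0.ne', if_neg h0.ne', hz n h0, eisCoeff_eq_sigmaPrime p n hp.ne_zero h0.ne']
      push_cast
      field_simp
      ring
  have hint : ∀ n : ℕ, 1 ≤ n → ∃ z' : ℤ, PowerSeries.coeff n F = (z' : ℚ) := by
    intro n hn
    refine ⟨z n, ?_⟩
    rw [PowerSeries.coeff_mk, if_neg (by omega)]
  obtain ⟨w, hw⟩ := h g F hg hint
  rw [PowerSeries.coeff_mk, if_pos rfl] at hw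
  -- (p - 1)/(24 M) = gcd/24 * w  ⇒  p - 1 = gcd * M * w
  have hgpos : 0 < Nat.gcd (p - 1) 12 := Nat.gcd_pos_of_pos_right _ (by norm_num)
  have hgQ : ((Nat.gcd (p - 1) 12 : ℕ) : ℚ) ≠ 0 := Nat.cast_ne_zero.mpr hgpos.ne'
  have h1 : ((p : ℚ) - 1) = (Nat.gcd (p - 1) 12 : ℚ) * M * w := by
    field_simp at hw
    linear_combination hw
  have h2 : ((p - 1 : ℕ) : ℤ) = (Nat.gcd (p - 1) 12 : ℤ) * M * w := by
    have : ((p - 1 : ℕ) : ℚ) = (p : ℚ) - 1 := by
      rw [Nat.cast_sub hp.one_lt.le]; simp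
    have h3 : (((p - 1 : ℕ) : ℤ) : ℚ) = (((Nat.gcd (p - 1) 12 : ℤ) * M * w : ℤ) : ℚ) := by
      push_cast
      rw [this, h1]
    exact_mod_cast h3
  -- n = (p - 1)/gcd = M * w
  unfold ModularCurve.eisensteinNumerator
  obtain ⟨e, he⟩ := Nat.gcd_dvd_left (p - 1) 12
  have he' : (p - 1) / Nat.gcd (p - 1) 12 = e := Nat.div_eq_of_eq_mul_right hgpos he
  rw [he']
  have h4 : ((e : ℕ) : ℤ) = M * w := by
    have h5 : ((Nat.gcd (p - 1) 12 : ℕ) : ℤ) * (e : ℤ) = (Nat.gcd (p - 1) 12 : ℤ) * (M * w) := by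
      rw [← mul_assoc, ← h2]
      conv_lhs => rw [← Nat.cast_mul, ← he]
    exact mul_left_cancel₀ (Int.natCast_ne_zero.mpr hgpos.ne') h5
  exact Int.natCast_dvd_natCast.mp ⟨w, h4⟩

end Fermat.Agent.S16
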