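import Fermat.Agent.S16.UpperCong
import Fermat.Agent.S16.UpperAlg
import Fermat.Agent.S16.WPairsInst
import Fermat.Agent.S16.Entry

/-!
# S16: the upper bound `Cong p M → M ∣ eisensteinNumerator p` for `p > 5` from the analytic inputs

Inputs: `WPairsInputs p` (symm, tr2, tr4, twoCusp) and `TraceTwo p` (C0 for all forms of weight 2).
-/

set_option autoImplicit false

open UpperHalfPlane ModularFormClass CongruenceSubgroup
open scoped MatrixGroups ModularForm

namespace Fermat.Agent.S16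

/-- The constant term bound from the analytic inputs. -/
theorem constTermBound_of_inputs (p : ℕ) [Fact p.Prime] (hp5 : 5 < p) (hin : WPairsInputs p)
    (htr : TraceTwo p) : ConstTermBound p :=
  constTermBound_of_wPairs p (wPairsOf p (Nat.Prime.ne_zero Fact.out) hin)
    (fun f F hF => mem_wP.mpr (isWPair_two_of_traceTwo htr f F hF))
    (fun g g' hg hint => UA.upper p hp5 _ g g' hg hint)

/-- **Upper bound** (`p > 5`): `Cong p M → M ∣ eisensteinNumerator p`, from the analytic inputs. -/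
theorem dvd_of_cong_of_inputs (p : ℕ) [Fact p.Prime] (hp5 : 5 < p) (hin : WPairsInputs p)
    (htr : TraceTwo p) (M : ℕ) (hM : 0 < M) (hc : Cong p M) :
    M ∣ ModularCurve.eisensteinNumerator p :=
  dvd_of_cong_of_constTermBound p (constTermBound_of_inputs p hp5 hin htr) M hM hc

/-- `WPairsInputs` from `TraceTwo` and the three other inputs. -/
theorem wPairsInputs_of (p : ℕ) (htr : TraceTwo p)
    (symm : ∀ (k : ℕ) (F F' : PowerSeries ℚ), Even k → IsWPair p (k : ℤ) F F' →
      IsWPair p (k : ℤ) F' F)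
    (tr4 : ∀ (F F' : PowerSeries ℚ), IsWPair p 4 F F' →
      F + (p : ℚ)⁻¹ • UA.Up p F' =
        (PowerSeries.coeff 0 F + (p : ℚ)⁻¹ * PowerSeries.coeff 0 F') • UA.E4s)
    (twoCusp : ∀ (k ℓ : ℕ) (F F' : PowerSeries ℚ), ℓ.Prime → ℓ ≠ p → IsWPair p (k : ℤ) F F' →
      UA.VS ℓ 0 F → UA.VS ℓ 0 F' → ∀ a b : ℕ,
      (∀ n, n < a → UA.Vge ℓ 1 (PowerSeries.coeff n F)) →
      (∀ n, n < b → UA.Vge ℓ 1 (PowerSeries.coeff n F')) →
      k * (p + 1) < 12 * (a + b) → UA.VS ℓ 1 F ∨ UA.VS ℓ 1 F') :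
    WPairsInputs p where
  symm := symm
  tr2 := fun F F' h => tr2_of_traceTwo htr F F' h
  tr4 := tr4
  twoCusp := twoCusp

end Fermat.Agent.S16
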