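import Mathlib
import Fermat.Prelude.Def_FLTPrelim_Modularity
import Fermat.Prelude.Def_ModularForm_HeckeOperator

/-!
# S16, piece 84-P4 (helper1): DEFINITIONS for the pairs `(F, F^W)`

* `frickeMatrix p` : the matrix `[[0, -1], [p, 0]]` in `GL (Fin 2) ℝ`.
* `wT p k f` : the `W`-transform `f^W(z) = p^(-k/2) z^(-k) f(-1/(p z))` of a function on `ℍ`
  (`k` even; `wT p k f = p^(1 - k/2) • (f ∣[k] frickeMatrix p)`).
* `IsWPair p k F F'` (`F F' : PowerSeries ℚ`): there is `f : ModularForm (Gamma0 p) k` with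
  q-expansion `F` such that `wT p k f` has q-expansion `F'`.
-/

set_option autoImplicit false

noncomputable section

open scoped MatrixGroups ModularForm
open UpperHalfPlane ModularFormClass

namespace Fermat.Agent.S16

/-- The Fricke matrix `[[0, -1], [p, 0]]` (identity for `p = 0`). -/
def frickeMatrix (p : ℕ) : GL (Fin 2) ℝ :=
  if hp : p = 0 then 1 else
    Matrix.GeneralLinearGroup.mkOfDetNeZero !![0, -1; (p : ℝ), 0]
      (by rw [Matrix.det_fin_two_of]; simpa using hp)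

@[simp] theorem val_frickeMatrix {p : ℕ} (hp : p ≠ 0) :
    ((frickeMatrix p : GL (Fin 2) ℝ) : Matrix (Fin 2) (Fin 2) ℝ) = !![0, -1; (p : ℝ), 0] := by
  simp [frickeMatrix, hp, Matrix.GeneralLinearGroup.mkOfDetNeZero]

theorem det_frickeMatrix {p : ℕ} (hp : p ≠ 0) : ((frickeMatrix p).det : ℝ) = p := by
  rw [Matrix.GeneralLinearGroup.val_det_apply, val_frickeMatrix hp, Matrix.det_fin_two_of]
  ring

theorem det_frickeMatrix_pos {p : ℕ} (hp : p ≠ 0) : 0 < ((frickeMatrix p).det : ℝ) := by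
  rw [det_frickeMatrix hp]; exact_mod_cast Nat.pos_of_ne_zero hp

/-- The `W`-transform of a function on the upper half plane, weight `k` (used for even `k`):
`(wT p k f) z = p^(-k/2) z^(-k) f(-1/(p z))`. -/
def wT (p : ℕ) (k : ℤ) (f : ℍ → ℂ) : ℍ → ℂ :=
  ((p : ℂ) ^ (1 - k / 2)) • (f ∣[k] frickeMatrix p)

/-- `(F, F')` is a `W`-pair of weight `k` and level `p`: `F` is the q-expansion of a form
`f ∈ M_k(Γ₀(p))` and `F'` is the q-expansion of `f^W`. -/
def IsWPair (p : ℕ) (k : ℤ) (F F' : PowerSeries ℚ) : Prop :=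
  ∃ f : ModularForm (CongruenceSubgroup.Gamma0 p) k,
    (∀ n : ℕ, qCoeff f n = ((PowerSeries.coeff n F : ℚ) : ℂ)) ∧
    (∀ n : ℕ, qCoeff (wT p k f) n = ((PowerSeries.coeff n F' : ℚ) : ℂ))

end Fermat.Agent.S16
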